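/-
S26 (row 25), crux (C), abstract leaf (helper13): TENSOR PRODUCTS OF DOMAINS over an algebraically
closed field are domains.

* `exists_algHom_ne_zero` : a domain `A` of finite type over an algebraically closed field `K`
  has, for every `a ≠ 0`, a `K`-point `φ : A →ₐ[K] K` with `φ a ≠ 0` (Nullstellensatz);
* `isDomain_tensorProduct` : `A ⊗[K] B` is a domain for `K`-algebras `A`, `B` which are domains
  (`K` algebraically closed).  In particular `F₁ ⊗[K] F₂` is a domain for function fields
  `F₁`, `F₂`: its fraction field is the function field of the product of the two curves, and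
  `𝒪_{P₁} ⊗[K] 𝒪_{P₂}` is a subring of it.
-/
import Mathlib

set_option autoImplicit false
set_option linter.style.haveILetI false
set_option linter.unusedSectionVars false

open TensorProduct

noncomputable section

namespace Fermat.Agent.S26.C.H13

universe u v w

variable (K : Type u) [Field K] [IsAlgClosed K]

/-- **Nullstellensatz, point form.** -/
theorem exists_algHom_ne_zero (A : Type v) [CommRing A] [IsDomain A] [Algebra K A]
    [Algebra.FiniteType K A] (a : A) (ha : a ≠ 0) :
    ∃ φ : A →ₐ[K] K, φ a ≠ 0 := by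
  classical
  haveI : IsJacobsonRing A := isJacobsonRing_of_finiteType (A := K) (B := A)
  -- a maximal ideal which does not contain `a`
  have hjac : (⊥ : Ideal A).jacobson = ⊥ := by
    have hrad : (⊥ : Ideal A).IsRadical := (Ideal.isPrime_bot (α := A)).isRadical
    exact IsJacobsonRing.out' (⊥ : Ideal A) hrad
  have hnot : a ∉ (⊥ : Ideal A).jacobson := by
    rw [hjac]
    simpa using ha
  have hex : ∃ m : Ideal A, m.IsMaximal ∧ a ∉ m := by
    by_contra hcon
    push Not at hcon
    apply hnot
    rw [Ideal.jacobson, Submodule.mem_sInf]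
    rintro m ⟨-, hm⟩
    exact hcon m hm
  obtain ⟨m, hm, ham⟩ := hex
  letI := Ideal.Quotient.field m
  haveI : Algebra.FiniteType K (A ⧸ m) :=
    Algebra.FiniteType.of_surjective (Ideal.Quotient.mkₐ K m) (Ideal.Quotient.mkₐ_surjective K m)
  haveI : Module.Finite K (A ⧸ m) := finite_of_finite_type_of_isJacobsonRing K (A ⧸ m)
  haveI : Algebra.IsIntegral K (A ⧸ m) := Algebra.IsIntegral.of_finite K (A ⧸ m)
  have hbij : Function.Bijective (algebraMap K (A ⧸ m)) :=
    IsAlgClosed.algebraMap_bijective_of_isIntegral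
  let e : K ≃ₐ[K] (A ⧸ m) := AlgEquiv.ofBijective (Algebra.ofId K (A ⧸ m)) hbij
  refine ⟨(e.symm : (A ⧸ m) →ₐ[K] K).comp (Ideal.Quotient.mkₐ K m), ?_⟩
  intro h0
  apply ham
  have h1 : e.symm (Ideal.Quotient.mk m a) = 0 := h0
  have h2 : Ideal.Quotient.mk m a = 0 := by
    have := congrArg e h1
    simpa using this
  exact Ideal.Quotient.eq_zero_iff_mem.mp h2

variable {K}

section Coord

variable {A : Type v} [CommRing A] [Algebra K A] {B : Type w} [CommRing B] [Algebra K B]
  {ι : Type*} (e : Module.Basis ι K B)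

/-- The specialisation `A ⊗[K] B → B` at a `K`-point `φ` of `A`. -/
def spec (φ : A →ₐ[K] K) : A ⊗[K] B →ₐ[K] B :=
  (Algebra.TensorProduct.lid K B : K ⊗[K] B →ₐ[K] B).comp
    (Algebra.TensorProduct.map φ (AlgHom.id K B))

theorem spec_tmul (φ : A →ₐ[K] K) (a : A) (b : B) : spec φ (a ⊗ₜ[K] b) = φ a • b := by
  simp [spec]

/-- The coordinates of the specialisation are the values of the coordinates. -/
theorem repr_spec (φ : A →ₐ[K] K) (x : A ⊗[K] B) (s : ι) :
    e.repr (spec φ x) s = φ ((Algebra.TensorProduct.basis A e).repr x s) := by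
  induction x using TensorProduct.induction_on with
  | zero => simp
  | tmul a b =>
    rw [spec_tmul, Algebra.TensorProduct.basis_repr_tmul]
    simp
  | add x y hx hy =>
    rw [map_add, map_add, Finsupp.add_apply, hx, hy, map_add, Finsupp.add_apply, map_add]

end Coord

/-- The finite type case. -/
theorem noZeroDivisors_tensorProduct_of_finiteType (A : Type v) [CommRing A] [IsDomain A]
    [Algebra K A] [Algebra.FiniteType K A] (B : Type w) [CommRing B] [IsDomain B] [Algebra K B]
    (x y : A ⊗[K] B) (hxy : x * y = 0) : x = 0 ∨ y = 0 := by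
  classical
  by_contra hcon
  push Not at hcon
  obtain ⟨hx, hy⟩ := hcon
  let e := Module.Basis.ofVectorSpace K B
  let bA := Algebra.TensorProduct.basis A e
  have hxs : ∃ s, bA.repr x s ≠ 0 := by
    by_contra h
    push Not at h
    apply hx
    apply bA.repr.injective
    ext s
    rw [h s]; simp
  have hyt : ∃ t, bA.repr y t ≠ 0 := by
    by_contra h
    push Not at h
    apply hy
    apply bA.repr.injective
    ext s
    rw [h s]; simp
  obtain ⟨s, hs⟩ := hxs
  obtain ⟨t, ht⟩ := hyt
  obtain ⟨φ, hφ⟩ := exists_algHom_ne_zero K A (bA.repr x s * bA.repr y t) (mul_ne_zero hs ht)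
  rw [map_mul] at hφ
  have h1 : spec φ x ≠ 0 := by
    intro h0
    have := repr_spec e φ x s
    rw [h0] at this
    simp only [map_zero, Finsupp.coe_zero, Pi.zero_apply] at this
    exact hφ (by rw [← this, zero_mul])
  have h2 : spec φ y ≠ 0 := by
    intro h0
    have := repr_spec e φ y t
    rw [h0] at this
    simp only [map_zero, Finsupp.coe_zero, Pi.zero_apply] at this
    exact hφ (by rw [← this, mul_zero])
  have h3 : spec φ x * spec φ y = 0 := by
    rw [← map_mul, hxy, map_zero]
  exact (mul_ne_zero h1 h2) h3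

section General

variable (A : Type v) [CommRing A] [Algebra K A] (B : Type w) [CommRing B] [Algebra K B]

/-- The map `A' ⊗ B → A ⊗ B` for a subalgebra `A'` of `A`. -/
def incl (A' : Subalgebra K A) : A' ⊗[K] B →ₐ[K] A ⊗[K] B :=
  Algebra.TensorProduct.map A'.val (AlgHom.id K B)

theorem incl_injective (A' : Subalgebra K A) : Function.Injective (incl A B A') := by
  have h := Module.Flat.rTensor_preserves_injective_linearMap (M := B) (A'.val.toLinearMap)
    (Subtype.val_injective)
  intro x y hxy
  apply h
  have hx : ∀ z : A' ⊗[K] B, (A'.val.toLinearMap.rTensor B) z = incl A B A' z := by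
    intro z
    induction z using TensorProduct.induction_on with
    | zero => simp
    | tmul a b => simp [incl]
    | add z w hz hw => rw [map_add, map_add, hz, hw]
  rw [hx, hx]
  exact hxy

theorem incl_range_mono {A' A'' : Subalgebra K A} (h : A' ≤ A'') :
    Set.range (incl A B A') ⊆ Set.range (incl A B A'') := by
  rintro _ ⟨z, rfl⟩
  refine ⟨Algebra.TensorProduct.map (Subalgebra.inclusion h) (AlgHom.id K B) z, ?_⟩
  induction z using TensorProduct.induction_on with
  | zero => simp
  | tmul a b => simp [incl]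
  | add z w hz hw => rw [map_add, map_add, map_add, hz, hw]

/-- Every element of `A ⊗ B` comes from a finitely generated subalgebra of `A`. -/
theorem exists_fg_mem_range (x : A ⊗[K] B) :
    ∃ A' : Subalgebra K A, A'.FG ∧ x ∈ Set.range (incl A B A') := by
  induction x using TensorProduct.induction_on with
  | zero => exact ⟨⊥, Subalgebra.fg_bot, 0, map_zero _⟩
  | tmul a b =>
    refine ⟨Algebra.adjoin K {a}, Subalgebra.fg_adjoin_finset {a} |> (by simpa using ·),
      ⟨a, Algebra.subset_adjoin (Set.mem_singleton a)⟩ ⊗ₜ[K] b, ?_⟩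
    simp [incl]
  | add x y hx hy =>
    obtain ⟨A₁, h₁, hx⟩ := hx
    obtain ⟨A₂, h₂, hy⟩ := hy
    refine ⟨A₁ ⊔ A₂, h₁.sup h₂, ?_⟩
    obtain ⟨x', hx'⟩ := incl_range_mono A B (le_sup_left : A₁ ≤ A₁ ⊔ A₂) hx
    obtain ⟨y', hy'⟩ := incl_range_mono A B (le_sup_right : A₂ ≤ A₁ ⊔ A₂) hy
    exact ⟨x' + y', by rw [map_add, hx', hy']⟩

end General

/-- **A tensor product of domains over an algebraically closed field has no zero divisors.** -/
theorem noZeroDivisors_tensorProduct (A : Type v) [CommRing A] [IsDomain A] [Algebra K A]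
    (B : Type w) [CommRing B] [IsDomain B] [Algebra K B] :
    NoZeroDivisors (A ⊗[K] B) := by
  refine ⟨fun {x y} hxy => ?_⟩
  obtain ⟨A₁, h₁, hx⟩ := exists_fg_mem_range A B x
  obtain ⟨A₂, h₂, hy⟩ := exists_fg_mem_range A B y
  obtain ⟨x', hx'⟩ := incl_range_mono A B (le_sup_left : A₁ ≤ A₁ ⊔ A₂) hx
  obtain ⟨y', hy'⟩ := incl_range_mono A B (le_sup_right : A₂ ≤ A₁ ⊔ A₂) hy
  haveI : Algebra.FiniteType K ↥(A₁ ⊔ A₂) :=
    (Subalgebra.fg_iff_finiteType _).mp (h₁.sup h₂)
  have hinj := incl_injective A B (A₁ ⊔ A₂)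
  have h0 : x' * y' = 0 := by
    apply hinj
    rw [map_mul, hx', hy', hxy, map_zero]
  rcases noZeroDivisors_tensorProduct_of_finiteType ↥(A₁ ⊔ A₂) B x' y' h0 with h | h
  · left
    rw [← hx', h, map_zero]
  · right
    rw [← hy', h, map_zero]

/-- **A tensor product of domains over an algebraically closed field is a domain.** -/
theorem isDomain_tensorProduct (A : Type v) [CommRing A] [IsDomain A] [Algebra K A]
    (B : Type w) [CommRing B] [IsDomain B] [Algebra K B] :
    IsDomain (A ⊗[K] B) := by
  haveI := noZeroDivisors_tensorProduct (K := K) A B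
  haveI : Nontrivial (A ⊗[K] B) := by
    have hinj : Function.Injective (Algebra.TensorProduct.includeLeft : A →ₐ[K] A ⊗[K] B) :=
      Algebra.TensorProduct.includeLeft_injective (FaithfulSMul.algebraMap_injective K B)
    exact hinj.nontrivial
  exact NoZeroDivisors.to_isDomain _

end Fermat.Agent.S26.C.H13
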