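import Mathlib
import Fermat.Agent.S26.Defs
import Fermat.Agent.S26.T.Defs
import Fermat.Agent.S26.E.Defs

/-!
# S26, package (C): `k [n]^* D_U ∼ k n² D_U` — the Cartier language and the top leaves

Planner: helper27 (route of helper49; tests by lead, helper61, helper47, helper9, helper29).
Plan: `NOTES/plan/S26_C.md`.

## The language: Cartier divisors by local equations, POINTWISE (no covers, no quotients)

A Cartier divisor on an integral scheme `X` is a system `D : X → K(X)` of local equations:
`D x ≠ 0`, and `D x / D y` is a unit at `y` for all `y` in a neighbourhood of `x` (`IsCartier`).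
Sum, difference, multiples are the pointwise product, quotient, powers (`Pi` instances).
`D` is principal if there is `H` with `D x / H` a unit at `x` for all `x` (`IsPrincipalDiv`).
The Weil divisor of `D` is `z ↦ ord (D z) z` (`weil`).

The pull-back along ANY morphism `φ : Y ⟶ X` of integral schemes is defined on the nose:
`pull φ D y = φ^♯ (D (φ y) / D (φ η_Y))`, `η_Y` the generic point; the quotient is a unit at
`φ η_Y`, so `φ^♯ = stalkMap` at the generic point applies.  It represents the pull-back of the
CLASS of `D` (the representative `D - div (D (φ η_Y))` does not contain `φ η_Y` in its support).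
So `pull` is defined for constant maps, slices, diagonals, `[p]` in characteristic `p`, …
-/

set_option autoImplicit false

open CategoryTheory CategoryTheory.Limits AlgebraicGeometry NeronModelInfra GoodReductionJacobian

universe u

namespace Fermat.Agent.S26.C

section Lang

variable {X Y Z : Scheme.{u}}

/-- `h` is regular at `x`. -/
def IsRegAt [IsIntegral X] (x : X) (h : X.functionField) : Prop :=
  ∃ a : X.presheaf.stalk x, algebraMap (X.presheaf.stalk x) X.functionField a = h

/-- `h` is a unit at `x`. -/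
def IsUnitAt [IsIntegral X] (x : X) (h : X.functionField) : Prop :=
  ∃ a : X.presheaf.stalk x, IsUnit a ∧ algebraMap (X.presheaf.stalk x) X.functionField a = h

/-- `D : X → K(X)` is a system of local equations of a Cartier divisor. -/
def IsCartier [IsIntegral X] (D : X → X.functionField) : Prop :=
  (∀ x, D x ≠ 0) ∧ ∀ x, ∃ W : X.Opens, x ∈ W ∧ ∀ y ∈ W, IsUnitAt y (D x / D y)

/-- The Cartier divisor `D` is effective. -/
def IsEffectiveDiv [IsIntegral X] (D : X → X.functionField) : Prop :=
  ∀ x, IsRegAt x (D x)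

/-- `D` and `D'` are the same divisor. -/
def SameDiv [IsIntegral X] (D D' : X → X.functionField) : Prop :=
  ∀ x, IsUnitAt x (D x / D' x)

/-- `D` is principal: `D = div H`. -/
def IsPrincipalDiv [IsIntegral X] (D : X → X.functionField) : Prop :=
  ∃ H : X.functionField, H ≠ 0 ∧ ∀ x, IsUnitAt x (D x / H)

/-- Linear equivalence. -/
def LinEquiv [IsIntegral X] (D D' : X → X.functionField) : Prop :=
  IsPrincipalDiv (D / D')

/-- The Weil divisor of `D`. -/
noncomputable def weil [IsIntegral X] [IsLocallyNoetherian X] (D : X → X.functionField)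
    (z : X) : ℤ :=
  Scheme.ord (D z) z

open Classical in
/-- The pull-back of a function which is regular at the image of the generic point (`0` for the
others). -/
noncomputable def pullFun [IsIntegral X] [IsIntegral Y] (φ : Y ⟶ X) (h : X.functionField) :
    Y.functionField :=
  if hr : IsRegAt (φ (genericPoint Y)) h then (φ.stalkMap (genericPoint Y)).hom hr.choose else 0

/-- The pull-back of (the class of) a Cartier divisor along any morphism. -/
noncomputable def pull [IsIntegral X] [IsIntegral Y] (φ : Y ⟶ X) (D : X → X.functionField) :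
    Y → Y.functionField :=
  fun y => pullFun φ (D (φ y) / D (φ (genericPoint Y)))

end Lang

/-! ## Leaves of the language (package LANG) -/

/-- **PULLC**: the pull-back of a Cartier divisor is a Cartier divisor. -/
def Stmt_PULLC : Prop :=
  ∀ {X Y : Scheme.{u}} [IsIntegral X] [IsIntegral Y] (φ : Y ⟶ X) (D : X → X.functionField),
    IsCartier D → IsCartier (pull φ D)

/-- **PULLCOMP**: functoriality, on the nose. -/
def Stmt_PULLCOMP : Prop :=
  ∀ {X Y Z : Scheme.{u}} [IsIntegral X] [IsIntegral Y] [IsIntegral Z] (ψ : Z ⟶ Y) (φ : Y ⟶ X)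
    (D : X → X.functionField), IsCartier D → pull (ψ ≫ φ) D = pull ψ (pull φ D)

/-- **PULLMUL**: `pull` is additive (a homomorphism for the pointwise product). -/
def Stmt_PULLMUL : Prop :=
  ∀ {X Y : Scheme.{u}} [IsIntegral X] [IsIntegral Y] (φ : Y ⟶ X) (D D' : X → X.functionField),
    IsCartier D → IsCartier D' →
    pull φ (D * D') = pull φ D * pull φ D' ∧ pull φ (D⁻¹) = (pull φ D)⁻¹ ∧
      (pull φ (1 : X → X.functionField) = 1)

/-- **PULLPRINC**: the pull-back of a principal divisor is principal.  (CAUTION: `pull` is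
normalised at the image of the generic point, so it respects classes, NOT `SameDiv`:
`SameDiv D D'` only gives `LinEquiv (pull φ D) (pull φ D')`.) -/
def Stmt_PULLPRINC : Prop :=
  ∀ {X Y : Scheme.{u}} [IsIntegral X] [IsIntegral Y] (φ : Y ⟶ X) (D : X → X.functionField),
    IsCartier D → IsPrincipalDiv D → IsPrincipalDiv (pull φ D)

/-- **WEILINJ** (Hartogs): on a normal scheme a Cartier divisor with trivial Weil divisor is
trivial. -/
def Stmt_WEILINJ : Prop :=
  ∀ {X : Scheme.{u}} [IsIntegral X] [IsLocallyNoetherian X], T.IsNor X →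
    ∀ D : X → X.functionField, IsCartier D →
    (∀ z : X, Order.coheight z = 1 → weil D z = 0) → SameDiv D 1

/-- **WEILPR**: the Weil divisor of a principal divisor `D = div H` is `ord H`; conversely
(normal) a Cartier divisor whose Weil divisor is `ord H` is `div H`. -/
def Stmt_WEILPR : Prop :=
  ∀ {X : Scheme.{u}} [IsIntegral X] [IsLocallyNoetherian X], T.IsNor X →
    ∀ D : X → X.functionField, IsCartier D → ∀ H : X.functionField, H ≠ 0 →
    ((∀ x, IsUnitAt x (D x / H)) ↔ ∀ z : X, Order.coheight z = 1 → weil D z = Scheme.ord H z)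

/-- **WEILET**: the Weil divisor of the pull-back along a finite étale dominant morphism, for `D`
normalised at the generic point (`D η = 1`, so that `pull` is the honest pull-back):
`weil (pull φ D) z' = weil D (φ z')`. -/
def Stmt_WEILET : Prop :=
  ∀ {X Y : Scheme.{u}} [IsIntegral X] [IsIntegral Y] [IsLocallyNoetherian X]
    [IsLocallyNoetherian Y] (φ : Y ⟶ X) [IsFinite φ] [Etale φ], T.IsDom φ →
    T.IsNor X → T.IsNor Y → ∀ D : X → X.functionField, IsCartier D →
    D (genericPoint X) = 1 →
    ∀ z' : Y, Order.coheight z' = 1 → weil (pull φ D) z' = weil D (φ z')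

/-! ## The top leaves of (C) -/

section Top

variable {K : Type u} [Field K] {A : Scheme.{u}} {f : A ⟶ Spec (CommRingCat.of K)}

/-- The `X`-valued point `[m] ∘ x`, `m ∈ ℤ`, as a morphism. -/
noncomputable def zsmulHom (L : RelativeGroupLaw K f) {X : Scheme.{u}}
    (fX : X ⟶ Spec (CommRingCat.of K)) (x : SchemeHomOver fX f) (m : ℤ) : X ⟶ A :=
  letI : Group (SchemeHomOver fX f) := L.pointGroup fX
  (x ^ m : SchemeHomOver fX f).1

/-- The theta combination of the theorem of the cube for three `X`-valued points of `A`: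
`(x₁+x₂+x₃)^*D - (x₁+x₂)^*D - (x₁+x₃)^*D - (x₂+x₃)^*D + x₁^*D + x₂^*D + x₃^*D`. -/
noncomputable def theta (L : RelativeGroupLaw K f) {X : Scheme.{u}} [IsIntegral X] [IsIntegral A]
    (fX : X ⟶ Spec (CommRingCat.of K)) (x₁ x₂ x₃ : SchemeHomOver fX f)
    (D : A → A.functionField) : X → X.functionField :=
  letI : Group (SchemeHomOver fX f) := L.pointGroup fX
  pull (x₁ * x₂ * x₃ : SchemeHomOver fX f).1 D * pull x₁.1 D * pull x₂.1 D * pull x₃.1 D /
    (pull (x₁ * x₂ : SchemeHomOver fX f).1 D * pull (x₁ * x₃ : SchemeHomOver fX f).1 D *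
      pull (x₂ * x₃ : SchemeHomOver fX f).1 D)

/-- `X` (proper, normal, integral, with base point `o`) is a CUBE VARIETY for `A`: the theta
combination of every Cartier divisor of `A` and every three `X`-valued points of `A` which
vanish at `o` is principal. -/
def IsCubeVar (L : RelativeGroupLaw K f) [IsIntegral A] {X : Scheme.{u}} [IsIntegral X]
    (fX : X ⟶ Spec (CommRingCat.of K)) (o : Spec (CommRingCat.of K) ⟶ X) : Prop :=
  ∀ x₁ x₂ x₃ : SchemeHomOver fX f,
    o ≫ x₁.1 = zeroHom L → o ≫ x₂.1 = zeroHom L → o ≫ x₃.1 = zeroHom L →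
    ∀ D : A → A.functionField, IsCartier D → IsPrincipalDiv (theta L fX x₁ x₂ x₃ D)

end Top

/-- **LFD** (from LF + NOR + FINB): the reduced boundary divisor of a good open is a Cartier
divisor: effective local equations `D`, equal to `1` on `U`, with Weil divisor `[z ∉ U]`. -/
def Stmt_LFD : Prop :=
  open Classical in
  ∀ (K : Type u) [Field K] [IsAlgClosed K] {A : Scheme.{u}} (f : A ⟶ Spec (CommRingCat.of K))
    (L : RelativeGroupLaw K f) (_hc : L.IsCommutative) (_hA : AbelianSchemePropertyBundle K f)
    (g : ℕ) [SmoothOfRelativeDimension g f] [IsIntegral A] [IsLocallyNoetherian A]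
    (U : A.Opens), IsGoodOpen L U →
    ∃ D : A → A.functionField, IsCartier D ∧ IsEffectiveDiv D ∧ (∀ x ∈ U, D x = 1) ∧
      ∀ z : A, Order.coheight z = 1 → weil D z = if z ∈ U then (0 : ℤ) else 1

/-- **CUBEX** (the geometric heart): every abelian variety has a cube variety `X` with a dominant
generically finite `s : X ⟶ A`, `s o = 0` (`X` = a product of `g` curves through `0`, `s` = the
sum; the cube property from the theorem of the cube for products of curves). -/
def Stmt_CUBEX : Prop :=
  ∀ (K : Type u) [Field K] [IsAlgClosed K] {A : Scheme.{u}} (f : A ⟶ Spec (CommRingCat.of K))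
    (L : RelativeGroupLaw K f) (_hc : L.IsCommutative) (_hA : AbelianSchemePropertyBundle K f)
    (g : ℕ) [SmoothOfRelativeDimension g f] [IsIntegral A] [IsLocallyNoetherian A],
    ∃ (X : Scheme.{u}) (fX : X ⟶ Spec (CommRingCat.of K)) (_ : IsIntegral X)
      (_ : IsLocallyNoetherian X) (o : Spec (CommRingCat.of K) ⟶ X) (s : SchemeHomOver fX f)
      (hdom : T.IsDom s.1),
      IsProper fX ∧ T.IsNor X ∧ o ≫ fX = 𝟙 _ ∧ o ≫ s.1 = zeroHom L ∧
      (letI : Algebra A.functionField X.functionField := (T.ffMap s.1 hdom).toAlgebra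
       FiniteDimensional A.functionField X.functionField) ∧
      IsCubeVar L fX o

/-- **QUAD** (formal): on a cube variety, for a symmetric `D`:
`(m s)^* D ∼ m² s^* D` for all `m ≥ 0`. -/
def Stmt_QUAD : Prop :=
  ∀ (K : Type u) [Field K] [IsAlgClosed K] {A : Scheme.{u}} (f : A ⟶ Spec (CommRingCat.of K))
    (L : RelativeGroupLaw K f) (_hc : L.IsCommutative) (_hA : AbelianSchemePropertyBundle K f)
    [IsIntegral A] [IsLocallyNoetherian A]
    (X : Scheme.{u}) (fX : X ⟶ Spec (CommRingCat.of K)) [IsIntegral X]
    (o : Spec (CommRingCat.of K) ⟶ X) (s : SchemeHomOver fX f),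
    o ≫ fX = 𝟙 _ → o ≫ s.1 = zeroHom L → IsCubeVar L fX o →
    ∀ D : A → A.functionField, IsCartier D → LinEquiv (pull (negHom L) D) D →
    ∀ m : ℕ, LinEquiv (pull (zsmulHom L fX s m) D) ((pull s.1 D) ^ (m ^ 2))

/-- **NORM**: push-down by the norm along a dominant generically finite `s : X ⟶ A`, `X` proper
and normal: `s^* E` principal ⟹ `k E` principal, `k = [K(X) : K(A)]`. -/
def Stmt_NORM : Prop :=
  ∀ (K : Type u) [Field K] [IsAlgClosed K] {A : Scheme.{u}} (f : A ⟶ Spec (CommRingCat.of K))
    [IsIntegral A] [IsLocallyNoetherian A] [IsSeparated f] [LocallyOfFiniteType f],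
    T.IsNor A →
    ∀ (X : Scheme.{u}) (fX : X ⟶ Spec (CommRingCat.of K)) [IsIntegral X] [IsLocallyNoetherian X]
      [IsProper fX], T.IsNor X →
    ∀ (s : SchemeHomOver fX f) (hdom : T.IsDom s.1),
      (letI : Algebra A.functionField X.functionField := (T.ffMap s.1 hdom).toAlgebra
       FiniteDimensional A.functionField X.functionField) →
    ∀ E : A → A.functionField, IsCartier E → IsPrincipalDiv (pull s.1 E) →
      IsPrincipalDiv (E ^ (letI : Algebra A.functionField X.functionField :=
        (T.ffMap s.1 hdom).toAlgebra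
        Module.finrank A.functionField X.functionField))

/-- **CKASM**: the assembly of (C).  (The proved leaves of the other packages — `H39.stmt_NOR`,
`E.H14.stmt_E_ETALE/FIN/SURJ`, `T.*.stmt_COH/ORDE`, … — are imported, not assumed.)
`E := pull [n] D / D ^ (n²)`; `pull s E` is principal by QUAD + PULLCOMP (`(n • s).1 = s.1 ≫ [n]`),
so `E ^ k` is principal by NORM; its Weil divisor is `k [z ∉ V] - k n² [z ∉ U]` by WEILET. -/
def Stmt_CKASM : Prop :=
  Stmt_PULLC.{u} → Stmt_PULLCOMP.{u} → Stmt_PULLMUL.{u} → Stmt_PULLPRINC.{u} →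
    Stmt_WEILINJ.{u} → Stmt_WEILPR.{u} → Stmt_WEILET.{u} →
    Stmt_LFD.{u} → Stmt_CUBEX.{u} → Stmt_QUAD.{u} → Stmt_NORM.{u} → Stmt_Ck.{u}

/-! ## The single deliverable of the "cube side" (added 06:50Z)

The sub-planner of the cube side (helper49) is free to replace `Stmt_CUBEX`, `Stmt_QUAD`,
`Stmt_NORM` (which speak of a scheme `X`) by statements in another language (function fields of
curves, places, local rings of products); what the `A`-side needs is only `Stmt_CORE`. -/

/-- **CORE**: for a symmetric Cartier divisor `D` of an abelian variety and every `n ≥ 1`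
(no hypothesis on the characteristic): `k ([n]^* D - n² D)` is principal for some `k ≥ 1`. -/
def Stmt_CORE : Prop :=
  ∀ (K : Type u) [Field K] [IsAlgClosed K] {A : Scheme.{u}} (f : A ⟶ Spec (CommRingCat.of K))
    (L : RelativeGroupLaw K f) (_hc : L.IsCommutative) (_hA : AbelianSchemePropertyBundle K f)
    (g : ℕ) [SmoothOfRelativeDimension g f] [IsIntegral A] [IsLocallyNoetherian A]
    (D : A → A.functionField), IsCartier D → LinEquiv (pull (negHom L) D) D →
    ∀ n : ℕ, 0 < n →
    ∃ k : ℕ, 0 < k ∧ IsPrincipalDiv ((pull (L.schemeNsmul n) D / D ^ (n ^ 2)) ^ k)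

/-- **CORE from the scheme route**: `CUBEX + QUAD + NORM` (+ the language leaves) give `CORE`. -/
def Stmt_CORE_of : Prop :=
  Stmt_PULLC.{u} → Stmt_PULLCOMP.{u} → Stmt_PULLMUL.{u} → Stmt_PULLPRINC.{u} →
    Stmt_CUBEX.{u} → Stmt_QUAD.{u} → Stmt_NORM.{u} → Stmt_CORE.{u}

/-- **CKASM2**: the assembly of (C) from `CORE`: `D` from LFD is symmetric (WEILET for the
automorphism `[-1]`, WEILINJ), `E := pull [n] D / D ^ (n²)`, `E ^ k = div h`, and the Weil divisor
of `E ^ k` is `k [z ∉ V] - k n² [z ∉ U]` (WEILET for `[n]`, WEILPR). -/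
def Stmt_CKASM2 : Prop :=
  Stmt_PULLC.{u} → Stmt_PULLMUL.{u} → Stmt_WEILINJ.{u} → Stmt_WEILPR.{u} → Stmt_WEILET.{u} →
    Stmt_LFD.{u} → Stmt_CORE.{u} → Stmt_Ck.{u}

end Fermat.Agent.S26.C
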