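import Mathlib
import Fermat.Agent.S26.C.Defs

/-!
# S26 (C): the place form `Stmt_PCORE` of `Stmt_CORE` (interface between the two sides)

helper27, 07:00Z.  The cube side (sub-planner helper49) works with function fields of products of
curves and valuation rings ("places"), not with a scheme `X`.  Its deliverable can be stated
without any scheme but `A`:

there are a FINITE extension `L` of `K(A)` and `Ψ ∈ Lˣ` such that for every point `z` of
codimension one of `A` and every valuation subring `W` of `L` dominating `𝒪_{A,z}`, `Ψ / E z` is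
a unit of `W`, where `E = pull [n] D / D ^ (n²)` (local equations of `[n]^* D - n² D`).

(`L` = the function field of `C_1 × … × C_g`, `K(A) → L` the map of the sum `s`, `Ψ` from the
theorem of the cube on products of curves.)  `H42.ord_norm` (S26/C/H42_NormAlg.lean) then gives
`ord_z (N_{L/K(A)} Ψ) = [L : K(A)] * ord_z (E z)`, and `WEILPR` gives `Stmt_CORE` with
`k = [L : K(A)]`.
-/

set_option autoImplicit false

open CategoryTheory CategoryTheory.Limits AlgebraicGeometry NeronModelInfra GoodReductionJacobian

universe u

namespace Fermat.Agent.S26.C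

/-- `W` dominates the local ring of `A` at `z` (through `K(A) → L`). -/
def Dominates {A : Scheme.{u}} [IsIntegral A] {L : Type u} [Field L] [Algebra A.functionField L]
    (W : ValuationSubring L) (z : A) : Prop :=
  (∀ a : A.presheaf.stalk z,
      algebraMap A.functionField L (algebraMap (A.presheaf.stalk z) A.functionField a) ∈ W) ∧
    ∀ a : A.presheaf.stalk z, a ∈ IsLocalRing.maximalIdeal (A.presheaf.stalk z) → a ≠ 0 →
      (algebraMap A.functionField L (algebraMap (A.presheaf.stalk z) A.functionField a))⁻¹ ∉ W

/-- **PCORE**: the place form of `Stmt_CORE` (the deliverable of the cube side). -/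
def Stmt_PCORE : Prop :=
  ∀ (K : Type u) [Field K] [IsAlgClosed K] {A : Scheme.{u}} (f : A ⟶ Spec (CommRingCat.of K))
    (L : RelativeGroupLaw K f) (_hc : L.IsCommutative) (_hA : AbelianSchemePropertyBundle K f)
    (g : ℕ) [SmoothOfRelativeDimension g f] [IsIntegral A] [IsLocallyNoetherian A]
    (D : A → A.functionField), IsCartier D → LinEquiv (pull (negHom L) D) D →
    ∀ n : ℕ, 0 < n →
    ∃ (F : Type u) (_ : Field F) (_ : Algebra A.functionField F)
      (_ : FiniteDimensional A.functionField F) (Ψ : F), Ψ ≠ 0 ∧
      ∀ z : A, Order.coheight z = 1 → ∀ W : ValuationSubring F, Dominates W z →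
        Ψ * (algebraMap A.functionField F
            (pull (L.schemeNsmul n) D z / D z ^ (n ^ 2)))⁻¹ ∈ W ∧
          algebraMap A.functionField F (pull (L.schemeNsmul n) D z / D z ^ (n ^ 2)) * Ψ⁻¹ ∈ W

/-- **CORE from PCORE** (by `H42.ord_norm`, `WEILPR`, `PULLC`, `H39.stmt_NOR`). -/
def Stmt_CORE_of_PCORE : Prop :=
  Stmt_PULLC.{u} → Stmt_WEILPR.{u} → Stmt_PCORE.{u} → Stmt_CORE.{u}

end Fermat.Agent.S26.C
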