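import Mathlib
import Fermat.Agent.S26.C.Defs

/-!
# S26 (C), package LANG-PULL (helper14): the calculus of `pullFun` / `pull`

Leaves proved here: `Stmt_PULLC`, `Stmt_PULLCOMP`, `Stmt_PULLMUL`, `Stmt_PULLPRINC`.

Key lemma `pullFun_algebraMap`: for `a ∈ O_{X, φ y}`,
`pullFun φ (image of a in K(X)) = image in K(Y) of φ.stalkMap y a`.
-/

set_option autoImplicit false

open CategoryTheory CategoryTheory.Limits AlgebraicGeometry

universe u

namespace Fermat.Agent.S26.C.H14

section Basic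

variable {X Y Z : Scheme.{u}}

/-- The generic point specialises to every point. -/
lemma gen_specializes (X : Scheme.{u}) [IsIntegral X] (x : X) : genericPoint X ⤳ x :=
  (genericPoint_spec X).specializes trivial

lemma algebraMap_stalk_apply [IsIntegral X] (x : X) (a : X.presheaf.stalk x) :
    algebraMap (X.presheaf.stalk x) X.functionField a =
      (X.presheaf.stalkSpecializes (gen_specializes X x)).hom a := rfl

lemma algebraMap_stalk_injective [IsIntegral X] (x : X) :
    Function.Injective (algebraMap (X.presheaf.stalk x) X.functionField) :=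
  IsFractionRing.injective _ _

/-- The image in `K(X)` of a germ at `x` is the image of its generisation at `x'`. -/
lemma algebraMap_stalkSpecializes [IsIntegral X] {x x' : X} (h : x' ⤳ x)
    (a : X.presheaf.stalk x) :
    algebraMap (X.presheaf.stalk x') X.functionField ((X.presheaf.stalkSpecializes h).hom a) =
      algebraMap (X.presheaf.stalk x) X.functionField a := by
  rw [algebraMap_stalk_apply, algebraMap_stalk_apply]
  have := X.presheaf.stalkSpecializes_comp (gen_specializes X x') h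
  exact congrArg (fun f => f.hom a) this

lemma isRegAt_of_specializes [IsIntegral X] {x x' : X} (h : x' ⤳ x) {f : X.functionField}
    (hf : IsRegAt x f) : IsRegAt x' f := by
  obtain ⟨a, rfl⟩ := hf
  exact ⟨_, algebraMap_stalkSpecializes h a⟩

lemma isUnitAt_of_specializes [IsIntegral X] {x x' : X} (h : x' ⤳ x) {f : X.functionField}
    (hf : IsUnitAt x f) : IsUnitAt x' f := by
  obtain ⟨a, ha, rfl⟩ := hf
  exact ⟨_, ha.map (X.presheaf.stalkSpecializes h).hom, algebraMap_stalkSpecializes h a⟩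

lemma isRegAt_of_isUnitAt [IsIntegral X] {x : X} {f : X.functionField} (hf : IsUnitAt x f) :
    IsRegAt x f := by
  obtain ⟨a, -, rfl⟩ := hf
  exact ⟨a, rfl⟩

lemma ne_zero_of_isUnitAt [IsIntegral X] {x : X} {f : X.functionField} (hf : IsUnitAt x f) :
    f ≠ 0 := by
  obtain ⟨a, ha, rfl⟩ := hf
  exact (ha.map (algebraMap (X.presheaf.stalk x) X.functionField)).ne_zero

lemma isUnitAt_one [IsIntegral X] (x : X) : IsUnitAt x (1 : X.functionField) :=
  ⟨1, isUnit_one, map_one _⟩

lemma isRegAt_one [IsIntegral X] (x : X) : IsRegAt x (1 : X.functionField) :=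
  ⟨1, map_one _⟩

lemma isUnitAt_mul [IsIntegral X] {x : X} {f g : X.functionField} (hf : IsUnitAt x f)
    (hg : IsUnitAt x g) : IsUnitAt x (f * g) := by
  obtain ⟨a, ha, rfl⟩ := hf
  obtain ⟨b, hb, rfl⟩ := hg
  exact ⟨a * b, ha.mul hb, map_mul _ _ _⟩

lemma isRegAt_mul [IsIntegral X] {x : X} {f g : X.functionField} (hf : IsRegAt x f)
    (hg : IsRegAt x g) : IsRegAt x (f * g) := by
  obtain ⟨a, rfl⟩ := hf
  obtain ⟨b, rfl⟩ := hg
  exact ⟨a * b, map_mul _ _ _⟩

lemma isUnitAt_inv [IsIntegral X] {x : X} {f : X.functionField} (hf : IsUnitAt x f) :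
    IsUnitAt x f⁻¹ := by
  obtain ⟨a, ha, rfl⟩ := hf
  obtain ⟨b, hb⟩ := ha.exists_right_inv
  refine ⟨b, IsUnit.of_mul_eq_one a (by rw [mul_comm]; exact hb), ?_⟩
  have h1 : algebraMap (X.presheaf.stalk x) X.functionField a *
      algebraMap (X.presheaf.stalk x) X.functionField b = 1 := by
    rw [← map_mul, hb, map_one]
  exact (eq_inv_of_mul_eq_one_right h1)

lemma isUnitAt_div [IsIntegral X] {x : X} {f g : X.functionField} (hf : IsUnitAt x f)
    (hg : IsUnitAt x g) : IsUnitAt x (f / g) := by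
  rw [div_eq_mul_inv]
  exact isUnitAt_mul hf (isUnitAt_inv hg)

lemma isUnitAt_pow [IsIntegral X] {x : X} {f : X.functionField} (hf : IsUnitAt x f) (n : ℕ) :
    IsUnitAt x (f ^ n) := by
  obtain ⟨a, ha, rfl⟩ := hf
  exact ⟨a ^ n, ha.pow n, map_pow _ _ _⟩

/-- For a Cartier divisor, `D x / D x'` is a unit at every generisation `x'` of `x`. -/
lemma isUnitAt_div_of_isCartier [IsIntegral X] {D : X → X.functionField} (hD : IsCartier D)
    {x x' : X} (h : x' ⤳ x) : IsUnitAt x' (D x / D x') := by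
  obtain ⟨W, hxW, hW⟩ := hD.2 x
  exact hW x' (h.mem_open W.isOpen hxW)

end Basic

section PullFun

variable {X Y Z : Scheme.{u}}

/-- **Key lemma**: `pullFun` on a germ at `φ y` is the stalk map at `y`. -/
lemma pullFun_algebraMap [IsIntegral X] [IsIntegral Y] (φ : Y ⟶ X) (y : Y)
    (a : X.presheaf.stalk (φ y)) :
    pullFun φ (algebraMap (X.presheaf.stalk (φ y)) X.functionField a) =
      algebraMap (Y.presheaf.stalk y) Y.functionField ((φ.stalkMap y).hom a) := by
  have hs : genericPoint Y ⤳ y := gen_specializes Y y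
  have hs' : φ (genericPoint Y) ⤳ φ y := φ.base.hom.map_specializes hs
  have hreg : IsRegAt (φ (genericPoint Y))
      (algebraMap (X.presheaf.stalk (φ y)) X.functionField a) :=
    ⟨_, algebraMap_stalkSpecializes hs' a⟩
  unfold pullFun
  rw [dif_pos hreg]
  have hch : hreg.choose = (X.presheaf.stalkSpecializes hs').hom a := by
    apply algebraMap_stalk_injective
    rw [hreg.choose_spec, algebraMap_stalkSpecializes]
  rw [hch, algebraMap_stalk_apply]
  exact Scheme.Hom.stalkSpecializes_stalkMap_apply φ (genericPoint Y) y hs a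

lemma isRegAt_pullFun [IsIntegral X] [IsIntegral Y] (φ : Y ⟶ X) (y : Y) {h : X.functionField}
    (hh : IsRegAt (φ y) h) : IsRegAt y (pullFun φ h) := by
  obtain ⟨a, rfl⟩ := hh
  rw [pullFun_algebraMap]
  exact ⟨_, rfl⟩

lemma isUnitAt_pullFun [IsIntegral X] [IsIntegral Y] (φ : Y ⟶ X) (y : Y) {h : X.functionField}
    (hh : IsUnitAt (φ y) h) : IsUnitAt y (pullFun φ h) := by
  obtain ⟨a, ha, rfl⟩ := hh
  rw [pullFun_algebraMap]
  exact ⟨_, ha.map (φ.stalkMap y).hom, rfl⟩

lemma pullFun_one [IsIntegral X] [IsIntegral Y] (φ : Y ⟶ X) :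
    pullFun φ (1 : X.functionField) = 1 := by
  have h := pullFun_algebraMap φ (genericPoint Y) 1
  rw [map_one, map_one, map_one] at h
  exact h

lemma pullFun_mul [IsIntegral X] [IsIntegral Y] (φ : Y ⟶ X) {h₁ h₂ : X.functionField}
    (h1 : IsRegAt (φ (genericPoint Y)) h₁) (h2 : IsRegAt (φ (genericPoint Y)) h₂) :
    pullFun φ (h₁ * h₂) = pullFun φ h₁ * pullFun φ h₂ := by
  obtain ⟨a, rfl⟩ := h1
  obtain ⟨b, rfl⟩ := h2
  rw [← map_mul, pullFun_algebraMap, pullFun_algebraMap, pullFun_algebraMap, map_mul, map_mul]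

lemma pullFun_inv [IsIntegral X] [IsIntegral Y] (φ : Y ⟶ X) {h : X.functionField}
    (hu : IsUnitAt (φ (genericPoint Y)) h) : pullFun φ h⁻¹ = (pullFun φ h)⁻¹ := by
  have h1 : pullFun φ h * pullFun φ h⁻¹ = 1 := by
    rw [← pullFun_mul φ (isRegAt_of_isUnitAt hu) (isRegAt_of_isUnitAt (isUnitAt_inv hu)),
      mul_inv_cancel₀ (ne_zero_of_isUnitAt hu), pullFun_one]
  exact eq_inv_of_mul_eq_one_right h1

lemma pullFun_div [IsIntegral X] [IsIntegral Y] (φ : Y ⟶ X) {h₁ h₂ : X.functionField}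
    (h1 : IsRegAt (φ (genericPoint Y)) h₁) (h2 : IsUnitAt (φ (genericPoint Y)) h₂) :
    pullFun φ (h₁ / h₂) = pullFun φ h₁ / pullFun φ h₂ := by
  rw [div_eq_mul_inv, div_eq_mul_inv,
    pullFun_mul φ h1 (isRegAt_of_isUnitAt (isUnitAt_inv h2)), pullFun_inv φ h2]

lemma pullFun_ne_zero [IsIntegral X] [IsIntegral Y] (φ : Y ⟶ X) {h : X.functionField}
    (hu : IsUnitAt (φ (genericPoint Y)) h) : pullFun φ h ≠ 0 :=
  ne_zero_of_isUnitAt (isUnitAt_pullFun φ (genericPoint Y) hu)

/-- The quotient defining `pull φ D y` is a unit at the image of the generic point. -/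
lemma isUnitAt_gen_of_isCartier [IsIntegral X] [IsIntegral Y] (φ : Y ⟶ X)
    {D : X → X.functionField} (hD : IsCartier D) (y : Y) :
    IsUnitAt (φ (genericPoint Y)) (D (φ y) / D (φ (genericPoint Y))) :=
  isUnitAt_div_of_isCartier hD (φ.base.hom.map_specializes (gen_specializes Y y))

lemma pull_apply [IsIntegral X] [IsIntegral Y] (φ : Y ⟶ X) (D : X → X.functionField) (y : Y) :
    pull φ D y = pullFun φ (D (φ y) / D (φ (genericPoint Y))) := rfl

/-- `pull φ D y / pull φ D y' = pullFun φ (D (φ y) / D (φ y'))`. -/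
lemma pull_div_pull [IsIntegral X] [IsIntegral Y] (φ : Y ⟶ X)
    {D : X → X.functionField} (hD : IsCartier D) (y y' : Y) :
    pull φ D y / pull φ D y' = pullFun φ (D (φ y) / D (φ y')) := by
  rw [pull_apply, pull_apply,
    ← pullFun_div φ (isRegAt_of_isUnitAt (isUnitAt_gen_of_isCartier φ hD y))
      (isUnitAt_gen_of_isCartier φ hD y')]
  congr 1
  have h0 := hD.1 (φ (genericPoint Y))
  have h1 := hD.1 (φ y')
  field_simp

end PullFun

section Leaves

/-- **PULLC**. -/
theorem stmt_PULLC : Stmt_PULLC.{u} := by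
  intro X Y _ _ φ D hD
  refine ⟨fun y => pullFun_ne_zero φ (isUnitAt_gen_of_isCartier φ hD y), fun y => ?_⟩
  obtain ⟨W, hyW, hW⟩ := hD.2 (φ y)
  refine ⟨φ ⁻¹ᵁ W, hyW, fun y' hy' => ?_⟩
  rw [pull_div_pull φ hD]
  exact isUnitAt_pullFun φ y' (hW (φ y') hy')

/-- **PULLMUL**. -/
theorem stmt_PULLMUL : Stmt_PULLMUL.{u} := by
  intro X Y _ _ φ D D' hD hD'
  refine ⟨?_, ?_, ?_⟩
  · funext y
    rw [Pi.mul_apply, pull_apply, pull_apply, pull_apply, Pi.mul_apply, Pi.mul_apply,
      ← pullFun_mul φ (isRegAt_of_isUnitAt (isUnitAt_gen_of_isCartier φ hD y))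
        (isRegAt_of_isUnitAt (isUnitAt_gen_of_isCartier φ hD' y))]
    congr 1
    have h0 := hD.1 (φ (genericPoint Y))
    have h1 := hD'.1 (φ (genericPoint Y))
    field_simp
  · funext y
    rw [Pi.inv_apply, pull_apply, pull_apply, Pi.inv_apply, Pi.inv_apply,
      ← pullFun_inv φ (isUnitAt_gen_of_isCartier φ hD y)]
    congr 1
    have h0 := hD.1 (φ (genericPoint Y))
    have h1 := hD.1 (φ y)
    field_simp
  · funext y
    rw [pull_apply, Pi.one_apply, Pi.one_apply, Pi.one_apply, div_one, pullFun_one]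

/-- **PULLPRINC**. -/
theorem stmt_PULLPRINC : Stmt_PULLPRINC.{u} := by
  intro X Y _ _ φ D hD hP
  obtain ⟨H, hH0, hH⟩ := hP
  have hη := hH (φ (genericPoint Y))
  refine ⟨(pullFun φ (D (φ (genericPoint Y)) / H))⁻¹, inv_ne_zero (pullFun_ne_zero φ hη),
    fun y => ?_⟩
  have hy : IsUnitAt (φ (genericPoint Y)) (D (φ y) / H) :=
    isUnitAt_of_specializes (φ.base.hom.map_specializes (gen_specializes Y y)) (hH (φ y))
  have e : pull φ D y / (pullFun φ (D (φ (genericPoint Y)) / H))⁻¹ = pullFun φ (D (φ y) / H) := by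
    rw [pull_apply, div_inv_eq_mul,
      ← pullFun_mul φ (isRegAt_of_isUnitAt (isUnitAt_gen_of_isCartier φ hD y))
        (isRegAt_of_isUnitAt hη)]
    congr 1
    have h0 := hD.1 (φ (genericPoint Y))
    field_simp
  rw [e]
  exact isUnitAt_pullFun φ y (hH (φ y))

/-- **PULLCOMP**. -/
theorem stmt_PULLCOMP : Stmt_PULLCOMP.{u} := by
  intro X Y Z _ _ _ ψ φ D hD
  funext z
  -- the common unit
  have hu : IsUnitAt (φ (ψ (genericPoint Z))) (D (φ (ψ z)) / D (φ (ψ (genericPoint Z)))) :=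
    isUnitAt_div_of_isCartier hD
      (φ.base.hom.map_specializes (ψ.base.hom.map_specializes (gen_specializes Z z)))
  have e1 : pull ψ (pull φ D) z = pullFun ψ (pullFun φ (D (φ (ψ z)) / D (φ (ψ (genericPoint Z))))) := by
    rw [pull_apply ψ, pull_div_pull φ hD]
  rw [e1]
  obtain ⟨a, -, ha⟩ := hu
  rw [← ha, pullFun_algebraMap φ (ψ (genericPoint Z)) a, pullFun_algebraMap ψ (genericPoint Z)]
  have e2 : pull (ψ ≫ φ) D z = pullFun (ψ ≫ φ) (D (φ (ψ z)) / D (φ (ψ (genericPoint Z)))) := rfl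
  rw [e2, ← ha]
  have e3 := pullFun_algebraMap (ψ ≫ φ) (genericPoint Z) a
  refine e3.trans ?_
  rw [Scheme.Hom.stalkMap_comp]
  rfl

end Leaves

end Fermat.Agent.S26.C.H14
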