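import Mathlib
import Fermat.Agent.S26.Defs

/-!
# S26, crux (C), NORM push-down: uniqueness of the centre (helper69)

`A` an integral scheme, separated over `Spec K`; `W` a valuation subring of `K(A)`.

* `specializes_of_centre` : if `𝒪_{A,x} ⊆ W` and `W` dominates `𝒪_{A,x'}`, then `x' ⤳ x`
  (`x'` is a generisation of `x`): the valuative criterion of separatedness.
-/

set_option autoImplicit false
set_option linter.style.haveILetI false

open CategoryTheory CategoryTheory.Limits AlgebraicGeometry IsLocalRing

universe u

namespace Fermat.Agent.S26.C.H69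

variable {A B : Scheme.{u}} (f : A ⟶ B)

/-- The ring homomorphism `𝒪_{A,x} → W` of an inclusion. -/
noncomputable def toW [IsIntegral A] (W : ValuationSubring A.functionField) (x : A)
    (hx : ∀ a : A.presheaf.stalk x, algebraMap (A.presheaf.stalk x) A.functionField a ∈ W) :
    A.presheaf.stalk x →+* W :=
  (algebraMap (A.presheaf.stalk x) A.functionField).codRestrict W.toSubring hx

/-- The morphism `Spec W ⟶ A` of an inclusion `𝒪_{A,x} ⊆ W`. -/
noncomputable def specW [IsIntegral A] (W : ValuationSubring A.functionField) (x : A)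
    (hx : ∀ a : A.presheaf.stalk x, algebraMap (A.presheaf.stalk x) A.functionField a ∈ W) :
    Spec (CommRingCat.of W) ⟶ A :=
  Spec.map (CommRingCat.ofHom (toW W x hx)) ≫ A.fromSpecStalk x

/-- `Spec K(A) ⟶ Spec W ⟶ A` is the generic point. -/
theorem specW_generic [IsIntegral A] (W : ValuationSubring A.functionField) (x : A)
    (hx : ∀ a : A.presheaf.stalk x, algebraMap (A.presheaf.stalk x) A.functionField a ∈ W) :
    Spec.map (CommRingCat.ofHom (algebraMap W A.functionField)) ≫ specW W x hx =
      A.fromSpecStalk (genericPoint A) := by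
  unfold specW
  rw [← Spec.map_comp_assoc]
  have h : genericPoint A ⤳ x := genericPoint_specializes x
  have e : CommRingCat.ofHom (toW W x hx) ≫ CommRingCat.ofHom (algebraMap W A.functionField) =
      A.presheaf.stalkSpecializes h := by
    ext a
    rfl
  rw [e]
  exact Scheme.SpecMap_stalkSpecializes_fromSpecStalk h

/-- The image of the closed point of `Spec W` specialises to `x`. -/
theorem specW_closedPoint_specializes [IsIntegral A] (W : ValuationSubring A.functionField)
    (x : A)
    (hx : ∀ a : A.presheaf.stalk x, algebraMap (A.presheaf.stalk x) A.functionField a ∈ W) :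
    specW W x hx (closedPoint W) ⤳ x := by
  have h : specW W x hx (closedPoint W) ∈ Set.range (A.fromSpecStalk x) := by
    unfold specW
    exact ⟨_, rfl⟩
  rw [Scheme.range_fromSpecStalk] at h
  exact h

/-- If `W` dominates `𝒪_{A,x}`, the closed point of `Spec W` maps to `x`. -/
theorem specW_closedPoint [IsIntegral A] (W : ValuationSubring A.functionField) (x : A)
    (hx : ∀ a : A.presheaf.stalk x, algebraMap (A.presheaf.stalk x) A.functionField a ∈ W)
    (hdom : ∀ a : A.presheaf.stalk x, a ∈ maximalIdeal (A.presheaf.stalk x) →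
      algebraMap (A.presheaf.stalk x) A.functionField a ∈ W.nonunits) :
    specW W x hx (closedPoint W) = x := by
  haveI : IsLocalHom (toW W x hx) := by
    refine ⟨fun a ha => ?_⟩
    by_contra hna
    have h1 : a ∈ maximalIdeal (A.presheaf.stalk x) := (mem_maximalIdeal a).2 hna
    have h2 := hdom a h1
    rw [ValuationSubring.mem_nonunits_iff_exists_mem_maximalIdeal] at h2
    obtain ⟨hm, h3⟩ := h2
    rw [mem_maximalIdeal, mem_nonunits_iff] at h3
    exact h3 ha
  have e : Spec.map (CommRingCat.ofHom (toW W x hx)) (closedPoint W) =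
      closedPoint (A.presheaf.stalk x) := comap_closedPoint (toW W x hx)
  show A.fromSpecStalk x (Spec.map (CommRingCat.ofHom (toW W x hx)) (closedPoint W)) = x
  rw [e]
  exact Scheme.fromSpecStalk_closedPoint

/-- Two morphisms from `Spec W` to an affine scheme which agree on `Spec K(A)` are equal. -/
theorem eq_of_generic_eq {F : Type u} [Field F] (W : ValuationSubring F) {R : CommRingCat.{u}}
    (g₁ g₂ : Spec (CommRingCat.of W) ⟶ Spec R)
    (h : Spec.map (CommRingCat.ofHom (algebraMap W F)) ≫ g₁ =
      Spec.map (CommRingCat.ofHom (algebraMap W F)) ≫ g₂) : g₁ = g₂ := by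
  obtain ⟨a₁, rfl⟩ := Spec.map_surjective g₁
  obtain ⟨a₂, rfl⟩ := Spec.map_surjective g₂
  rw [← Spec.map_comp, ← Spec.map_comp] at h
  have h2 := Spec.map_injective h
  congr 1
  ext c
  have h3 := congrArg (fun ψ : R ⟶ CommRingCat.of F => ψ.hom c) h2
  exact h3

/-- **Uniqueness of the centre**: if `𝒪_{A,x} ⊆ W` and `W` dominates `𝒪_{A,x'}`, then `x'` is a
generisation of `x`. -/
theorem specializes_of_centre [IsIntegral A] {R : CommRingCat.{u}} (f : A ⟶ Spec R)
    [IsSeparated f] (W : ValuationSubring A.functionField) (x x' : A)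
    (hx : ∀ a : A.presheaf.stalk x, algebraMap (A.presheaf.stalk x) A.functionField a ∈ W)
    (hx' : ∀ a : A.presheaf.stalk x', algebraMap (A.presheaf.stalk x') A.functionField a ∈ W)
    (hdom : ∀ a : A.presheaf.stalk x', a ∈ maximalIdeal (A.presheaf.stalk x') →
      algebraMap (A.presheaf.stalk x') A.functionField a ∈ W.nonunits) :
    x' ⤳ x := by
  have hU : ValuativeCriterion.Uniqueness f := IsSeparated.valuativeCriterion f
  have hff : specW W x' hx' ≫ f = specW W x hx ≫ f := by
    apply eq_of_generic_eq W
    rw [← Category.assoc, ← Category.assoc, specW_generic, specW_generic]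
  let S : ValuativeCommSq f :=
    { R := W
      K := A.functionField
      i₁ := A.fromSpecStalk (genericPoint A)
      i₂ := specW W x hx ≫ f
      commSq := ⟨by rw [← Category.assoc, specW_generic]⟩ }
  have hsub := hU S
  let L₁ : S.commSq.LiftStruct := ⟨specW W x hx, specW_generic W x hx, rfl⟩
  let L₂ : S.commSq.LiftStruct := ⟨specW W x' hx', specW_generic W x' hx', hff⟩
  have e : L₁ = L₂ := Subsingleton.elim _ _
  have e' : specW W x hx = specW W x' hx' := congrArg CommSq.LiftStruct.l e
  have h1 := specW_closedPoint_specializes W x hx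
  rw [e', specW_closedPoint W x' hx' hdom] at h1
  exact h1

end Fermat.Agent.S26.C.H69
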