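import Fermat.Agent.S26.C.Defs
import Fermat.Agent.S26.H55_Ex

/-!
# S26, package (C), leaf QUAD (helper28): `(m s)^* D ∼ m² s^* D` on a cube variety

Formal consequence of the cube property at the three points `(m s, s, -s)` and of the symmetry
of `D`: with `a m := (m s)^* D` one has `a (m + 1) + a (m - 1) ∼ 2 a m + 2 a 1`, `a 0 ∼ 0`.

* `isUnitAt_*`, `isPrincipalDiv_*`, `isCartier_*` : the calculus of local equations;
* `isPrincipalDiv_of_subsingleton` : on a one-point scheme every Cartier divisor is principal;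
* `one_val`, `inv_val`, `ev_*` : values of the group law on points;
* `stmt_QUAD_of : Stmt_PULLC → Stmt_PULLCOMP → Stmt_PULLMUL → Stmt_PULLPRINC → Stmt_QUAD`.
-/

set_option autoImplicit false
set_option maxHeartbeats 1000000
set_option linter.style.haveILetI false

open CategoryTheory CategoryTheory.Limits AlgebraicGeometry NeronModelInfra GoodReductionJacobian

universe u

namespace Fermat.Agent.S26.C.H28

/-! ### The calculus of local equations -/

section Lang

variable {X : Scheme.{u}} [IsIntegral X]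

theorem isUnitAt_one (x : X) : IsUnitAt x (1 : X.functionField) :=
  ⟨1, isUnit_one, map_one _⟩

theorem isUnitAt_mul {x : X} {h h' : X.functionField} (H : IsUnitAt x h) (H' : IsUnitAt x h') :
    IsUnitAt x (h * h') := by
  obtain ⟨a, ha, rfl⟩ := H
  obtain ⟨b, hb, rfl⟩ := H'
  exact ⟨a * b, ha.mul hb, map_mul _ a b⟩

theorem isUnitAt_inv {x : X} {h : X.functionField} (H : IsUnitAt x h) : IsUnitAt x h⁻¹ := by
  obtain ⟨a, ha, rfl⟩ := H
  obtain ⟨u, rfl⟩ := ha
  exact ⟨((u⁻¹ : (X.presheaf.stalk x)ˣ) : X.presheaf.stalk x), Units.isUnit _,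
    map_units_inv (algebraMap (X.presheaf.stalk x) X.functionField) u⟩

theorem isUnitAt_div {x : X} {h h' : X.functionField} (H : IsUnitAt x h) (H' : IsUnitAt x h') :
    IsUnitAt x (h / h') := by
  rw [div_eq_mul_inv]
  exact isUnitAt_mul H (isUnitAt_inv H')

theorem isUnitAt_pow {x : X} {h : X.functionField} (H : IsUnitAt x h) (n : ℕ) :
    IsUnitAt x (h ^ n) := by
  induction n with
  | zero => rw [pow_zero]; exact isUnitAt_one x
  | succ n ih => rw [pow_succ]; exact isUnitAt_mul ih H

theorem isPrincipalDiv_one : IsPrincipalDiv (1 : X → X.functionField) :=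
  ⟨1, one_ne_zero, fun x => by rw [Pi.one_apply, div_one]; exact isUnitAt_one x⟩

theorem isPrincipalDiv_mul {D D' : X → X.functionField} (h : IsPrincipalDiv D)
    (h' : IsPrincipalDiv D') : IsPrincipalDiv (D * D') := by
  obtain ⟨H, hH, hu⟩ := h
  obtain ⟨H', hH', hu'⟩ := h'
  refine ⟨H * H', mul_ne_zero hH hH', fun x => ?_⟩
  rw [Pi.mul_apply, mul_div_mul_comm]
  exact isUnitAt_mul (hu x) (hu' x)

theorem isPrincipalDiv_inv {D : X → X.functionField} (h : IsPrincipalDiv D) :
    IsPrincipalDiv D⁻¹ := by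
  obtain ⟨H, hH, hu⟩ := h
  refine ⟨H⁻¹, inv_ne_zero hH, fun x => ?_⟩
  rw [Pi.inv_apply, inv_div_inv, ← inv_div]
  exact isUnitAt_inv (hu x)

theorem isPrincipalDiv_div {D D' : X → X.functionField} (h : IsPrincipalDiv D)
    (h' : IsPrincipalDiv D') : IsPrincipalDiv (D / D') := by
  rw [div_eq_mul_inv]
  exact isPrincipalDiv_mul h (isPrincipalDiv_inv h')

theorem isPrincipalDiv_pow {D : X → X.functionField} (h : IsPrincipalDiv D) (n : ℕ) :
    IsPrincipalDiv (D ^ n) := by
  induction n with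
  | zero => rw [pow_zero]; exact isPrincipalDiv_one
  | succ n ih => rw [pow_succ]; exact isPrincipalDiv_mul ih h

theorem isCartier_one : IsCartier (1 : X → X.functionField) :=
  ⟨fun _ => one_ne_zero, fun x => ⟨⊤, trivial, fun y _ => by
    rw [Pi.one_apply, Pi.one_apply, div_one]; exact isUnitAt_one y⟩⟩

theorem isCartier_inv {D : X → X.functionField} (h : IsCartier D) : IsCartier D⁻¹ := by
  refine ⟨fun x => inv_ne_zero (h.1 x), fun x => ?_⟩
  obtain ⟨W, hxW, hW⟩ := h.2 x
  refine ⟨W, hxW, fun y hy => ?_⟩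
  rw [Pi.inv_apply, Pi.inv_apply, inv_div_inv, ← inv_div]
  exact isUnitAt_inv (hW y hy)

theorem isCartier_mul {D D' : X → X.functionField} (h : IsCartier D) (h' : IsCartier D') :
    IsCartier (D * D') := by
  refine ⟨fun x => mul_ne_zero (h.1 x) (h'.1 x), fun x => ?_⟩
  obtain ⟨W, hxW, hW⟩ := h.2 x
  obtain ⟨W', hxW', hW'⟩ := h'.2 x
  refine ⟨W ⊓ W', ⟨hxW, hxW'⟩, fun y hy => ?_⟩
  rw [Pi.mul_apply, Pi.mul_apply, mul_div_mul_comm]
  exact isUnitAt_mul (hW y hy.1) (hW' y hy.2)

theorem isCartier_div {D D' : X → X.functionField} (h : IsCartier D) (h' : IsCartier D') :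
    IsCartier (D / D') := by
  rw [div_eq_mul_inv]
  exact isCartier_mul h (isCartier_inv h')

theorem isCartier_pow {D : X → X.functionField} (h : IsCartier D) (n : ℕ) :
    IsCartier (D ^ n) := by
  induction n with
  | zero => rw [pow_zero]; exact isCartier_one
  | succ n ih => rw [pow_succ]; exact isCartier_mul ih h

/-- On a one-point scheme every Cartier divisor is principal. -/
theorem isPrincipalDiv_of_subsingleton [Subsingleton X] {D : X → X.functionField}
    (h : IsCartier D) : IsPrincipalDiv D :=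
  ⟨D (genericPoint X), h.1 _, fun x => by
    rw [Subsingleton.elim x (genericPoint X), div_self (h.1 _)]
    exact isUnitAt_one _⟩

theorem linEquiv_refl {D : X → X.functionField} (h : ∀ x, D x ≠ 0) : LinEquiv D D := by
  have e : D / D = 1 := by
    funext x
    rw [Pi.div_apply, Pi.one_apply, div_self (h x)]
  show IsPrincipalDiv (D / D)
  rw [e]
  exact isPrincipalDiv_one

end Lang

/-! ### Values of the group law -/

section Pts

variable {K : Type u} [Field K] {A : Scheme.{u}} {f : A ⟶ Spec (CommRingCat.of K)}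
  (L : RelativeGroupLaw K f) {X : Scheme.{u}} (fX : X ⟶ Spec (CommRingCat.of K))

theorem one_val : (L.one fX).1 = fX ≫ zeroHom L := by
  have h := L.one_natural (𝟙 (Spec (CommRingCat.of K))) fX fX (Category.comp_id fX)
  exact (congrArg Subtype.val h).symm

theorem inv_val (x : SchemeHomOver fX f) : (L.inv fX x).1 = x.1 ≫ negHom L := by
  have h := Fermat.Agent.S26.H55.inv_natural L f fX x.1 x.2 RelativeGroupLaw.idPoint
  have h2 : schemeHomOverComp x.1 x.2 (RelativeGroupLaw.idPoint (f := f)) = x :=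
    Subtype.ext (Category.comp_id _)
  rw [h2] at h
  exact (congrArg Subtype.val h).symm

variable (o : Spec (CommRingCat.of K) ⟶ X) (ho : o ≫ fX = 𝟙 (Spec (CommRingCat.of K)))

theorem ev_eq_one_iff (x : SchemeHomOver fX f) :
    o ≫ x.1 = zeroHom L ↔
      schemeHomOverComp o ho x = L.one (𝟙 (Spec (CommRingCat.of K))) :=
  ⟨fun h => Subtype.ext h, fun h => congrArg Subtype.val h⟩

include ho in
theorem ev_mul (x y : SchemeHomOver fX f) (hx : o ≫ x.1 = zeroHom L)
    (hy : o ≫ y.1 = zeroHom L) : o ≫ (L.mul fX x y).1 = zeroHom L := by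
  rw [ev_eq_one_iff L fX o ho] at hx hy ⊢
  rw [L.mul_natural fX (𝟙 (Spec (CommRingCat.of K))) o ho, hx, hy, L.one_mul]

include ho in
theorem ev_inv (x : SchemeHomOver fX f) (hx : o ≫ x.1 = zeroHom L) :
    o ≫ (L.inv fX x).1 = zeroHom L := by
  rw [ev_eq_one_iff L fX o ho] at hx ⊢
  rw [Fermat.Agent.S26.H55.inv_natural, hx, Fermat.Agent.S26.H55.inv_one_eq]

include ho in
theorem ev_one : o ≫ (L.one fX).1 = zeroHom L := by
  rw [ev_eq_one_iff L fX o ho]
  exact L.one_natural fX (𝟙 (Spec (CommRingCat.of K))) o ho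

include ho in
theorem ev_pow (x : SchemeHomOver fX f) (hx : o ≫ x.1 = zeroHom L) (n : ℕ) :
    o ≫ (letI : Group (SchemeHomOver fX f) := L.pointGroup fX; (x ^ n : SchemeHomOver fX f)).1
      = zeroHom L := by
  letI : Group (SchemeHomOver fX f) := L.pointGroup fX
  induction n with
  | zero =>
    rw [pow_zero]
    exact ev_one L fX o ho
  | succ n ih =>
    rw [pow_succ]
    exact ev_mul L fX o ho _ _ ih hx

end Pts

/-! ### QUAD -/

instance subsingleton_SpecField (K : Type u) [Field K] :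
    Subsingleton ↥(Spec (CommRingCat.of K)) :=
  inferInstanceAs (Subsingleton (PrimeSpectrum K))

/-- **QUAD**: on a cube variety, `(m s)^* D ∼ m² s^* D` for a symmetric Cartier divisor `D`. -/
theorem stmt_QUAD_of (hC : Stmt_PULLC.{u}) (hComp : Stmt_PULLCOMP.{u}) (hMul : Stmt_PULLMUL.{u})
    (hPr : Stmt_PULLPRINC.{u}) : Stmt_QUAD.{u} := by
  intro K _ _ A f L hc hA _ _ X fX _ o s ho hs hcube D hD hsym m
  letI : Group (SchemeHomOver fX f) := L.pointGroup fX
  -- the pull-backs
  have hPC : ∀ x : SchemeHomOver fX f, IsCartier (pull x.1 D) := fun x => hC x.1 D hD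
  -- `P 1` is principal
  have hP1 : IsPrincipalDiv (pull (1 : SchemeHomOver fX f).1 D) := by
    have e1 : (1 : SchemeHomOver fX f).1 = fX ≫ zeroHom L := one_val L fX
    rw [e1, hComp fX (zeroHom L) D hD]
    have hc0 : IsCartier (pull (zeroHom L) D) := hC (zeroHom L) D hD
    exact hPr fX _ hc0 (isPrincipalDiv_of_subsingleton hc0)
  -- `P (-s) ∼ P s`
  have hPinv : IsPrincipalDiv (pull (s⁻¹ : SchemeHomOver fX f).1 D / pull s.1 D) := by
    have e1 : (s⁻¹ : SchemeHomOver fX f).1 = s.1 ≫ negHom L := inv_val L fX s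
    have hE : IsCartier (pull (negHom L) D) := hC (negHom L) D hD
    rw [e1, hComp s.1 (negHom L) D hD]
    have h1 := hPr s.1 (pull (negHom L) D / D) (isCartier_div hE hD) hsym
    have h2 : pull s.1 (pull (negHom L) D / D) = pull s.1 (pull (negHom L) D) / pull s.1 D := by
      rw [div_eq_mul_inv, (hMul s.1 (pull (negHom L) D) D⁻¹ hE (isCartier_inv hD)).1,
        (hMul s.1 D D hD hD).2.1, ← div_eq_mul_inv]
    rw [h2] at h1
    exact h1
  -- the recursion
  have key : ∀ k : ℕ,
      IsPrincipalDiv (pull (s ^ k : SchemeHomOver fX f).1 D / (pull s.1 D) ^ (k ^ 2)) ∧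
      IsPrincipalDiv (pull (s ^ (k + 1) : SchemeHomOver fX f).1 D
        / (pull s.1 D) ^ ((k + 1) ^ 2)) := by
    intro k
    induction k with
    | zero =>
      refine ⟨?_, ?_⟩
      · rw [pow_zero, show (0 : ℕ) ^ 2 = 0 from rfl, pow_zero, div_one]
        exact hP1
      · rw [zero_add, pow_one, show (1 : ℕ) ^ 2 = 1 from rfl, pow_one]
        exact linEquiv_refl (hPC s).1
    | succ k ih =>
      refine ⟨ih.2, ?_⟩
      have h1 : o ≫ (s ^ (k + 1) : SchemeHomOver fX f).1 = zeroHom L :=
        ev_pow L fX o ho s hs (k + 1)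
      have h3 : o ≫ (s⁻¹ : SchemeHomOver fX f).1 = zeroHom L := ev_inv L fX o ho s hs
      have hθ := hcube (s ^ (k + 1)) s s⁻¹ h1 hs h3 D hD
      have hθ' : IsPrincipalDiv
          (pull (s ^ (k + 1) * s * s⁻¹ : SchemeHomOver fX f).1 D
              * pull (s ^ (k + 1) : SchemeHomOver fX f).1 D * pull s.1 D
              * pull (s⁻¹ : SchemeHomOver fX f).1 D /
            (pull (s ^ (k + 1) * s : SchemeHomOver fX f).1 D
              * pull (s ^ (k + 1) * s⁻¹ : SchemeHomOver fX f).1 D
              * pull (s * s⁻¹ : SchemeHomOver fX f).1 D)) := hθ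
      rw [mul_inv_cancel_right, ← pow_succ, mul_inv_cancel, pow_succ s k,
        mul_inv_cancel_right] at hθ'
      -- abbreviations
      set A0 := pull (s ^ k : SchemeHomOver fX f).1 D with hA0
      set A1 := pull (s ^ k * s : SchemeHomOver fX f).1 D with hA1
      set A2 := pull (s ^ (k + 1 + 1) : SchemeHomOver fX f).1 D with hA2
      set p := pull s.1 D with hp
      set Pm := pull (s⁻¹ : SchemeHomOver fX f).1 D with hPm
      set P1 := pull (1 : SchemeHomOver fX f).1 D with hP1'
      have ih2 : IsPrincipalDiv (A1 / p ^ ((k + 1) ^ 2)) := by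
        have := ih.2
        rw [pow_succ s k] at this
        exact this
      have n0 : ∀ y, A0 y ≠ 0 := (hPC _).1
      have n1 : ∀ y, A1 y ≠ 0 := (hPC _).1
      have n2 : ∀ y, A2 y ≠ 0 := (hPC _).1
      have np : ∀ y, p y ≠ 0 := (hPC _).1
      have nm : ∀ y, Pm y ≠ 0 := (hPC _).1
      have nP1 : ∀ y, P1 y ≠ 0 := (hPC _).1
      have ident : A2 / p ^ ((k + 1 + 1) ^ 2)
          = (A1 * A1 * p * Pm / (A2 * A0 * P1))⁻¹ * (A1 / p ^ ((k + 1) ^ 2)) ^ 2 * (Pm / p)
              * (A0 / p ^ (k ^ 2))⁻¹ * P1⁻¹ := by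
        funext y
        simp only [Pi.div_apply, Pi.mul_apply, Pi.inv_apply, Pi.pow_apply]
        have hy0 := n0 y
        have hy1 := n1 y
        have hy2 := n2 y
        have hyp := np y
        have hym := nm y
        have hyP := nP1 y
        field_simp
        ring
      rw [ident]
      exact isPrincipalDiv_mul (isPrincipalDiv_mul (isPrincipalDiv_mul (isPrincipalDiv_mul
        (isPrincipalDiv_inv hθ') (isPrincipalDiv_pow ih2 2)) hPinv)
        (isPrincipalDiv_inv ih.1)) (isPrincipalDiv_inv hP1)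
  have hfin := (key m).1
  have e : zsmulHom L fX s (m : ℤ) = (s ^ m : SchemeHomOver fX f).1 := by
    show (s ^ (m : ℤ) : SchemeHomOver fX f).1 = _
    rw [zpow_natCast]
  show IsPrincipalDiv (pull (zsmulHom L fX s (m : ℤ)) D / (pull s.1 D) ^ (m ^ 2))
  rw [e]
  exact hfin

end Fermat.Agent.S26.C.H28
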