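import Mathlib

/-!
# S26, crux (C), NORM push-down: the algebra (helper69)

`R` an integrally closed domain with fraction field `F`, `E / F` a finite extension of fields.

* `norm_mem_of_isIntegral` : the norm of an element of `E` integral over `R` lies in `R`;
* `norm_unit_of_isIntegral` : the norm of a unit of the integral closure of `R` in `E` is a unit
  of `R`;
* `norm_eq_unit_mul_pow` : **NORM**: if `Ψ / h` is a unit of the integral closure (`h ∈ F` a local
  equation of the divisor of `Ψ` over `R`), then `N Ψ = u · h ^ [E : F]`, `u` a unit of `R`;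

Mathlib only.
-/

set_option autoImplicit false
set_option linter.style.haveILetI false
set_option linter.unusedSectionVars false

open Module

namespace Fermat.Agent.S26.C.H69

section Norm

variable {R F E : Type*} [CommRing R] [IsDomain R] [IsIntegrallyClosed R] [Field F] [Algebra R F]
  [IsFractionRing R F] [Field E] [Algebra F E] [Algebra R E] [IsScalarTower R F E]

/-- The norm of an element integral over `R` lies in `R`. -/
theorem norm_mem_of_isIntegral {x : E} (hx : IsIntegral R x) :
    ∃ r : R, algebraMap R F r = Algebra.norm F x :=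
  IsIntegrallyClosed.isIntegral_iff.mp (Algebra.isIntegral_norm F hx)

/-- The norm of a unit of the integral closure of `R` is a unit of `R`. -/
theorem norm_unit_of_isIntegral {u : E} (hu0 : u ≠ 0) (hu : IsIntegral R u)
    (hu' : IsIntegral R u⁻¹) : ∃ r : Rˣ, algebraMap R F (r : R) = Algebra.norm F u := by
  obtain ⟨a, ha⟩ := norm_mem_of_isIntegral (F := F) hu
  obtain ⟨b, hb⟩ := norm_mem_of_isIntegral (F := F) hu'
  have h1 : algebraMap R F (a * b) = algebraMap R F 1 := by
    rw [map_mul, ha, hb, ← map_mul, mul_inv_cancel₀ hu0, map_one, map_one]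
  have hab : a * b = 1 := IsFractionRing.injective R F h1
  exact ⟨⟨a, b, hab, by rw [mul_comm]; exact hab⟩, ha⟩

/-- **NORM**: if `Ψ / h` is a unit of the integral closure of `R` in `E`, then
`N Ψ = u · h ^ [E : F]` with a unit `u` of `R`. -/
theorem norm_eq_unit_mul_pow {Ψ : E} {h : F} (hh : h ≠ 0) (hΨ : Ψ ≠ 0)
    (h1 : IsIntegral R (Ψ / algebraMap F E h)) (h2 : IsIntegral R (algebraMap F E h / Ψ)) :
    ∃ r : Rˣ, Algebra.norm F Ψ = algebraMap R F (r : R) * h ^ finrank F E := by
  have hh' : algebraMap F E h ≠ 0 := (map_ne_zero _).2 hh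
  have h2' : IsIntegral R (Ψ / algebraMap F E h)⁻¹ := by rwa [inv_div]
  obtain ⟨r, hr⟩ := norm_unit_of_isIntegral (F := F) (div_ne_zero hΨ hh') h1 h2'
  refine ⟨r, ?_⟩
  have e : Ψ = Ψ / algebraMap F E h * algebraMap F E h := (div_mul_cancel₀ Ψ hh').symm
  rw [hr]
  conv_lhs => rw [e, map_mul, Algebra.norm_algebraMap]

end Norm

end Fermat.Agent.S26.C.H69
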