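import Mathlib
import Fermat.Agent.S26.LF.H18_Bij

/-!
# S26 (C), cube side, leaf DOM (helper14): the algebra of dominance

`B k = K[T₁..T_g]/(T)^k`.  If `O` is a noetherian local `K`-algebra with residue field `K` whose
maximal ideal is spanned modulo `m²` by `x₁..x_g`, and `σ_k : O → B k` are `K`-algebra maps with
`σ_k (x_i) ≡ T_i` modulo `(T)²`, then `⋂ ker σ_k = 0`.

(Used for the sum map `s : C₁ × … × C_g → A`: `s` is "étale at the origin", hence dominant.)
-/

set_option autoImplicit false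
set_option linter.style.haveILetI false

open IsLocalRing MvPolynomial

namespace Fermat.Agent.S26.C.H14d

open Fermat.Agent.S26.LF.H18

section Bk

variable (K : Type*) [Field K] (g k : ℕ)

/-- `K[T₁..T_g]/(T)^k`. -/
abbrev Bk : Type _ := MvPolynomial (Fin g) K ⧸ idealOfVars (Fin g) K ^ k

/-- the class of `T_i` -/
noncomputable def tk (i : Fin g) : Bk K g k := Ideal.Quotient.mk _ (X i)

theorem tk_mem (i : Fin g) : tk K g k i ∈ JP K g k :=
  Ideal.mem_map_of_mem _ (Ideal.subset_span ⟨i, rfl⟩)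

theorem smul_mk (c : K) (p : MvPolynomial (Fin g) K) :
    c • (Ideal.Quotient.mk (idealOfVars (Fin g) K ^ k) p) =
      Ideal.Quotient.mk (idealOfVars (Fin g) K ^ k) (C c * p) := by
  rw [← MvPolynomial.smul_eq_C_mul]
  rfl

theorem smul_tk (c : K) (i : Fin g) :
    c • tk K g k i = Ideal.Quotient.mk (idealOfVars (Fin g) K ^ k) (C c * X i) :=
  smul_mk K g k c (X i)

/-- `B k` is finite-dimensional. -/
theorem finite_Bk : Module.Finite K (Bk K g k) := by
  classical
  have hfin : {f : Fin g →₀ ℕ | Finsupp.degree f < k}.Finite := Finsupp.finite_of_degree_lt k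
  refine ⟨⟨hfin.toFinset.image (fun a => (Ideal.Quotient.mk (idealOfVars (Fin g) K ^ k))
    (monomial a (1 : K))), ?_⟩⟩
  rw [eq_top_iff]
  rintro u -
  obtain ⟨p, rfl⟩ := Ideal.Quotient.mk_surjective u
  -- `p ≡ ∑_{deg a < k} coeff a p • X^a`
  have hp : p - ∑ a ∈ hfin.toFinset, monomial a (coeff a p) ∈ idealOfVars (Fin g) K ^ k := by
    rw [mem_pow_idealOfVars_iff']
    intro x hx
    rw [coeff_sub, coeff_sum, sub_eq_zero]
    rw [Finset.sum_eq_single x]
    · simp
    · intro b _ hb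
      rw [coeff_monomial, if_neg hb]
    · intro hx'
      exact absurd (hfin.mem_toFinset.2 hx) hx'
  have e : (Ideal.Quotient.mk (idealOfVars (Fin g) K ^ k)) p =
      ∑ a ∈ hfin.toFinset, coeff a p •
        (Ideal.Quotient.mk (idealOfVars (Fin g) K ^ k)) (monomial a (1 : K)) := by
    rw [← sub_eq_zero]
    have h1 : ∑ a ∈ hfin.toFinset, coeff a p •
        (Ideal.Quotient.mk (idealOfVars (Fin g) K ^ k)) (monomial a (1 : K)) =
        (Ideal.Quotient.mk (idealOfVars (Fin g) K ^ k))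
          (∑ a ∈ hfin.toFinset, monomial a (coeff a p)) := by
      rw [map_sum]
      refine Finset.sum_congr rfl fun a _ => ?_
      rw [← Ideal.Quotient.mkₐ_eq_mk K, ← map_smul, smul_monomial, smul_eq_mul, mul_one]
    rw [h1, ← map_sub]
    exact Ideal.Quotient.eq_zero_iff_mem.2 hp
  rw [e]
  refine Submodule.sum_mem _ fun a ha => Submodule.smul_mem _ _ (Submodule.subset_span ?_)
  rw [Finset.coe_image]
  exact ⟨a, ha, rfl⟩

/-- A `K`-algebra endomorphism of `B k` which is the identity on the variables modulo `(T)²`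
is surjective. -/
theorem endo_surjective (θ : Bk K g k →ₐ[K] Bk K g k)
    (h : ∀ i, θ (tk K g k i) - tk K g k i ∈ JP K g k ^ 2) : Function.Surjective θ := by
  have htop : θ.range = ⊤ := by
    refine subalgebra_eq_top_of_nilp (JP K g k) (JP_res k) k (JP_pow k) _ ?_
    intro z hz
    obtain ⟨p, hp, rfl⟩ := (Ideal.mem_map_iff_of_surjective _ Ideal.Quotient.mk_surjective).1 hz
    have hc0 : coeff 0 p = 0 := by
      have := (mem_pow_idealOfVars_iff' (σ := Fin g) (R := K) 1 p).1 (by rwa [pow_one]) 0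
        (by simp)
      exact this
    have hr := sub_lin_mem_sq p
    rw [hc0, map_zero, sub_zero] at hr
    refine ⟨θ (Ideal.Quotient.mk _ (∑ i, C (coeff (Finsupp.single i 1) p) * X i)), ⟨_, rfl⟩, ?_⟩
    have e : (Ideal.Quotient.mk (idealOfVars (Fin g) K ^ k)) p -
        θ (Ideal.Quotient.mk _ (∑ i, C (coeff (Finsupp.single i 1) p) * X i)) =
        (Ideal.Quotient.mk (idealOfVars (Fin g) K ^ k))
          (p - ∑ i, C (coeff (Finsupp.single i 1) p) * X i) -
        ∑ i, coeff (Finsupp.single i 1) p • (θ (tk K g k i) - tk K g k i) := by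
      have h1 : θ (Ideal.Quotient.mk _ (∑ i, C (coeff (Finsupp.single i 1) p) * X i)) =
          ∑ i, coeff (Finsupp.single i 1) p • θ (tk K g k i) := by
        rw [map_sum, map_sum]
        refine Finset.sum_congr rfl fun i _ => ?_
        rw [← map_smul, smul_tk]
      have h2 : (Ideal.Quotient.mk (idealOfVars (Fin g) K ^ k))
          (∑ i, C (coeff (Finsupp.single i 1) p) * X i) =
          ∑ i, coeff (Finsupp.single i 1) p • tk K g k i := by
        rw [map_sum]
        refine Finset.sum_congr rfl fun i _ => ?_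
        rw [smul_tk]
      rw [h1, map_sub, h2]
      simp only [smul_sub, Finset.sum_sub_distrib]
      ring
    rw [e]
    refine Ideal.sub_mem _ ?_ ?_
    · rw [JP, ← Ideal.map_pow]
      exact Ideal.mem_map_of_mem _ hr
    · refine Ideal.sum_mem _ fun i _ => ?_
      exact Submodule.smul_of_tower_mem _ _ (h i)
  intro y
  have : y ∈ θ.range := by rw [htop]; trivial
  exact this

theorem endo_injective (θ : Bk K g k →ₐ[K] Bk K g k)
    (h : ∀ i, θ (tk K g k i) - tk K g k i ∈ JP K g k ^ 2) : Function.Injective θ := by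
  haveI := finite_Bk K g k
  exact (LinearMap.injective_iff_surjective (f := θ.toLinearMap)).2 (endo_surjective K g k θ h)

end Bk

section Main

variable {K : Type*} [Field K] {O : Type*} [CommRing O] [IsLocalRing O] [Algebra K O] {g : ℕ}

/-- approximation of the elements of `O` by polynomials in the `x_i`, to any order -/
theorem exists_poly_sub_mem
    (hres : ∀ a : O, ∃ c : K, a - algebraMap K O c ∈ maximalIdeal O)
    (x : Fin g → O)
    (hspan : ∀ y ∈ maximalIdeal O, ∃ c : Fin g → K, y - ∑ i, c i • x i ∈ maximalIdeal O ^ 2)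
    (k : ℕ) (a : O) :
    ∃ p : MvPolynomial (Fin g) K, a - qHom (K := K) x p ∈ maximalIdeal O ^ (k + 1) := by
  have hE : ∀ z ∈ maximalIdeal O, ∃ e ∈ (qHom (K := K) x).range, z - e ∈ maximalIdeal O ^ 2 := by
    intro z hz
    obtain ⟨c, hc⟩ := hspan z hz
    exact ⟨_, ⟨∑ i, C (c i) * X i, qHom_lin c⟩, hc⟩
  induction k with
  | zero =>
    obtain ⟨c, hc⟩ := hres a
    refine ⟨C c, ?_⟩
    rw [zero_add, pow_one, qHom_C]
    exact hc
  | succ k ih =>
    obtain ⟨p, hp⟩ := ih
    obtain ⟨e, ⟨p', rfl⟩, he⟩ := exists_mem_sub_mem_pow_succ (maximalIdeal O) _ hE k _ hp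
    refine ⟨p + p', ?_⟩
    have : a - qHom (K := K) x (p + p') = a - qHom (K := K) x p - qHom (K := K) x p' := by
      rw [map_add]; ring
    rw [this]
    exact he

theorem Bk_nontrivial (K : Type*) [Field K] (g k : ℕ) (hk : 1 ≤ k) : Nontrivial (Bk K g k) := by
  apply Ideal.Quotient.nontrivial_iff.2
  intro h
  have h1 : (C (1 : K) : MvPolynomial (Fin g) K) ∈ idealOfVars (Fin g) K ^ k := by
    rw [h]; trivial
  rw [C_mem_pow_idealOfVars_iff] at h1
  rcases h1 with h1 | h1
  · exact one_ne_zero h1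
  · omega

/-- a `K`-algebra map `O → B k` maps the maximal ideal into the maximal ideal -/
theorem map_mem_JP (k : ℕ) (hk : 1 ≤ k) (σ : O →ₐ[K] Bk K g k) (y : O)
    (hy : y ∈ maximalIdeal O) : σ y ∈ JP K g k := by
  haveI := Bk_nontrivial K g k hk
  obtain ⟨c, hc⟩ := JP_res (K := K) (g := g) k (σ y)
  by_cases h0 : c = 0
  · rw [h0, map_zero, sub_zero] at hc
    exact hc
  · exfalso
    have hu : IsUnit (y - algebraMap K O c) := by
      by_contra hnu
      have h1 : y - algebraMap K O c ∈ maximalIdeal O := (mem_maximalIdeal _).2 hnu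
      have h2 : algebraMap K O c ∈ maximalIdeal O := by
        have := Ideal.sub_mem _ hy h1
        simpa using this
      exact h0 ((algebraMap_mem_maximalIdeal_iff c).1 h2)
    have hu' : IsUnit (σ (y - algebraMap K O c)) := hu.map σ
    have e : σ (y - algebraMap K O c) = σ y - algebraMap K (Bk K g k) c := by
      rw [map_sub, AlgHom.commutes]
    rw [e] at hu'
    have hn : (σ y - algebraMap K (Bk K g k) c) ^ k = 0 := by
      have := Ideal.pow_mem_pow hc k
      rw [JP_pow] at this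
      exact this
    have : IsUnit ((σ y - algebraMap K (Bk K g k) c) ^ k) := hu'.pow k
    rw [hn] at this
    exact not_isUnit_zero this

theorem map_pow_eq_zero (k : ℕ) (hk : 1 ≤ k) (σ : O →ₐ[K] Bk K g k) (y : O)
    (hy : y ∈ maximalIdeal O ^ k) : σ y = 0 := by
  have h1 : (maximalIdeal O).map σ ≤ JP K g k := by
    rw [Ideal.map_le_iff_le_comap]
    intro z hz
    exact map_mem_JP k hk σ z hz
  have h2 : (maximalIdeal O ^ k).map σ ≤ JP K g k ^ k := by
    rw [Ideal.map_pow]
    exact Ideal.pow_right_mono h1 k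
  have h3 : σ y ∈ JP K g k ^ k := h2 (Ideal.mem_map_of_mem _ hy)
  rw [JP_pow] at h3
  exact h3

/-- **DOM, level `k`**: the kernel of `σ : O → B k` with `σ (x_i) ≡ T_i` is in `m^k`. -/
theorem ker_le_pow
    (hres : ∀ a : O, ∃ c : K, a - algebraMap K O c ∈ maximalIdeal O)
    (x : Fin g → O) (hx : ∀ i, x i ∈ maximalIdeal O)
    (hspan : ∀ y ∈ maximalIdeal O, ∃ c : Fin g → K, y - ∑ i, c i • x i ∈ maximalIdeal O ^ 2)
    (k : ℕ) (σ : O →ₐ[K] Bk K g (k + 1))
    (hσ : ∀ i, σ (x i) - tk K g (k + 1) i ∈ JP K g (k + 1) ^ 2)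
    (a : O) (ha : σ a = 0) : a ∈ maximalIdeal O ^ (k + 1) := by
  have hk : 1 ≤ k + 1 := by omega
  -- the endomorphism `θ`
  have hkill : ∀ p : MvPolynomial (Fin g) K, p ∈ idealOfVars (Fin g) K ^ (k + 1) →
      (σ.comp (qHom (K := K) x)) p = 0 := by
    intro p hp
    exact map_pow_eq_zero (k + 1) hk σ _ (qHom_mem_pow x hx (k + 1) hp)
  let θ : Bk K g (k + 1) →ₐ[K] Bk K g (k + 1) :=
    Ideal.Quotient.liftₐ (idealOfVars (Fin g) K ^ (k + 1)) (σ.comp (qHom (K := K) x)) hkill
  have hθ : ∀ p : MvPolynomial (Fin g) K,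
      θ (Ideal.Quotient.mk _ p) = σ (qHom (K := K) x p) := fun p => rfl
  have hθt : ∀ i, θ (tk K g (k + 1) i) - tk K g (k + 1) i ∈ JP K g (k + 1) ^ 2 := by
    intro i
    have : θ (tk K g (k + 1) i) = σ (x i) := by
      rw [tk, hθ, qHom_X]
    rw [this]
    exact hσ i
  have hinj := endo_injective K g (k + 1) θ hθt
  obtain ⟨p, hp⟩ := exists_poly_sub_mem hres x hspan k a
  have h1 : σ (qHom (K := K) x p) = 0 := by
    have h2 := map_pow_eq_zero (k + 1) hk σ _ hp
    rw [map_sub, ha, zero_sub, neg_eq_zero] at h2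
    exact h2
  have h3 : (Ideal.Quotient.mk (idealOfVars (Fin g) K ^ (k + 1))) p = 0 := by
    apply hinj
    rw [hθ, h1, map_zero]
  have h4 : p ∈ idealOfVars (Fin g) K ^ (k + 1) := Ideal.Quotient.eq_zero_iff_mem.1 h3
  have h5 := qHom_mem_pow x hx (k + 1) h4
  have : a = (a - qHom (K := K) x p) + qHom (K := K) x p := by ring
  rw [this]
  exact Ideal.add_mem _ hp h5

/-- **DOM (algebra)**: the intersection of the kernels of the `σ_k` is zero. -/
theorem dom_alg [IsNoetherianRing O]
    (hres : ∀ a : O, ∃ c : K, a - algebraMap K O c ∈ maximalIdeal O)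
    (x : Fin g → O) (hx : ∀ i, x i ∈ maximalIdeal O)
    (hspan : ∀ y ∈ maximalIdeal O, ∃ c : Fin g → K, y - ∑ i, c i • x i ∈ maximalIdeal O ^ 2)
    (σ : ∀ k : ℕ, O →ₐ[K] Bk K g (k + 1))
    (hσ : ∀ k i, σ k (x i) - tk K g (k + 1) i ∈ JP K g (k + 1) ^ 2)
    (a : O) (ha : ∀ k, σ k a = 0) : a = 0 := by
  have hK : ⨅ i : ℕ, maximalIdeal O ^ i = ⊥ :=
    Ideal.iInf_pow_eq_bot_of_isLocalRing (maximalIdeal O) Ideal.IsPrime.ne_top'
  have : a ∈ ⨅ i : ℕ, maximalIdeal O ^ i := by
    rw [Ideal.mem_iInf]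
    intro i
    have h := ker_le_pow hres x hx hspan i (σ i) (hσ i) a (ha i)
    exact Ideal.pow_le_pow_right (by omega) h
  rw [hK] at this
  simpa using this

end Main

end Fermat.Agent.S26.C.H14d
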