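import Mathlib

/-!
# S26 (C), cube side, leaf EX-CURVES (helper14): the algebra of a curve through a point

* `isDomain_of_nzd`, `isDVR_of_nzd`: a noetherian local ring whose maximal ideal is generated by a
  nonzerodivisor is a discrete valuation ring.
* `etale_local`: for `T` étale over `K[X]` and a maximal ideal `𝔫` of `T` over `(X)`, the
  localisation `T_𝔫` is a DVR with uniformiser (the image of) `X`.
-/

set_option autoImplicit false

universe u

open IsLocalRing

namespace Fermat.Agent.S26.C.H14c

section DVR

variable {V : Type*} [CommRing V] [IsLocalRing V] [IsNoetherianRing V]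

/-- every nonzero element is a unit times a power of the generator of the maximal ideal -/
theorem exists_unit_mul_pow (x : V) (hx : maximalIdeal V = Ideal.span {x}) (a : V) (ha : a ≠ 0) :
    ∃ (n : ℕ) (u : V), IsUnit u ∧ a = u * x ^ n := by
  classical
  have hK : ⨅ i : ℕ, maximalIdeal V ^ i = ⊥ :=
    Ideal.iInf_pow_eq_bot_of_isLocalRing (maximalIdeal V) Ideal.IsPrime.ne_top'
  -- there is `n` with `a ∉ m^(n+1)`
  have hex : ∃ n : ℕ, a ∉ maximalIdeal V ^ n := by
    by_contra h
    push Not at h
    have : a ∈ ⨅ i : ℕ, maximalIdeal V ^ i := by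
      rw [Ideal.mem_iInf]; exact h
    rw [hK] at this
    exact ha (by simpa using this)
  have h0 : a ∈ maximalIdeal V ^ 0 := by simp
  -- the least `n` with `a ∉ m^n` is positive
  let n := Nat.find hex
  have hn : a ∉ maximalIdeal V ^ n := Nat.find_spec hex
  have hn0 : n ≠ 0 := by
    intro h
    rw [h] at hn
    exact hn h0
  obtain ⟨m, hm⟩ := Nat.exists_eq_succ_of_ne_zero hn0
  have hmem : a ∈ maximalIdeal V ^ m := by
    by_contra h
    have := Nat.find_min' hex h
    omega
  rw [hx, Ideal.span_singleton_pow, Ideal.mem_span_singleton] at hmem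
  obtain ⟨u, hu⟩ := hmem
  refine ⟨m, u, ?_, by rw [hu, mul_comm]⟩
  by_contra hnu
  have hum : u ∈ maximalIdeal V := (mem_maximalIdeal u).mpr hnu
  rw [hx, Ideal.mem_span_singleton] at hum
  obtain ⟨w, hw⟩ := hum
  apply hn
  rw [hm, hx, Ideal.span_singleton_pow, Ideal.mem_span_singleton]
  exact ⟨w, by rw [hu, hw, pow_succ]; ring⟩

theorem isDomain_of_nzd (x : V) (hx : maximalIdeal V = Ideal.span {x})
    (hnzd : x ∈ nonZeroDivisors V) : IsDomain V := by
  have : NoZeroDivisors V := by
    refine ⟨fun {a b} hab => ?_⟩
    by_contra h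
    push Not at h
    obtain ⟨n, u, hu, rfl⟩ := exists_unit_mul_pow x hx a h.1
    obtain ⟨m, v, hv, rfl⟩ := exists_unit_mul_pow x hx b h.2
    have h1 : (u * v) * x ^ (n + m) = 0 := by
      rw [← hab, pow_add]; ring
    have h2 : x ^ (n + m) = 0 := by
      have := (hu.mul hv).mul_right_eq_zero.mp h1
      exact this
    have h3 : x ^ (n + m) ∈ nonZeroDivisors V := pow_mem hnzd _
    have h4 : (1 : V) = 0 := by
      have := (mem_nonZeroDivisors_iff.mp h3).2 1 (by rw [one_mul]; exact h2)
      exact this
    exact one_ne_zero h4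
  exact NoZeroDivisors.to_isDomain V

theorem isDVR_of_nzd [IsDomain V] (x : V) (hx : maximalIdeal V = Ideal.span {x})
    (hnzd : x ∈ nonZeroDivisors V) : IsDiscreteValuationRing V := by
  have hx0 : x ≠ 0 := nonZeroDivisors.ne_zero hnzd
  have hnf : ¬ IsField V := by
    intro hf
    have : maximalIdeal V = ⊥ := isField_iff_maximalIdeal_eq.mp hf
    rw [hx, Ideal.span_singleton_eq_bot] at this
    exact hx0 this
  have hp : (maximalIdeal V).IsPrincipal := ⟨⟨x, by rw [hx]⟩⟩
  exact ((IsDiscreteValuationRing.TFAE V hnf).out 4 0).mp hp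

end DVR

section Etale

/-- étale ⟹ unramified: `p S_q = q S_q` -/
theorem map_eq_maximalIdeal_of_etale (R : Type u) {T : Type u} [CommRing R] [CommRing T]
    [Algebra R T] [Algebra.Etale R T] (q : Ideal T) [q.IsPrime] :
    (q.under R).map (algebraMap R (Localization.AtPrime q)) =
      maximalIdeal (Localization.AtPrime q) := by
  let p := q.under R
  have : q.LiesOver p := ⟨rfl⟩
  let := Localization.AtPrime.algebraOfLiesOver p q
  have : Algebra.IsUnramifiedAt R q := inferInstance
  exact ((Algebra.isUnramifiedAt_iff_map_eq R p q).mp inferInstance).2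

theorem flat_loc_of_etale (R : Type u) {T : Type u} [CommRing R] [CommRing T] [Algebra R T]
    [Algebra.Etale R T] (q : Ideal T) [q.IsPrime] :
    Module.Flat R (Localization.AtPrime q) := by
  have : Module.Flat R T := inferInstance
  exact Module.Flat.trans R T (Localization.AtPrime q)

theorem noeth_loc_of_etale (R : Type u) {T : Type u} [CommRing R] [CommRing T] [Algebra R T]
    [IsNoetherianRing R] [Algebra.Etale R T] (q : Ideal T) [q.IsPrime] :
    IsNoetherianRing (Localization.AtPrime q) := by
  have : IsNoetherianRing T := Algebra.FiniteType.isNoetherianRing R T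
  infer_instance

end Etale

end Fermat.Agent.S26.C.H14c
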