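/-
S26 (row 25), crux (C), rigidity (helper29): CHEV-K and RIG-DIRECT.  Mathlib only.

`K` an algebraically closed field, `Ω` any field over `K`.

* `IsKPlace K O` : the valuation subring `O` of `Ω` contains `K` and has residue field `K`.
* `CentredAt K O B φ` : `O` is centred at the `K`-point `φ` of the `K`-subalgebra `B`.
* `exists_kplace` (CHEV-K) : every `K`-point of a subalgebra is the centre of a `K`-place.
* `exists_kplace_of_transcendental` : if `t` is transcendental over `B`, the `K`-place can be
  chosen with `t - 1` in its maximal ideal.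
* `mem_range_of_isAlgebraic_of_linearDisjoint` : `L₁`, `L₂` linearly disjoint over `K`; an element
  algebraic over both lies in `K`.
* `rig_direct` (RIG-DIRECT) : an element lying in the maximal ideal of every `K`-place centred at
  `φ₁` or at `φ₂` is `0`.
-/
import Mathlib

set_option autoImplicit false

namespace Fermat.Agent.S26.C.H29

open IsLocalRing Polynomial

section Defs

variable (K : Type*) {Ω : Type*} [Field K] [Field Ω] [Algebra K Ω]

/-- `O` is a `K`-place of `Ω`: it contains `K` and its residue field is `K`. -/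
def IsKPlace (O : ValuationSubring Ω) : Prop :=
  (∀ a : K, algebraMap K Ω a ∈ O) ∧ ∀ x ∈ O, ∃ a : K, x - algebraMap K Ω a ∈ O.nonunits

variable {K}

/-- `O` is centred at the `K`-point `φ` of the subalgebra `B`. -/
def CentredAt (O : ValuationSubring Ω) (B : Subalgebra K Ω) (φ : B →ₐ[K] K) : Prop :=
  ∀ b : B, (b : Ω) - algebraMap K Ω (φ b) ∈ O.nonunits

theorem IsKPlace.mem_of_centredAt {O : ValuationSubring Ω} (hO : IsKPlace K O)
    {B : Subalgebra K Ω} {φ : B →ₐ[K] K} (h : CentredAt O B φ) (b : B) : (b : Ω) ∈ O := by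
  have h1 : (b : Ω) - algebraMap K Ω (φ b) ∈ O := O.nonunits_subset (h b)
  have h2 := O.add_mem _ _ h1 (hO.1 (φ b))
  simpa using h2

theorem CentredAt.mem_nonunits {O : ValuationSubring Ω}
    {B : Subalgebra K Ω} {φ : B →ₐ[K] K} (h : CentredAt O B φ) (b : B) (hb : φ b = 0) :
    (b : Ω) ∈ O.nonunits := by
  have := h b
  simpa [hb] using this

end Defs

section Comp

variable {Ω : Type*} [Field Ω]

/-- The composite of a valuation subring `O` with a valuation subring `W` of its residue
field. -/
noncomputable def compVal (O : ValuationSubring Ω) (W : ValuationSubring (ResidueField O)) :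
    ValuationSubring Ω :=
  ValuationSubring.ofSubring ((W.toSubring.comap (residue O)).map O.subtype) (by
    have aux : ∀ z : Ω, z ∈ O →
        z ∈ (W.toSubring.comap (residue O)).map O.subtype ∨
          z⁻¹ ∈ (W.toSubring.comap (residue O)).map O.subtype := by
      intro z hz
      rcases W.mem_or_inv_mem (residue O ⟨z, hz⟩) with h | h
      · exact Or.inl ⟨⟨z, hz⟩, h, rfl⟩
      · by_cases hu : IsUnit (⟨z, hz⟩ : O)
        · right
          have h3 : ((hu.unit⁻¹ : Oˣ) : O) * ⟨z, hz⟩ = 1 := by
            have := hu.unit.inv_mul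
            simpa using this
          refine ⟨((hu.unit⁻¹ : Oˣ) : O), ?_, ?_⟩
          · show residue O ((hu.unit⁻¹ : Oˣ) : O) ∈ W
            have h1 : residue O ((hu.unit⁻¹ : Oˣ) : O) * residue O ⟨z, hz⟩ = 1 := by
              rw [← map_mul, h3, map_one]
            have h2 : residue O ((hu.unit⁻¹ : Oˣ) : O) = (residue O ⟨z, hz⟩)⁻¹ :=
              eq_inv_of_mul_eq_one_left h1
            rw [h2]; exact h
          · have h4 : (((hu.unit⁻¹ : Oˣ) : O) : Ω) * z = 1 := congrArg Subtype.val h3
            exact eq_inv_of_mul_eq_one_left h4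
        · left
          refine ⟨⟨z, hz⟩, ?_, rfl⟩
          show residue O ⟨z, hz⟩ ∈ W
          have : residue O ⟨z, hz⟩ = 0 := by
            rw [residue_eq_zero_iff]
            exact (mem_maximalIdeal _).mpr hu
          rw [this]; exact W.zero_mem
    intro z
    rcases O.mem_or_inv_mem z with hz | hz
    · exact aux z hz
    · rcases aux z⁻¹ hz with h | h
      · exact Or.inr h
      · left; rwa [inv_inv] at h)

theorem mem_compVal {O : ValuationSubring Ω} {W : ValuationSubring (ResidueField O)} {z : Ω} :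
    z ∈ compVal O W ↔ ∃ hz : z ∈ O, residue O ⟨z, hz⟩ ∈ W := by
  unfold compVal
  rw [ValuationSubring.mem_ofSubring]
  constructor
  · rintro ⟨y, hy, rfl⟩
    exact ⟨y.2, hy⟩
  · rintro ⟨hz, h⟩
    exact ⟨⟨z, hz⟩, h, rfl⟩

theorem compVal_le (O : ValuationSubring Ω) (W : ValuationSubring (ResidueField O)) :
    compVal O W ≤ O := fun _ hz => (mem_compVal.mp hz).1

end Comp

section ChevK

variable {K : Type*} {Ω : Type*} [Field K] [Field Ω] [Algebra K Ω]

/-- An element of a field extension of an algebraically closed field which is not a constant is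
not a unit of the subalgebra which it generates. -/
theorem not_isUnit_adjoin [IsAlgClosed K] {κ : Type*} [Field κ] [Algebra K κ] (y : κ)
    (hy : y ∉ (algebraMap K κ).range) : ¬ ∃ z ∈ Algebra.adjoin K {y}, y * z = 1 := by
  rintro ⟨z, hz, hyz⟩
  rw [Algebra.adjoin_singleton_eq_range_aeval] at hz
  obtain ⟨q, rfl⟩ := hz
  have hne : (X * q - 1 : K[X]) ≠ 0 := by
    intro h
    have := congrArg (fun p : K[X] => p.coeff 0) h
    simp at this
  have h0 : aeval y (X * q - 1 : K[X]) = 0 := by
    simp only [map_sub, map_mul, aeval_X, map_one]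
    exact sub_eq_zero.mpr hyz
  have halg : IsAlgebraic K y := ⟨_, hne, h0⟩
  exact hy (minpoly.mem_range_of_degree_eq_one K y
    (IsAlgClosed.degree_eq_one_of_irreducible K (minpoly.irreducible halg.isIntegral)))

/-- **CHEV-K**: every `K`-point `φ` of a `K`-subalgebra `B` of `Ω` is the centre of a `K`-place
of `Ω` (`K` algebraically closed). -/
theorem exists_kplace [IsAlgClosed K] (B : Subalgebra K Ω) (φ : B →ₐ[K] K) :
    ∃ O : ValuationSubring Ω, IsKPlace K O ∧ CentredAt O B φ := by
  classical
  let T : Set (ValuationSubring Ω) :=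
    {O | (∀ a : K, algebraMap K Ω a ∈ O) ∧ CentredAt O B φ}
  -- `T` is not empty
  obtain ⟨V, hVT⟩ : ∃ V, V ∈ T := by
    let I : Ideal B.toSubring := RingHom.ker (φ : B →+* K)
    have hI : I ≠ ⊤ := RingHom.ker_ne_top _
    obtain ⟨V, hV1, hV2⟩ := Ideal.image_subset_nonunits_valuationSubring I hI
    refine ⟨V, fun a => hV1 (B.algebraMap_mem a), fun b => ?_⟩
    apply hV2
    refine ⟨b - algebraMap K B (φ b), ?_, ?_⟩
    · show (φ : B →+* K) (b - algebraMap K B (φ b)) = 0
      simp
    · rfl
  -- a minimal element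
  obtain ⟨O, hOT, hOmin⟩ : ∃ O ∈ T, ∀ O' ∈ T, O' ≤ O → O' = O := by
    obtain ⟨O, hO⟩ := zorn_le₀ (α := (ValuationSubring Ω)ᵒᵈ) (OrderDual.ofDual ⁻¹' T) (by
      intro c hcT hc
      by_cases hne : c = ∅
      · exact ⟨OrderDual.toDual V, hVT, by simp [hne]⟩
      obtain ⟨O₀, hO₀⟩ := Set.nonempty_iff_ne_empty.mpr hne
      let S : Subring Ω :=
        sInf ((fun O : (ValuationSubring Ω)ᵒᵈ => (OrderDual.ofDual O).toSubring) '' c)
      have hS : ∀ x, x ∈ S ↔ ∀ O ∈ c, x ∈ OrderDual.ofDual O := by
        intro x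
        simp only [S, Subring.mem_sInf, Set.mem_image, forall_exists_index, and_imp,
          forall_apply_eq_imp_iff₂]
        rfl
      have hval : ∀ x : Ω, x ∈ S ∨ x⁻¹ ∈ S := by
        intro x
        by_contra hcon
        push Not at hcon
        obtain ⟨h1, h2⟩ := hcon
        rw [hS] at h1 h2
        push Not at h1 h2
        obtain ⟨O₁, hO₁, hx₁⟩ := h1
        obtain ⟨O₂, hO₂, hx₂⟩ := h2
        have hx₁' : x⁻¹ ∈ OrderDual.ofDual O₁ :=
          ((OrderDual.ofDual O₁).mem_or_inv_mem x).resolve_left hx₁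
        have hx₂' : x ∈ OrderDual.ofDual O₂ := by
          have := ((OrderDual.ofDual O₂).mem_or_inv_mem x).resolve_right hx₂
          exact this
        rcases hc.total hO₁ hO₂ with h | h
        · -- `O₁ ≤ O₂` in the dual order: `O₂ ⊆ O₁`
          exact hx₁ (h hx₂')
        · exact hx₂ (h hx₁')
      refine ⟨OrderDual.toDual (ValuationSubring.ofSubring S hval), ⟨?_, ?_⟩, ?_⟩
      · intro a
        show algebraMap K Ω a ∈ ValuationSubring.ofSubring S hval
        rw [ValuationSubring.mem_ofSubring, hS]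
        intro O hO
        exact (hcT hO).1 a
      · intro b
        have hle : ValuationSubring.ofSubring S hval ≤ OrderDual.ofDual O₀ := by
          intro x hx
          rw [ValuationSubring.mem_ofSubring, hS] at hx
          exact hx O₀ hO₀
        exact ValuationSubring.nonunits_le_nonunits.mpr hle ((hcT hO₀).2 b)
      · intro O hO
        show ValuationSubring.ofSubring S hval ≤ OrderDual.ofDual O
        intro x hx
        rw [ValuationSubring.mem_ofSubring, hS] at hx
        exact hx O hO)
    refine ⟨OrderDual.ofDual O, hO.1, fun O' hO' hle => ?_⟩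
    exact le_antisymm hle (hO.2 (y := OrderDual.toDual O') hO' hle)
  -- a minimal element is a `K`-place
  refine ⟨O, ⟨hOT.1, ?_⟩, hOT.2⟩
  intro x hx
  by_contra hcon
  push Not at hcon
  let ι : K →+* O := (algebraMap K Ω).codRestrict O.toSubring hOT.1
  let _ : Algebra K (ResidueField O) := ((residue O).comp ι).toAlgebra
  have halg : ∀ a : K, algebraMap K (ResidueField O) a = residue O (ι a) := fun _ => rfl
  set y : ResidueField O := residue O ⟨x, hx⟩ with hy_def
  have hy : y ∉ (algebraMap K (ResidueField O)).range := by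
    rintro ⟨a, ha⟩
    apply hcon a
    have h1 : residue O (⟨x, hx⟩ - ι a) = 0 := by
      rw [map_sub, ← halg, ha, hy_def, sub_self]
    rw [residue_eq_zero_iff] at h1
    have h2 := ValuationSubring.coe_mem_nonunits_iff.mpr h1
    exact h2
  have hymem : y ∈ (Algebra.adjoin K {y}).toSubring :=
    Algebra.subset_adjoin (Set.mem_singleton y)
  let I : Ideal (Algebra.adjoin K {y}).toSubring := Ideal.span {⟨y, hymem⟩}
  have hI : I ≠ ⊤ := by
    intro h
    rw [Ideal.span_singleton_eq_top] at h
    obtain ⟨z, hz⟩ := isUnit_iff_exists_inv.mp h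
    exact not_isUnit_adjoin y hy ⟨z.1, z.2, congrArg Subtype.val hz⟩
  obtain ⟨W, hW1, hW2⟩ := Ideal.image_subset_nonunits_valuationSubring I hI
  have hyW : y ∈ W.nonunits := hW2 ⟨⟨y, hymem⟩, Ideal.subset_span rfl, rfl⟩
  have hO'T : compVal O W ∈ T := by
    refine ⟨fun a => mem_compVal.mpr ⟨hOT.1 a, ?_⟩, fun b => ?_⟩
    · exact hW1 ((Algebra.adjoin K {y}).algebraMap_mem a)
    · exact ValuationSubring.nonunits_le_nonunits.mpr (compVal_le O W) (hOT.2 b)
  have heq : compVal O W = O := hOmin _ hO'T (compVal_le O W)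
  have hx0 : x ∉ O.nonunits := by simpa using hcon 0
  rw [ValuationSubring.mem_nonunits_iff_or] at hx0
  push Not at hx0
  have hxinv : x⁻¹ ∈ compVal O W := by rw [heq]; exact hx0.2
  obtain ⟨h1, h2⟩ := mem_compVal.mp hxinv
  have hres : residue O ⟨x⁻¹, h1⟩ = y⁻¹ := by
    apply eq_inv_of_mul_eq_one_left
    rw [hy_def, ← map_mul]
    have : (⟨x⁻¹, h1⟩ : O) * ⟨x, hx⟩ = 1 := Subtype.ext (inv_mul_cancel₀ hx0.1)
    rw [this, map_one]
  rw [hres] at h2
  rw [ValuationSubring.mem_nonunits_iff_or] at hyW
  rcases hyW with h0 | h0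
  · exact hy ⟨0, by rw [map_zero, h0]⟩
  · exact h0 h2

/-- If `t` is transcendental over `B`, the `K`-place centred at `φ` can be chosen such that
`t - 1` lies in its maximal ideal (so `t` is a unit of the place). -/
theorem exists_kplace_of_transcendental [IsAlgClosed K] (B : Subalgebra K Ω) (φ : B →ₐ[K] K)
    (t : Ω) (ht : Transcendental B t) :
    ∃ O : ValuationSubring Ω, IsKPlace K O ∧ CentredAt O B φ ∧ t - 1 ∈ O.nonunits := by
  classical
  let e : B[X] →ₐ[K] Ω := (aeval (R := B) t).restrictScalars K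
  have he : Function.Injective e := transcendental_iff_injective.mp ht
  let E : B[X] ≃ₐ[K] e.range := AlgEquiv.ofInjective e he
  let ψ₀ : B[X] →ₐ[K] K := Polynomial.eval₂AlgHom φ 1 (fun _ => Commute.all _ _)
  let ψ : e.range →ₐ[K] K := ψ₀.comp (E.symm : e.range →ₐ[K] B[X])
  obtain ⟨O, hO, hcent⟩ := exists_kplace e.range ψ
  refine ⟨O, hO, fun b => ?_, ?_⟩
  · have h1 := hcent (E (C b))
    have h2 : ((E (C b) : e.range) : Ω) = (b : Ω) := by
      show e (C b) = _
      show aeval t (C b) = _
      rw [aeval_C]; rfl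
    have h3 : ψ (E (C b)) = φ b := by
      show ψ₀ (E.symm (E (C b))) = _
      rw [AlgEquiv.symm_apply_apply]
      show eval₂ _ _ (C b) = _
      rw [eval₂_C]; rfl
    rwa [h2, h3] at h1
  · have h1 := hcent (E X)
    have h2 : ((E X : e.range) : Ω) = t := by
      show e X = _
      show aeval t X = _
      rw [aeval_X]
    have h3 : ψ (E X) = 1 := by
      show ψ₀ (E.symm (E X)) = _
      rw [AlgEquiv.symm_apply_apply]
      show eval₂ _ _ X = _
      rw [eval₂_X]
    rwa [h2, h3, map_one] at h1

end ChevK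

end Fermat.Agent.S26.C.H29
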