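import Fermat.Agent.S26.C.H30_BCDefs
import Fermat.Agent.S26.C.H13_TensorDomain

/-!
# S26 (C), CCC leaf BC (constant base change): the Gauss valuation ring of `Frac (Ω ⊗[K] F)`

helper30.  `K ⊆ Ω` fields, `K` algebraically closed, `F / K` any field extension, `FΩ` a fraction
field of `Ω ⊗[K] F` (`IsBC`), `P : KPl K Ω` a `K`-place of `Ω` (a valuation ring `O ⊇ K` of `Ω`
with residue field `K`).

* `KPl.res : O →ₐ[K] K` the residue map;
* `KPl.exists_scale` : Gauss scaling, every `x ≠ 0` of `Ω ⊗ F` is `(ω ⊗ 1) * inc x'` with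
  `x' ∈ O ⊗ F` of nonzero reduction;
* `KPl.gaussV h : ValuationSubring FΩ` the Gauss valuation ring, `KPl.red h : gaussV →+* F`;
* `KPl.redSetting h : RedSetting Ω FΩ K F`, `KPl.constRed h : H6.ConstRed K F Ω FΩ`,
  `KPl.constRed_O : (P.constRed h).S.O = P.O`;
* `BCField K F Ω = Frac (Ω ⊗[K] F)` with its algebra structures, `isBC_BCField`;
* `stmt_BC_of : Stmt_BC_Deg → H6.Stmt_BC`.
-/

set_option linter.unusedSectionVars false

set_option autoImplicit false

open TensorProduct IntermediateField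

noncomputable section

namespace Fermat.Agent.S26.C.H30

universe u

section Res

variable {K Ω : Type u} [Field K] [Field Ω] [Algebra K Ω]

/-- a `K`-place of `Ω`: a valuation ring containing `K` with residue field `K` -/
structure KPl (K Ω : Type u) [Field K] [Field Ω] [Algebra K Ω] where
  O : ValuationSubring Ω
  hK : ∀ c : K, algebraMap K Ω c ∈ O
  hres : ∀ a : Ω, a ∈ O → ∃ c : K, a - algebraMap K Ω c ∈ O.nonunits

namespace KPl

variable (P : KPl K Ω)

/-- the valuation ring as a `K`-subalgebra -/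
def alg : Subalgebra K Ω :=
  { P.O.toSubring with algebraMap_mem' := P.hK }

theorem mem_alg {a : Ω} : a ∈ P.alg ↔ a ∈ P.O := Iff.rfl

theorem val_le_one (a : P.alg) : P.O.valuation (a : Ω) ≤ 1 :=
  (P.O.valuation_le_one_iff _).2 a.2

theorem val_const {c : K} (hc : c ≠ 0) : P.O.valuation (algebraMap K Ω c) = 1 := by
  have h1 : P.O.valuation (algebraMap K Ω c) ≤ 1 := (P.O.valuation_le_one_iff _).2 (P.hK c)
  have h2 : P.O.valuation (algebraMap K Ω c⁻¹) ≤ 1 := (P.O.valuation_le_one_iff _).2 (P.hK c⁻¹)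
  rw [map_inv₀, map_inv₀] at h2
  have h0 : P.O.valuation (algebraMap K Ω c) ≠ 0 := by
    rw [Valuation.ne_zero_iff]
    exact (map_ne_zero (algebraMap K Ω)).2 hc
  have h3 : 1 ≤ P.O.valuation (algebraMap K Ω c) := by
    rwa [inv_le_one₀ (zero_lt_iff.2 h0)] at h2
  exact le_antisymm h1 h3

theorem res_unique {a : Ω} {c c' : K} (h : a - algebraMap K Ω c ∈ P.O.nonunits)
    (h' : a - algebraMap K Ω c' ∈ P.O.nonunits) : c = c' := by
  by_contra hne
  rw [ValuationSubring.mem_nonunits_iff] at h h'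
  have hd : c' - c ≠ 0 := sub_ne_zero.2 (Ne.symm hne)
  have h1 := P.val_const hd
  have h2 : algebraMap K Ω (c' - c) = (a - algebraMap K Ω c) - (a - algebraMap K Ω c') := by
    rw [map_sub]; ring
  rw [h2] at h1
  have h3 := Valuation.map_sub P.O.valuation (a - algebraMap K Ω c) (a - algebraMap K Ω c')
  rw [h1] at h3
  exact absurd h3 (not_le.2 (max_lt h h'))

/-- the residue map to `K`, as a function -/
def resFun (a : P.alg) : K := (P.hres a a.2).choose

theorem resFun_spec (a : P.alg) : (a : Ω) - algebraMap K Ω (P.resFun a) ∈ P.O.nonunits :=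
  (P.hres a a.2).choose_spec

theorem resFun_eq {a : P.alg} {c : K} (h : (a : Ω) - algebraMap K Ω c ∈ P.O.nonunits) :
    P.resFun a = c :=
  P.res_unique (P.resFun_spec a) h

/-- the residue map `O → K` -/
def res : P.alg →ₐ[K] K where
  toFun := P.resFun
  map_one' := by
    apply P.resFun_eq
    rw [ValuationSubring.mem_nonunits_iff]
    simp
  map_zero' := by
    apply P.resFun_eq
    rw [ValuationSubring.mem_nonunits_iff]
    simp
  map_mul' a b := by
    apply P.resFun_eq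
    have ha := P.resFun_spec a
    have hb := P.resFun_spec b
    rw [ValuationSubring.mem_nonunits_iff] at ha hb ⊢
    have h : ((a * b : P.alg) : Ω) - algebraMap K Ω (P.resFun a * P.resFun b) =
        ((a : Ω) - algebraMap K Ω (P.resFun a)) * (b : Ω) +
          algebraMap K Ω (P.resFun a) * ((b : Ω) - algebraMap K Ω (P.resFun b)) := by
      rw [map_mul]
      push_cast
      ring
    rw [h]
    refine lt_of_le_of_lt (Valuation.map_add _ _ _) (max_lt ?_ ?_)
    · rw [map_mul]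
      calc P.O.valuation ((a : Ω) - algebraMap K Ω (P.resFun a)) * P.O.valuation (b : Ω)
          ≤ P.O.valuation ((a : Ω) - algebraMap K Ω (P.resFun a)) * 1 :=
            mul_le_mul' le_rfl (P.val_le_one b)
        _ < 1 := by rw [mul_one]; exact ha
    · rw [map_mul]
      calc P.O.valuation (algebraMap K Ω (P.resFun a)) *
            P.O.valuation ((b : Ω) - algebraMap K Ω (P.resFun b))
          ≤ 1 * P.O.valuation ((b : Ω) - algebraMap K Ω (P.resFun b)) :=
            mul_le_mul' ((P.O.valuation_le_one_iff _).2 (P.hK _)) le_rfl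
        _ < 1 := by rw [one_mul]; exact hb
  map_add' a b := by
    apply P.resFun_eq
    have ha := P.resFun_spec a
    have hb := P.resFun_spec b
    rw [ValuationSubring.mem_nonunits_iff] at ha hb ⊢
    have h : ((a + b : P.alg) : Ω) - algebraMap K Ω (P.resFun a + P.resFun b) =
        ((a : Ω) - algebraMap K Ω (P.resFun a)) + ((b : Ω) - algebraMap K Ω (P.resFun b)) := by
      rw [map_add]
      push_cast
      ring
    rw [h]
    exact lt_of_le_of_lt (Valuation.map_add _ _ _) (max_lt ha hb)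
  commutes' c := by
    apply P.resFun_eq
    rw [ValuationSubring.mem_nonunits_iff]
    simp

theorem res_apply_spec (a : P.alg) : (a : Ω) - algebraMap K Ω (P.res a) ∈ P.O.nonunits :=
  P.resFun_spec a

theorem res_eq {a : P.alg} {c : K} (h : (a : Ω) - algebraMap K Ω c ∈ P.O.nonunits) :
    P.res a = c :=
  P.resFun_eq h

theorem res_eq_zero_iff (a : P.alg) : P.res a = 0 ↔ (a : Ω) ∈ P.O.nonunits := by
  constructor
  · intro h
    have := P.res_apply_spec a
    rwa [h, map_zero, sub_zero] at this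
  · intro h
    apply P.res_eq
    rwa [map_zero, sub_zero]

theorem res_surjective : Function.Surjective P.res := fun c =>
  ⟨algebraMap K P.alg c, P.res.commutes c⟩

end KPl

end Res

section Gauss

variable {K F Ω : Type u} [Field K] [IsAlgClosed K] [Field F] [Algebra K F] [Field Ω]
  [Algebra K Ω]

variable (F) in
/-- the inclusion `O ⊗ F → Ω ⊗ F` -/
def KPl.inc (P : KPl K Ω) : P.alg ⊗[K] F →ₐ[K] Ω ⊗[K] F := H13.incl Ω F P.alg

variable (F) in
/-- the reduction `O ⊗ F → F` -/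
def KPl.rd (P : KPl K Ω) : P.alg ⊗[K] F →ₐ[K] F := H13.spec P.res

variable (P : KPl K Ω)

theorem KPl.inc_injective : Function.Injective (P.inc F) := H13.incl_injective Ω F P.alg

theorem KPl.inc_tmul (a : P.alg) (f : F) : P.inc F (a ⊗ₜ f) = (a : Ω) ⊗ₜ f := by
  simp [KPl.inc, H13.incl]

theorem KPl.rd_tmul (a : P.alg) (f : F) : P.rd F (a ⊗ₜ f) = P.res a • f :=
  H13.spec_tmul _ _ _

variable {ι : Type*} (e : Module.Basis ι K F)

theorem KPl.repr_inc (a : P.alg ⊗[K] F) (s : ι) :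
    (Algebra.TensorProduct.basis Ω e).repr (P.inc F a) s =
      (((Algebra.TensorProduct.basis P.alg e).repr a s : P.alg) : Ω) := by
  induction a using TensorProduct.induction_on with
  | zero => simp
  | tmul a f =>
    rw [KPl.inc_tmul, Algebra.TensorProduct.basis_repr_tmul, Algebra.TensorProduct.basis_repr_tmul]
    simp
  | add x y hx hy =>
    rw [map_add, map_add, Finsupp.add_apply, hx, hy, map_add, Finsupp.add_apply]
    rfl

theorem KPl.repr_tmul_one_mul (ω : Ω) (x : Ω ⊗[K] F) (s : ι) :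
    (Algebra.TensorProduct.basis Ω e).repr ((ω ⊗ₜ[K] (1 : F)) * x) s =
      ω * (Algebra.TensorProduct.basis Ω e).repr x s := by
  have h : (ω ⊗ₜ[K] (1 : F)) * x = ω • x := by
    rw [Algebra.smul_def, Algebra.TensorProduct.algebraMap_apply]
    rfl
  rw [h, map_smul, Finsupp.smul_apply, smul_eq_mul]

/-- Gauss scaling in `Ω ⊗ F`. -/
theorem KPl.exists_scale (x : Ω ⊗[K] F) (hx : x ≠ 0) :
    ∃ ω : Ω, ω ≠ 0 ∧ ∃ x' : P.alg ⊗[K] F, P.rd F x' ≠ 0 ∧ x = (ω ⊗ₜ[K] (1 : F)) * P.inc F x' := by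
  classical
  let e := Module.Basis.ofVectorSpace K F
  let bΩ := Algebra.TensorProduct.basis Ω e
  let bO := Algebra.TensorProduct.basis P.alg e
  set c := bΩ.repr x with hc
  have hne : c.support.Nonempty := by
    rw [Finsupp.support_nonempty_iff]
    intro h0
    apply hx
    apply bΩ.repr.injective
    rw [← hc, h0, map_zero]
  obtain ⟨s0, hs0, hmax⟩ := Finset.exists_max_image c.support
    (fun s => P.O.valuation (c s)) hne
  have hc0 : c s0 ≠ 0 := Finsupp.mem_support_iff.1 hs0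
  have hall : ∀ s, c s / c s0 ∈ P.O := by
    intro s
    rw [← P.O.valuation_le_one_iff, map_div₀]
    have hv0 : P.O.valuation (c s0) ≠ 0 := (Valuation.ne_zero_iff _).2 hc0
    rw [div_le_one₀ (zero_lt_iff.2 hv0)]
    by_cases hs : s ∈ c.support
    · exact hmax s hs
    · rw [Finsupp.notMem_support_iff.1 hs, map_zero]
      exact zero_le
  let g0 : _ →₀ P.alg := Finsupp.onFinset c.support (fun s => (⟨c s / c s0, hall s⟩ : P.alg))
    (by
      intro s hs
      rw [Finsupp.mem_support_iff]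
      intro h0
      apply hs
      apply Subtype.ext
      show c s / c s0 = 0
      rw [h0, zero_div])
  have hg0 : ∀ s, ((g0 s : P.alg) : Ω) = c s / c s0 := fun s => rfl
  refine ⟨c s0, hc0, bO.repr.symm g0, ?_, ?_⟩
  · intro h0
    have h1 := H13.repr_spec e P.res (bO.repr.symm g0) s0
    rw [show H13.spec P.res (bO.repr.symm g0) = P.rd F (bO.repr.symm g0) from rfl, h0] at h1
    simp only [map_zero, Finsupp.coe_zero, Pi.zero_apply] at h1
    have h2 : (Algebra.TensorProduct.basis (↥P.alg) e).repr (bO.repr.symm g0) s0 = 1 := by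
      show bO.repr (bO.repr.symm g0) s0 = 1
      rw [LinearEquiv.apply_symm_apply]
      apply Subtype.ext
      show c s0 / c s0 = 1
      exact div_self hc0
    rw [h2, map_one] at h1
    exact zero_ne_one h1
  · apply bΩ.repr.injective
    ext s
    rw [KPl.repr_tmul_one_mul, KPl.repr_inc]
    show c s = c s0 * ((bO.repr (bO.repr.symm g0) s : P.alg) : Ω)
    rw [LinearEquiv.apply_symm_apply, hg0, mul_div_cancel₀ _ hc0]

end Gauss

section Val

variable {K F Ω FΩ : Type u} [Field K] [IsAlgClosed K] [Field F] [Algebra K F] [Field Ω]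
  [Algebra K Ω] [Field FΩ] [Algebra Ω FΩ] [Algebra F FΩ] [Algebra K FΩ] [IsScalarTower K F FΩ]
  [IsScalarTower K Ω FΩ] (P : KPl K Ω)

variable (F FΩ) in
/-- the map `O ⊗ F → FΩ` -/
def KPl.gm : P.alg ⊗[K] F →ₐ[K] FΩ := (bcMap K F Ω FΩ).comp (P.inc F)

theorem KPl.gm_apply (a : P.alg ⊗[K] F) : P.gm F FΩ a = bcMap K F Ω FΩ (P.inc F a) := rfl

theorem KPl.gm_tmul (a : P.alg) (f : F) :
    P.gm F FΩ (a ⊗ₜ f) = algebraMap Ω FΩ (a : Ω) * algebraMap F FΩ f := by
  rw [KPl.gm_apply, KPl.inc_tmul, bcMap_tmul]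

theorem KPl.gm_injective (h : IsBC K F Ω FΩ) : Function.Injective (P.gm F FΩ) :=
  h.inj.comp P.inc_injective

theorem bcMap_tmul_one_mul (ω : Ω) (x : Ω ⊗[K] F) :
    bcMap K F Ω FΩ ((ω ⊗ₜ[K] (1 : F)) * x) = algebraMap Ω FΩ ω * bcMap K F Ω FΩ x := by
  rw [map_mul, bcMap_tmul, map_one, mul_one]

variable (F FΩ) in
/-- membership in the Gauss valuation ring -/
def KPl.InV (t : FΩ) : Prop :=
  ∃ a b : P.alg ⊗[K] F, P.rd F b ≠ 0 ∧ t * P.gm F FΩ b = P.gm F FΩ a

/-- Gauss scaling in `FΩ`. -/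
theorem KPl.exists_scale' (h : IsBC K F Ω FΩ) (t : FΩ) (ht : t ≠ 0) :
    ∃ c : Ω, c ≠ 0 ∧ ∃ x' y' : P.alg ⊗[K] F, P.rd F x' ≠ 0 ∧ P.rd F y' ≠ 0 ∧
      t * P.gm F FΩ y' = algebraMap Ω FΩ c * P.gm F FΩ x' := by
  obtain ⟨x, y, hy, hxy⟩ := h.frac t
  have hby : bcMap K F Ω FΩ y ≠ 0 := fun h0 => hy (h.inj (by rw [h0, map_zero]))
  have hx : x ≠ 0 := by
    rintro rfl
    rw [map_zero] at hxy
    exact (mul_ne_zero ht hby) hxy
  obtain ⟨ω, hω, x', hx', rfl⟩ := P.exists_scale x hx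
  obtain ⟨η, hη, y', hy', rfl⟩ := P.exists_scale y hy
  rw [bcMap_tmul_one_mul, bcMap_tmul_one_mul] at hxy
  have hη' : algebraMap Ω FΩ η ≠ 0 := (map_ne_zero (algebraMap Ω FΩ)).2 hη
  refine ⟨ω / η, div_ne_zero hω hη, x', y', hx', hy', ?_⟩
  rw [KPl.gm_apply, KPl.gm_apply, map_div₀]
  field_simp
  rw [← hxy]
  ring

theorem KPl.inV_zero : P.InV F FΩ (0 : FΩ) := ⟨0, 1, by rw [map_one]; exact one_ne_zero, by simp⟩

theorem KPl.inV_one : P.InV F FΩ (1 : FΩ) := ⟨1, 1, by rw [map_one]; exact one_ne_zero, by simp⟩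

theorem KPl.inV_mul {t t' : FΩ} (ht : P.InV F FΩ t) (ht' : P.InV F FΩ t') : P.InV F FΩ (t * t') := by
  obtain ⟨a, b, hb, hab⟩ := ht
  obtain ⟨a', b', hb', hab'⟩ := ht'
  refine ⟨a * a', b * b', by rw [map_mul]; exact mul_ne_zero hb hb', ?_⟩
  rw [map_mul, map_mul, ← hab, ← hab']
  ring

theorem KPl.inV_add {t t' : FΩ} (ht : P.InV F FΩ t) (ht' : P.InV F FΩ t') : P.InV F FΩ (t + t') := by
  obtain ⟨a, b, hb, hab⟩ := ht
  obtain ⟨a', b', hb', hab'⟩ := ht'
  refine ⟨a * b' + a' * b, b * b', by rw [map_mul]; exact mul_ne_zero hb hb', ?_⟩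
  rw [map_add, map_mul, map_mul, map_mul, ← hab, ← hab']
  ring

theorem KPl.inV_neg {t : FΩ} (ht : P.InV F FΩ t) : P.InV F FΩ (-t) := by
  obtain ⟨a, b, hb, hab⟩ := ht
  refine ⟨-a, b, hb, ?_⟩
  rw [map_neg, ← hab]
  ring

theorem KPl.inV_algebraMap_F (f : F) : P.InV F FΩ (algebraMap F FΩ f) := by
  refine ⟨1 ⊗ₜ f, 1, by rw [map_one]; exact one_ne_zero, ?_⟩
  rw [map_one, mul_one, KPl.gm_tmul]
  simp

theorem KPl.inV_algebraMap_O {ω : Ω} (hω : ω ∈ P.O) : P.InV F FΩ (algebraMap Ω FΩ ω) := by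
  refine ⟨(⟨ω, hω⟩ : P.alg) ⊗ₜ 1, 1, by rw [map_one]; exact one_ne_zero, ?_⟩
  rw [map_one, mul_one, KPl.gm_tmul]
  simp

/-- the Gauss valuation ring of `FΩ` over `O` -/
def KPl.gaussV (h : IsBC K F Ω FΩ) : ValuationSubring FΩ where
  carrier := {t | P.InV F FΩ t}
  mul_mem' := P.inV_mul
  one_mem' := P.inV_one
  add_mem' := P.inV_add
  zero_mem' := P.inV_zero
  neg_mem' := P.inV_neg
  mem_or_inv_mem' := by
    intro t
    by_cases ht : t = 0
    · left; rw [ht]; exact P.inV_zero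
    obtain ⟨c, hc, x', y', hx', hy', hxy⟩ := P.exists_scale' h t ht
    have hc' : algebraMap Ω FΩ c ≠ 0 := (map_ne_zero (algebraMap Ω FΩ)).2 hc
    rcases P.O.mem_or_inv_mem c with hcO | hcO
    · left
      refine ⟨((⟨c, hcO⟩ : P.alg) ⊗ₜ 1) * x', y', hy', ?_⟩
      rw [map_mul, KPl.gm_tmul, hxy]
      simp
    · right
      refine ⟨((⟨c⁻¹, hcO⟩ : P.alg) ⊗ₜ 1) * y', x', hx', ?_⟩
      rw [map_mul, KPl.gm_tmul]
      simp only [map_one, mul_one, map_inv₀]
      have h1 : P.gm F FΩ y' = t⁻¹ * (algebraMap Ω FΩ c * P.gm F FΩ x') := by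
        rw [← hxy, ← mul_assoc, inv_mul_cancel₀ ht, one_mul]
      rw [h1]
      field_simp

theorem KPl.mem_gaussV (h : IsBC K F Ω FΩ) (t : FΩ) : t ∈ P.gaussV h ↔ P.InV F FΩ t := Iff.rfl

/-- the reduction is well defined -/
theorem KPl.red_wd (h : IsBC K F Ω FΩ) {t : FΩ} {a b a' b' : P.alg ⊗[K] F}
    (hb : P.rd F b ≠ 0) (hab : t * P.gm F FΩ b = P.gm F FΩ a)
    (hb' : P.rd F b' ≠ 0) (hab' : t * P.gm F FΩ b' = P.gm F FΩ a') :
    P.rd F a / P.rd F b = P.rd F a' / P.rd F b' := by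
  have h1 : a * b' = a' * b := by
    apply P.gm_injective h
    rw [map_mul, map_mul, ← hab, ← hab']
    ring
  have h2 : P.rd F a * P.rd F b' = P.rd F a' * P.rd F b := by
    rw [← map_mul, ← map_mul, h1]
  rw [div_eq_div_iff hb hb', h2]

/-- the reduction, as a function -/
def KPl.redFun (h : IsBC K F Ω FΩ) (t : P.gaussV h) : F :=
  P.rd F (t.2 : P.InV F FΩ t.1).choose / P.rd F (t.2 : P.InV F FΩ t.1).choose_spec.choose

theorem KPl.redFun_eq (h : IsBC K F Ω FΩ) (t : P.gaussV h) {a b : P.alg ⊗[K] F}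
    (hb : P.rd F b ≠ 0) (hab : (t : FΩ) * P.gm F FΩ b = P.gm F FΩ a) :
    P.redFun h t = P.rd F a / P.rd F b :=
  P.red_wd h (t.2 : P.InV F FΩ t.1).choose_spec.choose_spec.1
    (t.2 : P.InV F FΩ t.1).choose_spec.choose_spec.2 hb hab

/-- the reduction map of the Gauss valuation ring -/
def KPl.red (h : IsBC K F Ω FΩ) : P.gaussV h →+* F where
  toFun := P.redFun h
  map_one' := by
    rw [P.redFun_eq h 1 (a := 1) (b := 1) (by rw [map_one]; exact one_ne_zero) (by simp)]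
    simp
  map_zero' := by
    rw [P.redFun_eq h 0 (a := 0) (b := 1) (by rw [map_one]; exact one_ne_zero) (by simp)]
    simp
  map_mul' t t' := by
    obtain ⟨a, b, hb, hab⟩ := (t.2 : P.InV F FΩ t.1)
    obtain ⟨a', b', hb', hab'⟩ := (t'.2 : P.InV F FΩ t'.1)
    rw [P.redFun_eq h t hb hab, P.redFun_eq h t' hb' hab',
      P.redFun_eq h (t * t') (a := a * a') (b := b * b')
        (by rw [map_mul]; exact mul_ne_zero hb hb')
        (by
          rw [map_mul, map_mul, ← hab, ← hab']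
          push_cast
          ring)]
    rw [map_mul, map_mul]
    field_simp
  map_add' t t' := by
    obtain ⟨a, b, hb, hab⟩ := (t.2 : P.InV F FΩ t.1)
    obtain ⟨a', b', hb', hab'⟩ := (t'.2 : P.InV F FΩ t'.1)
    rw [P.redFun_eq h t hb hab, P.redFun_eq h t' hb' hab',
      P.redFun_eq h (t + t') (a := a * b' + a' * b) (b := b * b')
        (by rw [map_mul]; exact mul_ne_zero hb hb')
        (by
          rw [map_add, map_mul, map_mul, map_mul, ← hab, ← hab']
          push_cast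
          ring)]
    rw [map_add, map_mul, map_mul, map_mul]
    field_simp

theorem KPl.red_eq (h : IsBC K F Ω FΩ) (t : P.gaussV h) {a b : P.alg ⊗[K] F}
    (hb : P.rd F b ≠ 0) (hab : (t : FΩ) * P.gm F FΩ b = P.gm F FΩ a) :
    P.red h t = P.rd F a / P.rd F b :=
  P.redFun_eq h t hb hab

end Val

section Pack

open Fermat.Agent.S27.REDu Fermat.Agent.S27.REDu.H34

variable {K F Ω FΩ : Type u} [Field K] [IsAlgClosed K] [Field F] [Algebra K F] [Field Ω]
  [Algebra K Ω] [Field FΩ] [Algebra Ω FΩ] [Algebra F FΩ] [Algebra K FΩ] [IsScalarTower K F FΩ]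
  [IsScalarTower K Ω FΩ] (P : KPl K Ω)

theorem KPl.rd_ne_zero_imp (h : IsBC K F Ω FΩ) {b : P.alg ⊗[K] F} (hb : P.rd F b ≠ 0) : P.gm F FΩ b ≠ 0 := by
  intro h0
  apply hb
  have : b = 0 := P.gm_injective h (by rw [h0, map_zero])
  rw [this, map_zero]

theorem KPl.mem_O_of_inV (h : IsBC K F Ω FΩ) {ω : Ω} (hω : P.InV F FΩ (algebraMap Ω FΩ ω)) : ω ∈ P.O := by
  by_contra hno
  have hinv : ω⁻¹ ∈ P.O := (P.O.mem_or_inv_mem ω).resolve_left hno
  have hω0 : ω ≠ 0 := by
    rintro rfl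
    exact hno (zero_mem _)
  have hnu : ω⁻¹ ∈ P.O.nonunits := by
    rw [ValuationSubring.mem_nonunits_iff, map_inv₀]
    have h1 : ¬ P.O.valuation ω ≤ 1 := fun h1 => hno ((P.O.valuation_le_one_iff _).1 h1)
    have h2 : 1 < P.O.valuation ω := not_le.1 h1
    exact inv_lt_one_of_one_lt₀ h2
  obtain ⟨a, b, hb, hab⟩ := hω
  have hω' : algebraMap Ω FΩ ω ≠ 0 := (map_ne_zero (algebraMap Ω FΩ)).2 hω0
  have h1 : P.gm F FΩ b = P.gm F FΩ (((⟨ω⁻¹, hinv⟩ : P.alg) ⊗ₜ 1) * a) := by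
    rw [map_mul, KPl.gm_tmul, ← hab]
    simp only [map_one, mul_one, map_inv₀]
    field_simp
  have h2 := P.gm_injective h h1
  apply hb
  rw [h2, map_mul, KPl.rd_tmul, (P.res_eq_zero_iff ⟨ω⁻¹, hinv⟩).2 hnu, zero_smul, zero_mul]

theorem KPl.comap_gaussV (h : IsBC K F Ω FΩ) : (P.gaussV h).comap (algebraMap Ω FΩ) = P.O := by
  ext ω
  rw [ValuationSubring.mem_comap]
  exact ⟨fun hω => P.mem_O_of_inV h hω, fun hω => P.inV_algebraMap_O hω⟩

/-- the inclusion `V ∩ Ω → O` -/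
def KPl.toAlg (h : IsBC K F Ω FΩ) : ↥((P.gaussV h).comap (algebraMap Ω FΩ)) →+* P.alg where
  toFun a := ⟨(a : Ω), P.mem_O_of_inV h a.2⟩
  map_one' := rfl
  map_mul' _ _ := rfl
  map_zero' := rfl
  map_add' _ _ := rfl

theorem KPl.red_algebraMap_F (h : IsBC K F Ω FΩ) (f : F) :
    P.red h ⟨algebraMap F FΩ f, P.inV_algebraMap_F f⟩ = f := by
  rw [P.red_eq h _ (a := 1 ⊗ₜ f) (b := 1) (by rw [map_one]; exact one_ne_zero)
    (by rw [map_one, mul_one, KPl.gm_tmul]; simp)]
  rw [KPl.rd_tmul, map_one, map_one, one_smul, div_one]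

theorem KPl.red_algebraMap_O (h : IsBC K F Ω FΩ) {ω : Ω} (hω : ω ∈ P.O) (hV : algebraMap Ω FΩ ω ∈ P.gaussV h) :
    P.red h ⟨algebraMap Ω FΩ ω, hV⟩ = algebraMap K F (P.res ⟨ω, hω⟩) := by
  rw [P.red_eq h _ (a := (⟨ω, hω⟩ : P.alg) ⊗ₜ 1) (b := 1) (by rw [map_one]; exact one_ne_zero)
    (by rw [map_one, mul_one, KPl.gm_tmul]; simp)]
  rw [KPl.rd_tmul, map_one, div_one, Algebra.algebraMap_eq_smul_one]

/-- the reduction setting of the Gauss valuation ring -/
def KPl.redSetting (h : IsBC K F Ω FΩ) : RedSetting Ω FΩ K F where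
  V := P.gaussV h
  red := P.red h
  red_surj f := ⟨⟨algebraMap F FΩ f, P.inV_algebraMap_F f⟩, P.red_algebraMap_F h f⟩
  resO := P.res.toRingHom.comp (P.toAlg h)
  resO_surj c := by
    refine ⟨⟨algebraMap K Ω c, P.inV_algebraMap_O (P.hK c)⟩, ?_⟩
    show P.res (⟨algebraMap K Ω c, _⟩ : P.alg) = c
    exact P.res.commutes c
  red_algebraMap a := P.red_algebraMap_O h (P.mem_O_of_inV h a.2) a.2
  scale f hf := by
    obtain ⟨c, hc, x', y', hx', hy', hxy⟩ := P.exists_scale' h f hf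
    have hgx := P.rd_ne_zero_imp h hx'
    have hgy := P.rd_ne_zero_imp h hy'
    have hu : P.InV F FΩ (P.gm F FΩ x' / P.gm F FΩ y') :=
      ⟨x', y', hy', div_mul_cancel₀ _ hgy⟩
    have hu' : P.InV F FΩ (P.gm F FΩ y' / P.gm F FΩ x') :=
      ⟨y', x', hx', div_mul_cancel₀ _ hgx⟩
    refine ⟨c, hc, ⟨⟨_, hu⟩, ⟨_, hu'⟩, ?_, ?_⟩, ?_⟩
    · apply Subtype.ext
      show P.gm F FΩ x' / P.gm F FΩ y' * (P.gm F FΩ y' / P.gm F FΩ x') = 1
      field_simp
    · apply Subtype.ext
      show P.gm F FΩ y' / P.gm F FΩ x' * (P.gm F FΩ x' / P.gm F FΩ y') = 1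
      field_simp
    · show f = algebraMap Ω FΩ c * (P.gm F FΩ x' / P.gm F FΩ y')
      rw [← mul_div_assoc, ← hxy, mul_div_assoc, div_self hgy, mul_one]

/-- the constant reduction datum of the Gauss valuation ring -/
def KPl.constRed (h : IsBC K F Ω FΩ) : H6.ConstRed K F Ω FΩ where
  S := P.redSetting h
  mem := P.inV_algebraMap_F
  red_alg := P.red_algebraMap_F h

theorem KPl.constRed_O (h : IsBC K F Ω FΩ) : (P.constRed h).S.O = P.O := P.comap_gaussV h

end Pack

section Final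

variable (K F Ω : Type u) [Field K] [IsAlgClosed K] [Field F] [Algebra K F] [Field Ω]
  [Algebra K Ω]

/-- `Ω ⊗[K] F` is a domain (`K` algebraically closed). -/
theorem isDomain_tensor : IsDomain (Ω ⊗[K] F) := H13.isDomain_tensorProduct (K := K) Ω F

attribute [local instance] isDomain_tensor

/-- the function field of the constant curve: `Frac (Ω ⊗[K] F)` (a type synonym, carrying only
the algebra structures defined here) -/
def BCField : Type u := FractionRing (Ω ⊗[K] F)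

instance instFieldBCField : Field (BCField K F Ω) :=
  inferInstanceAs (Field (FractionRing (Ω ⊗[K] F)))

/-- the map `Ω ⊗[K] F → Frac (Ω ⊗[K] F)` -/
def toBC : Ω ⊗[K] F →+* BCField K F Ω :=
  algebraMap (Ω ⊗[K] F) (FractionRing (Ω ⊗[K] F))

theorem toBC_injective : Function.Injective (toBC K F Ω) :=
  IsFractionRing.injective (Ω ⊗[K] F) (FractionRing (Ω ⊗[K] F))

theorem toBC_surj (t : BCField K F Ω) :
    ∃ x y : Ω ⊗[K] F, y ≠ 0 ∧ t * toBC K F Ω y = toBC K F Ω x := by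
  obtain ⟨⟨x, y⟩, hxy⟩ := IsLocalization.surj (nonZeroDivisors (Ω ⊗[K] F))
    (S := FractionRing (Ω ⊗[K] F)) t
  exact ⟨x, y, nonZeroDivisors.coe_ne_zero y, hxy⟩

instance instAlgebraΩBCField : Algebra Ω (BCField K F Ω) :=
  ((toBC K F Ω).comp (Algebra.TensorProduct.includeLeftRingHom)).toAlgebra

instance instAlgebraFBCField : Algebra F (BCField K F Ω) :=
  ((toBC K F Ω).comp
    (Algebra.TensorProduct.includeRight : F →ₐ[K] Ω ⊗[K] F).toRingHom).toAlgebra

instance instAlgebraKBCField : Algebra K (BCField K F Ω) :=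
  ((toBC K F Ω).comp (algebraMap K (Ω ⊗[K] F))).toAlgebra

theorem algebraMap_Ω_BCField (ω : Ω) :
    algebraMap Ω (BCField K F Ω) ω = toBC K F Ω (ω ⊗ₜ 1) := rfl

theorem algebraMap_F_BCField (f : F) :
    algebraMap F (BCField K F Ω) f = toBC K F Ω (1 ⊗ₜ f) := rfl

theorem algebraMap_K_BCField (c : K) :
    algebraMap K (BCField K F Ω) c = toBC K F Ω (algebraMap K (Ω ⊗[K] F) c) := rfl

instance instTowerKFBCField : IsScalarTower K F (BCField K F Ω) :=
  IsScalarTower.of_algebraMap_eq (fun c => by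
    rw [algebraMap_K_BCField, algebraMap_F_BCField]
    congr 1
    exact ((Algebra.TensorProduct.includeRight : F →ₐ[K] Ω ⊗[K] F).commutes c).symm)

instance instTowerKΩBCField : IsScalarTower K Ω (BCField K F Ω) :=
  IsScalarTower.of_algebraMap_eq (fun c => by
    rw [algebraMap_K_BCField, algebraMap_Ω_BCField]
    congr 1)

theorem bcMap_BCField (x : Ω ⊗[K] F) : bcMap K F Ω (BCField K F Ω) x = toBC K F Ω x := by
  induction x using TensorProduct.induction_on with
  | zero => simp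
  | tmul ω f =>
    rw [bcMap_tmul, algebraMap_Ω_BCField, algebraMap_F_BCField, ← map_mul,
      Algebra.TensorProduct.tmul_mul_tmul, mul_one, one_mul]
  | add x y hx hy => rw [map_add, map_add, hx, hy]

/-- `Frac (Ω ⊗[K] F)` is a fraction field of `Ω ⊗[K] F`. -/
theorem isBC_BCField : IsBC K F Ω (BCField K F Ω) := by
  refine ⟨?_, ?_⟩
  · intro x y hxy
    rw [bcMap_BCField, bcMap_BCField] at hxy
    exact toBC_injective K F Ω hxy
  · intro t
    obtain ⟨x, y, hy, hxy⟩ := toBC_surj K F Ω t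
    exact ⟨x, y, hy, by rw [bcMap_BCField, bcMap_BCField]; exact hxy⟩

/-- **BC from BC-DEG.** -/
theorem stmt_BC_of (hdeg : Stmt_BC_Deg.{u}) : H6.Stmt_BC.{u} := by
  intro K F Ω _ _ _ _ _ _ _ hFF
  have hbc := isBC_BCField K F Ω
  obtain ⟨h1, h2⟩ := hdeg K F Ω (BCField K F Ω) hbc hFF
  refine ⟨BCField K F Ω, inferInstance, inferInstance, inferInstance, inferInstance,
    inferInstance, inferInstance, h1, h2, ?_⟩
  intro O hK hres
  exact ⟨(KPl.mk O hK hres).constRed hbc, (KPl.mk O hK hres).constRed_O hbc⟩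

end Final

end Fermat.Agent.S26.C.H30
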