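import Mathlib
import Fermat.Agent.S26.C.Defs
import Fermat.Agent.S26.T.H52_FFMap
import Fermat.Agent.S26.T.H55_OrdE
import Fermat.Agent.S26.T.H69_Coh

/-!
# S26, package (C), leaf WEILET (helper22)

`weil (pull φ D) z' = weil D (φ z')` for `φ` finite étale dominant, `D η = 1`.

* `isRegAt_genericPoint` : every function is regular at the generic point;
* `pullFun_eq_ffMap`     : for a dominant `φ`, `pullFun φ = ffMap φ`;
* `pull_eq_ffMap`        : for a dominant `φ` and `D η = 1`: `pull φ D y = ffMap φ (D (φ y))`;
* `stmt_WEILET`          : the leaf, from `T.H55.stmt_ORDE` and `T.H69.stmt_COH`.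
-/

set_option autoImplicit false

open CategoryTheory CategoryTheory.Limits AlgebraicGeometry NeronModelInfra GoodReductionJacobian

universe u

namespace Fermat.Agent.S26.C.H22

variable {X Y : Scheme.{u}} [IsIntegral X] [IsIntegral Y]

/-- The structure map of the local ring at `z` into the function field is the specialisation
map. -/
theorem algebraMap_stalk_apply (z : X) (a : X.presheaf.stalk z) :
    algebraMap (X.presheaf.stalk z) X.functionField a =
      X.presheaf.stalkSpecializes (genericPoint_specializes z) a := rfl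

/-- Every function is regular at a point which specialises to the generic point. -/
theorem isRegAt_of_specializes (x : X) (hx : x ⤳ genericPoint X) (h : X.functionField) :
    IsRegAt x h := by
  refine ⟨X.presheaf.stalkSpecializes hx h, ?_⟩
  rw [algebraMap_stalk_apply]
  erw [TopCat.Presheaf.stalkSpecializes_comp_apply]
  erw [TopCat.Presheaf.stalkSpecializes_refl]
  rfl

/-- For a dominant `φ`, `pullFun φ` is the map of function fields. -/
theorem pullFun_eq_ffMap (φ : Y ⟶ X) (hφ : T.IsDom φ) (h : X.functionField) :
    pullFun φ h = T.ffMap φ hφ h := by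
  have hr : IsRegAt (φ (genericPoint Y)) h := isRegAt_of_specializes _ hφ h
  unfold pullFun
  rw [dif_pos hr]
  have h1 := T.H52.ffMap_stalk φ hφ (genericPoint Y) hr.choose
  rw [hr.choose_spec] at h1
  rw [h1]
  refine ((algebraMap_stalk_apply (genericPoint Y) _).trans ?_).symm
  erw [TopCat.Presheaf.stalkSpecializes_refl]
  rfl

/-- For a dominant `φ` and `D` normalised at the generic point, `pull φ D` is the honest
pull-back of the local equations. -/
theorem pull_eq_ffMap (φ : Y ⟶ X) (hφ : T.IsDom φ) (D : X → X.functionField)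
    (hD : D (genericPoint X) = 1) (y : Y) :
    pull φ D y = T.ffMap φ hφ (D (φ y)) := by
  unfold pull
  rw [pullFun_eq_ffMap φ hφ, (T.H52.isDom_iff φ).1 hφ, hD, div_one]

/-- **WEILET**. -/
theorem stmt_WEILET : Stmt_WEILET.{u} := by
  intro X Y _ _ _ _ φ _ _ hφ hX hY D hD hD1 z' hz'
  have hz : Order.coheight (φ z') = 1 := (T.H69.stmt_COH φ hφ z').1 hz'
  unfold weil
  rw [pull_eq_ffMap φ hφ D hD1 z']
  exact T.H55.stmt_ORDE φ hφ hY hX z' hz' hz (D (φ z')) (hD.1 (φ z'))

end Fermat.Agent.S26.C.H22
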