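import Mathlib

/-!
# S26, crux (C), leaf NORM-ALG (helper42)

The algebra of the NORM push-down (helper49's route, in helper61's form, no `Σ e f`):

`L / F` a finite extension of fields, `O` an integrally closed domain with fraction field `F`
(in the application the discrete valuation ring `O_{A,P}` of a prime divisor `P` of `A`).
If `u ∈ L` and its inverse lie in every valuation subring of `L` containing `O`, then the norm
`N_{L/F} u` is a unit of `O`.  For a discrete valuation ring `O` it is enough to test the valuation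
subrings which DOMINATE `O` (all the others are `⊤`).

Application: `Ψ ∈ L = K(X)` with `div_X Ψ = s^* E`, `h ∈ F = K(A)` a local equation of `E` at `P`:
`u = Ψ / h` is a unit at every prime divisor of `X` over `P`, so `N Ψ = (unit of O_P) * h ^ [L:F]`
and `ord_P (N Ψ) = [L:F] * ord_P E`.

Mathlib only.
-/

set_option autoImplicit false

namespace Fermat.Agent.S26.C.H42

open Polynomial

section Integral

variable {O F L : Type*} [CommRing O] [Field F] [Field L] [Algebra O F] [Algebra F L]
  [Algebra O L] [IsScalarTower O F L]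

/-- Integrality over a subring all of whose elements come from `O` is integrality over `O`. -/
theorem isIntegral_of_subring {S : Subring L} (hS : ∀ c ∈ S, ∃ a : O, algebraMap O L a = c)
    {u : L} (h : IsIntegral S u) : IsIntegral O u := by
  obtain ⟨p, hp, hpu⟩ := h
  choose! g hg using hS
  refine ⟨X ^ p.natDegree + ∑ i : Fin p.natDegree, C (g (p.coeff i : L)) * X ^ (i : ℕ), ?_, ?_⟩
  · exact monic_X_pow_add (degree_sum_fin_lt _)
  · have hp' := hp.as_sum
    rw [hp'] at hpu
    simp only [eval₂_add, eval₂_pow, eval₂_X, eval₂_finsetSum, eval₂_mul, eval₂_C] at hpu ⊢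
    rw [Finset.sum_range] at hpu
    rw [← hpu]
    congr 1
    refine Finset.sum_congr rfl fun i _ => ?_
    rw [hg _ (p.coeff i).2]
    rfl

/-- An element of `L` which lies in every valuation subring of `L` containing (the image of) `O`
is integral over `O`. -/
theorem isIntegral_of_forall_mem (u : L)
    (hu : ∀ W : ValuationSubring L, (∀ a : O, algebraMap O L a ∈ W) → u ∈ W) :
    IsIntegral O u := by
  have h := iInf_valuationSubring_superset (K := L) (s := Set.range (algebraMap O L))
  have hu' : u ∈ (⨅ V : {V : ValuationSubring L // Set.range (algebraMap O L) ⊆ V.toSubring},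
      V.1.toSubring) := by
    rw [Subring.mem_iInf]
    rintro ⟨V, hV⟩
    exact hu V (fun a => hV ⟨a, rfl⟩)
  rw [h] at hu'
  have h1 : IsIntegral (Subring.closure (Set.range (algebraMap O L))) u := hu'
  refine isIntegral_of_subring (O := O) ?_ h1
  intro c hc
  have hcl : Subring.closure (Set.range (algebraMap O L)) = (algebraMap O L).range := by
    rw [← RingHom.coe_range, Subring.closure_eq]
  rw [hcl] at hc
  exact hc

variable [IsDomain O] [IsIntegrallyClosed O] [IsFractionRing O F]

omit [IsDomain O] in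
/-- The norm of an element integral over the integrally closed `O` lies in `O`. -/
theorem norm_mem_of_isIntegral {u : L} (hu : IsIntegral O u) :
    ∃ c : O, algebraMap O F c = Algebra.norm F u :=
  IsIntegrallyClosed.isIntegral_iff.mp (Algebra.isIntegral_norm F hu)

omit [IsDomain O] in
/-- **NORM-ALG, general form.** If `u` and `u⁻¹` lie in every valuation subring of `L` containing
`O`, then `N_{L/F} u` is a unit of `O`. -/
theorem norm_unit_of_forall_mem [FiniteDimensional F L] (u : L) (hu0 : u ≠ 0)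
    (hu : ∀ W : ValuationSubring L, (∀ a : O, algebraMap O L a ∈ W) → u ∈ W ∧ u⁻¹ ∈ W) :
    ∃ c : Oˣ, algebraMap O F (c : O) = Algebra.norm F u := by
  obtain ⟨c, hc⟩ := norm_mem_of_isIntegral (F := F)
    (isIntegral_of_forall_mem (O := O) u fun W hW => (hu W hW).1)
  obtain ⟨d, hd⟩ := norm_mem_of_isIntegral (F := F)
    (isIntegral_of_forall_mem (O := O) u⁻¹ fun W hW => (hu W hW).2)
  have hcd : c * d = 1 := by
    apply IsFractionRing.injective O F
    rw [map_mul, hc, hd, map_one, Algebra.norm_inv,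
      mul_inv_cancel₀ (Algebra.norm_ne_zero_iff.mpr hu0)]
  exact ⟨⟨c, d, hcd, by rw [mul_comm]; exact hcd⟩, hc⟩

end Integral

section DVR

variable {O F L : Type*} [CommRing O] [IsDomain O] [IsDiscreteValuationRing O]
  [Field F] [Field L] [Algebra O F] [IsFractionRing O F] [Algebra F L]
  [Algebra O L] [IsScalarTower O F L]

/-- A valuation subring of `L` containing `O` in which some nonunit of `O` becomes a unit
contains `F`. -/
theorem algebraMap_mem_of_inv_mem (W : ValuationSubring L) (hW : ∀ a : O, algebraMap O L a ∈ W)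
    {a : O} (ha : a ∈ IsLocalRing.maximalIdeal O) (ha0 : a ≠ 0) (hainv : (algebraMap O L a)⁻¹ ∈ W)
    (x : F) : algebraMap F L x ∈ W := by
  obtain ⟨ϖ, hϖ⟩ := IsDiscreteValuationRing.exists_irreducible O
  obtain ⟨b, s, rfl⟩ := IsLocalization.exists_mk'_eq (nonZeroDivisors O) x
  have hs0 : (s : O) ≠ 0 := nonZeroDivisors.ne_zero s.2
  obtain ⟨n, w, hw⟩ := IsDiscreteValuationRing.eq_unit_mul_pow_irreducible hs0 hϖ
  -- `ϖ ∣ a`
  have hϖa : ϖ ∣ a := by
    have : a ∈ Ideal.span {ϖ} := by
      rw [← (IsDiscreteValuationRing.irreducible_iff_uniformizer ϖ).mp hϖ]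
      exact ha
    exact Ideal.mem_span_singleton.mp this
  obtain ⟨a', rfl⟩ := hϖa
  -- `1 / s = w⁻¹ * a'^n / (ϖ a')^n`
  have hinj : ∀ c : O, c ≠ 0 → algebraMap O L c ≠ 0 := by
    intro c hc
    rw [IsScalarTower.algebraMap_apply O F L]
    exact (_root_.map_ne_zero _).mpr
      ((map_ne_zero_iff _ (IsFractionRing.injective O F)).mpr hc)
  have hϖL : algebraMap O L ϖ ≠ 0 := hinj _ hϖ.ne_zero
  have ha'L : algebraMap O L a' ≠ 0 := by
    refine hinj _ ?_
    rintro rfl
    exact ha0 (mul_zero _)
  have hsL : algebraMap O L (s : O) ≠ 0 := hinj _ hs0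
  have hwL : algebraMap O L ((w⁻¹ : Oˣ) : O) * algebraMap O L (w : O) = 1 := by
    rw [← map_mul, Units.inv_mul, map_one]
  have h1 : algebraMap F L (IsLocalization.mk' F b s) * algebraMap O L (s : O) =
      algebraMap O L b := by
    rw [IsScalarTower.algebraMap_apply O F L, ← map_mul, IsLocalization.mk'_spec,
      ← IsScalarTower.algebraMap_apply O F L]
  have hx : algebraMap F L (IsLocalization.mk' F b s) =
      algebraMap O L b * (algebraMap O L (s : O))⁻¹ := by
    rw [eq_mul_inv_iff_mul_eq₀ hsL]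
    exact h1
  have hS : (algebraMap O L (s : O))⁻¹ =
      algebraMap O L ((w⁻¹ : Oˣ) : O) * algebraMap O L a' ^ n *
        ((algebraMap O L (ϖ * a'))⁻¹) ^ n := by
    have hwu : algebraMap O L ((w⁻¹ : Oˣ) : O) = (algebraMap O L (w : O))⁻¹ :=
      eq_inv_of_mul_eq_one_left hwL
    have hwL0 : algebraMap O L (w : O) ≠ 0 := by
      intro h0
      rw [h0, mul_zero] at hwL
      exact zero_ne_one hwL
    rw [hw, hwu]
    simp only [map_mul, map_pow, mul_inv]
    have h2 : algebraMap O L a' ^ n * ((algebraMap O L a') ^ n)⁻¹ = 1 :=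
      mul_inv_cancel₀ (pow_ne_zero _ ha'L)
    calc ((algebraMap O L) ↑w)⁻¹ * ((algebraMap O L) ϖ ^ n)⁻¹
        = ((algebraMap O L) ↑w)⁻¹ * ((algebraMap O L) ϖ ^ n)⁻¹ *
            (algebraMap O L a' ^ n * ((algebraMap O L a') ^ n)⁻¹) := by rw [h2, mul_one]
      _ = _ := by ring
  rw [hx, hS]
  exact W.mul_mem _ _ (hW _)
    (W.mul_mem _ _ (W.mul_mem _ _ (hW _) (W.pow_mem (hW _) n)) (W.pow_mem hainv n))

/-- A valuation subring of `L` containing `F` is `⊤` when `L / F` is algebraic. -/
theorem eq_top_of_algebraMap_mem [Algebra.IsAlgebraic F L] (W : ValuationSubring L)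
    (hW : ∀ x : F, algebraMap F L x ∈ W) : W = ⊤ := by
  refine top_unique fun y _ => ?_
  have hy : IsIntegral F y := (Algebra.IsAlgebraic.isAlgebraic (R := F) y).isIntegral
  have hS : IsIntegral W.toSubring y := by
    obtain ⟨p, hp, hpy⟩ := hy
    refine ⟨p.map ((algebraMap F L).codRestrict W.toSubring hW), hp.map _, ?_⟩
    rw [eval₂_map]
    exact hpy
  have : IsIntegrallyClosedIn W.toSubring L := inferInstanceAs (IsIntegrallyClosedIn W L)
  exact (IsIntegrallyClosedIn.isIntegral_iff (R := W.toSubring) (A := L)).mp hS |>.choose_spec ▸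
    ((IsIntegrallyClosedIn.isIntegral_iff (R := W.toSubring) (A := L)).mp hS).choose.2

/-- **NORM-ALG, DVR form.** `O` a discrete valuation ring of `F`, `L / F` finite.  If `u` and
`u⁻¹` lie in every valuation subring `W` of `L` which DOMINATES `O` (contains `O`, and the nonunits
of `O` are nonunits of `W`), then `N_{L/F} u` is a unit of `O`. -/
theorem norm_unit_of_forall_dominating [FiniteDimensional F L] (u : L) (hu0 : u ≠ 0)
    (hu : ∀ W : ValuationSubring L, (∀ a : O, algebraMap O L a ∈ W) →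
      (∀ a : O, a ∈ IsLocalRing.maximalIdeal O → a ≠ 0 → (algebraMap O L a)⁻¹ ∉ W) →
      u ∈ W ∧ u⁻¹ ∈ W) :
    ∃ c : Oˣ, algebraMap O F (c : O) = Algebra.norm F u := by
  refine norm_unit_of_forall_mem (O := O) u hu0 fun W hW => ?_
  by_cases hdom : ∀ a : O, a ∈ IsLocalRing.maximalIdeal O → a ≠ 0 → (algebraMap O L a)⁻¹ ∉ W
  · exact hu W hW hdom
  · push Not at hdom
    obtain ⟨a, ha, ha0, hainv⟩ := hdom
    have htop : W = ⊤ :=
      eq_top_of_algebraMap_mem (F := F) W (algebraMap_mem_of_inv_mem W hW ha ha0 hainv)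
    rw [htop]
    exact ⟨trivial, trivial⟩

/-- **NORM-ALG, the form used by NORM.** `Ψ ∈ L`, `h ∈ F` nonzero, and `Ψ / h` a unit in every
valuation subring of `L` dominating the discrete valuation ring `O` of `F`:
then `N_{L/F} Ψ = c * h ^ [L:F]` with `c` a unit of `O`. -/
theorem norm_eq_unit_mul_pow [FiniteDimensional F L] (Ψ : L) (h : F) (hΨ : Ψ ≠ 0) (hh : h ≠ 0)
    (hu : ∀ W : ValuationSubring L, (∀ a : O, algebraMap O L a ∈ W) →
      (∀ a : O, a ∈ IsLocalRing.maximalIdeal O → a ≠ 0 → (algebraMap O L a)⁻¹ ∉ W) →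
      Ψ * (algebraMap F L h)⁻¹ ∈ W ∧ algebraMap F L h * Ψ⁻¹ ∈ W) :
    ∃ c : Oˣ, Algebra.norm F Ψ = algebraMap O F (c : O) * h ^ Module.finrank F L := by
  have hhL : algebraMap F L h ≠ 0 := (_root_.map_ne_zero _).mpr hh
  obtain ⟨c, hc⟩ := norm_unit_of_forall_dominating (O := O) (F := F)
    (Ψ * (algebraMap F L h)⁻¹) (mul_ne_zero hΨ (inv_ne_zero hhL)) fun W hW hdom => by
      refine ⟨(hu W hW hdom).1, ?_⟩
      have := (hu W hW hdom).2
      rwa [mul_inv, inv_inv, mul_comm]
  refine ⟨c, ?_⟩
  rw [hc, map_mul, Algebra.norm_inv, Algebra.norm_algebraMap, inv_mul_cancel_right₀]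
  exact pow_ne_zero _ hh

/-- Valuation form: `ord_O (N Ψ) = ord_O (h) ^ [L:F]` (multiplicative notation of
`Ring.ordFrac`). -/
theorem ordFrac_norm [FiniteDimensional F L] (Ψ : L) (h : F) (hΨ : Ψ ≠ 0) (hh : h ≠ 0)
    (hu : ∀ W : ValuationSubring L, (∀ a : O, algebraMap O L a ∈ W) →
      (∀ a : O, a ∈ IsLocalRing.maximalIdeal O → a ≠ 0 → (algebraMap O L a)⁻¹ ∉ W) →
      Ψ * (algebraMap F L h)⁻¹ ∈ W ∧ algebraMap F L h * Ψ⁻¹ ∈ W) :
    Ring.ordFrac O (Algebra.norm F Ψ) = Ring.ordFrac O h ^ Module.finrank F L := by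
  obtain ⟨c, hc⟩ := norm_eq_unit_mul_pow (O := O) Ψ h hΨ hh hu
  rw [hc, map_mul, map_pow, Ring.ordFrac_of_isUnit c.isUnit, one_mul]

end DVR

section SchemeForm

open AlgebraicGeometry

universe u

/-- **NORM-ALG in the language of `Scheme.ord`.** `z` a point of codimension one of the integral
locally noetherian scheme `X` whose stalk is a discrete valuation ring, `L` a finite extension of
`K(X)`, `Ψ ∈ L`, `h ∈ K(X)` nonzero with `Ψ / h` a unit in every valuation subring of `L`
dominating `O_{X,z}`.  Then `ord_z (N_{L/K(X)} Ψ) = [L : K(X)] * ord_z h`. -/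
theorem ord_norm {X : Scheme.{u}} [IsIntegral X] [IsLocallyNoetherian X] (z : X)
    (hz : Order.coheight z = 1) [IsDiscreteValuationRing (X.presheaf.stalk z)]
    {L : Type*} [Field L] [Algebra X.functionField L] [FiniteDimensional X.functionField L]
    (Ψ : L) (h : X.functionField) (hΨ : Ψ ≠ 0) (hh : h ≠ 0)
    (hu : ∀ W : ValuationSubring L,
      (∀ a : X.presheaf.stalk z,
        algebraMap X.functionField L (algebraMap (X.presheaf.stalk z) X.functionField a) ∈ W) →
      (∀ a : X.presheaf.stalk z, a ∈ IsLocalRing.maximalIdeal (X.presheaf.stalk z) → a ≠ 0 →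
        (algebraMap X.functionField L
          (algebraMap (X.presheaf.stalk z) X.functionField a))⁻¹ ∉ W) →
      Ψ * (algebraMap X.functionField L h)⁻¹ ∈ W ∧ algebraMap X.functionField L h * Ψ⁻¹ ∈ W) :
    Scheme.ord (Algebra.norm X.functionField Ψ) z =
      (Module.finrank X.functionField L : ℤ) * Scheme.ord h z := by
  letI : Algebra (X.presheaf.stalk z) L :=
    ((algebraMap X.functionField L).comp
      (algebraMap (X.presheaf.stalk z) X.functionField)).toAlgebra
  haveI : IsScalarTower (X.presheaf.stalk z) X.functionField L :=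
    IsScalarTower.of_algebraMap_eq fun _ => rfl
  have hN : Algebra.norm X.functionField Ψ ≠ 0 := Algebra.norm_ne_zero_iff.mpr hΨ
  have key := ordFrac_norm (O := X.presheaf.stalk z) (F := X.functionField) Ψ h hΨ hh hu
  rw [Scheme.ord_eq_iff hz hN]
  have hh' : Scheme.ordHom z hz h = Multiplicative.ofAdd (Scheme.ord h z) :=
    (Scheme.ord_eq_iff hz hh).mp rfl
  show Ring.ordFrac (X.presheaf.stalk z) (Algebra.norm X.functionField Ψ) = _
  rw [key]
  change (Scheme.ordHom z hz h) ^ _ = _
  rw [hh', ← WithZero.coe_pow, ← ofAdd_nsmul, nsmul_eq_mul]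

end SchemeForm

end Fermat.Agent.S26.C.H42
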