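import Mathlib
import Fermat.Agent.S26.C.PCore
import Fermat.Agent.S26.C.H42_NormAlg
import Fermat.Agent.S26.H39_Nor

/-!
# S26 (C): `Stmt_CORE_of_PCORE` (helper42)

`PULLC → WEILPR → PCORE → CORE`: the place form of the cube side gives `k ([n]^* D - n² D) ∼ 0`
with `k = [F : K(A)]`, by the norm (`H42.ord_norm`), normality (`H39.stmt_NOR`) and `WEILPR`.
-/

set_option autoImplicit false

open CategoryTheory CategoryTheory.Limits AlgebraicGeometry NeronModelInfra GoodReductionJacobian

universe u

namespace Fermat.Agent.S26.C.H42c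

section Lang

variable {X : Scheme.{u}} [IsIntegral X]

/-- units at a point are closed under products -/
lemma isUnitAt_mul' {x : X} {a b : X.functionField} (ha : IsUnitAt x a) (hb : IsUnitAt x b) :
    IsUnitAt x (a * b) := by
  obtain ⟨a', ha', rfl⟩ := ha
  obtain ⟨b', hb', rfl⟩ := hb
  exact ⟨a' * b', ha'.mul hb', map_mul _ _ _⟩

/-- units at a point are closed under inverses -/
lemma isUnitAt_inv' {x : X} {a : X.functionField} (ha : IsUnitAt x a) : IsUnitAt x a⁻¹ := by
  obtain ⟨a', ha', rfl⟩ := ha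
  obtain ⟨u, rfl⟩ := ha'
  refine ⟨((u⁻¹ : (X.presheaf.stalk x)ˣ) : X.presheaf.stalk x), Units.isUnit _, ?_⟩
  have h1 : algebraMap (X.presheaf.stalk x) X.functionField ((u⁻¹ : (X.presheaf.stalk x)ˣ) :
      X.presheaf.stalk x) * algebraMap (X.presheaf.stalk x) X.functionField (u : X.presheaf.stalk x)
      = 1 := by
    rw [← map_mul, Units.inv_mul, map_one]
  exact eq_inv_of_mul_eq_one_left h1

/-- units at a point are closed under powers -/
lemma isUnitAt_pow' {x : X} {a : X.functionField} (ha : IsUnitAt x a) (m : ℕ) :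
    IsUnitAt x (a ^ m) := by
  obtain ⟨a', ha', rfl⟩ := ha
  exact ⟨a' ^ m, ha'.pow m, map_pow _ _ _⟩

/-- powers of Cartier divisors -/
lemma isCartier_pow {D : X → X.functionField} (hD : IsCartier D) (m : ℕ) : IsCartier (D ^ m) := by
  refine ⟨fun x => pow_ne_zero _ (hD.1 x), fun x => ?_⟩
  obtain ⟨W, hxW, hW⟩ := hD.2 x
  refine ⟨W, hxW, fun y hy => ?_⟩
  have : (D ^ m) x / (D ^ m) y = (D x / D y) ^ m := by
    simp only [Pi.pow_apply, div_pow]
  rw [this]
  exact isUnitAt_pow' (hW y hy) m

/-- quotients of Cartier divisors -/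
lemma isCartier_div {D D' : X → X.functionField} (hD : IsCartier D) (hD' : IsCartier D') :
    IsCartier (D / D') := by
  refine ⟨fun x => div_ne_zero (hD.1 x) (hD'.1 x), fun x => ?_⟩
  obtain ⟨W, hxW, hW⟩ := hD.2 x
  obtain ⟨W', hxW', hW'⟩ := hD'.2 x
  refine ⟨W ⊓ W', ⟨hxW, hxW'⟩, fun y hy => ?_⟩
  have : (D / D') x / (D / D') y = (D x / D y) * (D' x / D' y)⁻¹ := by
    simp only [Pi.div_apply]
    have h1 := hD.1 x
    have h2 := hD.1 y
    have h3 := hD'.1 x
    have h4 := hD'.1 y
    field_simp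
  rw [this]
  exact isUnitAt_mul' (hW y hy.1) (isUnitAt_inv' (hW' y hy.2))

variable [IsLocallyNoetherian X]

/-- `ord (h ^ m) = m * ord h` -/
lemma ord_pow' (z : X) {h : X.functionField} (hh : h ≠ 0) (m : ℕ) :
    Scheme.ord (h ^ m) z = (m : ℤ) * Scheme.ord h z := by
  induction m with
  | zero =>
    have h1 : Scheme.ord ((1 : X.functionField) * 1) z =
        Scheme.ord (1 : X.functionField) z + Scheme.ord (1 : X.functionField) z :=
      Scheme.ord_mul one_ne_zero one_ne_zero
    rw [mul_one] at h1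
    simp only [pow_zero, Nat.cast_zero, zero_mul]
    omega
  | succ m ih =>
    rw [pow_succ, Scheme.ord_mul (pow_ne_zero _ hh) hh, ih]
    push_cast
    ring

end Lang

/-- the pointwise form of the quotient -/
lemma quot_apply {X : Scheme.{u}} [IsIntegral X] (P D : X → X.functionField) (m : ℕ) (z : X) :
    (P / D ^ m) z = P z / D z ^ m := rfl

/-- the pointwise form of the power -/
lemma pow_apply' {X : Scheme.{u}} [IsIntegral X] (E : X → X.functionField) (m : ℕ) (z : X) :
    (E ^ m) z = E z ^ m := rfl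

/-- The principal step, for a general system `E`. -/
theorem principal_of_places {A : Scheme.{u}} [IsIntegral A] [IsLocallyNoetherian A]
    (hWEILPR : Stmt_WEILPR.{u}) (hnor : T.IsNor A)
    (E : A → A.functionField) (hEC : IsCartier E)
    (F : Type u) [Field F] [Algebra A.functionField F] [FiniteDimensional A.functionField F]
    (Ψ : F) (hΨ : Ψ ≠ 0)
    (hW : ∀ z : A, Order.coheight z = 1 → ∀ W : ValuationSubring F, Dominates W z →
      Ψ * (algebraMap A.functionField F (E z))⁻¹ ∈ W ∧
        algebraMap A.functionField F (E z) * Ψ⁻¹ ∈ W) :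
    IsPrincipalDiv (E ^ Module.finrank A.functionField F) := by
  have hEk := isCartier_pow hEC (Module.finrank A.functionField F)
  have hN : Algebra.norm A.functionField Ψ ≠ 0 := Algebra.norm_ne_zero_iff.mpr hΨ
  refine ⟨Algebra.norm A.functionField Ψ, hN, ?_⟩
  refine (hWEILPR hnor _ hEk _ hN).mpr ?_
  intro z hz
  have hdvr : IsDiscreteValuationRing (A.presheaf.stalk z) := (hnor z).2 hz
  have key : Scheme.ord (Algebra.norm A.functionField Ψ) z =
      (Module.finrank A.functionField F : ℤ) * Scheme.ord (E z) z :=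
    H42.ord_norm z hz Ψ (E z) hΨ (hEC.1 z) (fun W h1 h2 => hW z hz W ⟨h1, h2⟩)
  rw [key]
  have h2 : weil (E ^ Module.finrank A.functionField F) z =
      Scheme.ord (E z ^ Module.finrank A.functionField F) z := rfl
  rw [h2, ord_pow' z (hEC.1 z)]

/-- **CORE from PCORE.** -/
theorem stmt_CORE_of_PCORE : Stmt_CORE_of_PCORE.{u} := by
  intro hPULLC hWEILPR hP K _ _ A f L hc hA g _ _ _ D hD hsym n hn
  obtain ⟨F, instF, instAlg, instFin, Ψ, hΨ, hW⟩ := hP K f L hc hA g D hD hsym n hn
  have hnor : T.IsNor A := fun z => H39.stmt_NOR K f L hA z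
  have hEC : IsCartier (pull (L.schemeNsmul n) D / D ^ (n ^ 2)) :=
    isCartier_div (hPULLC _ D hD) (isCartier_pow hD _)
  have hk : 0 < Module.finrank A.functionField F := Module.finrank_pos
  exact ⟨Module.finrank A.functionField F, hk,
    principal_of_places hWEILPR hnor _ hEC F Ψ hΨ hW⟩

end Fermat.Agent.S26.C.H42c
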