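import Mathlib
import Fermat.Agent.S26.C.Defs

/-!
# S26, package (C), bridge LOC-EQ: generisations of a point and primes of its local ring

For `z ⤳ x` in a scheme `X`:

* `primeOf h` : the prime of `𝒪_{X,x}` of the generisation `z`;
* `isLocalization_stalk` : `𝒪_{X,z}` is the localisation of `𝒪_{X,x}` at `primeOf h`;
* `height_primeOf` : its height is `coheight z`;
* `fromSpecStalk_primeOf`, `primeOf_injective` : `z` is determined by its prime;
* `exists_specializes_primeOf_eq` : every prime of `𝒪_{X,x}` is the prime of a generisation;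
* `ord_algebraMap_*` : the order at `z` of an element of `𝒪_{X,x}`;
* `exists_gen` : (UFD) the prime of a generisation of codimension one is generated by a prime
  element `π`, `ord_z π = 1`, `ord_{z'} π = 0` for the other generisations `z'` of codimension one;
* `isUnitAt_of_ord_eq_zero` : (UFD) a function of order `0` at all generisations of codimension
  one of `y` is a unit at `y`.
-/

set_option autoImplicit false

open CategoryTheory CategoryTheory.Limits AlgebraicGeometry TopologicalSpace

universe u

namespace Fermat.Agent.S26.C.H55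

variable {X : Scheme.{u}}

section Prime

/-- The specialisation map `𝒪_{X,x} → 𝒪_{X,z}` for `z ⤳ x`. -/
noncomputable abbrev spz {x z : X} (h : z ⤳ x) : X.presheaf.stalk x →+* X.presheaf.stalk z :=
  (X.presheaf.stalkSpecializes h).hom

/-- The prime of `𝒪_{X,x}` of a generisation `z` of `x`. -/
noncomputable def primeOf {x z : X} (h : z ⤳ x) : Ideal (X.presheaf.stalk x) :=
  (IsLocalRing.maximalIdeal (X.presheaf.stalk z)).comap (spz h)

instance primeOf_isPrime {x z : X} (h : z ⤳ x) : (primeOf h).IsPrime :=
  Ideal.comap_isPrime _ _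

theorem mem_primeOf {x z : X} (h : z ⤳ x) (a : X.presheaf.stalk x) :
    a ∈ primeOf h ↔ ¬ IsUnit (spz h a) := by
  rw [primeOf, Ideal.mem_comap, IsLocalRing.mem_maximalIdeal, mem_nonunits_iff]

/-- `𝒪_{X,z}` is the localisation of `𝒪_{X,x}` at the prime of `z`. -/
theorem isLocalization_stalk {x z : X} (h : z ⤳ x) :
    letI : Algebra (X.presheaf.stalk x) (X.presheaf.stalk z) := (spz h).toAlgebra
    IsLocalization.AtPrime (X.presheaf.stalk z) (primeOf h) := by
  letI : Algebra (X.presheaf.stalk x) (X.presheaf.stalk z) := (spz h).toAlgebra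
  obtain ⟨U, hU, hxU, -⟩ := exists_isAffineOpen_mem_and_subset (x := x) (U := ⊤) trivial
  have hzU : z ∈ U := h.mem_open U.2 hxU
  haveI locx := hU.isLocalization_stalk ⟨x, hxU⟩
  haveI locz := hU.isLocalization_stalk ⟨z, hzU⟩
  letI algx : Algebra Γ(X, U) (X.presheaf.stalk x) :=
    TopCat.Presheaf.algebra_section_stalk X.presheaf ⟨x, hxU⟩
  letI algz : Algebra Γ(X, U) (X.presheaf.stalk z) :=
    TopCat.Presheaf.algebra_section_stalk X.presheaf ⟨z, hzU⟩
  haveI : IsScalarTower Γ(X, U) (X.presheaf.stalk x) (X.presheaf.stalk z) := by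
    refine IsScalarTower.of_algebraMap_eq' ?_
    have h1 := TopCat.Presheaf.germ_stalkSpecializes X.presheaf hxU h
    have h2 := congrArg CommRingCat.Hom.hom h1
    rw [CommRingCat.hom_comp] at h2
    exact h2.symm
  have hle : (hU.primeIdealOf ⟨x, hxU⟩).asIdeal.primeCompl ≤
      (hU.primeIdealOf ⟨z, hzU⟩).asIdeal.primeCompl := by
    intro s hs
    have h1 : IsUnit (algebraMap Γ(X, U) (X.presheaf.stalk x) s) :=
      (IsLocalization.AtPrime.isUnit_to_map_iff (X.presheaf.stalk x)
        (hU.primeIdealOf ⟨x, hxU⟩).asIdeal s).2 hs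
    have h2 : IsUnit (algebraMap Γ(X, U) (X.presheaf.stalk z) s) := by
      rw [IsScalarTower.algebraMap_apply Γ(X, U) (X.presheaf.stalk x) (X.presheaf.stalk z)]
      exact h1.map _
    exact (IsLocalization.AtPrime.isUnit_to_map_iff (X.presheaf.stalk z)
      (hU.primeIdealOf ⟨z, hzU⟩).asIdeal s).1 h2
  haveI hloc : IsLocalization
      (((hU.primeIdealOf ⟨z, hzU⟩).asIdeal.primeCompl).map
        (algebraMap Γ(X, U) (X.presheaf.stalk x))) (X.presheaf.stalk z) :=
    IsLocalization.isLocalization_of_submonoid_le (X.presheaf.stalk x) (X.presheaf.stalk z)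
      (hU.primeIdealOf ⟨x, hxU⟩).asIdeal.primeCompl
      (hU.primeIdealOf ⟨z, hzU⟩).asIdeal.primeCompl hle
  refine IsLocalization.of_le
    (((hU.primeIdealOf ⟨z, hzU⟩).asIdeal.primeCompl).map
      (algebraMap Γ(X, U) (X.presheaf.stalk x))) (primeOf h).primeCompl ?_ ?_
  · rintro _ ⟨s, hs, rfl⟩
    change _ ∉ primeOf h
    rw [mem_primeOf, not_not]
    have h2 : IsUnit (algebraMap Γ(X, U) (X.presheaf.stalk z) s) :=
      (IsLocalization.AtPrime.isUnit_to_map_iff (X.presheaf.stalk z)
        (hU.primeIdealOf ⟨z, hzU⟩).asIdeal s).2 hs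
    rwa [IsScalarTower.algebraMap_apply Γ(X, U) (X.presheaf.stalk x) (X.presheaf.stalk z)] at h2
  · intro r hr
    have : ¬ r ∈ primeOf h := hr
    rw [mem_primeOf, not_not] at this
    exact this

/-- The height of the prime of `z` is the codimension of `z`. -/
theorem height_primeOf {x z : X} (h : z ⤳ x) :
    ((primeOf h).height : WithBot ℕ∞) = Order.coheight z := by
  letI : Algebra (X.presheaf.stalk x) (X.presheaf.stalk z) := (spz h).toAlgebra
  haveI := isLocalization_stalk h
  rw [← IsLocalization.AtPrime.ringKrullDim_eq_height (primeOf h) (X.presheaf.stalk z),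
    ringKrullDim_stalk_eq_coheight]

theorem height_primeOf_eq_one {x z : X} (h : z ⤳ x) (hz : Order.coheight z = 1) :
    (primeOf h).height = 1 := by
  have := height_primeOf h
  rw [hz] at this
  exact_mod_cast this

/-- The maximal ideal of `𝒪_{X,z}` is generated by the prime of `z`. -/
theorem map_primeOf {x z : X} (h : z ⤳ x) :
    (primeOf h).map (spz h) = IsLocalRing.maximalIdeal (X.presheaf.stalk z) := by
  letI : Algebra (X.presheaf.stalk x) (X.presheaf.stalk z) := (spz h).toAlgebra
  haveI := isLocalization_stalk h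
  exact IsLocalization.AtPrime.map_eq_maximalIdeal (primeOf h) (X.presheaf.stalk z)

/-- `z` is the image of its prime under `Spec 𝒪_{X,x} ⟶ X`. -/
theorem fromSpecStalk_primeOf {x z : X} (h : z ⤳ x) :
    X.fromSpecStalk x ⟨primeOf h, inferInstance⟩ = z := by
  have h1 := Scheme.SpecMap_stalkSpecializes_fromSpecStalk h
  have h2 := congrArg (fun φ => φ (IsLocalRing.closedPoint (X.presheaf.stalk z))) h1
  simp only [Scheme.Hom.comp_apply, Scheme.fromSpecStalk_closedPoint] at h2
  refine Eq.trans (congrArg _ ?_) h2
  exact PrimeSpectrum.ext rfl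

/-- A generisation is determined by its prime. -/
theorem eq_of_primeOf_eq {x z z' : X} (h : z ⤳ x) (h' : z' ⤳ x)
    (he : primeOf h = primeOf h') : z = z' := by
  rw [← fromSpecStalk_primeOf h, ← fromSpecStalk_primeOf h']
  congr 1
  exact PrimeSpectrum.ext he

/-- Every prime of `𝒪_{X,x}` is the prime of a generisation of `x`. -/
theorem exists_specializes_primeOf_eq (x : X) (P : Ideal (X.presheaf.stalk x)) [hP : P.IsPrime] :
    ∃ (z : X) (h : z ⤳ x), primeOf h = P := by
  have hz : X.fromSpecStalk x ⟨P, hP⟩ ⤳ x := by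
    have : X.fromSpecStalk x ⟨P, hP⟩ ∈ Set.range (X.fromSpecStalk x) := ⟨_, rfl⟩
    rw [Scheme.range_fromSpecStalk] at this
    exact this
  refine ⟨_, hz, ?_⟩
  have h1 := fromSpecStalk_primeOf hz
  have hinj : Function.Injective (X.fromSpecStalk x) :=
    (X.fromSpecStalk x).isEmbedding.injective
  have := hinj h1
  exact congrArg PrimeSpectrum.asIdeal this

end Prime

section Ord

variable [IsIntegral X] [IsLocallyNoetherian X]

/-- The inclusions of the local rings in the function field are compatible with
specialisation. -/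
theorem algebraMap_spz {x z : X} (h : z ⤳ x) (a : X.presheaf.stalk x) :
    algebraMap (X.presheaf.stalk z) X.functionField (spz h a) =
      algebraMap (X.presheaf.stalk x) X.functionField a := by
  have h1 : X.presheaf.stalkSpecializes h ≫
      X.presheaf.stalkSpecializes ((genericPoint_spec X).specializes trivial) =
      X.presheaf.stalkSpecializes ((genericPoint_spec X).specializes trivial) :=
    TopCat.Presheaf.stalkSpecializes_comp _ _ _
  exact DFunLike.congr_fun (CommRingCat.hom_ext_iff.mp h1) a

/-- The order homomorphism at `z` on the local ring at `x`. -/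
theorem ordHom_algebraMap {x z : X} (h : z ⤳ x) (hz : Order.coheight z = 1)
    (a : X.presheaf.stalk x) :
    X.ordHom z hz (algebraMap (X.presheaf.stalk x) X.functionField a) =
      haveI : Ring.KrullDimLE 1 (X.presheaf.stalk z) := krullDimLE_of_coheight_le hz.le
      Ring.ordFrac (X.presheaf.stalk z)
        (algebraMap (X.presheaf.stalk z) X.functionField (spz h a)) := by
  rw [algebraMap_spz]
  rfl

/-- An element outside the prime of `z` has order `0` at `z`. -/
theorem ordHom_algebraMap_of_not_mem {x z : X} (h : z ⤳ x) (hz : Order.coheight z = 1)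
    {a : X.presheaf.stalk x} (ha : a ∉ primeOf h) :
    X.ordHom z hz (algebraMap (X.presheaf.stalk x) X.functionField a) = 1 := by
  haveI : Ring.KrullDimLE 1 (X.presheaf.stalk z) := krullDimLE_of_coheight_le hz.le
  rw [mem_primeOf, not_not] at ha
  rw [ordHom_algebraMap h hz]
  exact Ring.ordFrac_of_isUnit ha

/-- An element of order `0` at `z` is outside the prime of `z`. -/
theorem not_mem_primeOf_of_ordHom {x z : X} (h : z ⤳ x) (hz : Order.coheight z = 1)
    (hD : IsDiscreteValuationRing (X.presheaf.stalk z))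
    {a : X.presheaf.stalk x}
    (ha : X.ordHom z hz (algebraMap (X.presheaf.stalk x) X.functionField a) = 1) :
    a ∉ primeOf h := by
  rw [mem_primeOf, not_not]
  rw [ordHom_algebraMap h hz] at ha
  exact Ring.isUnit_iff_ordFrac_one_of_isDiscreteValuationRing.mpr ha

/-- A generator of the prime of `z` has order `1` at `z`. -/
theorem ordHom_algebraMap_of_span {x z : X} (h : z ⤳ x) (hz : Order.coheight z = 1)
    (hD : IsDiscreteValuationRing (X.presheaf.stalk z))
    {a : X.presheaf.stalk x} (ha : primeOf h = Ideal.span {a}) :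
    X.ordHom z hz (algebraMap (X.presheaf.stalk x) X.functionField a) = WithZero.exp 1 := by
  rw [ordHom_algebraMap h hz]
  have hirr : Irreducible (spz h a) := by
    rw [IsDiscreteValuationRing.irreducible_iff_uniformizer, ← map_primeOf h, ha, Ideal.map_span,
      Set.image_singleton]
  exact Ring.ordFrac_irreducible hirr

/-- (UFD) The prime of a generisation of codimension one is principal. -/
theorem exists_gen {x z : X} (h : z ⤳ x) (hz : Order.coheight z = 1)
    [UniqueFactorizationMonoid (X.presheaf.stalk x)] :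
    ∃ π : X.presheaf.stalk x, π ≠ 0 ∧ primeOf h = Ideal.span {π} := by
  have h1 : (primeOf h).height = 1 := height_primeOf_eq_one h hz
  have hpr : (primeOf h).IsPrincipal := UniqueFactorizationMonoid.isPrincipal_of_height_eq_one h1
  obtain ⟨π, hπ⟩ := hpr.principal
  refine ⟨π, ?_, hπ⟩
  rintro rfl
  apply Ideal.ne_bot_of_height_eq_one h1
  rw [hπ]
  simp

/-- Two different generisations of codimension one: a generator of the prime of the first is
not in the prime of the second. -/
theorem gen_not_mem {x z z' : X} (h : z ⤳ x) (h' : z' ⤳ x) (hz' : Order.coheight z' = 1)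
    (hne : z ≠ z') {π : X.presheaf.stalk x} (hπ0 : π ≠ 0) (hπ : primeOf h = Ideal.span {π}) :
    π ∉ primeOf h' := by
  intro hmem
  have hprime : Prime π := by
    rw [← Ideal.span_singleton_prime hπ0, ← hπ]
    infer_instance
  have h1 : (primeOf h').height = 1 := height_primeOf_eq_one h' hz'
  have := Ideal.eq_span_singleton_of_height_eq_one h1 hmem hprime
  exact hne (eq_of_primeOf_eq h h' (hπ.trans this.symm))

/-- (UFD) A prime element of `𝒪_{X,y}` is a generator of the prime of a generisation of
codimension one. -/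
theorem exists_coheight_one_of_prime (y : X) {π : X.presheaf.stalk y} (hπ : Prime π) :
    ∃ (z : X) (h : z ⤳ y), Order.coheight z = 1 ∧ primeOf h = Ideal.span {π} := by
  haveI : (Ideal.span {π}).IsPrime := (Ideal.span_singleton_prime hπ.ne_zero).mpr hπ
  obtain ⟨z, h, hP⟩ := exists_specializes_primeOf_eq y (Ideal.span {π})
  refine ⟨z, h, ?_, hP⟩
  have h1 : (Ideal.span {π}).height = 1 :=
    Ideal.height_span_singleton_eq_one_of_mem_nonZeroDivisors
      (mem_nonZeroDivisors_of_ne_zero hπ.ne_zero) hπ.not_isUnit
  have h2 := height_primeOf h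
  rw [hP, h1] at h2
  exact_mod_cast h2.symm

/-- (UFD) **Unit criterion**: a function of order `0` at all the generisations of codimension
one of `y` is a unit at `y`. -/
theorem isUnitAt_of_ordHom_eq_one (y : X) [UniqueFactorizationMonoid (X.presheaf.stalk y)]
    (hD : ∀ z : X, Order.coheight z = 1 → IsDiscreteValuationRing (X.presheaf.stalk z))
    (u : X.functionField) (hu : u ≠ 0)
    (H : ∀ (z : X) (_ : z ⤳ y) (hz : Order.coheight z = 1), X.ordHom z hz u = 1) :
    IsUnitAt y u := by
  obtain ⟨a, b, hrel, hab⟩ := IsFractionRing.exists_reduced_fraction (X.presheaf.stalk y) u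
  have hb0 : (b : X.presheaf.stalk y) ≠ 0 := nonZeroDivisors.ne_zero b.2
  have ha0 : a ≠ 0 := by
    rintro rfl
    apply hu
    rw [← hab]
    simp
  have hdiv : u = algebraMap (X.presheaf.stalk y) X.functionField a /
      algebraMap (X.presheaf.stalk y) X.functionField b := by
    rw [← hab, IsFractionRing.mk'_eq_div]
  have hmulb : u * algebraMap (X.presheaf.stalk y) X.functionField b =
      algebraMap (X.presheaf.stalk y) X.functionField a := by
    rw [hdiv, div_mul_cancel₀]
    exact (map_ne_zero_iff _ (IsFractionRing.injective _ _)).mpr hb0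
  -- a prime factor of `a` or `b` gives a contradiction
  have key : ∀ π : X.presheaf.stalk y, Prime π → ¬ (π ∣ a ∧ ¬ π ∣ b) ∧ ¬ (π ∣ b ∧ ¬ π ∣ a) := by
    intro π hπ
    obtain ⟨z, h, hz, hP⟩ := exists_coheight_one_of_prime y hπ
    have hu1 := H z h hz
    have hm := congrArg (X.ordHom z hz) hmulb
    rw [map_mul, hu1, one_mul] at hm
    have hmem : ∀ c : X.presheaf.stalk y, c ∈ primeOf h ↔ π ∣ c := by
      intro c
      rw [hP, Ideal.mem_span_singleton]
    constructor
    · rintro ⟨h1, h2⟩
      have hb1 := ordHom_algebraMap_of_not_mem h hz (a := (b : X.presheaf.stalk y))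
        (by rwa [hmem])
      rw [hb1] at hm
      exact not_mem_primeOf_of_ordHom h hz (hD z hz) hm.symm ((hmem a).mpr h1)
    · rintro ⟨h1, h2⟩
      have ha1 := ordHom_algebraMap_of_not_mem h hz (a := a) (by rwa [hmem])
      rw [ha1] at hm
      exact not_mem_primeOf_of_ordHom h hz (hD z hz) hm ((hmem _).mpr h1)
  have hunit : ∀ c d : X.presheaf.stalk y, c ≠ 0 → IsRelPrime c d →
      (∀ π : X.presheaf.stalk y, Prime π → ¬ (π ∣ c ∧ ¬ π ∣ d)) → IsUnit c := by
    intro c d hc0 hcd hk
    by_contra hcu
    obtain ⟨i, hi, hic⟩ := WfDvdMonoid.exists_irreducible_factor hcu hc0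
    have hip : Prime i := UniqueFactorizationMonoid.irreducible_iff_prime.mp hi
    refine hk i hip ⟨hic, fun hid => ?_⟩
    exact hi.not_isUnit (hcd hic hid)
  have hau : IsUnit a := hunit a b ha0 hrel (fun π hπ => (key π hπ).1)
  have hbu : IsUnit (b : X.presheaf.stalk y) :=
    hunit b a hb0 hrel.symm (fun π hπ => (key π hπ).2)
  refine ⟨a * ↑(hbu.unit⁻¹), hau.mul (Units.isUnit _), ?_⟩
  rw [hdiv, map_mul, eq_div_iff ((map_ne_zero_iff _ (IsFractionRing.injective _ _)).mpr hb0),
    mul_assoc, ← map_mul]
  simp

end Ord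

end Fermat.Agent.S26.C.H55
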