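import Mathlib
import Fermat.Agent.S26.C.H55_LocEq
import Fermat.Agent.S26.T.H25_FinB
import Fermat.Agent.S26.H39_Nor
import Fermat.Agent.S26.LF.Defs

/-!
# S26, package (C), leaf LFD: the boundary of an open is a Cartier divisor

`X` integral noetherian with factorial local rings, `S` a finite set of points of codimension one:
the reduced divisor `∑_{z ∈ S} z` has the local equations
`D x = ∏_{z ∈ S, z ⤳ x} π_{x,z}`, `π_{x,z}` a generator of the prime of `z` in `𝒪_{X,x}`.

* `locEq`, `locDiv` : the local equations;
* `ordHom_locDiv` : `ord_z' (D x) = [z' ∈ S]` for the generisations `z'` of `x` of codimension one;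
* `finite_ordHom_ne_one` : a nonzero function has finitely many zeros and poles;
* `isCartier_locDiv` : `D` is a Cartier divisor;
* `exists_cartier_boundary` : the statement for the boundary of a nonempty open;
* `stmt_LFD_of : LF.Stmt_LF → Stmt_LFD`.
-/

set_option autoImplicit false

open CategoryTheory CategoryTheory.Limits AlgebraicGeometry TopologicalSpace NeronModelInfra
  GoodReductionJacobian

universe u

namespace Fermat.Agent.S26.C.H55

variable {X : Scheme.{u}} [IsIntegral X] [IsLocallyNoetherian X]

section Local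

variable (hUFD : ∀ x : X, UniqueFactorizationMonoid (X.presheaf.stalk x))

open Classical in
/-- A chosen generator of the prime of `z` in `𝒪_{X,x}` (`1` if `z` is not a generisation of
codimension one of `x`). -/
noncomputable def gen (x z : X) : X.presheaf.stalk x :=
  if h : z ⤳ x ∧ Order.coheight z = 1 then
    haveI := hUFD x
    Classical.choose (exists_gen h.1 h.2)
  else 1

theorem gen_spec {x z : X} (h : z ⤳ x) (hz : Order.coheight z = 1) :
    gen hUFD x z ≠ 0 ∧ primeOf h = Ideal.span {gen hUFD x z} := by
  haveI := hUFD x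
  have hh : z ⤳ x ∧ Order.coheight z = 1 := ⟨h, hz⟩
  have := Classical.choose_spec (exists_gen hh.1 hh.2)
  unfold gen
  rw [dif_pos hh]
  exact this

theorem gen_ne_zero (x z : X) : gen hUFD x z ≠ 0 := by
  by_cases hh : z ⤳ x ∧ Order.coheight z = 1
  · exact (gen_spec hUFD hh.1 hh.2).1
  · unfold gen
    rw [dif_neg hh]
    exact one_ne_zero

open Classical in
/-- The local equation at `x` of the reduced divisor `∑_{z ∈ S} z`. -/
noncomputable def locEq (S : Finset X) (x : X) : X.presheaf.stalk x :=
  ∏ z ∈ S.filter (fun z => z ⤳ x), gen hUFD x z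

/-- The local equations, in the function field. -/
noncomputable def locDiv (S : Finset X) (x : X) : X.functionField :=
  algebraMap (X.presheaf.stalk x) X.functionField (locEq hUFD S x)

theorem locEq_ne_zero (S : Finset X) (x : X) : locEq hUFD S x ≠ 0 :=
  Finset.prod_ne_zero_iff.mpr fun z _ => gen_ne_zero hUFD x z

theorem locDiv_ne_zero (S : Finset X) (x : X) : locDiv hUFD S x ≠ 0 :=
  (map_ne_zero_iff _ (IsFractionRing.injective _ _)).mpr (locEq_ne_zero hUFD S x)

open Classical in
/-- The order of the local equation at `x` at a generisation `z'` of codimension one. -/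
theorem ordHom_locDiv (hD : ∀ z : X, Order.coheight z = 1 →
      IsDiscreteValuationRing (X.presheaf.stalk z))
    (S : Finset X) (hS : ∀ z ∈ S, Order.coheight z = 1) {x z' : X} (h' : z' ⤳ x)
    (hz' : Order.coheight z' = 1) :
    X.ordHom z' hz' (locDiv hUFD S x) = if z' ∈ S then WithZero.exp 1 else 1 := by
  unfold locDiv locEq
  rw [map_prod, map_prod]
  have hterm : ∀ z ∈ S.filter (fun z => z ⤳ x),
      X.ordHom z' hz' (algebraMap (X.presheaf.stalk x) X.functionField (gen hUFD x z)) =
        if z = z' then (WithZero.exp 1 : WithZero (Multiplicative ℤ)) else 1 := by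
    intro z hzmem
    rw [Finset.mem_filter] at hzmem
    obtain ⟨hzS, hzx⟩ := hzmem
    have hz : Order.coheight z = 1 := hS z hzS
    obtain ⟨hg0, hg⟩ := gen_spec hUFD hzx hz
    by_cases he : z = z'
    · subst he
      rw [if_pos rfl]
      exact ordHom_algebraMap_of_span hzx hz' (hD z hz') hg
    · rw [if_neg he]
      exact ordHom_algebraMap_of_not_mem h' hz' (gen_not_mem hzx h' hz' he hg0 hg)
  rw [Finset.prod_congr rfl hterm, Finset.prod_ite_eq']
  by_cases hm : z' ∈ S
  · rw [if_pos hm, if_pos (Finset.mem_filter.mpr ⟨hm, h'⟩)]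
  · rw [if_neg hm, if_neg (fun hc => hm (Finset.mem_filter.mp hc).1)]

end Local

section Finite

variable [CompactSpace X]

/-- A nonzero element of a local ring has only finitely many zeros of codimension one. -/
theorem finite_ordHom_ne_one (x : X) (a : X.presheaf.stalk x) (ha : a ≠ 0) :
    {z : X | ∃ hz : Order.coheight z = 1,
      X.ordHom z hz (algebraMap (X.presheaf.stalk x) X.functionField a) ≠ 1}.Finite := by
  obtain ⟨V, hxV, s, rfl⟩ := X.presheaf.exists_germ_eq a
  haveI : Nonempty V := ⟨⟨x, hxV⟩⟩
  have hηV : genericPoint X ∈ V := (genericPoint_specializes x).mem_open V.2 hxV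
  have hs0 : s ≠ 0 := by
    rintro rfl
    exact ha (map_zero _)
  have hηB : genericPoint X ∈ X.basicOpen s := by
    rw [Scheme.mem_basicOpen X s (genericPoint X) hηV]
    have hne : X.presheaf.germ V (genericPoint X) hηV s ≠ 0 := by
      intro h0
      apply hs0
      apply germ_injective_of_isIntegral X (genericPoint X) hηV
      rw [h0, map_zero]
    exact isUnit_iff_ne_zero.mpr hne
  have hfin := T.H25.stmt_FINB (X := X) (X.basicOpen s) ⟨⟨genericPoint X, hηB⟩⟩
  refine hfin.subset ?_
  rintro z ⟨hz, hne⟩
  refine ⟨hz, fun hzB => hne ?_⟩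
  have hzV : z ∈ V := X.basicOpen_le s hzB
  have hu : IsUnit (X.presheaf.germ V z hzV s) := (Scheme.mem_basicOpen X s z hzV).mp hzB
  rw [Scheme.algebraMap_germ_eq_germToFunctionField X hxV,
    ← Scheme.algebraMap_germ_eq_germToFunctionField X hzV]
  have : Ring.KrullDimLE 1 (X.presheaf.stalk z) := krullDimLE_of_coheight_le hz.le
  exact Ring.ordFrac_of_isUnit hu

end Finite

section Cartier

variable [CompactSpace X] (hUFD : ∀ x : X, UniqueFactorizationMonoid (X.presheaf.stalk x))
  (hD : ∀ z : X, Order.coheight z = 1 → IsDiscreteValuationRing (X.presheaf.stalk z))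

open Classical in
/-- The points of codimension one where the local equation at `x` is not a local equation. -/
def badSet (S : Finset X) (x : X) : Set X :=
  {z | ∃ hz : Order.coheight z = 1,
    X.ordHom z hz (locDiv hUFD S x) ≠ if z ∈ S then WithZero.exp 1 else 1}

theorem finite_badSet (S : Finset X) (x : X) : (badSet hUFD S x).Finite := by
  classical
  refine ((S.finite_toSet).union
    (finite_ordHom_ne_one x (locEq hUFD S x) (locEq_ne_zero hUFD S x))).subset ?_
  rintro z ⟨hz, hne⟩
  by_cases hzS : z ∈ S
  · exact Or.inl hzS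
  · rw [if_neg hzS] at hne
    exact Or.inr ⟨hz, hne⟩

include hD in
theorem not_specializes_of_mem_badSet (S : Finset X) (hS : ∀ z ∈ S, Order.coheight z = 1)
    {x z : X} (hz : z ∈ badSet hUFD S x) : ¬ z ⤳ x := by
  obtain ⟨hz1, hne⟩ := hz
  intro h
  exact hne (ordHom_locDiv hUFD hD S hS h hz1)

include hD in
/-- The local equations form a Cartier divisor. -/
theorem isCartier_locDiv (S : Finset X) (hS : ∀ z ∈ S, Order.coheight z = 1) :
    IsCartier (locDiv hUFD S) := by
  classical
  refine ⟨locDiv_ne_zero hUFD S, fun x => ?_⟩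
  have hcl : IsClosed (⋃ z ∈ badSet hUFD S x, closure ({z} : Set X)) :=
    (finite_badSet hUFD S x).isClosed_biUnion fun z _ => isClosed_closure
  refine ⟨⟨(⋃ z ∈ badSet hUFD S x, closure ({z} : Set X))ᶜ, hcl.isOpen_compl⟩, ?_, ?_⟩
  · intro hx
    simp only [Set.mem_iUnion] at hx
    obtain ⟨z, hz, hxz⟩ := hx
    exact not_specializes_of_mem_badSet hUFD hD S hS hz (specializes_iff_mem_closure.mpr hxz)
  · intro y hy
    have := hUFD y
    refine isUnitAt_of_ordHom_eq_one y hD _
      (div_ne_zero (locDiv_ne_zero hUFD S x) (locDiv_ne_zero hUFD S y)) ?_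
    intro z hzy hz
    have hzbad : z ∉ badSet hUFD S x := by
      intro hzb
      apply hy
      simp only [Set.mem_iUnion]
      exact ⟨z, hzb, specializes_iff_mem_closure.mp hzy⟩
    have h1 : X.ordHom z hz (locDiv hUFD S x) = if z ∈ S then WithZero.exp 1 else 1 := by
      by_contra hne
      exact hzbad ⟨hz, hne⟩
    have h2 := ordHom_locDiv hUFD hD S hS hzy hz
    rw [map_div₀, h1, h2]
    by_cases hzS : z ∈ S
    · rw [if_pos hzS]
      exact div_self WithZero.exp_ne_zero
    · rw [if_neg hzS]
      exact div_self one_ne_zero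

include hUFD hD in
open Classical in
/-- **The reduced boundary divisor of a nonempty open is a Cartier divisor.** -/
theorem exists_cartier_boundary (U : X.Opens) (hU : Nonempty U) :
    ∃ D : X → X.functionField, IsCartier D ∧ IsEffectiveDiv D ∧ (∀ x ∈ U, D x = 1) ∧
      ∀ z : X, Order.coheight z = 1 → weil D z = if z ∈ U then (0 : ℤ) else 1 := by
  have hfin : {z : X | Order.coheight z = 1 ∧ z ∉ U}.Finite := T.H25.stmt_FINB (X := X) U hU
  have hS : ∀ z ∈ hfin.toFinset, Order.coheight z = 1 := fun z hz =>
    ((Set.Finite.mem_toFinset hfin).mp hz).1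
  have hmem : ∀ z : X, Order.coheight z = 1 → (z ∈ hfin.toFinset ↔ z ∉ U) := fun z hz => by
    rw [Set.Finite.mem_toFinset]
    exact ⟨fun h => h.2, fun h => ⟨hz, h⟩⟩
  refine ⟨locDiv hUFD hfin.toFinset, isCartier_locDiv hUFD hD _ hS,
    fun x => ⟨locEq hUFD hfin.toFinset x, rfl⟩, ?_, ?_⟩
  · intro x hx
    have h1 : locEq hUFD hfin.toFinset x = 1 := by
      unfold locEq
      refine Finset.prod_eq_one fun z hz => ?_
      rw [Finset.mem_filter, Set.Finite.mem_toFinset] at hz
      exact absurd (hz.2.mem_open U.2 hx) hz.1.2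
    unfold locDiv
    rw [h1, map_one]
  · intro z hz
    have h1 := ordHom_locDiv hUFD hD hfin.toFinset hS (specializes_rfl (x := z)) hz
    unfold weil
    rw [Scheme.ord_eq_iff hz (locDiv_ne_zero hUFD _ z), h1]
    by_cases hzU : z ∈ U
    · rw [if_pos hzU, if_neg (fun h => ((hmem z hz).mp h) hzU)]
      rfl
    · rw [if_neg hzU, if_pos ((hmem z hz).mpr hzU)]
      rfl

end Cartier

/-- **LFD** from local factoriality: the reduced boundary divisor of a good open of an abelian
variety is a Cartier divisor. -/
theorem stmt_LFD_of (hLF : LF.Stmt_LF.{u}) : Stmt_LFD.{u} := by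
  intro K _ _ A f L _ hA g _ _ _ U hU
  have hp : IsProper f := hA.proper
  have : CompactSpace A := QuasiCompact.compactSpace_of_compactSpace f
  have hne : Nonempty U := ⟨⟨_, hU.zero_mem (Classical.arbitrary _)⟩⟩
  exact exists_cartier_boundary (fun x => hLF K f g x)
    (fun z hz => (H39.stmt_NOR K f L hA z).2 hz) U hne

end Fermat.Agent.S26.C.H55
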