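import Fermat.Agent.S26.C.H90_Weil
import Fermat.Agent.S26.T.H85_Hart

/-!
# S26, package (C), language leaves WEILINJ and WEILPR, unconditional (helper90)

`stmt_WEILINJ : Stmt_WEILINJ`, `stmt_WEILPR : Stmt_WEILPR`, from `H90_Weil` and helper85's
`T.H85.stmt_HART`.
-/

set_option autoImplicit false

universe u

namespace Fermat.Agent.S26.C.H90

/-- **WEILINJ**, unconditionally. -/
theorem stmt_WEILINJ : Stmt_WEILINJ.{u} := stmt_WEILINJ_of Fermat.Agent.S26.T.H85.stmt_HART

/-- **WEILPR**, unconditionally. -/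
theorem stmt_WEILPR : Stmt_WEILPR.{u} := stmt_WEILPR_of Fermat.Agent.S26.T.H85.stmt_HART

end Fermat.Agent.S26.C.H90
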