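/-
S26 (row 25), package (C): the assembly **CKASM2** (helper95):
`PULLC → PULLMUL → WEILINJ → WEILPR → WEILET → LFD → CORE → Stmt_Ck`.

`D` from LFD is symmetric (WEILET for the automorphism `[-1]`, WEILINJ), `E := pull [n] D / D ^ n²`,
`E ^ k = div h` (CORE), and the Weil divisor of `E ^ k` is `k [z ∉ V] - k n² [z ∉ U]`
(WEILET for `[n]`, WEILPR).
-/
import Fermat.Agent.S26.C.Defs
import Fermat.Agent.S26.H22_Cell
import Fermat.Agent.S26.H39_Nor
import Fermat.Agent.S26.H55_Ex
import Fermat.Agent.S26.T.H69_Coh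
import Fermat.Agent.S26.E.H95_Final

set_option autoImplicit false

open CategoryTheory CategoryTheory.Limits AlgebraicGeometry NeronModelInfra GoodReductionJacobian

universe u

namespace Fermat.Agent.S26.C.H95

section Lang

variable {X : Scheme.{u}} [IsIntegral X]

theorem isUnitAt_one (x : X) : IsUnitAt x (1 : X.functionField) :=
  ⟨1, isUnit_one, map_one _⟩

theorem isUnitAt_mul {x : X} {a b : X.functionField} (ha : IsUnitAt x a) (hb : IsUnitAt x b) :
    IsUnitAt x (a * b) := by
  obtain ⟨a', ha', rfl⟩ := ha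
  obtain ⟨b', hb', rfl⟩ := hb
  exact ⟨a' * b', ha'.mul hb', map_mul _ _ _⟩

theorem isUnitAt_inv {x : X} {a : X.functionField} (ha : IsUnitAt x a) : IsUnitAt x a⁻¹ := by
  obtain ⟨a', ha', rfl⟩ := ha
  obtain ⟨u, rfl⟩ := ha'
  refine ⟨((u⁻¹ : (X.presheaf.stalk x)ˣ) : X.presheaf.stalk x), Units.isUnit _, ?_⟩
  refine eq_inv_of_mul_eq_one_left ?_
  rw [← map_mul, Units.inv_mul, map_one]

theorem isUnitAt_div {x : X} {a b : X.functionField} (ha : IsUnitAt x a) (hb : IsUnitAt x b) :
    IsUnitAt x (a / b) := by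
  rw [div_eq_mul_inv]
  exact isUnitAt_mul ha (isUnitAt_inv hb)

theorem isUnitAt_pow {x : X} {a : X.functionField} (ha : IsUnitAt x a) (k : ℕ) :
    IsUnitAt x (a ^ k) := by
  induction k with
  | zero => rw [pow_zero]; exact isUnitAt_one x
  | succ k ih => rw [pow_succ]; exact isUnitAt_mul ih ha

theorem isCartier_ne_zero {D : X → X.functionField} (hD : IsCartier D) (x : X) : D x ≠ 0 :=
  hD.1 x

theorem isCartier_mul {D D' : X → X.functionField} (hD : IsCartier D) (hD' : IsCartier D') :
    IsCartier (D * D') := by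
  refine ⟨fun x => mul_ne_zero (hD.1 x) (hD'.1 x), fun x => ?_⟩
  obtain ⟨W, hxW, hW⟩ := hD.2 x
  obtain ⟨W', hxW', hW'⟩ := hD'.2 x
  refine ⟨W ⊓ W', ⟨hxW, hxW'⟩, fun y hy => ?_⟩
  have h := isUnitAt_mul (hW y hy.1) (hW' y hy.2)
  have e : (D * D') x / (D * D') y = D x / D y * (D' x / D' y) := by
    simp only [Pi.mul_apply]
    field_simp [hD.1 y, hD'.1 y]
  rw [e]
  exact h

theorem isCartier_inv {D : X → X.functionField} (hD : IsCartier D) : IsCartier D⁻¹ := by
  refine ⟨fun x => inv_ne_zero (hD.1 x), fun x => ?_⟩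
  obtain ⟨W, hxW, hW⟩ := hD.2 x
  refine ⟨W, hxW, fun y hy => ?_⟩
  have h := isUnitAt_inv (hW y hy)
  have e : D⁻¹ x / D⁻¹ y = (D x / D y)⁻¹ := by
    simp only [Pi.inv_apply]
    field_simp [hD.1 x, hD.1 y]
  rw [e]
  exact h

theorem isCartier_div {D D' : X → X.functionField} (hD : IsCartier D) (hD' : IsCartier D') :
    IsCartier (D / D') := by
  rw [div_eq_mul_inv]
  exact isCartier_mul hD (isCartier_inv hD')

theorem isCartier_one : IsCartier (1 : X → X.functionField) :=
  ⟨fun _ => one_ne_zero, fun x => ⟨⊤, trivial, fun y _ => by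
    simp only [Pi.one_apply, div_one]
    exact isUnitAt_one y⟩⟩

theorem isCartier_pow {D : X → X.functionField} (hD : IsCartier D) (k : ℕ) :
    IsCartier (D ^ k) := by
  induction k with
  | zero => rw [pow_zero]; exact isCartier_one
  | succ k ih => rw [pow_succ]; exact isCartier_mul ih hD

variable [IsLocallyNoetherian X]

theorem weil_mul {D D' : X → X.functionField} (hD : IsCartier D) (hD' : IsCartier D') (z : X) :
    weil (D * D') z = weil D z + weil D' z := by
  unfold weil
  rw [Pi.mul_apply]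
  exact Scheme.ord_mul (hD.1 z) (hD'.1 z)

theorem weil_inv {D : X → X.functionField} (hD : IsCartier D) (z : X) :
    weil D⁻¹ z = - weil D z := by
  unfold weil
  rw [Pi.inv_apply]
  exact H22.ord_inv (hD.1 z) z

theorem weil_div {D D' : X → X.functionField} (hD : IsCartier D) (hD' : IsCartier D') (z : X) :
    weil (D / D') z = weil D z - weil D' z := by
  rw [div_eq_mul_inv, weil_mul hD (isCartier_inv hD'), weil_inv hD', sub_eq_add_neg]

theorem weil_pow {D : X → X.functionField} (hD : IsCartier D) (k : ℕ) (z : X) :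
    weil (D ^ k) z = k * weil D z := by
  unfold weil
  rw [Pi.pow_apply]
  exact H22.ord_pow (hD.1 z) k z

end Lang

section Dom

variable {X Y : Scheme.{u}} [IsIntegral X] [IsIntegral Y]

/-- A surjective morphism is dominant. -/
theorem isDom_of_surjective (φ : Y ⟶ X) [Surjective φ] : T.IsDom φ := by
  obtain ⟨y, hy⟩ := φ.surjective (genericPoint X)
  have h : genericPoint Y ⤳ y := genericPoint_specializes y
  have h' := h.map φ.continuous
  rw [hy] at h'
  exact h'

end Dom

section Main

variable {K : Type u} [Field K] {A : Scheme.{u}} {f : A ⟶ Spec (CommRingCat.of K)}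

/-- The generic point lies in every good open. -/
theorem genericPoint_mem_of_isGoodOpen [IsIntegral A] (L : RelativeGroupLaw K f) {U : A.Opens}
    (hU : IsGoodOpen L U) : genericPoint A ∈ U :=
  (genericPoint_specializes ((zeroHom L).base (Classical.arbitrary _))).mem_open U.isOpen
    (hU.zero_mem _)

/-- **CKASM2**. -/
theorem stmt_CKASM2 : Stmt_CKASM2.{u} := by
  intro hPULLC _ hWEILINJ hWEILPR hWEILET hLFD hCORE K _ _ A f L hc hA g _ _ _ U hU n hn
  classical
  obtain ⟨D, hDc, -, hD1, hDw⟩ := hLFD K f L hc hA g U hU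
  have hnor : T.IsNor A := fun z => H39.stmt_NOR K f L hA z
  have hη : D (genericPoint A) = 1 := hD1 _ (genericPoint_mem_of_isGoodOpen L hU)
  -- the inverse is an automorphism
  have : IsIso (negHom L) := H55.isIso_negHom L
  have hdomneg : T.IsDom (negHom L) := isDom_of_surjective _
  have hPnc : IsCartier (pull (negHom L) D) := hPULLC _ D hDc
  have hsymm : LinEquiv (pull (negHom L) D) D := by
    have hc1 : IsCartier (pull (negHom L) D / D) := isCartier_div hPnc hDc
    have hw : ∀ z : A, Order.coheight z = 1 → weil (pull (negHom L) D / D) z = 0 := by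
      intro z hz
      have hz' : Order.coheight ((negHom L) z) = 1 := by
        rw [T.H69.coheight_eq_of_etale]; exact hz
      have hmem : (negHom L) z ∈ U ↔ z ∈ U := by
        have h1 : z ∈ (negHom L) ⁻¹ᵁ U ↔ z ∈ U := by rw [hU.symm]
        exact h1
      rw [weil_div hPnc hDc, hWEILET (negHom L) hdomneg hnor hnor D hDc hη z hz,
        hDw _ hz', hDw _ hz]
      simp only [hmem, sub_self]
    have hs := hWEILINJ hnor _ hc1 hw
    exact ⟨1, one_ne_zero, fun x => by simpa using hs x⟩
  have hnpos : 0 < n := Nat.pos_of_ne_zero (fun h => hn (by simp [h]))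
  obtain ⟨k, hk, H, hH0, hH⟩ := hCORE K f L hc hA g D hDc hsymm n hnpos
  refine ⟨k, hk, H, hH0, fun z hz => ?_⟩
  -- `[n]` is finite étale and dominant
  have hL : E.IsAV K f L := ⟨inferInstance, hc, hA⟩
  have : Etale (L.schemeNsmul n) := E.H14.stmt_E_ETALE K f L hL n hn
  have : IsFinite (L.schemeNsmul n) := E.H95.stmt_E_FIN K f L hL n hn
  have : Surjective (L.schemeNsmul n) := E.H95.stmt_E_SURJ K f L hL n hn
  have hdom : T.IsDom (L.schemeNsmul n) := isDom_of_surjective _
  have hPc : IsCartier (pull (L.schemeNsmul n) D) := hPULLC _ D hDc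
  have hDpc : IsCartier (D ^ (n ^ 2)) := isCartier_pow hDc _
  have hEc : IsCartier (pull (L.schemeNsmul n) D / D ^ (n ^ 2)) := isCartier_div hPc hDpc
  have hEkc : IsCartier ((pull (L.schemeNsmul n) D / D ^ (n ^ 2)) ^ k) := isCartier_pow hEc k
  have key := (hWEILPR hnor _ hEkc H hH0).mp hH z hz
  have hz' : Order.coheight ((L.schemeNsmul n) z) = 1 := by
    rw [T.H69.coheight_eq_of_etale]; exact hz
  have hmem : z ∈ (L.schemeNsmul n) ⁻¹ᵁ U ↔ (L.schemeNsmul n) z ∈ U := Iff.rfl
  rw [← key, weil_pow hEc, weil_div hPc hDpc, weil_pow hDc,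
    hWEILET (L.schemeNsmul n) hdom hnor hnor D hDc hη z hz, hDw _ hz', hDw _ hz]
  simp only [hmem]
  push_cast
  ring

end Main

end Fermat.Agent.S26.C.H95
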