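import Mathlib
import Fermat.Agent.S26.C.PCore
import Fermat.Agent.S26.C.H14_Pull
import Fermat.Agent.S26.C.H22_WeilEt
import Fermat.Agent.S26.C.H90_WeilFinal
import Fermat.Agent.S26.C.H55_LFD
import Fermat.Agent.S26.C.H95_CkAsm2
import Fermat.Agent.S26.C.H42_CoreOfPCore
import Fermat.Agent.S26.LF.H9_Final

/-!
# S26, package (C): everything plugged except the cube side (helper9)

* `H9.stmt_LFD : Stmt_LFD` — unconditional (helper55's `stmt_LFD_of` applied to `LF.H9.stmt_LF`);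
* `H9.stmt_CORE_of : Stmt_PCORE → Stmt_CORE`;
* `H9.stmt_Ck_of_CORE : Stmt_CORE → Stmt_Ck`;
* `H9.stmt_Ck_of_PCORE : Stmt_PCORE → Stmt_Ck` — the only open input of (C) is the place form
  `Stmt_PCORE` of the cube side.
-/

set_option autoImplicit false

universe u

namespace Fermat.Agent.S26.C.H9

/-- **LFD**, unconditional. -/
theorem stmt_LFD : Stmt_LFD.{u} := H55.stmt_LFD_of Fermat.Agent.S26.LF.H9.stmt_LF

/-- **CORE** from the place form. -/
theorem stmt_CORE_of (h : Stmt_PCORE.{u}) : Stmt_CORE.{u} :=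
  H42c.stmt_CORE_of_PCORE H14.stmt_PULLC H90.stmt_WEILPR h

/-- **Ck** from **CORE**. -/
theorem stmt_Ck_of_CORE (h : Stmt_CORE.{u}) : Stmt_Ck.{u} :=
  H95.stmt_CKASM2 H14.stmt_PULLC H14.stmt_PULLMUL H90.stmt_WEILINJ H90.stmt_WEILPR
    H22.stmt_WEILET stmt_LFD h

/-- **Ck** from the place form of the cube side. -/
theorem stmt_Ck_of_PCORE (h : Stmt_PCORE.{u}) : Stmt_Ck.{u} :=
  stmt_Ck_of_CORE (stmt_CORE_of h)

end Fermat.Agent.S26.C.H9
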