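import Fermat.Agent.S26.C.H6_RedPlace

/-!
# S26 (C), CCC leaf BC (constant base change): the generic interface

helper30.  `FΩ` is "a fraction field of `Ω ⊗[K] F`" (`IsBC`): a field with compatible algebra
structures over `Ω`, `F`, `K` such that the multiplication map `Ω ⊗[K] F → FΩ` is injective and
every element of `FΩ` is a quotient of two elements of the image.  All parts of `H6.Stmt_BC` are
proved for an arbitrary such `FΩ` (no instance diamonds), and `FractionRing (Ω ⊗[K] F)` is one.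

* `bcMap` : the multiplication map `Ω ⊗[K] F →ₐ[K] FΩ`;
* `IsBC` : the two properties;
* `Stmt_BC_Deg` : `IsBC` and `IsFF K F` give `IsFF Ω FΩ` and `ConstDeg K F Ω FΩ`
  (linear disjointness of `F` and `Ω(z)` over `K(z)`).
-/

set_option autoImplicit false

open TensorProduct IntermediateField

noncomputable section

namespace Fermat.Agent.S26.C.H30

universe u

section

variable (K F Ω FΩ : Type u) [Field K] [Field F] [Algebra K F] [Field Ω] [Algebra K Ω]
  [Field FΩ] [Algebra Ω FΩ] [Algebra F FΩ] [Algebra K FΩ] [IsScalarTower K F FΩ]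
  [IsScalarTower K Ω FΩ]

/-- the multiplication map `Ω ⊗[K] F → FΩ` -/
def bcMap : Ω ⊗[K] F →ₐ[K] FΩ :=
  Algebra.TensorProduct.productMap (IsScalarTower.toAlgHom K Ω FΩ) (IsScalarTower.toAlgHom K F FΩ)

variable {K F Ω FΩ} in
theorem bcMap_tmul (ω : Ω) (f : F) :
    bcMap K F Ω FΩ (ω ⊗ₜ[K] f) = algebraMap Ω FΩ ω * algebraMap F FΩ f := by
  simp [bcMap]

/-- `FΩ` is a fraction field of `Ω ⊗[K] F`. -/
structure IsBC : Prop where
  inj : Function.Injective (bcMap K F Ω FΩ)
  frac : ∀ t : FΩ, ∃ x y : Ω ⊗[K] F, y ≠ 0 ∧ t * bcMap K F Ω FΩ y = bcMap K F Ω FΩ x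

end

/-- **BC-DEG**: for a fraction field `FΩ` of `Ω ⊗[K] F`, `F / K` a function field: `FΩ / Ω` is a
function field and `[FΩ : Ω(z)] = [F : K(z)]` for every `z ∈ F` transcendental over `K`. -/
def Stmt_BC_Deg : Prop :=
  ∀ (K F Ω FΩ : Type u) [Field K] [IsAlgClosed K] [Field F] [Algebra K F] [Field Ω]
    [IsAlgClosed Ω] [Algebra K Ω] [Field FΩ] [Algebra Ω FΩ] [Algebra F FΩ] [Algebra K FΩ]
    [IsScalarTower K F FΩ] [IsScalarTower K Ω FΩ],
    IsBC K F Ω FΩ → Fermat.Agent.S27.REDu.IsFF K F →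
      Fermat.Agent.S27.REDu.IsFF Ω FΩ ∧ H6.ConstDeg K F Ω FΩ

end Fermat.Agent.S26.C.H30
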