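/-
S26 (row 25), crux (C), package CCC, leaf BC-DEG (helper13): constant base change of a function
field does not change the degrees of the charts.

`FΩ` a fraction field of `Ω ⊗[K] F` (`H30.IsBC`), `F / K` a function field of one variable.  For
`z ∈ F` transcendental over `K`, with image `z'` in `FΩ`:
* `transcendental_algebraMap` : `z'` is transcendental over `Ω`;
* `linearIndependent_adjoin` : a `K(z)`-linearly independent family of `F` stays
  `Ω(z')`-linearly independent (linear disjointness of `F` and `Ω(z')` over `K(z)`);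
* `spanB_eq_top` : the image of a `K(z)`-basis of `F` spans `FΩ` over `Ω(z')`;
* `constDeg` : `[FΩ : Ω(z')] = [F : K(z)]`;  `stmt_BC_Deg : H30.Stmt_BC_Deg`.
No hypothesis on `K`, `Ω` (not even algebraically closed) is used.
-/
import Fermat.Agent.S26.C.H30_BCDefs

set_option autoImplicit false

open TensorProduct IntermediateField Polynomial

noncomputable section

namespace Fermat.Agent.S26.C.H13D

universe u

section Tower

variable {R S M : Type*} [Semiring R] [Semiring S] [AddCommMonoid M] [Module R S] [Module S M]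
  [Module R M] [IsScalarTower R S M]

/-- Converse of the tower lemma for linear independence: if `w` spans `S` over `R` and the
products `w j • v i` are `R`-linearly independent, then `v` is `S`-linearly independent. -/
theorem linearIndependent_of_smul {α α' : Type*} {v : α → M} {w : α' → S}
    (hw : Submodule.span R (Set.range w) = ⊤)
    (h : LinearIndependent R (fun i : α × α' => w i.2 • v i.1)) :
    LinearIndependent S v := by
  rw [LinearIndependent, Finsupp.linearCombination_smul] at h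
  have hs1 : Function.Surjective (Finsupp.linearCombination R w) := by
    rw [← LinearMap.range_eq_top, Finsupp.range_linearCombination, hw]
  have hs2 : Function.Surjective
      (Finsupp.mapRange.linearMap (α := α) (Finsupp.linearCombination R w)) :=
    Finsupp.mapRange_surjective _ (map_zero _) hs1
  have hs3 : Function.Surjective
      ((Finsupp.mapRange.linearMap (α := α) (Finsupp.linearCombination R w)) ∘ₗ
        (Finsupp.curryLinearEquiv R).toLinearMap) :=
    hs2.comp (Finsupp.curryLinearEquiv R).surjective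
  exact Function.Injective.of_comp_right h hs3

end Tower

section Pow

variable {R A : Type*} [CommRing R] [Ring A] [Algebra R A]

theorem linearIndependent_pow_of_transcendental {x : A} (hx : Transcendental R x) :
    LinearIndependent R (fun n : ℕ => x ^ n) := by
  have h1 := (Polynomial.basisMonomials R).linearIndependent
  have h2 := h1.map' (Polynomial.aeval x).toLinearMap
    (LinearMap.ker_eq_bot.mpr (transcendental_iff_injective.mp hx))
  have h3 : (fun n : ℕ => x ^ n) = (Polynomial.aeval x).toLinearMap ∘ (Polynomial.basisMonomials R) := by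
    funext n
    simp [Polynomial.coe_basisMonomials]
  rw [h3]
  exact h2

theorem transcendental_of_linearIndependent_pow {x : A}
    (h : LinearIndependent R (fun n : ℕ => x ^ n)) : Transcendental R x := by
  rw [transcendental_iff]
  intro p hp
  have h1 : Finsupp.linearCombination R (fun n : ℕ => x ^ n) p.toFinsupp.coeff = 0 := by
    rw [Finsupp.linearCombination_apply, ← hp, Polynomial.aeval_def, Polynomial.eval₂_eq_sum,
      Polynomial.sum_def, Finsupp.sum, Polynomial.support_toFinsupp]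
    refine Finset.sum_congr rfl fun n _ => ?_
    rw [Algebra.smul_def, Polynomial.toFinsupp_apply]
  have h2 := linearIndependent_iff.mp h p.toFinsupp.coeff h1
  ext n
  rw [← Polynomial.toFinsupp_apply, h2]
  simp

end Pow

section BC

variable {K F Ω FΩ : Type u} [Field K] [Field F] [Algebra K F] [Field Ω] [Algebra K Ω]
  [Field FΩ] [Algebra Ω FΩ] [Algebra F FΩ] [Algebra K FΩ] [IsScalarTower K F FΩ]
  [IsScalarTower K Ω FΩ]

/-- The multiplication map `Ω ⊗[K] F → FΩ`, as a map of `Ω`-algebras. -/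
def bcLin : Ω ⊗[K] F →ₐ[Ω] FΩ :=
  Algebra.TensorProduct.lift (Algebra.ofId Ω FΩ) (IsScalarTower.toAlgHom K F FΩ)
    (fun _ _ => Commute.all _ _)

theorem bcLin_apply (x : Ω ⊗[K] F) :
    bcLin (K := K) (F := F) (Ω := Ω) (FΩ := FΩ) x = H30.bcMap K F Ω FΩ x := by
  induction x using TensorProduct.induction_on with
  | zero => simp
  | tmul ω f => simp [bcLin, H30.bcMap_tmul, Algebra.ofId_apply]
  | add x y hx hy => rw [map_add, map_add, hx, hy]

theorem bcLin_injective (h : H30.IsBC K F Ω FΩ) :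
    Function.Injective (bcLin (K := K) (F := F) (Ω := Ω) (FΩ := FΩ)) := by
  intro x y hxy
  apply h.inj
  rw [← bcLin_apply, ← bcLin_apply, hxy]

/-- **Linear disjointness**: a `K`-linearly independent family of `F` is `Ω`-linearly independent
in `FΩ`. -/
theorem linearIndependent_algebraMap (h : H30.IsBC K F Ω FΩ) {ι : Type*} {v : ι → F}
    (hv : LinearIndependent K v) :
    LinearIndependent Ω (fun i => algebraMap F FΩ (v i)) := by
  have h1 : LinearIndependent Ω (fun i => (1 : Ω) ⊗ₜ[K] v i) :=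
    Module.Flat.linearIndependent_one_tmul hv
  have h2 := h1.map' (bcLin (K := K) (F := F) (Ω := Ω) (FΩ := FΩ)).toLinearMap
    (LinearMap.ker_eq_bot.mpr (bcLin_injective h))
  have h3 : (fun i => algebraMap F FΩ (v i)) =
      (bcLin (K := K) (F := F) (Ω := Ω) (FΩ := FΩ)).toLinearMap ∘ (fun i => (1 : Ω) ⊗ₜ[K] v i) := by
    funext i
    simp [bcLin]
  rw [h3]
  exact h2

/-- The image of a transcendental element is transcendental over `Ω`. -/
theorem transcendental_algebraMap (h : H30.IsBC K F Ω FΩ) {z : F} (hz : Transcendental K z) :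
    Transcendental Ω (algebraMap F FΩ z) := by
  apply transcendental_of_linearIndependent_pow
  have h1 := linearIndependent_algebraMap h (linearIndependent_pow_of_transcendental hz)
  have h3 : (fun n : ℕ => (algebraMap F FΩ z) ^ n) = (fun n : ℕ => algebraMap F FΩ (z ^ n)) := by
    funext n
    rw [map_pow]
  rw [h3]
  exact h1

end BC

section Exchange

variable {K F : Type*} [Field K] [Field F] [Algebra K F]

/-- Exchange: if `F / K(x)` is finite and `f` is transcendental over `K`, then `F / K(f)` is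
finite. -/
theorem finite_of_transcendental (x : F) (hx : Transcendental K x)
    [FiniteDimensional K⟮x⟯ F] (f : F) (hf : Transcendental K f) :
    FiniteDimensional K⟮f⟯ F :=
  have halg : IsAlgebraic K⟮f⟯ x :=
    isAlgebraic_adjoin_iff.mpr (.adjoin_singleton hx hf
      (isAlgebraic_adjoin_iff.mp (Algebra.IsAlgebraic.isAlgebraic f)))
  let Fyx := restrictScalars K K⟮f⟯⟮x⟯
  let Fxy := restrictScalars K K⟮x⟯⟮f⟯
  let : Algebra K⟮f⟯ Fyx := K⟮f⟯⟮x⟯.algebra
  let : Module K⟮f⟯ Fyx := Algebra.toModule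
  let : SMul K⟮f⟯ Fyx := Algebra.toSMul
  let : Algebra K⟮x⟯ Fxy := K⟮x⟯⟮f⟯.algebra
  let : Module K⟮x⟯ Fxy := Algebra.toModule
  let : SMul K⟮x⟯ Fxy := Algebra.toSMul
  have : FiniteDimensional K⟮f⟯ Fyx :=
    adjoin.finiteDimensional (isAlgebraic_iff_isIntegral.mp halg)
  have : FiniteDimensional Fyx F := by
    unfold Fyx
    rw [adjoin_simple_comm]
    have : IsScalarTower K⟮x⟯ Fxy F := isScalarTower_mid' K⟮x⟯⟮f⟯
    exact .right K⟮x⟯ Fxy F
  have : IsScalarTower K⟮f⟯ Fyx F := isScalarTower_mid' K⟮f⟯⟮x⟯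
  .trans K⟮f⟯ Fyx F

end Exchange

section Deg

open scoped IntermediateField.algebraAdjoinAdjoin

variable {K F Ω FΩ : Type u} [Field K] [Field F] [Algebra K F] [Field Ω] [Algebra K Ω]
  [Field FΩ] [Algebra Ω FΩ] [Algebra F FΩ] [Algebra K FΩ] [IsScalarTower K F FΩ]
  [IsScalarTower K Ω FΩ]

/-- `K`-linear independence of the products `z ^ n * b i`. -/
theorem linearIndependent_pow_mul {z : F} (hz : Transcendental K z) {ι : Type*} {b : ι → F}
    (hb : LinearIndependent K⟮z⟯ b) :
    LinearIndependent K (fun p : ι × ℕ => z ^ p.2 * b p.1) := by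
  have hw : LinearIndependent K (fun n : ℕ => (AdjoinSimple.gen K z) ^ n) := by
    apply LinearIndependent.of_comp (IsScalarTower.toAlgHom K K⟮z⟯ F).toLinearMap
    have h1 := linearIndependent_pow_of_transcendental hz
    have h2 : ((IsScalarTower.toAlgHom K K⟮z⟯ F).toLinearMap ∘
        fun n : ℕ => (AdjoinSimple.gen K z) ^ n) = fun n : ℕ => z ^ n := by
      funext n
      simp
    rw [h2]
    exact h1
  have h1 := linearIndependent_smul hw hb
  have h2 := (linearIndependent_equiv (Equiv.prodComm ι ℕ)).mpr h1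
  have h3 : ((fun p : ℕ × ι => (AdjoinSimple.gen K z) ^ p.1 • b p.2) ∘ (Equiv.prodComm ι ℕ))
      = fun p : ι × ℕ => z ^ p.2 * b p.1 := by
    funext p
    simp [Algebra.smul_def]
  rw [h3] at h2
  exact h2

/-- The powers of the generator span `Ω[z']` over `Ω`. -/
theorem span_pow_eq_top (z' : FΩ) :
    Submodule.span Ω (Set.range fun n : ℕ =>
      (⟨z', Algebra.self_mem_adjoin_singleton Ω z'⟩ : ↥(Algebra.adjoin Ω {z'})) ^ n) = ⊤ := by
  rw [eq_top_iff]
  rintro ⟨s, hs⟩ -
  have hs' : s ∈ (Polynomial.aeval (R := Ω) z').range := by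
    rw [← Algebra.adjoin_singleton_eq_range_aeval]; exact hs
  obtain ⟨p, hp⟩ := hs'
  have h1 : (⟨s, hs⟩ : ↥(Algebra.adjoin Ω {z'})) =
      Polynomial.aeval (⟨z', Algebra.self_mem_adjoin_singleton Ω z'⟩ :
        ↥(Algebra.adjoin Ω {z'})) p := by
    apply Subtype.ext
    rw [← Subalgebra.aeval_coe]
    exact hp.symm
  rw [h1, Polynomial.aeval_eq_sum_range]
  refine Submodule.sum_mem _ fun n _ => ?_
  exact Submodule.smul_mem _ _ (Submodule.subset_span ⟨n, rfl⟩)

/-- From `Ω[z']` to its fraction field `Ω(z')`. -/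
theorem linearIndependent_frac (z' : FΩ) {ι : Type*} (v : ι → FΩ)
    (h3 : LinearIndependent ↥(Algebra.adjoin Ω {z'}) v) :
    LinearIndependent ↥Ω⟮z'⟯ v :=
  (LinearIndependent.iff_fractionRing ↥(Algebra.adjoin Ω {z'}) ↥Ω⟮z'⟯).mp h3

/-- **Linear disjointness over `K(z)`**: a `K(z)`-linearly independent family of `F` is
`Ω(z)`-linearly independent in `FΩ`. -/
theorem linearIndependent_adjoin (h : H30.IsBC K F Ω FΩ) {z : F} (hz : Transcendental K z)
    {ι : Type*} {b : ι → F} (hb : LinearIndependent K⟮z⟯ b) :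
    LinearIndependent Ω⟮algebraMap F FΩ z⟯ (fun i => algebraMap F FΩ (b i)) := by
  have h1 := linearIndependent_algebraMap h (linearIndependent_pow_mul hz hb)
  set z' : FΩ := algebraMap F FΩ z with hz'
  have h2 : (fun p : ι × ℕ => algebraMap F FΩ (z ^ p.2 * b p.1)) =
      fun p : ι × ℕ => ((⟨z', Algebra.self_mem_adjoin_singleton Ω _⟩ :
        ↥(Algebra.adjoin Ω {z'})) ^ p.2) • algebraMap F FΩ (b p.1) := by
    funext p
    rw [Subalgebra.smul_def, map_mul, map_pow, smul_eq_mul]
    rfl
  rw [h2] at h1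
  have h3 : LinearIndependent ↥(Algebra.adjoin Ω {z'}) (fun i => algebraMap F FΩ (b i)) :=
    linearIndependent_of_smul (span_pow_eq_top (Ω := Ω) z') h1
  exact linearIndependent_frac z' _ h3

section Span

variable (h : H30.IsBC K F Ω FΩ) {z : F}

/-- The image of `K(z)` lies in `Ω(z')`. -/
theorem algebraMap_mem_adjoin (c : K⟮z⟯) :
    algebraMap F FΩ (c : F) ∈ Ω⟮algebraMap F FΩ z⟯ := by
  have h1 : K⟮z⟯ ≤ (Ω⟮algebraMap F FΩ z⟯.restrictScalars K).comap
      (IsScalarTower.toAlgHom K F FΩ) := by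
    rw [adjoin_simple_le_iff]
    show algebraMap F FΩ z ∈ Ω⟮algebraMap F FΩ z⟯
    exact mem_adjoin_simple_self Ω _
  exact h1 c.2

end Span

section Span2

variable {z : F} {ι : Type*} (b : Module.Basis ι K⟮z⟯ F)

/-- The `Ω(z')`-span of the image of a basis of `F / K(z)`. -/
def spanB : Submodule Ω⟮algebraMap F FΩ z⟯ FΩ :=
  Submodule.span Ω⟮algebraMap F FΩ z⟯ (Set.range fun i => algebraMap F FΩ (b i))

theorem algebraMap_mem_spanB (f : F) : algebraMap F FΩ f ∈ spanB (Ω := Ω) (FΩ := FΩ) b := by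
  have h1 := b.linearCombination_repr f
  rw [Finsupp.linearCombination_apply] at h1
  rw [← h1, Finsupp.sum, map_sum]
  refine Submodule.sum_mem _ fun i _ => ?_
  have h2 : algebraMap F FΩ ((b.repr f i) • b i) =
      (⟨algebraMap F FΩ ((b.repr f i : K⟮z⟯) : F), algebraMap_mem_adjoin _⟩ :
        Ω⟮algebraMap F FΩ z⟯) • algebraMap F FΩ (b i) := by
    rw [Algebra.smul_def, map_mul, Algebra.smul_def]
    rfl
  rw [h2]
  exact Submodule.smul_mem _ _ (Submodule.subset_span ⟨i, rfl⟩)

theorem mul_mem_spanB {x y : FΩ} (hx : x ∈ spanB (Ω := Ω) (FΩ := FΩ) b)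
    (hy : y ∈ spanB (Ω := Ω) (FΩ := FΩ) b) : x * y ∈ spanB (Ω := Ω) (FΩ := FΩ) b := by
  induction hx using Submodule.span_induction with
  | mem x hx =>
    obtain ⟨i, rfl⟩ := hx
    induction hy using Submodule.span_induction with
    | mem y hy =>
      obtain ⟨j, rfl⟩ := hy
      show algebraMap F FΩ (b i) * algebraMap F FΩ (b j) ∈ _
      rw [← map_mul]
      exact algebraMap_mem_spanB b _
    | zero => rw [mul_zero]; exact zero_mem _
    | add y y' _ _ hy hy' => rw [mul_add]; exact add_mem hy hy'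
    | smul c y _ hy => rw [mul_smul_comm]; exact Submodule.smul_mem _ _ hy
  | zero => rw [zero_mul]; exact zero_mem _
  | add x x' _ _ hx hx' => rw [add_mul]; exact add_mem hx hx'
  | smul c x _ hx => rw [smul_mul_assoc]; exact Submodule.smul_mem _ _ hx

/-- The span, as a subalgebra. -/
def subB : Subalgebra Ω⟮algebraMap F FΩ z⟯ FΩ :=
  (spanB (Ω := Ω) (FΩ := FΩ) b).toSubalgebra
    (by have := algebraMap_mem_spanB (Ω := Ω) (FΩ := FΩ) b 1; rwa [map_one] at this)
    (fun _ _ hx hy => mul_mem_spanB b hx hy)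

theorem inv_mem_spanB [Finite ι] {x : FΩ} (hx : x ∈ spanB (Ω := Ω) (FΩ := FΩ) b) :
    x⁻¹ ∈ spanB (Ω := Ω) (FΩ := FΩ) b := by
  have hfg : (Subalgebra.toSubmodule (subB (Ω := Ω) (FΩ := FΩ) b)).FG := by
    rw [subB, Submodule.toSubalgebra_toSubmodule]
    exact Submodule.fg_span (Set.finite_range _)
  have hint : IsIntegral Ω⟮algebraMap F FΩ z⟯ x :=
    IsIntegral.of_mem_of_fg (subB (Ω := Ω) (FΩ := FΩ) b) hfg x hx
  exact Subalgebra.inv_mem_of_algebraic (subB (Ω := Ω) (FΩ := FΩ) b) (x := ⟨x, hx⟩)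
    hint.isAlgebraic

theorem bcMap_mem_spanB (x : Ω ⊗[K] F) :
    H30.bcMap K F Ω FΩ x ∈ spanB (Ω := Ω) (FΩ := FΩ) b := by
  induction x using TensorProduct.induction_on with
  | zero => rw [map_zero]; exact zero_mem _
  | tmul ω f =>
    rw [H30.bcMap_tmul]
    have h1 : algebraMap Ω FΩ ω * algebraMap F FΩ f =
        (algebraMap Ω Ω⟮algebraMap F FΩ z⟯ ω) • algebraMap F FΩ f := by
      rw [Algebra.smul_def]
      rfl
    rw [h1]
    exact Submodule.smul_mem _ _ (algebraMap_mem_spanB b f)
  | add x y hx hy => rw [map_add]; exact add_mem hx hy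

theorem spanB_eq_top [Finite ι] (h : H30.IsBC K F Ω FΩ) :
    spanB (Ω := Ω) (FΩ := FΩ) b = ⊤ := by
  rw [eq_top_iff]
  intro t _
  obtain ⟨x, y, hy, hxy⟩ := h.frac t
  have hy' : H30.bcMap K F Ω FΩ y ≠ 0 := fun h0 => hy (h.inj (by rw [h0, map_zero]))
  have ht : t = H30.bcMap K F Ω FΩ x * (H30.bcMap K F Ω FΩ y)⁻¹ := by
    rw [← hxy, mul_assoc, mul_inv_cancel₀ hy', mul_one]
  rw [ht]
  exact mul_mem_spanB b (bcMap_mem_spanB b x) (inv_mem_spanB b (bcMap_mem_spanB b y))

end Span2

/-- **The degrees of the charts do not change.** -/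
theorem constDeg (h : H30.IsBC K F Ω FΩ) (hF : Fermat.Agent.S27.REDu.IsFF K F) :
    H6.ConstDeg K F Ω FΩ := by
  intro z hz
  obtain ⟨x, hx, hfin⟩ := hF
  have : FiniteDimensional K⟮x⟯ F := hfin
  have : FiniteDimensional K⟮z⟯ F := finite_of_transcendental x hx z hz
  let b := Module.finBasis K⟮z⟯ F
  have hli := linearIndependent_adjoin h hz b.linearIndependent
  have hsp : ⊤ ≤ Submodule.span Ω⟮algebraMap F FΩ z⟯
      (Set.range fun i => algebraMap F FΩ (b i)) := (spanB_eq_top b h).ge
  let b' := Module.Basis.mk hli hsp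
  refine ⟨Module.Finite.of_basis b', ?_⟩
  rw [Module.finrank_eq_card_basis b', Fintype.card_fin]

/-- **BC-DEG**. -/
theorem stmt_BC_Deg : H30.Stmt_BC_Deg.{u} := by
  intro K F Ω FΩ _ _ _ _ _ _ _ _ _ _ _ _ _ h hF
  refine ⟨?_, constDeg h hF⟩
  obtain ⟨x, hx, hfin⟩ := hF
  exact ⟨algebraMap F FΩ x, transcendental_algebraMap h hx,
    (constDeg h ⟨x, hx, hfin⟩ x hx).1⟩

end Deg

end Fermat.Agent.S26.C.H13D
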