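/-
S26 (row 25), crux (C), abstract leaf (helper13): the GAUSS EXTENSION of a valuation ring to the
function ring of a constant variety.

`K` algebraically closed, `O` a valuation ring containing `K`, `Ω = Frac O`, `ρ : O → k` its
residue map, `A` a domain over `K` (a function field `K(C)`, or a coordinate ring).  Then
`O ⊗[K] A ⊆ Ω ⊗[K] A`, the kernel `𝔭` of `O ⊗[K] A → k ⊗[K] A` is prime (`k ⊗[K] A` is a domain,
`H13_TensorDomain`), and the localisation of `O ⊗[K] A` at `𝔭` is a VALUATION RING `gauss` of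
`E = Frac (Ω ⊗[K] A)` (the valuation ring of the vertical prime divisor `C × {y}` of `C × Y` when
`O = 𝒪_{Y,y}`; the Gauss valuation of the specialisation of the constant curve `C_Ω`).

* `jMap`, `rMap` : `O ⊗ A → Ω ⊗ A` (injective), `O ⊗ A → k ⊗ A`;
* `exists_primitive` : every `y ≠ 0` of `Ω ⊗ A` is `ω • j p` with `r p ≠ 0`;
* `gauss` : the valuation subring; `mem_gauss_iff`; `inv_mem_gauss` (units);
  `cMap_mem_gauss_iff` (`gauss ∩ Ω = O`); `exists_scale` (same value group);
* `red` : the reduction `gauss → Ft`, `Ft ⊇ k ⊗ A` a field: a ring homomorphism, the identity on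
  `A`, `ρ` on `O`, with kernel the non-units, surjective if `Ft = Frac (k ⊗ A)`.
-/
import Mathlib
import Fermat.Agent.S26.C.H13_TensorDomain

set_option autoImplicit false
set_option linter.style.haveILetI false
set_option linter.unusedSectionVars false

open TensorProduct IsLocalRing

noncomputable section

namespace Fermat.Agent.S26.C.H13G

universe u v v' v'' w

variable (K : Type u) [Field K]
  (O : Type v) [CommRing O] [IsDomain O] [ValuationRing O] [Algebra K O]
  (Ω : Type v') [Field Ω] [Algebra O Ω] [IsFractionRing O Ω] [Algebra K Ω] [IsScalarTower K O Ω]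
  {k : Type v''} [Field k] [Algebra K k] (ρ : O →ₐ[K] k)
  (A : Type w) [CommRing A] [Algebra K A]

/-- `O ⊗ A → Ω ⊗ A`. -/
def jMap : O ⊗[K] A →ₐ[K] Ω ⊗[K] A :=
  Algebra.TensorProduct.map (IsScalarTower.toAlgHom K O Ω) (AlgHom.id K A)

/-- `O ⊗ A → k ⊗ A`. -/
def rMap : O ⊗[K] A →ₐ[K] k ⊗[K] A :=
  Algebra.TensorProduct.map ρ (AlgHom.id K A)

variable {K O Ω A}

@[simp] theorem jMap_tmul (o : O) (a : A) :
    jMap K O Ω A (o ⊗ₜ[K] a) = (algebraMap O Ω o) ⊗ₜ[K] a := by
  simp [jMap]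

@[simp] theorem rMap_tmul (o : O) (a : A) :
    rMap K O ρ A (o ⊗ₜ[K] a) = (ρ o) ⊗ₜ[K] a := by
  simp [rMap]

theorem jMap_injective : Function.Injective (jMap K O Ω A) := by
  have h := Module.Flat.rTensor_preserves_injective_linearMap (M := A)
    ((IsScalarTower.toAlgHom K O Ω).toLinearMap) (IsFractionRing.injective O Ω)
  intro x y hxy
  apply h
  have hx : ∀ z : O ⊗[K] A,
      ((IsScalarTower.toAlgHom K O Ω).toLinearMap.rTensor A) z = jMap K O Ω A z := by
    intro z
    induction z using TensorProduct.induction_on with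
    | zero => simp
    | tmul a b => simp
    | add z w hz hw => rw [map_add, map_add, hz, hw]
  rw [hx, hx]
  exact hxy

theorem rMap_surjective (hρ : Function.Surjective ρ) : Function.Surjective (rMap K O ρ A) := by
  intro y
  induction y using TensorProduct.induction_on with
  | zero => exact ⟨0, map_zero _⟩
  | tmul c a =>
    obtain ⟨o, rfl⟩ := hρ c
    exact ⟨o ⊗ₜ[K] a, rMap_tmul ρ o a⟩
  | add y z hy hz =>
    obtain ⟨y', rfl⟩ := hy
    obtain ⟨z', rfl⟩ := hz
    exact ⟨y' + z', map_add _ _ _⟩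

section Coord

variable {ι : Type*} (e : Module.Basis ι K A)

/-- Coordinates of `j x`. -/
theorem repr_jMap (x : O ⊗[K] A) (s : ι) :
    (Algebra.TensorProduct.basis Ω e).repr (jMap K O Ω A x) s
      = algebraMap O Ω ((Algebra.TensorProduct.basis O e).repr x s) := by
  induction x using TensorProduct.induction_on with
  | zero => simp
  | tmul o a =>
    rw [jMap_tmul, Algebra.TensorProduct.basis_repr_tmul, Algebra.TensorProduct.basis_repr_tmul]
    simp only [Finsupp.smul_apply, Finsupp.mapRange_apply, smul_eq_mul, map_mul]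
    rw [← IsScalarTower.algebraMap_apply K O Ω]
  | add x y hx hy =>
    rw [map_add, map_add, map_add, Finsupp.add_apply, Finsupp.add_apply, hx, hy, map_add]

/-- Coordinates of `r x`. -/
theorem repr_rMap (x : O ⊗[K] A) (s : ι) :
    (Algebra.TensorProduct.basis k e).repr (rMap K O ρ A x) s
      = ρ ((Algebra.TensorProduct.basis O e).repr x s) := by
  induction x using TensorProduct.induction_on with
  | zero => simp
  | tmul o a =>
    rw [rMap_tmul, Algebra.TensorProduct.basis_repr_tmul, Algebra.TensorProduct.basis_repr_tmul]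
    simp only [Finsupp.smul_apply, Finsupp.mapRange_apply, smul_eq_mul, map_mul]
    rw [AlgHom.commutes]
  | add x y hx hy =>
    rw [map_add, map_add, map_add, Finsupp.add_apply, Finsupp.add_apply, hx, hy, map_add]

end Coord

/-- In a finite nonempty family of nonzero elements of `Ω` there is one which divides all the
others in `O` (an element of minimal valuation). -/
theorem exists_min_of_finset (S : Finset Ω) (hS : S.Nonempty) (h0 : ∀ x ∈ S, x ≠ 0) :
    ∃ m ∈ S, ∀ x ∈ S, ∃ o : O, algebraMap O Ω o = x / m := by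
  classical
  induction hS using Finset.Nonempty.cons_induction with
  | singleton a =>
    refine ⟨a, Finset.mem_singleton_self a, fun x hx => ⟨1, ?_⟩⟩
    rw [Finset.mem_singleton.mp hx, map_one, div_self]
    exact h0 a (Finset.mem_singleton_self a)
  | cons a s ha hs ih =>
    have h0' : ∀ x ∈ s, x ≠ 0 := fun x hx => h0 x (Finset.mem_cons.mpr (Or.inr hx))
    have ha0 : a ≠ 0 := h0 a (Finset.mem_cons_self a s)
    obtain ⟨m, hm, hmin⟩ := ih h0'
    have hm0 : m ≠ 0 := h0' m hm
    rcases ValuationRing.isInteger_or_isInteger O (a / m) with ⟨o, ho⟩ | ⟨o, ho⟩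
    · -- `m` divides `a`
      refine ⟨m, Finset.mem_cons.mpr (Or.inr hm), fun x hx => ?_⟩
      rcases Finset.mem_cons.mp hx with rfl | hx
      · exact ⟨o, ho⟩
      · exact hmin x hx
    · -- `a` divides `m`
      refine ⟨a, Finset.mem_cons_self a s, fun x hx => ?_⟩
      rcases Finset.mem_cons.mp hx with rfl | hx
      · exact ⟨1, by rw [map_one, div_self ha0]⟩
      · obtain ⟨o', ho'⟩ := hmin x hx
        refine ⟨o' * o, ?_⟩
        rw [map_mul, ho, ho', inv_div]
        field_simp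

/-- **Primitive scaling**: every nonzero element of `Ω ⊗ A` is `(ω ⊗ 1) * j p` with `ω ≠ 0` and
`r p ≠ 0`. -/
theorem exists_primitive (y : Ω ⊗[K] A) (hy : y ≠ 0) :
    ∃ (ω : Ω) (p : O ⊗[K] A), ω ≠ 0 ∧ rMap K O ρ A p ≠ 0 ∧
      y = (ω ⊗ₜ[K] (1 : A)) * jMap K O Ω A p := by
  classical
  let e := Module.Basis.ofVectorSpace K A
  let bΩ := Algebra.TensorProduct.basis Ω e
  let bO := Algebra.TensorProduct.basis O e
  let bκ := Algebra.TensorProduct.basis k e
  set c := bΩ.repr y with hc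
  have hc0 : c ≠ 0 := by
    intro h
    apply hy
    apply bΩ.repr.injective
    rw [← hc, h, map_zero]
  have hsupp : c.support.Nonempty := Finsupp.support_nonempty_iff.mpr hc0
  have himg : (c.support.image c).Nonempty := hsupp.image c
  have himg0 : ∀ x ∈ c.support.image c, x ≠ 0 := by
    intro x hx
    obtain ⟨s, hs, rfl⟩ := Finset.mem_image.mp hx
    exact Finsupp.mem_support_iff.mp hs
  obtain ⟨m, hm, hmin⟩ := exists_min_of_finset (O := O) (c.support.image c) himg himg0
  obtain ⟨s₀, hs₀, rfl⟩ := Finset.mem_image.mp hm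
  have hm0 : c s₀ ≠ 0 := Finsupp.mem_support_iff.mp hs₀
  -- the coordinates of `p`
  have hinjO : Function.Injective (algebraMap O Ω) := IsFractionRing.injective O Ω
  let f : Ω → O := fun x =>
    if h : ∃ o : O, algebraMap O Ω o = x / c s₀ then h.choose else 0
  have hf : ∀ x : Ω, (∃ o : O, algebraMap O Ω o = x / c s₀) →
      algebraMap O Ω (f x) = x / c s₀ := by
    intro x h
    show algebraMap O Ω (if h : ∃ o : O, algebraMap O Ω o = x / c s₀ then h.choose else 0) = _
    rw [dif_pos h]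
    exact h.choose_spec
  have hf0 : f 0 = 0 := by
    apply hinjO
    rw [hf 0 ⟨0, by simp⟩, zero_div, map_zero]
  set c' : _ →₀ O := c.mapRange f hf0 with hc'
  have hcs : ∀ s, algebraMap O Ω (c' s) = c s / c s₀ := by
    intro s
    rw [hc', Finsupp.mapRange_apply]
    by_cases hs : s ∈ c.support
    · exact hf (c s) (hmin (c s) (Finset.mem_image_of_mem c hs))
    · have : c s = 0 := Finsupp.notMem_support_iff.mp hs
      rw [this, hf0, map_zero, zero_div]
  set p : O ⊗[K] A := bO.repr.symm c' with hp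
  have hpr : ∀ s, bO.repr p s = c' s := by
    intro s
    rw [hp, LinearEquiv.apply_symm_apply]
  refine ⟨c s₀, p, hm0, ?_, ?_⟩
  · intro h0
    have h1 := repr_rMap (O := O) ρ e p s₀
    rw [h0] at h1
    simp only [map_zero, Finsupp.coe_zero, Pi.zero_apply] at h1
    have h2 : c' s₀ = 1 := by
      apply hinjO
      rw [hcs, div_self hm0, map_one]
    rw [hpr, h2, map_one] at h1
    exact zero_ne_one h1
  · apply bΩ.repr.injective
    ext s
    have h1 : (c s₀ ⊗ₜ[K] (1 : A)) * jMap K O Ω A p = (c s₀) • jMap K O Ω A p := by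
      rw [Algebra.smul_def]
      rfl
    rw [h1, map_smul, Finsupp.smul_apply, repr_jMap (Ω := Ω) e p s, hpr, hcs, smul_eq_mul,
      mul_div_cancel₀ _ hm0]

/-! ## The Gauss valuation ring -/

section Gauss

variable (Ω A)
variable (E : Type*) [Field E] [Algebra (Ω ⊗[K] A) E] [IsFractionRing (Ω ⊗[K] A) E]

/-- `O ⊗ A → E`. -/
def iota : O ⊗[K] A →+* E :=
  (algebraMap (Ω ⊗[K] A) E).comp (jMap K O Ω A).toRingHom

variable (K) in
/-- `Ω → E`. -/
def cMap : Ω →+* E :=
  (algebraMap (Ω ⊗[K] A) E).comp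
    (Algebra.TensorProduct.includeLeft : Ω →ₐ[K] Ω ⊗[K] A).toRingHom

variable (K) in
/-- `A → E`. -/
def aMap : A →+* E :=
  (algebraMap (Ω ⊗[K] A) E).comp
    (Algebra.TensorProduct.includeRight : A →ₐ[K] Ω ⊗[K] A).toRingHom

variable {Ω A E}

theorem iota_apply (p : O ⊗[K] A) :
    iota Ω A E p = algebraMap (Ω ⊗[K] A) E (jMap K O Ω A p) := rfl

theorem cMap_apply (ω : Ω) :
    cMap K Ω A E ω = algebraMap (Ω ⊗[K] A) E (ω ⊗ₜ[K] 1) := rfl

theorem aMap_apply (a : A) :
    aMap K Ω A E a = algebraMap (Ω ⊗[K] A) E (1 ⊗ₜ[K] a) := rfl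

theorem iota_injective : Function.Injective (iota (K := K) (O := O) Ω A E) :=
  (IsFractionRing.injective (Ω ⊗[K] A) E).comp jMap_injective

theorem iota_tmul (o : O) (a : A) :
    iota Ω A E (o ⊗ₜ[K] a) = cMap K Ω A E (algebraMap O Ω o) * aMap K Ω A E a := by
  rw [iota_apply, jMap_tmul, cMap_apply, aMap_apply, ← map_mul,
    Algebra.TensorProduct.tmul_mul_tmul, mul_one, one_mul]

theorem iota_tmul_one (o : O) :
    iota Ω A E (o ⊗ₜ[K] (1 : A)) = cMap K Ω A E (algebraMap O Ω o) := by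
  rw [iota_tmul, map_one, mul_one]

theorem iota_one_tmul (a : A) :
    iota Ω A E ((1 : O) ⊗ₜ[K] a) = aMap K Ω A E a := by
  rw [iota_tmul, map_one, map_one, one_mul]

variable (Ω A) in
/-- The elements of the Gauss ring: quotients `ι p / ι q` with `r q ≠ 0`. -/
def IsGauss (x : E) : Prop :=
  ∃ p q : O ⊗[K] A, rMap K O ρ A q ≠ 0 ∧ x * iota Ω A E q = iota Ω A E p

theorem isGauss_iota [Nontrivial (k ⊗[K] A)] (p : O ⊗[K] A) :
    IsGauss Ω ρ A (iota Ω A E p) :=
  ⟨p, 1, by rw [map_one]; exact one_ne_zero, by rw [map_one, mul_one]⟩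

theorem isGauss_zero [Nontrivial (k ⊗[K] A)] : IsGauss Ω ρ A (0 : E) := by
  have h := isGauss_iota (Ω := Ω) (E := E) ρ (0 : O ⊗[K] A)
  rwa [map_zero] at h

theorem isGauss_one [Nontrivial (k ⊗[K] A)] : IsGauss Ω ρ A (1 : E) := by
  have h := isGauss_iota (Ω := Ω) (E := E) ρ (1 : O ⊗[K] A)
  rwa [map_one] at h

theorem IsGauss.add [NoZeroDivisors (k ⊗[K] A)] {x y : E} (hx : IsGauss Ω ρ A x)
    (hy : IsGauss Ω ρ A y) : IsGauss Ω ρ A (x + y) := by
  obtain ⟨p, q, hq, h⟩ := hx
  obtain ⟨p', q', hq', h'⟩ := hy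
  refine ⟨p * q' + p' * q, q * q', ?_, ?_⟩
  · rw [map_mul]; exact mul_ne_zero hq hq'
  · rw [map_mul, map_add, map_mul, map_mul, ← h, ← h']; ring

theorem IsGauss.mul [NoZeroDivisors (k ⊗[K] A)] {x y : E} (hx : IsGauss Ω ρ A x)
    (hy : IsGauss Ω ρ A y) : IsGauss Ω ρ A (x * y) := by
  obtain ⟨p, q, hq, h⟩ := hx
  obtain ⟨p', q', hq', h'⟩ := hy
  refine ⟨p * p', q * q', ?_, ?_⟩
  · rw [map_mul]; exact mul_ne_zero hq hq'
  · rw [map_mul, map_mul, ← h, ← h']; ring

theorem IsGauss.neg {x : E} (hx : IsGauss Ω ρ A x) : IsGauss Ω ρ A (-x) := by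
  obtain ⟨p, q, hq, h⟩ := hx
  exact ⟨-p, q, hq, by rw [map_neg, ← h]; ring⟩

theorem iota_ne_zero_of_rMap {q : O ⊗[K] A} (hq : rMap K O ρ A q ≠ 0) :
    iota Ω A E q ≠ 0 := by
  intro h
  apply hq
  have : q = 0 := iota_injective (Ω := Ω) (E := E) (by rw [h, map_zero])
  rw [this, map_zero]

/-- Quotients of primitive elements are units of the Gauss ring. -/
theorem isGauss_div (p : O ⊗[K] A) {q : O ⊗[K] A} (hq : rMap K O ρ A q ≠ 0) :
    IsGauss Ω ρ A (iota Ω A E p / iota Ω A E q) :=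
  ⟨p, q, hq, div_mul_cancel₀ _ (iota_ne_zero_of_rMap (Ω := Ω) ρ hq)⟩

/-- The decomposition of a nonzero element of `E`: a constant times a quotient of primitive
elements. -/
theorem exists_scale' (x : E) (hx : x ≠ 0) :
    ∃ (ω : Ω) (p q : O ⊗[K] A), ω ≠ 0 ∧ rMap K O ρ A p ≠ 0 ∧ rMap K O ρ A q ≠ 0 ∧
      x = cMap K Ω A E ω * (iota Ω A E p / iota Ω A E q) := by
  obtain ⟨a, b, hb, rfl⟩ := IsFractionRing.div_surjective (A := Ω ⊗[K] A) x
  have ha0 : a ≠ 0 := by
    rintro rfl
    apply hx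
    rw [map_zero, zero_div]
  have hb0 : b ≠ 0 := by
    rintro rfl
    apply hx
    rw [map_zero, div_zero]
  obtain ⟨ω, p, hω, hp, rfl⟩ := exists_primitive (O := O) ρ a ha0
  obtain ⟨ω', q, hω', hq, rfl⟩ := exists_primitive (O := O) ρ b hb0
  refine ⟨ω / ω', p, q, div_ne_zero hω hω', hp, hq, ?_⟩
  have hω'E : cMap K Ω A E ω' ≠ 0 := by
    rw [Ne, map_eq_zero]; exact hω'
  have hqE := iota_ne_zero_of_rMap (Ω := Ω) (E := E) ρ hq
  rw [map_mul, map_mul, ← cMap_apply, ← cMap_apply, ← iota_apply, ← iota_apply, map_div₀]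
  field_simp

variable [IsAlgClosed K] [IsDomain A]

variable (Ω A E) in
/-- **The Gauss valuation ring** of `E = Frac (Ω ⊗ A)` over the valuation ring `O` of `Ω`. -/
def gauss : ValuationSubring E :=
  haveI : IsDomain (k ⊗[K] A) := H13.isDomain_tensorProduct (K := K) k A
  { carrier := {x | IsGauss Ω ρ A x}
    mul_mem' := fun {_ _} hx hy => IsGauss.mul ρ hx hy
    one_mem' := isGauss_one ρ
    add_mem' := fun {_ _} hx hy => IsGauss.add ρ hx hy
    zero_mem' := isGauss_zero ρ
    neg_mem' := fun {_} hx => IsGauss.neg ρ hx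
    mem_or_inv_mem' := by
      intro x
      by_cases hx : x = 0
      · left
        rw [hx]
        exact isGauss_zero ρ
      obtain ⟨ω, p, q, hω, hp, hq, rfl⟩ := exists_scale' (O := O) (Ω := Ω) (A := A) ρ x hx
      rcases ValuationRing.isInteger_or_isInteger O ω with ⟨o, ho⟩ | ⟨o, ho⟩
      · left
        have h1 : IsGauss Ω ρ A (cMap K Ω A E ω) := by
          rw [← ho, ← iota_tmul_one]
          exact isGauss_iota ρ _
        exact IsGauss.mul ρ h1 (isGauss_div ρ p hq)
      · right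
        have h1 : IsGauss Ω ρ A (cMap K Ω A E ω⁻¹) := by
          rw [← ho, ← iota_tmul_one]
          exact isGauss_iota ρ _
        have h2 : (cMap K Ω A E ω * (iota Ω A E p / iota Ω A E q))⁻¹
            = cMap K Ω A E ω⁻¹ * (iota Ω A E q / iota Ω A E p) := by
          rw [mul_inv, inv_div, map_inv₀]
        rw [h2]
        exact IsGauss.mul ρ h1 (isGauss_div ρ q hp) }

theorem mem_gauss_iff (x : E) :
    x ∈ gauss Ω ρ A E ↔
      ∃ p q : O ⊗[K] A, rMap K O ρ A q ≠ 0 ∧ x * iota Ω A E q = iota Ω A E p :=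
  Iff.rfl

theorem iota_mem_gauss (p : O ⊗[K] A) : iota Ω A E p ∈ gauss Ω ρ A E :=
  haveI : IsDomain (k ⊗[K] A) := H13.isDomain_tensorProduct (K := K) k A
  isGauss_iota ρ p

theorem aMap_mem_gauss (a : A) : aMap K Ω A E a ∈ gauss Ω ρ A E := by
  rw [← iota_one_tmul (O := O)]
  exact iota_mem_gauss ρ _

theorem cMap_mem_gauss (o : O) : cMap K Ω A E (algebraMap O Ω o) ∈ gauss Ω ρ A E := by
  rw [← iota_tmul_one (A := A)]
  exact iota_mem_gauss ρ _

theorem div_mem_gauss (p : O ⊗[K] A) {q : O ⊗[K] A} (hq : rMap K O ρ A q ≠ 0) :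
    iota Ω A E p / iota Ω A E q ∈ gauss Ω ρ A E :=
  isGauss_div ρ p hq

end Gauss

end Fermat.Agent.S26.C.H13G
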