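/-
S26 (row 25), crux (C), package CCC / PRIG, cut KPL-PROD (helper13): the `K`-place of a product
with given centre.

`K` algebraically closed, `FΩ` a fraction field of `Ω ⊗[K] F` (`H30.IsBC`; `Ω`, `F` ANY field
extensions of `K`: the function fields of two varieties `Y`, `X`, `FΩ = K(X × Y)`).  For a
`K`-place `P` of `Ω` (centre `y`) and a `K`-place `Q` of `F` (centre `x`) the composite of the
Gauss valuation ring of `FΩ` over `P` (residue field `F`) with `Q` is a `K`-place `prodPl P Q h` of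
`FΩ` with `V ∩ F = Q`, `V ∩ Ω = P` (centre `(x, y)`), contained in the Gauss ring, with residue map
`res_Q ∘ red`.

* `compRed V r hr W` : the composite valuation ring (any `V`, any surjective `r : V →+* κ`);
* `prodO P Q h`, `prodPl P Q h : KPl K FΩ`, `comap_F`, `comap_Ω`, `prodO_le`, `prodPl_res`;
* `exists_kplace_prod` : the existence form;
* `isBC_of_linearDisjoint` : two linearly disjoint intermediate fields `L₁`, `L₂` of `E / K` with
  `L₁ ⊔ L₂ = ⊤` give `H30.IsBC K L₁ L₂ E`;  `exists_kplace_prod_of_linearDisjoint`.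
-/
import Fermat.Agent.S26.C.H30_BC

set_option autoImplicit false
set_option linter.unusedSectionVars false

open TensorProduct IntermediateField

noncomputable section

namespace Fermat.Agent.S26.C.H13K

universe u

/-! ## The composite of a valuation ring with a valuation ring of its residue field -/

section Comp

variable {E κ : Type*} [Field E] [Field κ]

/-- The kernel of a surjective homomorphism from a valuation ring onto a field is the set of
non-units. -/
theorem map_eq_zero_iff_of_surjective (V : ValuationSubring E) (r : V →+* κ)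
    (hr : Function.Surjective r) (t : V) : r t = 0 ↔ ¬ IsUnit t := by
  have hmax : (RingHom.ker r).IsMaximal := RingHom.ker_isMaximal_of_surjective r hr
  have heq : RingHom.ker r = IsLocalRing.maximalIdeal V := IsLocalRing.eq_maximalIdeal hmax
  rw [← RingHom.mem_ker, heq, IsLocalRing.mem_maximalIdeal, mem_nonunits_iff]

/-- The composite of the valuation ring `V` of `E` (residue map `r : V → κ`) with the valuation
ring `W` of `κ`. -/
def compRed (V : ValuationSubring E) (r : V →+* κ) (hr : Function.Surjective r)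
    (W : ValuationSubring κ) : ValuationSubring E where
  carrier := {t | ∃ ht : t ∈ V, r ⟨t, ht⟩ ∈ W}
  mul_mem' := by
    rintro a b ⟨ha, ha'⟩ ⟨hb, hb'⟩
    refine ⟨mul_mem ha hb, ?_⟩
    have : (⟨a * b, mul_mem ha hb⟩ : V) = ⟨a, ha⟩ * ⟨b, hb⟩ := rfl
    rw [this, map_mul]
    exact mul_mem ha' hb'
  one_mem' := ⟨one_mem _, by
    have : (⟨1, one_mem _⟩ : V) = 1 := rfl
    rw [this, map_one]
    exact one_mem _⟩
  add_mem' := by
    rintro a b ⟨ha, ha'⟩ ⟨hb, hb'⟩
    refine ⟨add_mem ha hb, ?_⟩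
    have : (⟨a + b, add_mem ha hb⟩ : V) = ⟨a, ha⟩ + ⟨b, hb⟩ := rfl
    rw [this, map_add]
    exact add_mem ha' hb'
  zero_mem' := ⟨zero_mem _, by
    have : (⟨0, zero_mem _⟩ : V) = 0 := rfl
    rw [this, map_zero]
    exact zero_mem _⟩
  neg_mem' := by
    rintro a ⟨ha, ha'⟩
    refine ⟨neg_mem ha, ?_⟩
    have : (⟨-a, neg_mem ha⟩ : V) = -⟨a, ha⟩ := rfl
    rw [this, map_neg]
    exact neg_mem ha'
  mem_or_inv_mem' := by
    intro t
    by_cases ht : t ∈ V
    · by_cases hw : r ⟨t, ht⟩ ∈ W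
      · exact Or.inl ⟨ht, hw⟩
      · right
        have h0 : r ⟨t, ht⟩ ≠ 0 := fun h => hw (h ▸ zero_mem _)
        have hu : IsUnit (⟨t, ht⟩ : V) := by
          by_contra hnu
          exact h0 ((map_eq_zero_iff_of_surjective V r hr _).mpr hnu)
        obtain ⟨u, hu⟩ := hu
        have h1 : ((u : V) : E) = t := by rw [hu]
        have h2 : ((u : V) : E) * (((u⁻¹ : Vˣ) : V) : E) = 1 := by
          have h := congrArg Subtype.val u.mul_inv
          exact h
        rw [h1] at h2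
        have hinv : t⁻¹ = (((u⁻¹ : Vˣ) : V) : E) := (eq_inv_of_mul_eq_one_right h2).symm
        have hmem : t⁻¹ ∈ V := by rw [hinv]; exact Subtype.mem _
        refine ⟨hmem, ?_⟩
        have h3 : r ⟨t, ht⟩ * r ⟨t⁻¹, hmem⟩ = 1 := by
          rw [← map_mul]
          have : (⟨t, ht⟩ : V) * ⟨t⁻¹, hmem⟩ = 1 := by
            apply Subtype.ext
            show t * t⁻¹ = 1
            rw [hinv]
            exact h2
          rw [this, map_one]
        have h4 : r ⟨t⁻¹, hmem⟩ = (r ⟨t, ht⟩)⁻¹ := eq_inv_of_mul_eq_one_right h3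
        rw [h4]
        exact (W.mem_or_inv_mem _).resolve_left hw
    · right
      have hmem : t⁻¹ ∈ V := (V.mem_or_inv_mem t).resolve_left ht
      refine ⟨hmem, ?_⟩
      have h0 : r ⟨t⁻¹, hmem⟩ = 0 := by
        rw [map_eq_zero_iff_of_surjective V r hr]
        rintro ⟨u, hu⟩
        apply ht
        have h2 : ((u : V) : E) * (((u⁻¹ : Vˣ) : V) : E) = 1 := by
          have h := congrArg Subtype.val u.mul_inv
          exact h
        rw [hu] at h2
        have h3 : t = (((u⁻¹ : Vˣ) : V) : E) := by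
          have := eq_inv_of_mul_eq_one_right h2
          rw [this, inv_inv]
        rw [h3]
        exact Subtype.mem _
      rw [h0]
      exact zero_mem _

theorem mem_compRed {V : ValuationSubring E} {r : V →+* κ} {hr : Function.Surjective r}
    {W : ValuationSubring κ} {t : E} :
    t ∈ compRed V r hr W ↔ ∃ ht : t ∈ V, r ⟨t, ht⟩ ∈ W :=
  Iff.rfl

theorem compRed_le (V : ValuationSubring E) (r : V →+* κ) (hr : Function.Surjective r)
    (W : ValuationSubring κ) : compRed V r hr W ≤ V :=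
  fun _ ht => ht.1

/-- The non-units of the composite. -/
theorem mem_nonunits_compRed {V : ValuationSubring E} {r : V →+* κ}
    {hr : Function.Surjective r} {W : ValuationSubring κ} {t : E} (ht : t ∈ V)
    (hw : r ⟨t, ht⟩ ∈ W.nonunits) : t ∈ (compRed V r hr W).nonunits := by
  have htW : r ⟨t, ht⟩ ∈ W := ValuationSubring.nonunits_subset hw
  have htc : t ∈ compRed V r hr W := ⟨ht, htW⟩
  rw [ValuationSubring.mem_nonunits_iff_exists_mem_maximalIdeal]
  refine ⟨htc, ?_⟩
  rw [IsLocalRing.mem_maximalIdeal, mem_nonunits_iff]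
  rintro ⟨u, hu⟩
  have h2 : ((u : compRed V r hr W) : E) * (((u⁻¹ : (compRed V r hr W)ˣ) :
      compRed V r hr W) : E) = 1 := by
    have h := congrArg Subtype.val u.mul_inv
    exact h
  have h1 : ((u : compRed V r hr W) : E) = t := by rw [hu]
  rw [h1] at h2
  obtain ⟨hs, hs'⟩ := (((u⁻¹ : (compRed V r hr W)ˣ) : compRed V r hr W)).2
  set s : E := (((u⁻¹ : (compRed V r hr W)ˣ) : compRed V r hr W) : E) with hsdef
  have h3 : r ⟨t, ht⟩ * r ⟨s, hs⟩ = 1 := by
    rw [← map_mul]
    have : (⟨t, ht⟩ : V) * ⟨s, hs⟩ = 1 := Subtype.ext h2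
    rw [this, map_one]
  -- a non-unit of `W` times an element of `W` is not `1`
  have h4 : W.valuation (r ⟨t, ht⟩) < 1 := (ValuationSubring.mem_nonunits_iff W).mp hw
  have h5 : W.valuation (r ⟨s, hs⟩) ≤ 1 := (W.valuation_le_one_iff _).mpr hs'
  have h6 : W.valuation (r ⟨t, ht⟩ * r ⟨s, hs⟩) < 1 := by
    rw [map_mul]
    exact mul_lt_one_of_lt_of_le h4 h5
  rw [h3, map_one] at h6
  exact lt_irrefl _ h6

end Comp

/-! ## The product place -/

section Prod

open H30

variable {K F Ω FΩ : Type u} [Field K] [IsAlgClosed K] [Field F] [Algebra K F] [Field Ω]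
  [Algebra K Ω] [Field FΩ] [Algebra Ω FΩ] [Algebra F FΩ] [Algebra K FΩ] [IsScalarTower K F FΩ]
  [IsScalarTower K Ω FΩ] (P : KPl K Ω) (Q : KPl K F) (h : IsBC K F Ω FΩ)

theorem red_surjective : Function.Surjective (P.red h) :=
  fun f => ⟨⟨algebraMap F FΩ f, P.inV_algebraMap_F f⟩, P.red_algebraMap_F h f⟩

/-- The valuation ring of the product place: the composite of the Gauss valuation ring over `P`
with `Q`. -/
def prodO : ValuationSubring FΩ :=
  compRed (P.gaussV h) (P.red h) (red_surjective P h) Q.O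

theorem mem_prodO {t : FΩ} :
    t ∈ prodO P Q h ↔ ∃ ht : t ∈ P.gaussV h, P.red h ⟨t, ht⟩ ∈ Q.O :=
  Iff.rfl

theorem prodO_le : prodO P Q h ≤ P.gaussV h :=
  compRed_le _ _ _ _

/-- `V ∩ F = Q`. -/
theorem comap_F : (prodO P Q h).comap (algebraMap F FΩ) = Q.O := by
  ext f
  rw [ValuationSubring.mem_comap, mem_prodO]
  constructor
  · rintro ⟨ht, hw⟩
    have h1 := P.red_algebraMap_F h f
    rw [h1] at hw
    exact hw
  · intro hf
    refine ⟨P.inV_algebraMap_F f, ?_⟩
    rw [P.red_algebraMap_F h f]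
    exact hf

/-- `V ∩ Ω = P`. -/
theorem comap_Ω : (prodO P Q h).comap (algebraMap Ω FΩ) = P.O := by
  ext ω
  rw [ValuationSubring.mem_comap, mem_prodO]
  constructor
  · rintro ⟨ht, -⟩
    exact P.mem_O_of_inV h ht
  · intro hω
    have hV : algebraMap Ω FΩ ω ∈ P.gaussV h := P.inV_algebraMap_O hω
    refine ⟨hV, ?_⟩
    rw [P.red_algebraMap_O h hω hV]
    exact Q.hK _

theorem algebraMap_F_mem {f : F} (hf : f ∈ Q.O) : algebraMap F FΩ f ∈ prodO P Q h := by
  have h1 : f ∈ (prodO P Q h).comap (algebraMap F FΩ) := by rw [comap_F]; exact hf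
  exact h1

theorem algebraMap_Ω_mem {ω : Ω} (hω : ω ∈ P.O) : algebraMap Ω FΩ ω ∈ prodO P Q h := by
  have h1 : ω ∈ (prodO P Q h).comap (algebraMap Ω FΩ) := by rw [comap_Ω]; exact hω
  exact h1

theorem const_mem (c : K) : algebraMap K FΩ c ∈ prodO P Q h := by
  rw [IsScalarTower.algebraMap_apply K F FΩ]
  exact algebraMap_F_mem P Q h (Q.hK c)

theorem red_const (c : K) (hc : algebraMap K FΩ c ∈ P.gaussV h) :
    P.red h ⟨algebraMap K FΩ c, hc⟩ = algebraMap K F c := by
  have h2 : (⟨algebraMap K FΩ c, hc⟩ : P.gaussV h) =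
      ⟨algebraMap F FΩ (algebraMap K F c), P.inV_algebraMap_F _⟩ :=
    Subtype.ext (IsScalarTower.algebraMap_apply K F FΩ c)
  rw [h2, P.red_algebraMap_F]

/-- An element of the Gauss ring whose reduction is a non-unit of `Q` is a non-unit of `V`. -/
theorem mem_nonunits_prodO {t : FΩ} (ht : t ∈ P.gaussV h)
    (hw : P.red h ⟨t, ht⟩ ∈ Q.O.nonunits) : t ∈ (prodO P Q h).nonunits :=
  mem_nonunits_compRed ht hw

theorem exists_res (t : FΩ) (ht : t ∈ prodO P Q h) :
    ∃ c : K, t - algebraMap K FΩ c ∈ (prodO P Q h).nonunits := by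
  obtain ⟨htV, hw⟩ := ht
  obtain ⟨c, hc⟩ := Q.hres _ hw
  refine ⟨c, ?_⟩
  have hcV : algebraMap K FΩ c ∈ P.gaussV h := prodO_le P Q h (const_mem P Q h c)
  have hsub : t - algebraMap K FΩ c ∈ P.gaussV h := sub_mem htV hcV
  apply mem_nonunits_prodO P Q h hsub
  have h1 : (⟨t - algebraMap K FΩ c, hsub⟩ : P.gaussV h) =
      ⟨t, htV⟩ - ⟨algebraMap K FΩ c, hcV⟩ := rfl
  rw [h1, map_sub, red_const P h c hcV]
  exact hc

/-- **The product place**: the `K`-place of `FΩ = K(X × Y)` with centre `(x, y)`. -/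
def prodPl : KPl K FΩ := ⟨prodO P Q h, const_mem P Q h, exists_res P Q h⟩

theorem prodPl_O : (prodPl P Q h).O = prodO P Q h := rfl

/-- The residue map of the product place is the composite of the reduction with the residue map
of `Q`. -/
theorem prodPl_res (t : FΩ) (ht : t ∈ P.gaussV h) (hw : P.red h ⟨t, ht⟩ ∈ Q.O) :
    (prodPl P Q h).res ⟨t, ⟨ht, hw⟩⟩ = Q.res ⟨P.red h ⟨t, ht⟩, hw⟩ := by
  apply KPl.res_eq
  have hc := Q.res_apply_spec ⟨P.red h ⟨t, ht⟩, hw⟩
  set c := Q.res ⟨P.red h ⟨t, ht⟩, hw⟩ with hcdef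
  have hcV : algebraMap K FΩ c ∈ P.gaussV h := prodO_le P Q h (const_mem P Q h c)
  have hsub : t - algebraMap K FΩ c ∈ P.gaussV h := sub_mem ht hcV
  apply mem_nonunits_prodO P Q h hsub
  have h1 : (⟨t - algebraMap K FΩ c, hsub⟩ : P.gaussV h) =
      ⟨t, ht⟩ - ⟨algebraMap K FΩ c, hcV⟩ := rfl
  rw [h1, map_sub, red_const P h c hcV]
  exact hc

/-- **KPL-PROD**, existence form: for `K`-places `O'` of `Ω` and `Q` of `F` there is a `K`-place
`V` of `FΩ` with `V ∩ F = Q` and `V ∩ Ω = O'`. -/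
theorem exists_kplace_prod (O' : ValuationSubring Ω) (hO'K : ∀ c : K, algebraMap K Ω c ∈ O')
    (hO' : ∀ a : Ω, a ∈ O' → ∃ c : K, a - algebraMap K Ω c ∈ O'.nonunits)
    (Q₀ : ValuationSubring F) (hQK : ∀ c : K, algebraMap K F c ∈ Q₀)
    (hQ : ∀ a : F, a ∈ Q₀ → ∃ c : K, a - algebraMap K F c ∈ Q₀.nonunits)
    (h : IsBC K F Ω FΩ) :
    ∃ V : ValuationSubring FΩ, (∀ c : K, algebraMap K FΩ c ∈ V) ∧
      (∀ a : FΩ, a ∈ V → ∃ c : K, a - algebraMap K FΩ c ∈ V.nonunits) ∧
      V.comap (algebraMap F FΩ) = Q₀ ∧ V.comap (algebraMap Ω FΩ) = O' :=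
  ⟨prodO ⟨O', hO'K, hO'⟩ ⟨Q₀, hQK, hQ⟩ h, const_mem _ _ h, exists_res _ _ h,
    comap_F _ _ h, comap_Ω _ _ h⟩

end Prod

/-! ## Linearly disjoint intermediate fields -/

section Bridge

open H30

variable {K E : Type u} [Field K] [Field E] [Algebra K E]

theorem bcMap_eq_mulMap (L₁ L₂ : IntermediateField K E) (x : L₂ ⊗[K] L₁) :
    bcMap K L₁ L₂ E x = (L₂.toSubalgebra.mulMap L₁.toSubalgebra) x := by
  induction x using TensorProduct.induction_on with
  | zero => simp
  | tmul ω f => rw [bcMap_tmul]; rfl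
  | add x y hx hy => rw [map_add, map_add, hx, hy]

theorem isBC_of_linearDisjoint (L₁ L₂ : IntermediateField K E) (hLD : L₁.LinearDisjoint L₂)
    (hgen : L₁ ⊔ L₂ = ⊤) : IsBC K L₁ L₂ E := by
  have hLD' : L₂.toSubalgebra.LinearDisjoint L₁.toSubalgebra :=
    (IntermediateField.linearDisjoint_iff'.1 hLD).symm
  have hinj : Function.Injective (bcMap K L₁ L₂ E) := by
    intro x y hxy
    apply hLD'.injective
    have h1 := bcMap_eq_mulMap L₁ L₂ x
    have h2 := bcMap_eq_mulMap L₁ L₂ y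
    rw [hxy] at h1
    exact h1.symm.trans h2
  refine ⟨hinj, ?_⟩
  intro t
  have ht : t ∈ L₁ ⊔ L₂ := by rw [hgen]; exact IntermediateField.mem_top
  rw [IntermediateField.sup_def, IntermediateField.mem_adjoin_iff_div] at ht
  obtain ⟨r, hr, s, hs, rfl⟩ := ht
  have hrange : Algebra.adjoin K ((L₁ : Set E) ∪ (L₂ : Set E)) =
      (L₂.toSubalgebra.mulMap L₁.toSubalgebra).range := by
    rw [Subalgebra.mulMap_range, Algebra.adjoin_union, sup_comm]
    congr 1
    · exact Algebra.adjoin_eq L₂.toSubalgebra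
    · exact Algebra.adjoin_eq L₁.toSubalgebra
  rw [hrange] at hr hs
  obtain ⟨x, hx⟩ := hr
  obtain ⟨y, hy⟩ := hs
  by_cases hs0 : s = 0
  · refine ⟨0, 1, one_ne_zero, ?_⟩
    rw [hs0, div_zero, zero_mul, map_zero]
  · refine ⟨x, y, ?_, ?_⟩
    · rintro rfl
      apply hs0
      rw [← hy, map_zero]
    · rw [bcMap_eq_mulMap, bcMap_eq_mulMap]
      show r / s * (L₂.toSubalgebra.mulMap L₁.toSubalgebra) y = (L₂.toSubalgebra.mulMap L₁.toSubalgebra) x
      have hx' : (L₂.toSubalgebra.mulMap L₁.toSubalgebra) x = r := hx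
      have hy' : (L₂.toSubalgebra.mulMap L₁.toSubalgebra) y = s := hy
      rw [hx', hy', div_mul_cancel₀ _ hs0]


/-- **KPL-PROD** for two linearly disjoint intermediate fields generating `E`: for `K`-places
`Q` of `L₁` and `O'` of `L₂` there is a `K`-place `V` of `E` with `V ∩ L₁ = Q`, `V ∩ L₂ = O'`,
contained in the Gauss valuation ring of `E` over `O'`. -/
theorem exists_kplace_prod_of_linearDisjoint [IsAlgClosed K] (L₁ L₂ : IntermediateField K E)
    (hLD : L₁.LinearDisjoint L₂) (hgen : L₁ ⊔ L₂ = ⊤)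
    (Q : KPl K L₁) (P : KPl K L₂) :
    ∃ V : ValuationSubring E, (∀ c : K, algebraMap K E c ∈ V) ∧
      (∀ a : E, a ∈ V → ∃ c : K, a - algebraMap K E c ∈ V.nonunits) ∧
      V.comap (algebraMap L₁ E) = Q.O ∧ V.comap (algebraMap L₂ E) = P.O ∧
      V ≤ P.gaussV (isBC_of_linearDisjoint L₁ L₂ hLD hgen) :=
  ⟨prodO P Q (isBC_of_linearDisjoint L₁ L₂ hLD hgen), const_mem _ _ _, exists_res _ _ _,
    comap_F _ _ _, comap_Ω _ _ _, prodO_le _ _ _⟩

end Bridge

end Fermat.Agent.S26.C.H13K
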