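/-
S26 (row 25), crux (C), abstract leaf (helper13): RATIONAL CENTRES.

`K` algebraically closed, `E` a field over `K`.

* `exists_valuationSubring_rational` (Atiyah–Macdonald 5.21 with target `K`): a subring `A ⊇ K` of
  `E` and a set `M` of "non-units" such that `A = K + M` (`∀ a ∈ A, ∃ c, a - c ∈ M`), contained in
  some valuation ring `O` with `M ⊆ 𝔪_O`: then there is a valuation ring `V ⊇ A` of `E` with
  `M ⊆ 𝔪_V` and RESIDUE FIELD `K` (`∀ x ∈ V, ∃ c : K, x - c ∈ 𝔪_V`).
* `exists_le_rational` : every valuation ring `V₀ ⊇ K` of `E` contains a valuation ring `V ⊇ K`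
  with residue field `K` (a `K`-rational specialisation of the place `V₀`).

Use: "properness" in the language without schemes — a place of the function field of a product
of curves has a CLOSED point in the closure of its centre; rigidity.

Proof: a MINIMAL valuation ring with the properties (Zorn, helper57's `S27/Char0/H57_VALCore`,
Mathlib only); if its residue field had an element `x̄ ∉ K`, then `x̄` is transcendental, `K[x̄]`
has a valuation ring `W` with `x̄ ∈ 𝔪_W`, and the composite is strictly smaller.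
-/
import Mathlib
import Fermat.Agent.S27.Char0.H57_VALCore

set_option autoImplicit false
set_option linter.style.haveILetI false

noncomputable section

namespace Fermat.Agent.S26.C.H13

open IsLocalRing Fermat.Agent.S27.Char0.H57

universe u v

variable (K : Type v) [Field K] [IsAlgClosed K] {E : Type u} [Field E] [Algebra K E]

/-- An element of a field extension of an algebraically closed field `K` whose inverse is a
polynomial in it lies in `K`. -/
theorem mem_range_of_mul_aeval_eq_one {κ : Type*} [Field κ] [Algebra K κ] (x : κ)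
    (q : Polynomial K) (h : x * Polynomial.aeval x q = 1) :
    x ∈ Set.range (algebraMap K κ) := by
  have halg : IsAlgebraic K x := by
    refine ⟨Polynomial.X * q - 1, ?_, ?_⟩
    · intro h0
      have h1 := congrArg (fun P : Polynomial K => P.coeff 0) h0
      simp at h1
    · simp [h]
  have hint : IsIntegral K x := halg.isIntegral
  have hirr := minpoly.irreducible hint
  have hdeg := IsAlgClosed.degree_eq_one_of_irreducible K hirr
  exact minpoly.mem_range_of_degree_eq_one K x hdeg

/-- **Atiyah–Macdonald 5.21 with target `K`.** -/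
theorem exists_valuationSubring_rational (A : Subring E)
    (hKA : ∀ c : K, algebraMap K E c ∈ A) (M : Set E)
    (hne : ∃ O : ValuationSubring E, A ≤ O.toSubring ∧ M ⊆ O.nonunits)
    (hres : ∀ a ∈ A, ∃ c : K, a - algebraMap K E c ∈ M) :
    ∃ V : ValuationSubring E, A ≤ V.toSubring ∧ M ⊆ V.nonunits ∧
      ∀ x ∈ V, ∃ c : K, x - algebraMap K E c ∈ V.nonunits := by
  classical
  obtain ⟨V, ⟨hAV, hMV⟩, hmin⟩ := exists_minimal_valuationSubring A M hne
  refine ⟨V, hAV, hMV, ?_⟩
  by_contra hcon
  push Not at hcon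
  obtain ⟨x, hxV, hx⟩ := hcon
  -- `K → κ(V)`
  have hKV : ∀ c : K, algebraMap K E c ∈ V := fun c => hAV (hKA c)
  let ι : K →+* ResidueField V :=
    (residue V).comp ((algebraMap K E).codRestrict V.toSubring hKV)
  letI : Algebra K (ResidueField V) := ι.toAlgebra
  have hι : ∀ c : K, algebraMap K (ResidueField V) c = residue V ⟨algebraMap K E c, hKV c⟩ :=
    fun c => rfl
  set xb : ResidueField V := residue V ⟨x, hxV⟩ with hxb
  -- `x` is a unit of `V`
  have hx0 : x ∉ V.nonunits := by
    have := hx 0
    simpa using this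
  have hxne : x ≠ 0 := by
    intro h0
    apply hx0
    rw [ValuationSubring.mem_nonunits_iff_or]
    exact Or.inl h0
  have hxinv : x⁻¹ ∈ V := by
    by_contra h
    apply hx0
    rw [ValuationSubring.mem_nonunits_iff_or]
    exact Or.inr h
  have hxb0 : xb ≠ 0 := by
    intro h0
    rw [hxb, residue_eq_zero_iff_or] at h0
    rcases h0 with h0 | h0
    · exact hxne h0
    · exact h0 hxinv
  -- `xb ∉ K`
  have hxbK : xb ∉ Set.range (algebraMap K (ResidueField V)) := by
    rintro ⟨c, hc⟩
    apply hx c
    have hmem : x - algebraMap K E c ∈ V := V.sub_mem hxV (hKV c)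
    have h1 : residue V ⟨x - algebraMap K E c, hmem⟩ = 0 := by
      have h2 : (⟨x - algebraMap K E c, hmem⟩ : V) = ⟨x, hxV⟩ - ⟨algebraMap K E c, hKV c⟩ := rfl
      rw [h2, map_sub, ← hι, hc, sub_self]
    rw [residue_eq_zero_iff_or] at h1
    rw [ValuationSubring.mem_nonunits_iff_or]
    exact h1
  -- the ring `K[xb]` and the ideal `(xb)`
  let A' : Subring (ResidueField V) := (Algebra.adjoin K {xb}).toSubring
  have hxbA' : xb ∈ A' := Algebra.subset_adjoin (Set.mem_singleton xb)
  have hKA' : ∀ c : K, algebraMap K (ResidueField V) c ∈ A' :=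
    fun c => (Algebra.adjoin K {xb}).algebraMap_mem c
  let I : Ideal A' := Ideal.span {⟨xb, hxbA'⟩}
  have hI : I ≠ ⊤ := by
    intro htop
    have h1 : (1 : A') ∈ I := by rw [htop]; trivial
    obtain ⟨y, hy⟩ := Ideal.mem_span_singleton'.mp h1
    have hyadj : (y : ResidueField V) ∈ Algebra.adjoin K {xb} := y.2
    rw [Algebra.adjoin_singleton_eq_range_aeval] at hyadj
    obtain ⟨q, hq⟩ := hyadj
    have h2 : (y : ResidueField V) * xb = 1 := by
      have := congrArg (Subtype.val) hy
      simpa using this
    apply hxbK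
    refine mem_range_of_mul_aeval_eq_one K xb q ?_
    have hq' : Polynomial.aeval xb q = (y : ResidueField V) := hq
    rw [hq', mul_comm]
    exact h2
  obtain ⟨W, hA'W, hIW⟩ := Ideal.image_subset_nonunits_valuationSubring I hI
  have hxbW : xb ∈ W.nonunits :=
    hIW ⟨⟨xb, hxbA'⟩, Ideal.subset_span (Set.mem_singleton _), rfl⟩
  -- the composite
  have hle : compVal V W ≤ V := compVal_le V W
  have hAV' : A ≤ (compVal V W).toSubring := by
    intro a ha
    show a ∈ compVal V W
    rw [mem_compVal]
    refine ⟨hAV ha, ?_⟩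
    obtain ⟨c, hc⟩ := hres a ha
    have hmem : a - algebraMap K E c ∈ V := V.sub_mem (hAV ha) (hKV c)
    have h1 : residue V ⟨a - algebraMap K E c, hmem⟩ = 0 := by
      rw [residue_eq_zero_iff_or, ← ValuationSubring.mem_nonunits_iff_or]
      exact hMV hc
    have h2 : (⟨a - algebraMap K E c, hmem⟩ : V) = ⟨a, hAV ha⟩ - ⟨algebraMap K E c, hKV c⟩ := rfl
    rw [h2, map_sub, sub_eq_zero] at h1
    rw [h1, ← hι]
    exact hA'W (hKA' c)
  have hMV' : M ⊆ (compVal V W).nonunits := by
    intro m hm
    exact (ValuationSubring.nonunits_le_nonunits.mpr hle) (hMV hm)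
  have hVle := hmin (compVal V W) hAV' hMV' hle
  have h3 : x⁻¹ ∈ compVal V W := hVle hxinv
  rw [mem_compVal] at h3
  obtain ⟨h4, h5⟩ := h3
  rw [residue_inv V hxV h4 hxne] at h5
  rw [ValuationSubring.mem_nonunits_iff_or] at hxbW
  rcases hxbW with h | h
  · exact hxb0 h
  · exact h h5

/-- Every valuation ring `V₀ ⊇ K` contains a valuation ring `V ⊇ K` with residue field `K`. -/
theorem exists_le_rational (V₀ : ValuationSubring E) (hK : ∀ c : K, algebraMap K E c ∈ V₀) :
    ∃ V : ValuationSubring E, V ≤ V₀ ∧ (∀ c : K, algebraMap K E c ∈ V) ∧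
      ∀ x ∈ V, ∃ c : K, x - algebraMap K E c ∈ V.nonunits := by
  obtain ⟨V, hAV, hMV, hV⟩ := exists_valuationSubring_rational K
    ((algebraMap K E).range) (fun c => ⟨c, rfl⟩) (V₀.nonunits)
    ⟨V₀, by rintro _ ⟨c, rfl⟩; exact hK c, le_rfl⟩
    (by
      rintro _ ⟨c, rfl⟩
      refine ⟨c, ?_⟩
      rw [sub_self]
      show (0 : E) ∈ V₀.nonunits
      rw [ValuationSubring.mem_nonunits_iff_or]
      exact Or.inl rfl)
  refine ⟨V, ValuationSubring.nonunits_le_nonunits.mp hMV, fun c => hAV ⟨c, rfl⟩, hV⟩

end Fermat.Agent.S26.C.H13
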