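/-
S26 (row 25), crux (C), rigidity (helper29): RIG-DIRECT.  Mathlib + `H29_Rig` (CHEV-K) only.

`K` algebraically closed, `Ω` any field over `K`, `L₁`, `L₂` intermediate fields which are linearly
disjoint over `K` (`L₁ = K(Y)`, `L₂ = K(Z)` inside a field containing `K(Y × Z)`), `B_i ⊆ L_i` a
`K`-subalgebra with a `K`-point `φ_i` (the local ring of `Y` at `y₀`, of `Z` at `z₀`).

* `exists_algHom_of_finiteType` : a nontrivial `K`-algebra of finite type has a `K`-point.
* `mem_range_of_isAlgebraic_of_linearDisjoint` : an element of `Ω` which is algebraic over `L₁` and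
  over `L₂` lies in `K`.
* `rig_direct` : an element of `Ω` which lies in the maximal ideal of EVERY `K`-place of `Ω` centred
  at `φ₁` or at `φ₂` (the "face places") is `0`.
-/
import Mathlib
import Fermat.Agent.S26.C.H29_Rig

set_option autoImplicit false

namespace Fermat.Agent.S26.C.H29

open IsLocalRing Polynomial

section Aux

variable {K : Type*} [Field K]

/-- A nontrivial algebra of finite type over an algebraically closed field has a `K`-point. -/
theorem exists_algHom_of_finiteType [IsAlgClosed K] (A : Type*) [CommRing A] [Algebra K A]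
    [Nontrivial A] [Algebra.FiniteType K A] : Nonempty (A →ₐ[K] K) := by
  obtain ⟨m, hm⟩ := Ideal.exists_maximal A
  letI := Ideal.Quotient.field m
  have hfin : Module.Finite K (A ⧸ m) := finite_of_finite_type_of_isJacobsonRing K (A ⧸ m)
  have hbij : Function.Bijective (algebraMap K (A ⧸ m)) :=
    IsAlgClosed.algebraMap_bijective_of_isIntegral
  let E : K ≃ₐ[K] (A ⧸ m) := AlgEquiv.ofBijective (Algebra.ofId K (A ⧸ m)) hbij
  exact ⟨(E.symm : (A ⧸ m) →ₐ[K] K).comp (Ideal.Quotient.mkₐ K m)⟩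

variable {Ω : Type*} [Field Ω]

/-- An element which is integral over a ring which maps into a valuation subring lies in the
valuation subring. -/
theorem mem_of_isIntegral_of_forall_mem (O : ValuationSubring Ω) {R : Type*} [CommRing R]
    [Algebra R Ω] (hR : ∀ r : R, algebraMap R Ω r ∈ O) (x : Ω) (hx : IsIntegral R x) : x ∈ O := by
  obtain ⟨p, hp, hpx⟩ := hx
  have h1 : IsIntegral O x := by
    refine ⟨p.map ((algebraMap R Ω).codRestrict O.toSubring hR), hp.map _, ?_⟩
    rw [eval₂_map]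
    exact hpx
  obtain ⟨y, hy⟩ := (IsIntegrallyClosed.isIntegral_iff (R := O) (K := Ω)).mp h1
  rw [← hy]
  exact y.2

/-- The maximal ideal of a valuation subring absorbs multiplication. -/
theorem nonunits_mul_mem (O : ValuationSubring Ω) {a b : Ω} (ha : a ∈ O.nonunits) (hb : b ∈ O) :
    a * b ∈ O.nonunits := by
  rw [ValuationSubring.mem_nonunits_iff_exists_mem_maximalIdeal] at ha ⊢
  obtain ⟨ha1, ha2⟩ := ha
  exact ⟨O.mul_mem _ _ ha1 hb, Ideal.mul_mem_right (⟨b, hb⟩ : O) _ ha2⟩

end Aux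

section LinDisj

open scoped TensorProduct

variable {K : Type*} {Ω : Type*} [Field K] [Field Ω] [Algebra K Ω]

/-- `L₁`, `L₂` linearly disjoint over the algebraically closed field `K`: an element which is
algebraic over `L₁` and over `L₂` lies in `K`. -/
theorem mem_range_of_isAlgebraic_of_linearDisjoint [IsAlgClosed K]
    (L₁ L₂ : IntermediateField K Ω) (h : L₁.LinearDisjoint L₂) (c : Ω)
    (h₁ : IsAlgebraic L₁ c) (h₂ : IsAlgebraic L₂ c) : c ∈ (algebraMap K Ω).range := by
  classical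
  -- a monic polynomial over `Ω` with coefficients in `L₁` which kills `c`
  set q : Polynomial Ω := (minpoly L₁ c).map (algebraMap L₁ Ω) with hq
  have hqm : q.Monic := (minpoly.monic h₁.isIntegral).map _
  have hqc : q.eval c = 0 := by
    rw [hq, eval_map, ← aeval_def]; exact minpoly.aeval L₁ c
  -- the subalgebra generated by its coefficients
  let B₁ : Subalgebra K Ω := Algebra.adjoin K (q.coeffs : Set Ω)
  have hB₁L : B₁ ≤ L₁.toSubalgebra := by
    apply Algebra.adjoin_le
    intro x hx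
    rw [Finset.mem_coe, Polynomial.mem_coeffs_iff] at hx
    obtain ⟨n, -, rfl⟩ := hx
    rw [hq, coeff_map]
    exact ((minpoly L₁ c).coeff n).2
  have hft : Algebra.FiniteType K B₁ :=
    (Subalgebra.fg_iff_finiteType B₁).mp (Subalgebra.fg_adjoin_finset _)
  obtain ⟨φ₁⟩ := exists_algHom_of_finiteType (K := K) B₁
  -- the polynomial over `B₁`
  have hlifts : q ∈ Polynomial.lifts (algebraMap B₁ Ω) := by
    rw [Polynomial.lifts_iff_coeff_lifts]
    intro n
    by_cases hn : q.coeff n = 0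
    · exact ⟨0, by rw [map_zero, hn]⟩
    · exact ⟨⟨q.coeff n, Algebra.subset_adjoin (Finset.mem_coe.mpr
        (Polynomial.mem_coeffs_iff.mpr ⟨n, Polynomial.mem_support_iff.mpr hn, rfl⟩))⟩, rfl⟩
  obtain ⟨q', hq'map, -, hq'm⟩ := Polynomial.lifts_and_degree_eq_and_monic hlifts hqm
  -- the valuation ring
  have hLD : B₁.LinearDisjoint L₂.toSubalgebra :=
    (IntermediateField.linearDisjoint_iff'.mp h).of_le_left_of_flat hB₁L
  let M := hLD.mulMap
  let R : Subalgebra K Ω := B₁ ⊔ L₂.toSubalgebra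
  let ψ₀ : B₁ ⊗[K] L₂.toSubalgebra →ₐ[K] Ω :=
    Algebra.TensorProduct.lift ((Algebra.ofId K Ω).comp φ₁) L₂.toSubalgebra.val
      (fun _ _ => Commute.all _ _)
  let ψ : R →ₐ[K] Ω := ψ₀.comp (M.symm : R →ₐ[K] _)
  let I : Ideal R.toSubring := RingHom.ker (ψ : R →+* Ω)
  have hI : I ≠ ⊤ := RingHom.ker_ne_top _
  obtain ⟨O, hO1, hO2⟩ := Ideal.image_subset_nonunits_valuationSubring I hI
  have hL₂O : ∀ x : L₂, algebraMap L₂ Ω x ∈ O := fun x =>
    hO1 (show (x : Ω) ∈ R from (le_sup_right : L₂.toSubalgebra ≤ R) x.2)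
  have hB₁O : ∀ b : B₁, algebraMap B₁ Ω b ∈ O := fun b =>
    hO1 (show (b : Ω) ∈ R from (le_sup_left : B₁ ≤ R) b.2)
  have hKO : ∀ a : K, algebraMap K Ω a ∈ O := fun a => hB₁O (algebraMap K B₁ a)
  -- `O` is centred at `φ₁`
  have hcent : ∀ b : B₁, (b : Ω) - algebraMap K Ω (φ₁ b) ∈ O.nonunits := by
    intro b
    apply hO2
    let r : R := ⟨(b : Ω), (le_sup_left : B₁ ≤ R) b.2⟩
    refine ⟨r - algebraMap K R (φ₁ b), ?_, rfl⟩
    show ψ (r - algebraMap K R (φ₁ b)) = 0
    have hr : r = M (b ⊗ₜ 1) := by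
      apply Subtype.ext
      rw [Subalgebra.LinearDisjoint.val_mulMap_tmul]
      simp [r]
    have h3 : ψ r = algebraMap K Ω (φ₁ b) := by
      show ψ₀ (M.symm r) = _
      rw [hr, AlgEquiv.symm_apply_apply]
      simp [ψ₀, Algebra.ofId_apply]
    rw [map_sub, AlgHom.commutes, h3, sub_self]
  -- `c ∈ O`
  have hcO : c ∈ O := by
    apply mem_of_isIntegral_of_forall_mem O hB₁O
    refine ⟨q', hq'm, ?_⟩
    rw [← eval_map, hq'map]
    exact hqc
  -- the residue of `c` is a constant
  let ι : K →+* O := (algebraMap K Ω).codRestrict O.toSubring hKO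
  let j : B₁ →+* O := (algebraMap B₁ Ω).codRestrict O.toSubring hB₁O
  let _ : Algebra K (ResidueField O) := ((residue O).comp ι).toAlgebra
  have halg : ∀ a : K, algebraMap K (ResidueField O) a = residue O (ι a) := fun _ => rfl
  have hj : (residue O).comp j = (algebraMap K (ResidueField O)).comp (φ₁ : B₁ →+* K) := by
    ext b
    show residue O (j b) = residue O (ι (φ₁ b))
    rw [← sub_eq_zero, ← map_sub, residue_eq_zero_iff]
    exact ValuationSubring.coe_mem_nonunits_iff.mp (hcent b)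
  have hev : eval₂ j (⟨c, hcO⟩ : O) q' = 0 := by
    apply O.subtype_injective
    rw [Polynomial.hom_eval₂, map_zero]
    show eval₂ (algebraMap B₁ Ω) c q' = 0
    rw [← eval_map, hq'map]
    exact hqc
  have hint : IsIntegral K (residue O ⟨c, hcO⟩) := by
    refine ⟨q'.map (φ₁ : B₁ →+* K), hq'm.map _, ?_⟩
    rw [eval₂_map, ← hj, ← Polynomial.hom_eval₂, hev, map_zero]
  obtain ⟨a, ha⟩ := minpoly.mem_range_of_degree_eq_one K (residue O ⟨c, hcO⟩)
    (IsAlgClosed.degree_eq_one_of_irreducible K (minpoly.irreducible hint))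
  have hca : c - algebraMap K Ω a ∈ O.nonunits := by
    have h1 : residue O (⟨c, hcO⟩ - ι a) = 0 := by
      rw [map_sub, ← halg, ha, sub_self]
    rw [residue_eq_zero_iff] at h1
    exact ValuationSubring.coe_mem_nonunits_iff.mpr h1
  -- `c - a` is algebraic over `L₂ ⊆ O`, so it is `0`
  refine ⟨a, ?_⟩
  by_contra hne
  have hd : c - algebraMap K Ω a ≠ 0 := fun h0 => hne (sub_eq_zero.mp h0).symm
  have halg2 : IsAlgebraic L₂ (c - algebraMap K Ω a) := by
    refine h₂.sub ?_
    have : algebraMap K Ω a = algebraMap L₂ Ω (algebraMap K L₂ a) := rfl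
    rw [this]
    exact isAlgebraic_algebraMap _
  have hinv : (c - algebraMap K Ω a)⁻¹ ∈ O :=
    mem_of_isIntegral_of_forall_mem O hL₂O _ halg2.inv.isIntegral
  rw [ValuationSubring.mem_nonunits_iff_or] at hca
  rcases hca with h0 | h0
  · exact hd h0
  · exact h0 hinv

end LinDisj

section Rig

variable {K : Type*} {Ω : Type*} [Field K] [Field Ω] [Algebra K Ω]

/-- An element which lies in the maximal ideal of every `K`-place centred at the `K`-point `φ` of
`B` is algebraic over `B`. -/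
theorem isAlgebraic_of_forall_kplace [IsAlgClosed K] (B : Subalgebra K Ω) (φ : B →ₐ[K] K) (c : Ω)
    (hc : ∀ O : ValuationSubring Ω, IsKPlace K O → CentredAt O B φ → c ∈ O.nonunits) :
    IsAlgebraic B c := by
  by_contra h
  obtain ⟨O, hO, hcent, ht⟩ := exists_kplace_of_transcendental B φ c h
  have h1 := hc O hO hcent
  have h2 : (1 : Ω) ∈ O.nonunits := by
    have := O.nonunits.sub_mem h1 ht
    simpa using this
  rw [ValuationSubring.mem_nonunits_iff] at h2
  simp at h2

/-- **RIG-DIRECT**.  `K` algebraically closed, `L₁`, `L₂` linearly disjoint over `K` in `Ω`,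
`φ_i` a `K`-point of a `K`-subalgebra `B_i ⊆ L_i`.  An element of `Ω` which lies in the maximal
ideal of every `K`-place of `Ω` centred at `φ₁` or at `φ₂` is `0`. -/
theorem rig_direct [IsAlgClosed K] (L₁ L₂ : IntermediateField K Ω) (h : L₁.LinearDisjoint L₂)
    (B₁ B₂ : Subalgebra K Ω) (hB₁ : B₁ ≤ L₁.toSubalgebra) (hB₂ : B₂ ≤ L₂.toSubalgebra)
    (φ₁ : B₁ →ₐ[K] K) (φ₂ : B₂ →ₐ[K] K) (c : Ω)
    (hc : ∀ O : ValuationSubring Ω, IsKPlace K O →
      (CentredAt O B₁ φ₁ ∨ CentredAt O B₂ φ₂) → c ∈ O.nonunits) : c = 0 := by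
  have key : ∀ (L : IntermediateField K Ω) (B : Subalgebra K Ω), B ≤ L.toSubalgebra →
      IsAlgebraic B c → IsAlgebraic L c := by
    intro L B hB ⟨p, hp, hpc⟩
    let incl : B →+* L := (Subalgebra.inclusion hB : B →ₐ[K] L.toSubalgebra)
    have hinj : Function.Injective incl := Subalgebra.inclusion_injective hB
    refine ⟨p.map incl, (Polynomial.map_ne_zero_iff hinj).mpr hp, ?_⟩
    rw [aeval_def, eval₂_map]
    exact hpc
  have hL₁ : IsAlgebraic L₁ c :=
    key L₁ B₁ hB₁ (isAlgebraic_of_forall_kplace B₁ φ₁ c fun O hO h' => hc O hO (Or.inl h'))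
  have hL₂ : IsAlgebraic L₂ c :=
    key L₂ B₂ hB₂ (isAlgebraic_of_forall_kplace B₂ φ₂ c fun O hO h' => hc O hO (Or.inr h'))
  obtain ⟨a, ha⟩ := mem_range_of_isAlgebraic_of_linearDisjoint L₁ L₂ h c hL₁ hL₂
  obtain ⟨O, hO, hcent⟩ := exists_kplace B₁ φ₁
  have h1 := hc O hO (Or.inl hcent)
  rw [← ha] at h1 ⊢
  by_contra hne
  rw [ValuationSubring.mem_nonunits_iff_or] at h1
  rcases h1 with h0 | h0
  · exact hne h0
  · apply h0
    rw [← map_inv₀]
    exact hO.1 a⁻¹

end Rig

end Fermat.Agent.S26.C.H29
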