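import Fermat.Agent.S26.C.H6_RedPlace

/-!
# S26, crux (C), package CCC, leaf RED, part 2: the reduction map `X(Ω) → X(K)`

helper6.  For a constant reduction datum `R : ConstRed K F Ω FΩ` and a place `P` of `FΩ / Ω`:

* `R.valOHom P hdeg : redSub →+* O`, `R.redValHom P hdeg : redSub →+* K` (value, value mod `𝔪_O`);
* `R.redPlace hFF P hdeg : Place K F` : the reduction of `P`;
* `R.ordGe_redPlace_iff` : `z - γ` vanishes at `red P` iff `z(P) = a ∈ O` with `a mod 𝔪_O = γ`.
-/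

set_option autoImplicit false

universe uK uF uO uFO

noncomputable section

open AlgebraicCurve IntermediateField

namespace Fermat.Agent.S26.C.H6

open Fermat.Agent.S27.REDu Fermat.Agent.S27.REDu.H34 Fermat.Agent.S27.REDu.H34.RedSetting
  Fermat.Agent.S27.REDu.H51 Fermat.Agent.S27.REDu.H10

variable {K : Type uK} {F : Type uF} {Ω : Type uO} {FΩ : Type uFO}
  [Field K] [Field F] [Algebra K F] [Field Ω] [Field FΩ] [Algebra Ω FΩ]
  [Algebra K Ω] [Algebra F FΩ] [Algebra K FΩ] [IsScalarTower K F FΩ] [IsScalarTower K Ω FΩ]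

namespace ConstRed

variable (R : ConstRed K F Ω FΩ) (P : Place Ω FΩ) (hdeg : P.deg = 1)

/-- the inclusion of the functions regular at the reduction into `O_P` -/
def incP : ↥(R.redSub P hdeg) →+* ↥P.toValuationSubring :=
  ((algebraMap F FΩ).comp (R.redSub P hdeg).subtype).codRestrict P.toValuationSubring
    (fun z => ((R.mem_redSub_iff P hdeg z).mp z.2).choose)

@[simp] theorem coe_incP (z : ↥(R.redSub P hdeg)) :
    ((R.incP P hdeg z : ↥P.toValuationSubring) : FΩ) = algebraMap F FΩ (z : F) := rfl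

/-- the value at `P`, in `O` -/
def valOHom : ↥(R.redSub P hdeg) →+* ↥R.S.O :=
  ((valHom P hdeg).comp (R.incP P hdeg)).codRestrict R.S.O
    (fun z => ((R.mem_redSub_iff P hdeg z).mp z.2).choose_spec)

theorem coe_valOHom (z : ↥(R.redSub P hdeg)) :
    ((R.valOHom P hdeg z : ↥R.S.O) : Ω) = valHom P hdeg (R.incP P hdeg z) := rfl

/-- the value at `P` modulo `𝔪_O` -/
def redValHom : ↥(R.redSub P hdeg) →+* K :=
  R.S.resO.comp (R.valOHom P hdeg)

theorem valOHom_const (c : K) :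
    R.valOHom P hdeg ⟨algebraMap K F c, R.const_mem_redSub P hdeg c⟩ =
      ⟨algebraMap K Ω c, R.const_mem_O c⟩ := by
  apply Subtype.ext
  rw [coe_valOHom]
  have h0 : algebraMap F FΩ (algebraMap K F c) = algebraMap Ω FΩ (algebraMap K Ω c) :=
    (algebraMap_const (F := F) (Ω := Ω) (FΩ := FΩ) c).symm
  have h1 : R.incP P hdeg ⟨algebraMap K F c, R.const_mem_redSub P hdeg c⟩ =
      algebraMap Ω ↥P.toValuationSubring (algebraMap K Ω c) := Subtype.ext h0
  rw [h1, valHom_algebraMap]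

theorem redValHom_const (c : K) :
    R.redValHom P hdeg ⟨algebraMap K F c, R.const_mem_redSub P hdeg c⟩ = c := by
  show R.S.resO (R.valOHom P hdeg _) = c
  rw [valOHom_const, R.resO_const]

/-- `z ∈ F` lies in `redSub` as soon as `z(P)` is defined and lies in `O` -/
theorem mem_redSub_of_ordGe {z : F} {a : Ω} (ha : a ∈ R.S.O)
    (h : OrdGe P 1 (algebraMap F FΩ z - algebraMap Ω FΩ a)) : z ∈ R.redSub P hdeg := by
  have hm : algebraMap F FΩ z ∈ P.toValuationSubring := mem_of_ordGe_one_sub P h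
  refine (R.mem_redSub_iff P hdeg z).mpr ⟨hm, ?_⟩
  rw [valHom_eq_of_ordGe P hdeg ⟨algebraMap F FΩ z, hm⟩ h]
  exact ha

theorem valOHom_eq_of_ordGe {z : F} {a : Ω} (ha : a ∈ R.S.O)
    (h : OrdGe P 1 (algebraMap F FΩ z - algebraMap Ω FΩ a)) :
    R.valOHom P hdeg ⟨z, R.mem_redSub_of_ordGe P hdeg ha h⟩ = ⟨a, ha⟩ := by
  apply Subtype.ext
  rw [coe_valOHom]
  exact valHom_eq_of_ordGe P hdeg _ h

theorem ordGe_sub_valOHom (z : ↥(R.redSub P hdeg)) :
    OrdGe P 1 (algebraMap F FΩ (z : F) - algebraMap Ω FΩ ((R.valOHom P hdeg z : ↥R.S.O) : Ω)) :=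
  ordGe_sub_valHom P hdeg (R.incP P hdeg z)

/-- the kernel of `redValHom` consists of the non-units -/
theorem redValHom_eq_zero_iff (z : ↥(R.redSub P hdeg)) :
    R.redValHom P hdeg z = 0 ↔ ¬ IsUnit z := by
  constructor
  · intro h hu
    exact (hu.map (R.redValHom P hdeg)).ne_zero h
  · intro hnu
    by_contra hne
    apply hnu
    -- the value is a unit of `O`
    have hua : IsUnit (R.valOHom P hdeg z) := by
      by_contra hna
      exact hne ((R.S.resO_eq_zero_iff _).mpr hna)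
    obtain ⟨u, hu⟩ := hua
    have hu1 : ((u : ↥R.S.O) : Ω) * (((u⁻¹ : (↥R.S.O)ˣ) : ↥R.S.O) : Ω) = 1 :=
      congrArg Subtype.val u.mul_inv
    rw [hu, coe_valOHom] at hu1
    have hv0 : valHom P hdeg (R.incP P hdeg z) ≠ 0 := left_ne_zero_of_mul_eq_one hu1
    -- so `z` is a unit of `O_P`
    have huP : IsUnit (R.incP P hdeg z) := by
      by_contra hnP
      exact hv0 ((valHom_eq_zero_iff P hdeg _).mpr ((IsLocalRing.mem_maximalIdeal _).mpr hnP))
    obtain ⟨w, hw⟩ := huP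
    have hw1 : ((w : ↥P.toValuationSubring) : FΩ) *
        (((w⁻¹ : (↥P.toValuationSubring)ˣ) : ↥P.toValuationSubring) : FΩ) = 1 :=
      congrArg Subtype.val w.mul_inv
    rw [hw, coe_incP] at hw1
    have hz0 : (z : F) ≠ 0 := by
      intro h0
      rw [h0, map_zero, zero_mul] at hw1
      exact zero_ne_one hw1
    have hinv : algebraMap F FΩ ((z : F)⁻¹) =
        (((w⁻¹ : (↥P.toValuationSubring)ˣ) : ↥P.toValuationSubring) : FΩ) := by
      rw [map_inv₀]
      exact (eq_inv_of_mul_eq_one_right hw1).symm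
    have hmP : algebraMap F FΩ ((z : F)⁻¹) ∈ P.toValuationSubring := by
      rw [hinv]; exact Subtype.mem _
    have hval : valHom P hdeg ⟨algebraMap F FΩ ((z : F)⁻¹), hmP⟩ =
        (((u⁻¹ : (↥R.S.O)ˣ) : ↥R.S.O) : Ω) := by
      have h1 : valHom P hdeg (R.incP P hdeg z) *
          valHom P hdeg ⟨algebraMap F FΩ ((z : F)⁻¹), hmP⟩ = 1 := by
        rw [← map_mul]
        have : R.incP P hdeg z * ⟨algebraMap F FΩ ((z : F)⁻¹), hmP⟩ = 1 := by
          apply Subtype.ext
          show algebraMap F FΩ (z : F) * algebraMap F FΩ ((z : F)⁻¹) = 1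
          rw [← map_mul, mul_inv_cancel₀ hz0, map_one]
        rw [this, map_one]
      have h2 := eq_inv_of_mul_eq_one_right h1
      have h3 := eq_inv_of_mul_eq_one_right hu1
      rw [h2, h3]
    have hmem : (z : F)⁻¹ ∈ R.redSub P hdeg := by
      refine (R.mem_redSub_iff P hdeg _).mpr ⟨hmP, ?_⟩
      rw [hval]
      exact Subtype.mem _
    refine ⟨⟨z, ⟨(z : F)⁻¹, hmem⟩, ?_, ?_⟩, rfl⟩
    · exact Subtype.ext (mul_inv_cancel₀ hz0)
    · exact Subtype.ext (inv_mul_cancel₀ hz0)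

/-- the reduction is a proper valuation ring -/
theorem redSub_ne_top (hFF : IsFF K F) : R.redSub P hdeg ≠ ⊤ := by
  intro htop
  obtain ⟨x, hx, -⟩ := hFF
  have hxm : x ∈ R.redSub P hdeg := by rw [htop]; exact ValuationSubring.mem_top _
  set c : K := R.redValHom P hdeg ⟨x, hxm⟩ with hc
  set y : F := x - algebraMap K F c with hy
  have hym : y ∈ R.redSub P hdeg := by rw [htop]; exact ValuationSubring.mem_top _
  have hy0 : y ≠ 0 := by
    intro h0
    apply hx
    have : x = algebraMap K F c := sub_eq_zero.mp h0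
    rw [this]
    exact isAlgebraic_algebraMap c
  have hval : R.redValHom P hdeg ⟨y, hym⟩ = 0 := by
    have h1 : (⟨y, hym⟩ : ↥(R.redSub P hdeg)) =
        ⟨x, hxm⟩ - ⟨algebraMap K F c, R.const_mem_redSub P hdeg c⟩ := rfl
    rw [h1, map_sub, R.redValHom_const]
    exact sub_self _
  have hnu := (R.redValHom_eq_zero_iff P hdeg _).mp hval
  apply hnu
  have hyi : y⁻¹ ∈ R.redSub P hdeg := by rw [htop]; exact ValuationSubring.mem_top _
  exact ⟨⟨⟨y, hym⟩, ⟨y⁻¹, hyi⟩, Subtype.ext (mul_inv_cancel₀ hy0),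
    Subtype.ext (inv_mul_cancel₀ hy0)⟩, rfl⟩

variable [IsAlgClosed K]

/-- **The reduction** of the place `P` of `X_Ω` along the `K`-place `O` of `Ω`. -/
def redPlace (hFF : IsFF K F) : Place K F where
  toValuationSubring := R.redSub P hdeg
  algebraMap_mem' := R.const_mem_redSub P hdeg
  ne_top' := R.redSub_ne_top P hdeg hFF
  isPrincipalIdealRing' := by
    obtain ⟨v, hv⟩ := Fermat.Agent.S27.REDu.H42.exists_place_eq hFF (R.redSub P hdeg)
      (R.const_mem_redSub P hdeg) (R.redSub_ne_top P hdeg hFF)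
    rw [← hv]
    exact v.isPrincipalIdealRing'

@[simp] theorem redPlace_toValuationSubring (hFF : IsFF K F) :
    (R.redPlace P hdeg hFF).toValuationSubring = R.redSub P hdeg := rfl

/-- **Values reduce**: `z - γ` vanishes at `red P` iff `z(P) = a ∈ O` with `a ≡ γ mod 𝔪_O`. -/
theorem ordGe_redPlace_iff (hFF : IsFF K F) (z : F) (γ : K) :
    OrdGe (R.redPlace P hdeg hFF) 1 (z - algebraMap K F γ) ↔
      ∃ a : ↥R.S.O, R.S.resO a = γ ∧
        OrdGe P 1 (algebraMap F FΩ z - algebraMap Ω FΩ (a : Ω)) := by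
  constructor
  · intro h
    have hzm : z ∈ R.redSub P hdeg := mem_of_ordGe_one_sub (R.redPlace P hdeg hFF) h
    refine ⟨R.valOHom P hdeg ⟨z, hzm⟩, ?_, R.ordGe_sub_valOHom P hdeg ⟨z, hzm⟩⟩
    have hm : (⟨z, hzm⟩ - ⟨algebraMap K F γ, R.const_mem_redSub P hdeg γ⟩ :
        ↥(R.redSub P hdeg)) ∈
        IsLocalRing.maximalIdeal ↥(R.redPlace P hdeg hFF).toValuationSubring :=
      (ordGe_one_iff_mem_maximalIdeal (R.redPlace P hdeg hFF) _).mp h
    have hnu : ¬ IsUnit (⟨z, hzm⟩ - ⟨algebraMap K F γ, R.const_mem_redSub P hdeg γ⟩ :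
        ↥(R.redSub P hdeg)) := (IsLocalRing.mem_maximalIdeal _).mp hm
    have h0 := (R.redValHom_eq_zero_iff P hdeg _).mpr hnu
    rw [map_sub, R.redValHom_const, sub_eq_zero] at h0
    exact h0
  · rintro ⟨a, ha, h⟩
    have hzm : z ∈ R.redSub P hdeg := R.mem_redSub_of_ordGe P hdeg a.2 h
    have hv : R.valOHom P hdeg ⟨z, hzm⟩ = a := R.valOHom_eq_of_ordGe P hdeg a.2 h
    have h0 : R.redValHom P hdeg
        (⟨z, hzm⟩ - ⟨algebraMap K F γ, R.const_mem_redSub P hdeg γ⟩) = 0 := by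
      rw [map_sub, R.redValHom_const]
      show R.S.resO (R.valOHom P hdeg ⟨z, hzm⟩) - γ = 0
      rw [hv, ha, sub_self]
    have hnu := (R.redValHom_eq_zero_iff P hdeg _).mp h0
    exact (ordGe_one_iff_mem_maximalIdeal (R.redPlace P hdeg hFF)
      (⟨z, hzm⟩ - ⟨algebraMap K F γ, R.const_mem_redSub P hdeg γ⟩ :
        ↥(R.redSub P hdeg))).mpr ((IsLocalRing.mem_maximalIdeal _).mpr hnu)

end ConstRed

end Fermat.Agent.S26.C.H6
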