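/-
S26 (row 25), crux (C), package CCC (helper6), leaf CCC-CORE (helper29).

Setting of `H6_RedPlace` / `H6_RedPoint`: `K ⊆ Ω` algebraically closed, `F / K` a function field,
`FΩ / Ω` the function field of the constant curve, `R : ConstRed K F Ω FΩ` a constant reduction
datum over the `K`-place `R.S.O` of `Ω`.  Face places as in `H29_RigDirect`: the `K`-places of `Ω`
centred at the `K`-point `φ₁` of `B₁ ⊆ L₁` or at the `K`-point `φ₂` of `B₂ ⊆ L₂`, `L₁`, `L₂` linearly
disjoint over `K`.

* `value_reduces` : for `u ∈ F` regular at `red P`: `u(P) ∈ O` and `u(P) ≡ u(red P) mod 𝔪_O`.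
* `value_mem_range_of_regular` : if the reduction of the place `P` at EVERY face place lies in the
  finite set `T` and `u` is regular at the places of `T`, then `u(P) ∈ K`.
* `value_mem_range` (CCC-CORE) : the same for every `u ∈ F` which is regular at `P`: the place `P`
  is constant.
-/
import Fermat.Agent.S26.C.H6_RedPoint
import Fermat.Agent.S26.C.H29_RigDirect

set_option autoImplicit false

universe uK uF uO uFO

noncomputable section

open AlgebraicCurve IntermediateField

namespace Fermat.Agent.S26.C.H29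

open Fermat.Agent.S27.REDu Fermat.Agent.S27.REDu.H34 Fermat.Agent.S27.REDu.H34.RedSetting
  Fermat.Agent.S27.REDu.H51 Fermat.Agent.S27.REDu.H10 Fermat.Agent.S26.C.H6

variable {K : Type uK} {F : Type uF} {Ω : Type uO} {FΩ : Type uFO}
  [Field K] [Field F] [Algebra K F] [Field Ω] [Field FΩ] [Algebra Ω FΩ]
  [Algebra K Ω] [Algebra F FΩ] [Algebra K FΩ] [IsScalarTower K F FΩ] [IsScalarTower K Ω FΩ]

section Reduce

variable [IsAlgClosed K] (R : ConstRed K F Ω FΩ) (P : Place Ω FΩ) (hdeg : P.deg = 1)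
  (hFF : IsFF K F)

/-- **Values reduce**: for `u ∈ F` regular at the reduction `e = red P`: `u` is regular at `P`,
`u(P) ∈ O` and `u(P) - u(e) ∈ 𝔪_O`. -/
theorem value_reduces (hdege : (R.redPlace P hdeg hFF).deg = 1) (u : F)
    (hu : u ∈ (R.redPlace P hdeg hFF).toValuationSubring) :
    ∃ hP : algebraMap F FΩ u ∈ P.toValuationSubring,
      valHom P hdeg ⟨algebraMap F FΩ u, hP⟩ ∈ R.S.O ∧
      valHom P hdeg ⟨algebraMap F FΩ u, hP⟩ -
        algebraMap K Ω (valHom (R.redPlace P hdeg hFF) hdege ⟨u, hu⟩) ∈ R.S.O.nonunits := by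
  have h1 := ordGe_sub_valHom (R.redPlace P hdeg hFF) hdege ⟨u, hu⟩
  obtain ⟨a, ha, hord⟩ := (R.ordGe_redPlace_iff P hdeg hFF u _).mp h1
  have hP : algebraMap F FΩ u ∈ P.toValuationSubring := mem_of_ordGe_one_sub P hord
  have hval : valHom P hdeg ⟨algebraMap F FΩ u, hP⟩ = (a : Ω) :=
    valHom_eq_of_ordGe P hdeg ⟨algebraMap F FΩ u, hP⟩ hord
  refine ⟨hP, ?_, ?_⟩
  · rw [hval]; exact a.2
  · rw [hval]
    set γ : K := valHom (R.redPlace P hdeg hFF) hdege ⟨u, hu⟩ with hγ
    have h2 : R.S.resO (a - ⟨algebraMap K Ω γ, R.const_mem_O γ⟩) = 0 := by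
      rw [map_sub, R.resO_const, ha, sub_self]
    have h3 : ¬ IsUnit (a - ⟨algebraMap K Ω γ, R.const_mem_O γ⟩ : ↥R.S.O) :=
      (R.S.resO_eq_zero_iff _).mp h2
    have h4 : (a - ⟨algebraMap K Ω γ, R.const_mem_O γ⟩ : ↥R.S.O) ∈
        IsLocalRing.maximalIdeal ↥R.S.O := (IsLocalRing.mem_maximalIdeal _).mpr h3
    exact ValuationSubring.coe_mem_nonunits_iff.mpr h4

end Reduce

/-- The data of the rigidity: two subfields of `Ω`, linearly disjoint over `K`, and `K`-points
of `K`-subalgebras of them. -/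
structure FaceData (K : Type uK) (Ω : Type uO) [Field K] [Field Ω] [Algebra K Ω] where
  /-- the function field of `Y` -/
  L₁ : IntermediateField K Ω
  /-- the function field of `Z` -/
  L₂ : IntermediateField K Ω
  ld : L₁.LinearDisjoint L₂
  /-- functions on `Y` regular at `y₀` -/
  B₁ : Subalgebra K Ω
  /-- functions on `Z` regular at `z₀` -/
  B₂ : Subalgebra K Ω
  le₁ : B₁ ≤ L₁.toSubalgebra
  le₂ : B₂ ≤ L₂.toSubalgebra
  /-- the point `y₀` -/
  φ₁ : B₁ →ₐ[K] K
  /-- the point `z₀` -/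
  φ₂ : B₂ →ₐ[K] K

namespace FaceData

variable (D : FaceData K Ω)

/-- `O` is a face place: a `K`-place of `Ω` centred at `y₀` or at `z₀`. -/
def IsFace (O : ValuationSubring Ω) : Prop :=
  IsKPlace K O ∧ (CentredAt O D.B₁ D.φ₁ ∨ CentredAt O D.B₂ D.φ₂)

theorem exists_face [IsAlgClosed K] : ∃ O : ValuationSubring Ω, D.IsFace O := by
  obtain ⟨O, h1, h2⟩ := exists_kplace D.B₁ D.φ₁
  exact ⟨O, h1, Or.inl h2⟩

/-- RIG-DIRECT for face data. -/
theorem rig [IsAlgClosed K] (c : Ω) (h : ∀ O : ValuationSubring Ω, D.IsFace O → c ∈ O.nonunits) :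
    c = 0 :=
  rig_direct D.L₁ D.L₂ D.ld D.B₁ D.B₂ D.le₁ D.le₂ D.φ₁ D.φ₂ c (fun O h1 h2 => h O ⟨h1, h2⟩)

end FaceData

section Core

variable [IsAlgClosed K] (D : FaceData K Ω) (hFF : IsFF K F)
  (RO : ∀ O : ValuationSubring Ω, D.IsFace O → ConstRed K F Ω FΩ)
  (hRO : ∀ O h, (RO O h).S.O = O)
  (T : Finset (Place K F)) (P : Place Ω FΩ) (hdeg : P.deg = 1)
  (hred : ∀ O h, (RO O h).redPlace P hdeg hFF ∈ T)

include hRO hred in
/-- If the reduction of `P` at every face place lies in `T` and `u ∈ F` is regular at the places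
of `T`, then `u` is regular at `P` and `u(P) ∈ K`. -/
theorem value_mem_range_of_regular (u : F) (hu : ∀ e ∈ T, u ∈ e.toValuationSubring) :
    ∃ hP : algebraMap F FΩ u ∈ P.toValuationSubring,
      valHom P hdeg ⟨algebraMap F FΩ u, hP⟩ ∈ (algebraMap K Ω).range := by
  classical
  have hdegK : ∀ e : Place K F, e.deg = 1 := stmt_FFB_deg K F hFF
  obtain ⟨O₀, hO₀⟩ := D.exists_face
  obtain ⟨hP, -, -⟩ := value_reduces (RO O₀ hO₀) P hdeg hFF (hdegK _) u (hu _ (hred O₀ hO₀))
  refine ⟨hP, ?_⟩
  set t : Ω := valHom P hdeg ⟨algebraMap F FΩ u, hP⟩ with ht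
  let val : Place K F → K := fun e =>
    if h : u ∈ e.toValuationSubring then valHom e (hdegK e) ⟨u, h⟩ else 0
  have hc : ∏ e ∈ T, (t - algebraMap K Ω (val e)) = 0 := by
    apply D.rig
    intro O hO
    have he := hred O hO
    obtain ⟨hP', hmem, hnon⟩ :=
      value_reduces (RO O hO) P hdeg hFF (hdegK _) u (hu _ he)
    rw [hRO O hO] at hmem hnon
    have hval : val ((RO O hO).redPlace P hdeg hFF) =
        valHom ((RO O hO).redPlace P hdeg hFF) (hdegK _) ⟨u, hu _ he⟩ := dif_pos (hu _ he)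
    rw [← Finset.mul_prod_erase T _ he]
    apply nonunits_mul_mem O
    · rw [hval]; exact hnon
    · apply prod_mem
      intro e _
      exact sub_mem hmem (hO.1.1 _)
  obtain ⟨e, -, he0⟩ := Finset.prod_eq_zero_iff.mp hc
  exact ⟨val e, (sub_eq_zero.mp he0).symm⟩

include hRO hred in
/-- **CCC-CORE**: if the reduction of the place `P` of `FΩ / Ω` at every face place lies in the
finite set `T`, then `P` is constant: `u(P) ∈ K` for every `u ∈ F` regular at `P`. -/
theorem value_mem_range (u : F) (hP : algebraMap F FΩ u ∈ P.toValuationSubring) :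
    valHom P hdeg ⟨algebraMap F FΩ u, hP⟩ ∈ (algebraMap K Ω).range := by
  classical
  have hdegK : ∀ e : Place K F, e.deg = 1 := stmt_FFB_deg K F hFF
  let val : Place K F → K := fun e =>
    if h : u ∈ e.toValuationSubring then valHom e (hdegK e) ⟨u, h⟩ else 0
  obtain ⟨a, ha⟩ := Infinite.exists_notMem_finset (T.image val)
  have hconst : ∀ c : K, algebraMap F FΩ (algebraMap K F c) =
      algebraMap Ω FΩ (algebraMap K Ω c) := fun c => by
    rw [← IsScalarTower.algebraMap_apply K Ω FΩ, ← IsScalarTower.algebraMap_apply K F FΩ]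
  by_cases hw : u - algebraMap K F a = 0
  · refine ⟨a, ?_⟩
    have h1 : (⟨algebraMap F FΩ u, hP⟩ : ↥P.toValuationSubring) =
        algebraMap Ω ↥P.toValuationSubring (algebraMap K Ω a) := by
      apply Subtype.ext
      show algebraMap F FΩ u = algebraMap Ω FΩ (algebraMap K Ω a)
      rw [← hconst, ← sub_eq_zero.mp hw]
    rw [h1, valHom_algebraMap]
  -- `u' = 1 / (u - a)` is regular on `T`
  set w : F := u - algebraMap K F a with hwdef
  have hreg : ∀ e ∈ T, w⁻¹ ∈ e.toValuationSubring := by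
    intro e he
    by_cases h : u ∈ e.toValuationSubring
    · have hwe : w ∈ e.toValuationSubring :=
        sub_mem h (e.algebraMap_mem' a)
      have hne : valHom e (hdegK e) ⟨w, hwe⟩ ≠ 0 := by
        have h1 : (⟨w, hwe⟩ : ↥e.toValuationSubring) =
            ⟨u, h⟩ - algebraMap K ↥e.toValuationSubring a := rfl
        rw [h1, map_sub, valHom_algebraMap]
        intro h0
        apply ha
        rw [Finset.mem_image]
        refine ⟨e, he, ?_⟩
        show (if h : u ∈ e.toValuationSubring then valHom e (hdegK e) ⟨u, h⟩ else 0) = a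
        rw [dif_pos h]
        exact sub_eq_zero.mp h0
      have hunit : IsUnit (⟨w, hwe⟩ : ↥e.toValuationSubring) := by
        by_contra hnu
        exact hne ((valHom_eq_zero_iff e (hdegK e) _).mpr
          ((IsLocalRing.mem_maximalIdeal _).mpr hnu))
      obtain ⟨v, hv⟩ := hunit
      have h2 : ((v : ↥e.toValuationSubring) : F) *
          (((v⁻¹ : (↥e.toValuationSubring)ˣ) : ↥e.toValuationSubring) : F) = 1 :=
        congrArg Subtype.val v.mul_inv
      rw [hv] at h2
      have h3 : w⁻¹ = (((v⁻¹ : (↥e.toValuationSubring)ˣ) : ↥e.toValuationSubring) : F) :=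
        (eq_inv_of_mul_eq_one_right h2).symm ▸ rfl
      rw [h3]
      exact Subtype.mem _
    · have hwe : w ∉ e.toValuationSubring := by
        intro hwe
        apply h
        have := add_mem hwe (e.algebraMap_mem' a)
        simpa [hwdef] using this
      exact (e.toValuationSubring.mem_or_inv_mem w).resolve_left hwe
  obtain ⟨hP', k, hk⟩ := value_mem_range_of_regular D hFF RO hRO T P hdeg hred w⁻¹ hreg
  -- `u'(P) (u(P) - a) = 1`
  have hwP : algebraMap F FΩ w ∈ P.toValuationSubring := by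
    rw [hwdef, map_sub, hconst]
    exact sub_mem hP (P.algebraMap_mem' _)
  have hmul : (⟨algebraMap F FΩ w⁻¹, hP'⟩ : ↥P.toValuationSubring) * ⟨algebraMap F FΩ w, hwP⟩
      = 1 := by
    apply Subtype.ext
    show algebraMap F FΩ w⁻¹ * algebraMap F FΩ w = 1
    rw [← map_mul, inv_mul_cancel₀ hw, map_one]
  have hwval : valHom P hdeg ⟨algebraMap F FΩ w, hwP⟩ =
      valHom P hdeg ⟨algebraMap F FΩ u, hP⟩ - algebraMap K Ω a := by
    have h1 : (⟨algebraMap F FΩ w, hwP⟩ : ↥P.toValuationSubring) =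
        ⟨algebraMap F FΩ u, hP⟩ - algebraMap Ω ↥P.toValuationSubring (algebraMap K Ω a) := by
      apply Subtype.ext
      show algebraMap F FΩ w = algebraMap F FΩ u - algebraMap Ω FΩ (algebraMap K Ω a)
      rw [hwdef, map_sub, hconst]
    rw [h1, map_sub, valHom_algebraMap]
  have h5 := congrArg (valHom P hdeg) hmul
  rw [map_mul, map_one, ← hk, hwval] at h5
  have hk0 : k ≠ 0 := by
    intro h0
    rw [h0, map_zero, zero_mul] at h5
    exact zero_ne_one h5
  refine ⟨a + k⁻¹, ?_⟩
  have hk1 : algebraMap K Ω k ≠ 0 := fun h0 => hk0 ((algebraMap K Ω).injective (by rw [h0, map_zero]))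
  rw [map_add, map_inv₀]
  field_simp
  linear_combination -h5

end Core

section Divisors

variable [IsAlgClosed K] (D : FaceData K Ω) (hFF : IsFF K F)
  (RO : ∀ O : ValuationSubring Ω, D.IsFace O → ConstRed K F Ω FΩ)
  (hRO : ∀ O h, (RO O h).S.O = O)
  (hdegΩ : ∀ P : Place Ω FΩ, P.deg = 1)

include hRO in
/-- **CCC-CORE, divisor form**: `Dt ≥ 0` a divisor of `FΩ / Ω` whose reduction at EVERY face place
is the divisor `E` of `F / K`.  Then every place of the support of `Dt` is constant. -/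
theorem value_mem_range_of_mapDomain (E : Divisor K F) (Dt : Divisor Ω FΩ) (hDt : 0 ≤ Dt)
    (hmap : ∀ O h,
      Finsupp.mapDomain (fun P => (RO O h).redPlace P (hdegΩ P) hFF) Dt = E)
    (P : Place Ω FΩ) (hPs : P ∈ Dt.support) (u : F)
    (hP : algebraMap F FΩ u ∈ P.toValuationSubring) :
    valHom P (hdegΩ P) ⟨algebraMap F FΩ u, hP⟩ ∈ (algebraMap K Ω).range := by
  classical
  refine value_mem_range D hFF RO hRO E.support P (hdegΩ P) (fun O h => ?_) u hP
  set red : Place Ω FΩ → Place K F := fun P => (RO O h).redPlace P (hdegΩ P) hFF with hred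
  have hpos : 0 < Dt P := lt_of_le_of_ne (hDt P) (Ne.symm (Finsupp.mem_support_iff.mp hPs))
  have key : Dt P ≤ (Finsupp.mapDomain red Dt) (red P) := by
    rw [Finsupp.mapDomain, Finsupp.sum_apply]
    unfold Finsupp.sum
    have hnn : ∀ a ∈ Dt.support, 0 ≤ (Finsupp.single (red a) (Dt a)) (red P) := by
      intro a _
      rw [Finsupp.single_apply]
      split_ifs
      · exact hDt a
      · exact le_rfl
    calc Dt P = (Finsupp.single (red P) (Dt P)) (red P) := by simp
      _ ≤ _ := Finset.single_le_sum hnn hPs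
  rw [hmap O h] at key
  rw [Finsupp.mem_support_iff]
  exact (lt_of_lt_of_le hpos key).ne'

end Divisors

end Fermat.Agent.S26.C.H29
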