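import Fermat.Agent.GTor.H33_GaussExt
import Fermat.Agent.S27.REDu.H42_RiemannFinal
import Fermat.Agent.S27.REDu.H51_Final
import Fermat.Agent.S27.REDu.H42_Gen8
import Fermat.Agent.S27.REDu.H17_Place

/-!
# S26 (C), cube side, leaf RR-OMEGA (helper86): constant field extensions of function fields

`K ⊆ Ω` algebraically closed, `F / K` a function field of one variable, `M = Frac (F ⊗_K Ω)`
(`ψ : F →ₐ[K] M`, `F ⊗_K Ω → M` injective, `M` generated by the image): the curve `X_Ω`.

* `ConstExt ψ` : the hypotheses (`isFF`, `inj`, `gen`, in the form of `GTor.H33.exists_place_extension`).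
* `isFF_of_constExt`, `ConstExt.isFF'` : `M / Ω` is a function field (`IsFF Ω M`).
* `LiesOver ψ w v`, `eq_of_liesOver` : the place of `M / Ω` over a place `v` of `F / K` is UNIQUE
  (Gauss order: `ord_w (∑ ψ(rᵢ) bᵢ) = min ord_v(rᵢ) · ord_w (ψ t)` for every `w` over `v`).
* `ConstExt.place v` (the constant place `v_Ω`), `place_ord : ord_{v_Ω} (ψ g) = ord_v g`,
  `place_injective`, `eq_place`.
* `ConstExt.place_cases` : every place of `M / Ω` is generic (`ord_w (ψ g) = 0` for all `g ≠ 0`)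
  or constant (`= v_Ω`).
* `ConstExt.bc` (base change of divisors), `bc_place`, `bc_generic`, `degree_bc`,
  `map_mem_L : f ∈ L(D) → ψ f ∈ L(D_Ω)`, `finrank_le : l_K(D) ≤ l_Ω(D_Ω)`.
* `ConstExt.riemann` : the genus does not grow: `l_Ω(B) ≥ deg B + 1 - g` for EVERY divisor `B` of
  `M / Ω`, `g` the genus of `F / K`.
* `ConstExt.exists_mem_L` (**RR-OMEGA**): `deg B ≥ g ⟹ ∃ Ψ ≠ 0, Ψ ∈ L(B)`.
-/

set_option autoImplicit false
set_option linter.style.haveILetI false
set_option linter.unusedSectionVars false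

noncomputable section

namespace Fermat.Agent.S26.C.H86

open AlgebraicCurve TensorProduct IntermediateField
open Fermat.Agent.GTor.H33 Fermat.Agent.S27.REDu Fermat.Agent.S27.REDu.H17

section Setting

variable {K Ω F M : Type*} [Field K] [Field Ω] [Field F] [Field M]
  [Algebra K Ω] [Algebra K F] [Algebra Ω M] [Algebra K M] [IsScalarTower K Ω M]

/-- The `Ω`-algebra form of `tensorToField`: `Ω ⊗ F → M`. -/
def omegaHom (ψ : F →ₐ[K] M) : Ω ⊗[K] F →ₐ[Ω] M :=
  Algebra.TensorProduct.lift (Algebra.ofId Ω M) ψ (fun _ _ => Commute.all _ _)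

@[simp]
theorem omegaHom_tmul (ψ : F →ₐ[K] M) (c : Ω) (f : F) :
    omegaHom ψ (c ⊗ₜ[K] f) = algebraMap Ω M c * ψ f := by
  simp [omegaHom, Algebra.ofId_apply]

theorem omegaHom_eq (ψ : F →ₐ[K] M) (x : Ω ⊗[K] F) :
    omegaHom ψ x = tensorToField (K := Ω) ψ (Algebra.TensorProduct.comm K Ω F x) := by
  induction x using TensorProduct.induction_on with
  | zero => simp
  | tmul c f => simp [mul_comm]
  | add x y hx hy => simp [hx, hy]

theorem omegaHom_injective (ψ : F →ₐ[K] M)
    (hinj : Function.Injective (tensorToField (K := Ω) ψ)) :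
    Function.Injective (omegaHom (Ω := Ω) ψ) := by
  intro x y hxy
  rw [omegaHom_eq, omegaHom_eq] at hxy
  exact (Algebra.TensorProduct.comm K Ω F).injective (hinj hxy)

/-- `K`-linearly independent elements of `F` stay `Ω`-linearly independent in `M`. -/
theorem linearIndependent_map (ψ : F →ₐ[K] M)
    (hinj : Function.Injective (tensorToField (K := Ω) ψ)) {ι : Type*} {f : ι → F}
    (hf : LinearIndependent K f) : LinearIndependent Ω (fun i => ψ (f i)) := by
  have h1 : LinearIndependent Ω (fun i => (1 : Ω) ⊗ₜ[K] f i) :=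
    Module.Flat.linearIndependent_one_tmul (S := Ω) hf
  have h2 := h1.map' (omegaHom (Ω := Ω) ψ).toLinearMap
    (LinearMap.ker_eq_bot.mpr (omegaHom_injective ψ hinj))
  have h3 : (⇑(omegaHom (Ω := Ω) ψ).toLinearMap ∘ fun i => (1 : Ω) ⊗ₜ[K] f i) =
      fun i => ψ (f i) := by
    funext i
    simp
  rw [h3] at h2
  exact h2

end Setting

section IsFF

variable {K Ω F M : Type*} [Field K] [Field Ω] [Field F] [Field M]
  [Algebra K Ω] [Algebra K F] [Algebra Ω M] [Algebra K M] [IsScalarTower K Ω M]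

theorem linearIndependent_pow_of_transcendental {x : F} (hx : Transcendental K x) :
    LinearIndependent K (fun i : ℕ => x ^ i) := by
  have h1 := (Polynomial.basisMonomials K).linearIndependent.map'
    (Polynomial.aeval (R := K) x).toLinearMap
    (by
      rw [LinearMap.ker_eq_bot]
      exact transcendental_iff_injective.mp hx)
  have h2 : (⇑(Polynomial.aeval (R := K) x).toLinearMap ∘ ⇑(Polynomial.basisMonomials K)) =
      fun i : ℕ => x ^ i := by
    funext i
    simp [Polynomial.coe_basisMonomials]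
  rw [h2] at h1
  exact h1

theorem transcendental_of_linearIndependent_pow {y : M}
    (h : LinearIndependent Ω (fun i : ℕ => y ^ i)) : Transcendental Ω y := by
  rw [transcendental_iff]
  intro p hp
  rw [Polynomial.aeval_eq_sum_range] at hp
  have h2 := linearIndependent_iff'.mp h (Finset.range (p.natDegree + 1)) p.coeff hp
    p.natDegree (Finset.self_mem_range_succ _)
  exact Polynomial.leadingCoeff_eq_zero.mp h2

theorem map_mem_adjoin (ψ : F →ₐ[K] M) (x : F) {a : F} (ha : a ∈ K⟮x⟯) :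
    ψ a ∈ Ω⟮ψ x⟯ := by
  have h1 : (K⟮x⟯).map ψ = K⟮ψ x⟯ := by
    rw [IntermediateField.adjoin_map]
    simp
  have h2 : ψ a ∈ (K⟮x⟯).map ψ := ⟨a, ha, rfl⟩
  rw [h1] at h2
  have h3 : K⟮ψ x⟯ ≤ (Ω⟮ψ x⟯).restrictScalars K := by
    rw [IntermediateField.adjoin_le_iff]
    rintro _ rfl
    exact IntermediateField.mem_adjoin_simple_self Ω (ψ x)
  exact h3 h2

/-- `M` is finite over `Ω(ψ x)` if `F` is finite over `K(x)` and `M` is generated by `F`
and `Ω`. -/
theorem finite_adjoin (ψ : F →ₐ[K] M)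
    (hgen : ∀ m : M, ∃ x y : F ⊗[K] Ω, m = tensorToField ψ x / tensorToField ψ y)
    (x : F) [Module.Finite K⟮x⟯ F] : Module.Finite Ω⟮ψ x⟯ M := by
  classical
  let b := Module.finBasis K⟮x⟯ F
  set S : Submodule Ω⟮ψ x⟯ M := Submodule.span Ω⟮ψ x⟯ (Set.range (fun j => ψ (b j))) with hS
  have hF : ∀ f : F, ψ f ∈ S := by
    intro f
    have h1 := b.sum_repr f
    rw [← h1, map_sum]
    refine Submodule.sum_mem _ fun j _ => ?_
    have ha : ψ ((b.repr f j : K⟮x⟯) : F) ∈ Ω⟮ψ x⟯ := map_mem_adjoin ψ x (b.repr f j).2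
    have h2 : ψ ((b.repr f j) • b j) = (⟨_, ha⟩ : Ω⟮ψ x⟯) • ψ (b j) := by
      rw [IntermediateField.smul_def, smul_eq_mul, map_mul]
      rfl
    rw [h2]
    exact S.smul_mem _ (Submodule.subset_span ⟨j, rfl⟩)
  have h1S : (1 : M) ∈ S := by simpa using hF 1
  have hmul : ∀ a ∈ S, ∀ a' ∈ S, a * a' ∈ S := by
    intro a ha a' ha'
    induction ha using Submodule.span_induction with
    | mem y hy =>
      obtain ⟨i, rfl⟩ := hy
      induction ha' using Submodule.span_induction with
      | mem y' hy' =>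
        obtain ⟨j, rfl⟩ := hy'
        rw [← map_mul]
        exact hF _
      | zero => simp
      | add y y' _ _ hy hy' => rw [mul_add]; exact S.add_mem hy hy'
      | smul c y _ hy =>
        rw [mul_smul_comm]
        exact S.smul_mem _ hy
    | zero => simp
    | add y y' _ _ hy hy' => rw [add_mul]; exact S.add_mem hy hy'
    | smul c y _ hy =>
      rw [smul_mul_assoc]
      exact S.smul_mem _ hy
  have hΩ : ∀ c : Ω, algebraMap Ω M c ∈ S := by
    intro c
    have h2 : algebraMap Ω M c = (algebraMap Ω Ω⟮ψ x⟯ c) • (1 : M) := by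
      rw [IntermediateField.smul_def, smul_eq_mul, mul_one]
      rfl
    rw [h2]
    exact S.smul_mem _ h1S
  have hT : ∀ z : F ⊗[K] Ω, tensorToField ψ z ∈ S := by
    intro z
    induction z using TensorProduct.induction_on with
    | zero => simp
    | tmul f c =>
      rw [tensorToField_tmul]
      exact hmul _ (hF f) _ (hΩ c)
    | add y y' hy hy' => rw [map_add]; exact S.add_mem hy hy'
  haveI : Module.Finite Ω⟮ψ x⟯ S := Module.Finite.span_of_finite _ (Set.finite_range _)
  have hinv : ∀ a ∈ S, a ≠ 0 → a⁻¹ ∈ S := by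
    intro a ha ha0
    let μ : S →ₗ[Ω⟮ψ x⟯] S :=
      { toFun := fun y => ⟨a * y.1, hmul a ha y.1 y.2⟩
        map_add' := fun y y' => Subtype.ext (by simp [mul_add])
        map_smul' := fun c y => Subtype.ext (by simp) }
    have hinj : Function.Injective μ := by
      intro y y' hyy
      have h3 : a * y.1 = a * y'.1 := congrArg Subtype.val hyy
      exact Subtype.ext (mul_left_cancel₀ ha0 h3)
    obtain ⟨y, hy⟩ := (LinearMap.injective_iff_surjective.mp hinj) ⟨1, h1S⟩
    have h3 : a * y.1 = 1 := congrArg Subtype.val hy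
    have h4 : a⁻¹ = y.1 := by
      rw [inv_eq_iff_eq_inv, eq_comm]
      exact inv_eq_of_mul_eq_one_left h3
    rw [h4]
    exact y.2
  have htop : S = ⊤ := by
    rw [eq_top_iff]
    intro m _
    obtain ⟨z, y, rfl⟩ := hgen m
    by_cases hy : tensorToField ψ y = 0
    · rw [hy, div_zero]
      exact S.zero_mem
    · rw [div_eq_mul_inv]
      exact hmul _ (hT z) _ (hinv _ (hT y) hy)
  exact ⟨htop ▸ Submodule.fg_span (Set.finite_range _)⟩

/-- The constant field extension of a function field is a function field. -/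
theorem isFF_of_constExt (hFF : IsFF K F) (ψ : F →ₐ[K] M)
    (hinj : Function.Injective (tensorToField (K := Ω) ψ))
    (hgen : ∀ m : M, ∃ x y : F ⊗[K] Ω, m = tensorToField ψ x / tensorToField ψ y) :
    IsFF Ω M := by
  obtain ⟨x, hx, hfin⟩ := hFF
  refine ⟨ψ x, ?_, finite_adjoin ψ hgen x⟩
  apply transcendental_of_linearIndependent_pow
  have h1 := linearIndependent_map (Ω := Ω) ψ hinj (linearIndependent_pow_of_transcendental hx)
  simpa using h1

end IsFF

section Over

variable {K Ω F M : Type*} [Field K] [Field Ω] [Field F] [Field M]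
  [Algebra K Ω] [Algebra K F] [Algebra Ω M] [Algebra K M] [IsScalarTower K Ω M]

/-- The place `w` of `M / Ω` lies over the place `v` of `F / K`. -/
def LiesOver (ψ : F →ₐ[K] M) (w : Place Ω M) (v : Place K F) : Prop :=
  ∀ g : F, (RegAt v g → RegAt w (ψ g)) ∧ (VanAt v g → VanAt w (ψ g))

theorem liesOver_of_ord (ψ : F →ₐ[K] M) {w : Place Ω M} {v : Place K F}
    (h : ∀ g : F, w.ord (ψ g) = v.ord g) : LiesOver ψ w v := by
  intro g
  rcases eq_or_ne g 0 with rfl | hg
  · simp [regAt_zero, vanAt_zero]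
  have hg' : ψ g ≠ 0 := (map_ne_zero_iff _ ψ.toRingHom.injective).mpr hg
  constructor
  · intro hr
    exact regAt_of_ord_nonneg (by rw [h]; exact hr.ord_nonneg)
  · intro hr
    exact vanAt_of_ord_pos (by rw [h]; exact hr.ord_pos hg)

theorem vanAt_sum {w : Place Ω M} {I : Type*} (s : Finset I) (f : I → M)
    (h : ∀ i ∈ s, VanAt w (f i)) : VanAt w (∑ i ∈ s, f i) := by
  classical
  induction s using Finset.induction_on with
  | empty => simpa using vanAt_zero w
  | insert a s ha ih =>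
    rw [Finset.sum_insert ha]
    exact (h a (Finset.mem_insert_self a s)).add
      (ih fun i hi => h i (Finset.mem_insert_of_mem hi))

/-- The key computation: the order of `∑ ψ(rᵢ) bᵢ` at a place over `v` is the Gauss order. -/
theorem ord_sum_of_liesOver (ψ : F →ₐ[K] M) {w : Place Ω M} {v : Place K F}
    (hdeg : v.deg = 1) (hw : LiesOver ψ w v) {I : Type*} (b : Module.Basis I K Ω)
    {t : F} (ht : v.ord t = 1) (s : Finset I) (r : I → F) (n : ℤ)
    (hle : ∀ i ∈ s, r i = 0 ∨ n ≤ v.ord (r i))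
    (hex : ∃ i ∈ s, r i ≠ 0 ∧ v.ord (r i) = n) :
    (∑ i ∈ s, ψ (r i) * algebraMap Ω M (b i)) ≠ 0 ∧
      w.ord (∑ i ∈ s, ψ (r i) * algebraMap Ω M (b i)) = n * w.ord (ψ t) := by
  classical
  have ht0 : t ≠ 0 := by
    rintro rfl
    rw [Place.ord_zero] at ht
    exact zero_ne_one ht
  have htn0 : t ^ n ≠ 0 := zpow_ne_zero n ht0
  have hψt0 : ψ t ≠ 0 := (map_ne_zero_iff _ ψ.toRingHom.injective).mpr ht0
  set u : I → F := fun i => r i * (t ^ n)⁻¹ with hu
  have hru : ∀ i, r i = u i * t ^ n := fun i => by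
    simp only [hu]
    rw [mul_assoc, inv_mul_cancel₀ htn0, mul_one]
  have hordu : ∀ i, r i ≠ 0 → v.ord (u i) = v.ord (r i) - n := by
    intro i hi
    simp only [hu]
    rw [v.ord_mul hi (inv_ne_zero htn0), v.ord_inv, v.ord_zpow, ht, mul_one]
    ring
  have hreg : ∀ i ∈ s, RegAt v (u i) := by
    intro i hi
    rcases eq_or_ne (r i) 0 with h0 | h0
    · have : u i = 0 := by simp [hu, h0]
      rw [this]
      exact regAt_zero v
    · refine regAt_of_ord_nonneg ?_
      rw [hordu i h0]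
      have := (hle i hi).resolve_left h0
      omega
  have hval : ∀ i : s, ∃ c : K, VanAt v (u i.1 - algebraMap K F c) :=
    fun i => exists_value v hdeg (hreg i.1 i.2)
  choose a' ha' using hval
  set a : I → K := fun i => if hi : i ∈ s then a' ⟨i, hi⟩ else 0 with ha
  have haV : ∀ i ∈ s, VanAt v (u i - algebraMap K F (a i)) := by
    intro i hi
    simp only [ha, dif_pos hi]
    exact ha' ⟨i, hi⟩
  obtain ⟨i₀, hi₀s, hi₀0, hi₀n⟩ := hex
  have hai₀ : a i₀ ≠ 0 := by
    intro h0
    have h1 := haV i₀ hi₀s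
    rw [h0, map_zero, sub_zero] at h1
    have hu0 : u i₀ ≠ 0 := by
      simp only [hu]
      exact mul_ne_zero hi₀0 (inv_ne_zero htn0)
    have h2 := h1.ord_pos hu0
    rw [hordu i₀ hi₀0, hi₀n] at h2
    omega
  set c : Ω := ∑ i ∈ s, a i • b i with hc
  have hc0 : c ≠ 0 := by
    intro h0
    exact hai₀ (linearIndependent_iff'.mp b.linearIndependent s a h0 i₀ hi₀s)
  set y : M := ∑ i ∈ s, ψ (u i) * algebraMap Ω M (b i) with hy
  have hsum : (∑ i ∈ s, ψ (r i) * algebraMap Ω M (b i)) = ψ t ^ n * y := by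
    rw [hy, Finset.mul_sum]
    refine Finset.sum_congr rfl fun i _ => ?_
    rw [hru i, map_mul, map_zpow₀]
    ring
  have hδ : VanAt w (y - algebraMap Ω M c) := by
    have h1 : y - algebraMap Ω M c =
        ∑ i ∈ s, ψ (u i - algebraMap K F (a i)) * algebraMap Ω M (b i) := by
      rw [hy, hc, map_sum, ← Finset.sum_sub_distrib]
      refine Finset.sum_congr rfl fun i _ => ?_
      have e1 : algebraMap Ω M (a i • b i) = algebraMap K M (a i) * algebraMap Ω M (b i) := by
        rw [Algebra.smul_def, map_mul, ← IsScalarTower.algebraMap_apply K Ω M]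
      rw [map_sub, AlgHom.commutes, e1]
      ring
    rw [h1]
    exact vanAt_sum s _ fun i hi =>
      ((hw _).2 (haV i hi)).mul_regAt (regAt_algebraMap w (b i))
  have hcM : algebraMap Ω M c ≠ 0 := (map_ne_zero_iff _ (algebraMap Ω M).injective).mpr hc0
  have hy0 : y ≠ 0 := by
    intro h0
    rw [h0, zero_sub] at hδ
    have := hδ.neg
    rw [neg_neg] at this
    exact not_vanAt_algebraMap w hc0 this
  have hyord : w.ord y = 0 := by
    have h1 : y = algebraMap Ω M c + (y - algebraMap Ω M c) := by ring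
    rw [h1, ord_add_of_lt w hcM, ord_algebraMap]
    rcases eq_or_ne (y - algebraMap Ω M c) 0 with h0 | h0
    · exact Or.inl h0
    · right
      rw [ord_algebraMap]
      exact hδ.ord_pos h0
  rw [hsum]
  refine ⟨mul_ne_zero (zpow_ne_zero n hψt0) hy0, ?_⟩
  rw [w.ord_mul (zpow_ne_zero n hψt0) hy0, w.ord_zpow, hyord, add_zero]

/-- Every element of `F ⊗ Ω` is a finite sum `∑ rᵢ ⊗ bᵢ`. -/
theorem exists_repr {I : Type*} (b : Module.Basis I K Ω) (x : F ⊗[K] Ω) :
    ∃ (s : Finset I) (r : I → F), (∀ i ∈ s, r i ≠ 0) ∧ x = ∑ i ∈ s, r i ⊗ₜ[K] b i := by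
  classical
  let B := Algebra.TensorProduct.basis F b
  refine ⟨(B.repr x).support, fun i => B.repr x i, fun i hi => Finsupp.mem_support_iff.mp hi, ?_⟩
  have h1 : ∑ i ∈ (B.repr x).support, (B.repr x i) • B i = x := by
    have h0 := B.linearCombination_repr x
    rwa [Finsupp.linearCombination_apply, Finsupp.sum] at h0
  refine h1.symm.trans (Finset.sum_congr rfl fun i _ => ?_)
  exact Algebra.TensorProduct.basis_repr_symm_apply' b _ i

/-- The Gauss order: for `x ≠ 0` in `F ⊗ Ω` there is `n` such that `ord_w (T x) = n ord_w (ψ t)`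
for EVERY place `w` over `v`. -/
theorem exists_gaussOrd (ψ : F →ₐ[K] M) {v : Place K F} (hdeg : v.deg = 1)
    {t : F} (ht : v.ord t = 1) {x : F ⊗[K] Ω} (hx : x ≠ 0) :
    ∃ n : ℤ, ∀ w : Place Ω M, LiesOver ψ w v →
      tensorToField ψ x ≠ 0 ∧ w.ord (tensorToField ψ x) = n * w.ord (ψ t) := by
  classical
  let b := Module.Basis.ofVectorSpace K Ω
  obtain ⟨s, r, hr, hxs⟩ := exists_repr b x
  have hne : s.Nonempty := by
    rw [Finset.nonempty_iff_ne_empty]
    rintro rfl
    exact hx (by simpa using hxs)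
  obtain ⟨i₀, hi₀, hmin⟩ := Finset.exists_min_image s (fun i => v.ord (r i)) hne
  refine ⟨v.ord (r i₀), fun w hw => ?_⟩
  have hT : tensorToField ψ x = ∑ i ∈ s, ψ (r i) * algebraMap Ω M (b i) := by
    rw [hxs, map_sum]
    exact Finset.sum_congr rfl fun i _ => tensorToField_tmul ψ _ _
  rw [hT]
  exact ord_sum_of_liesOver ψ hdeg hw b ht s r _ (fun i hi => Or.inr (hmin i hi))
    ⟨i₀, hi₀, hr i₀ hi₀, rfl⟩

theorem exists_uniformizer (v : Place K F) : ∃ t : F, v.ord t = 1 := by
  obtain ⟨π, hπ⟩ := IsDiscreteValuationRing.exists_irreducible v.toValuationSubring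
  exact ⟨π, v.ord_coe_irreducible hπ⟩

theorem regAt_of_liesOver (ψ : F →ₐ[K] M)
    (hgen : ∀ m : M, ∃ x y : F ⊗[K] Ω, m = tensorToField ψ x / tensorToField ψ y)
    {v : Place K F} (hdeg : v.deg = 1) {w₁ w₂ : Place Ω M} (h₁ : LiesOver ψ w₁ v)
    (h₂ : LiesOver ψ w₂ v) {m : M} (hm : RegAt w₁ m) : RegAt w₂ m := by
  rcases eq_or_ne m 0 with rfl | hm0
  · exact regAt_zero w₂
  obtain ⟨x, y, hxy⟩ := hgen m
  have hTy : tensorToField ψ y ≠ 0 := by
    intro h0
    rw [h0, div_zero] at hxy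
    exact hm0 hxy
  have hTx : tensorToField ψ x ≠ 0 := by
    intro h0
    rw [h0, zero_div] at hxy
    exact hm0 hxy
  have hx : x ≠ 0 := by
    rintro rfl
    exact hTx (map_zero _)
  have hy : y ≠ 0 := by
    rintro rfl
    exact hTy (map_zero _)
  obtain ⟨t, ht⟩ := exists_uniformizer v
  have ht0 : t ≠ 0 := by
    rintro rfl
    rw [Place.ord_zero] at ht
    exact zero_ne_one ht
  have hψt0 : ψ t ≠ 0 := (map_ne_zero_iff _ ψ.toRingHom.injective).mpr ht0
  have hvt : VanAt v t := vanAt_of_ord_pos (by rw [ht]; exact one_pos)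
  have he₁ : 0 < w₁.ord (ψ t) := ((h₁ t).2 hvt).ord_pos hψt0
  have he₂ : 0 < w₂.ord (ψ t) := ((h₂ t).2 hvt).ord_pos hψt0
  obtain ⟨n, hn⟩ := exists_gaussOrd ψ hdeg ht hx
  obtain ⟨n', hn'⟩ := exists_gaussOrd ψ hdeg ht hy
  have ho₁ : w₁.ord m = (n - n') * w₁.ord (ψ t) := by
    rw [hxy, ord_div w₁ hTx hTy, (hn w₁ h₁).2, (hn' w₁ h₁).2]
    ring
  have ho₂ : w₂.ord m = (n - n') * w₂.ord (ψ t) := by
    rw [hxy, ord_div w₂ hTx hTy, (hn w₂ h₂).2, (hn' w₂ h₂).2]
    ring
  have h3 := hm.ord_nonneg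
  rw [ho₁] at h3
  have h4 : 0 ≤ n - n' := by
    by_contra hneg
    push Not at hneg
    have := mul_neg_of_neg_of_pos hneg he₁
    omega
  refine regAt_of_ord_nonneg ?_
  rw [ho₂]
  exact mul_nonneg h4 he₂.le

/-- **Uniqueness** of the place over `v`. -/
theorem eq_of_liesOver (ψ : F →ₐ[K] M)
    (hgen : ∀ m : M, ∃ x y : F ⊗[K] Ω, m = tensorToField ψ x / tensorToField ψ y)
    {v : Place K F} (hdeg : v.deg = 1) {w₁ w₂ : Place Ω M} (h₁ : LiesOver ψ w₁ v)
    (h₂ : LiesOver ψ w₂ v) : w₁ = w₂ := by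
  apply Place.ext
  ext m
  rw [← regAt_iff_mem, ← regAt_iff_mem]
  exact ⟨regAt_of_liesOver ψ hgen hdeg h₁ h₂, regAt_of_liesOver ψ hgen hdeg h₂ h₁⟩

end Over

section Const

variable {K Ω F M : Type*} [Field K] [Field Ω] [Field F] [Field M]
  [Algebra K Ω] [Algebra K F] [Algebra Ω M] [Algebra K M] [IsScalarTower K Ω M]
  [IsAlgClosed K]

/-- The data of a constant field extension `M = Frac (F ⊗_K Ω)` of a function field `F / K`. -/
structure ConstExt (ψ : F →ₐ[K] M) : Prop where
  isFF : IsFF K F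
  inj : Function.Injective (tensorToField (K := Ω) ψ)
  gen : ∀ m : M, ∃ x y : F ⊗[K] Ω, m = tensorToField ψ x / tensorToField ψ y

variable {ψ : F →ₐ[K] M}

theorem ConstExt.deg (h : ConstExt (Ω := Ω) ψ) (v : Place K F) : v.deg = 1 :=
  H51.stmt_FFB_deg K F h.isFF v

theorem ConstExt.isFF' (h : ConstExt (Ω := Ω) ψ) : IsFF Ω M :=
  isFF_of_constExt h.isFF ψ h.inj h.gen

/-- The constant place of `M / Ω` over the place `v` of `F / K`. -/
def ConstExt.place (h : ConstExt (Ω := Ω) ψ) (v : Place K F) : Place Ω M :=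
  (exists_place_extension ψ h.inj h.gen v (h.deg v)).choose

theorem ConstExt.place_ord (h : ConstExt (Ω := Ω) ψ) (v : Place K F) (g : F) :
    (h.place v).ord (ψ g) = v.ord g :=
  (exists_place_extension ψ h.inj h.gen v (h.deg v)).choose_spec g

theorem ConstExt.place_liesOver (h : ConstExt (Ω := Ω) ψ) (v : Place K F) :
    LiesOver ψ (h.place v) v :=
  liesOver_of_ord ψ (h.place_ord v)

theorem ConstExt.eq_place (h : ConstExt (Ω := Ω) ψ) {v : Place K F} {w : Place Ω M}
    (hw : LiesOver ψ w v) : w = h.place v :=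
  eq_of_liesOver ψ h.gen (h.deg v) hw (h.place_liesOver v)

theorem ConstExt.place_injective (h : ConstExt (Ω := Ω) ψ) :
    Function.Injective h.place := by
  intro v v' hvv
  apply Place.ext
  ext g
  rw [← regAt_iff_mem, ← regAt_iff_mem, regAt_iff_ord, regAt_iff_ord, ← h.place_ord v g,
    ← h.place_ord v' g, hvv]

/-- **Classification** of the places of `M / Ω`: a place is either generic (trivial on `F`) or the
constant place over a place of `F / K`. -/
theorem ConstExt.place_cases (h : ConstExt (Ω := Ω) ψ) (w : Place Ω M) :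
    (∀ g : F, g ≠ 0 → w.ord (ψ g) = 0) ∨ ∃ v : Place K F, w = h.place v := by
  let A : ValuationSubring F := w.toValuationSubring.comap ψ.toRingHom
  have hA : ∀ g : F, g ∈ A ↔ ψ g ∈ w.toValuationSubring := fun g => ValuationSubring.mem_comap
  have hK : ∀ a : K, algebraMap K F a ∈ A := by
    intro a
    rw [hA, AlgHom.commutes, IsScalarTower.algebraMap_apply K Ω M]
    exact w.algebraMap_mem' _
  by_cases htop : A = ⊤
  · left
    intro g hg
    have hg' : ψ g ≠ 0 := (map_ne_zero_iff _ ψ.toRingHom.injective).mpr hg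
    have h1 : RegAt w (ψ g) := (regAt_iff_mem w _).mpr ((hA g).mp (htop ▸ ValuationSubring.mem_top g))
    have h2 : RegAt w (ψ g⁻¹) :=
      (regAt_iff_mem w _).mpr ((hA g⁻¹).mp (htop ▸ ValuationSubring.mem_top g⁻¹))
    have h3 := h1.ord_nonneg
    have h4 := h2.ord_nonneg
    rw [map_inv₀, w.ord_inv] at h4
    omega
  · right
    obtain ⟨v, hv⟩ := H42.exists_place_eq h.isFF A hK htop
    refine ⟨v, h.eq_place fun g => ⟨fun hr => ?_, fun hr => ?_⟩⟩
    · rw [regAt_iff_mem, hv, hA] at hr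
      exact (regAt_iff_mem w _).mpr hr
    · rcases eq_or_ne g 0 with rfl | hg
      · rw [map_zero]
        exact vanAt_zero w
      have hg' : ψ g ≠ 0 := (map_ne_zero_iff _ ψ.toRingHom.injective).mpr hg
      have h1 := hr.ord_pos hg
      have h2 : ¬ RegAt v g⁻¹ := by
        rw [not_regAt_iff_ord, v.ord_inv]
        omega
      rw [regAt_iff_mem, hv, hA, ← regAt_iff_mem, not_regAt_iff_ord, map_inv₀, w.ord_inv] at h2
      exact vanAt_of_ord_pos (by omega)

end Const

section BaseChange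

variable {K Ω F M : Type*} [Field K] [Field Ω] [Field F] [Field M]
  [Algebra K Ω] [Algebra K F] [Algebra Ω M] [Algebra K M] [IsScalarTower K Ω M]
  [IsAlgClosed K] {ψ : F →ₐ[K] M}

local notation "L" => riemannRochSpace

/-- The base change of a divisor of `F / K` to `M / Ω`. -/
def ConstExt.bc (h : ConstExt (Ω := Ω) ψ) (D : Divisor K F) : Divisor Ω M :=
  Finsupp.mapDomain h.place D

theorem ConstExt.bc_place (h : ConstExt (Ω := Ω) ψ) (D : Divisor K F) (v : Place K F) :
    h.bc D (h.place v) = D v :=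
  Finsupp.mapDomain_apply h.place_injective D v

theorem ConstExt.bc_generic (h : ConstExt (Ω := Ω) ψ) (D : Divisor K F) {w : Place Ω M}
    (hw : ∀ g : F, g ≠ 0 → w.ord (ψ g) = 0) : h.bc D w = 0 := by
  apply Finsupp.mapDomain_of_notMem_range
  rintro ⟨v, rfl⟩
  obtain ⟨t, ht⟩ := exists_uniformizer v
  have ht0 : t ≠ 0 := by
    rintro rfl
    rw [Place.ord_zero] at ht
    exact zero_ne_one ht
  have := hw t ht0
  rw [h.place_ord, ht] at this
  exact one_ne_zero this

theorem ConstExt.map_mem_L (h : ConstExt (Ω := Ω) ψ) {D : Divisor K F} {f : F}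
    (hf : f ∈ L D) : ψ f ∈ L (h.bc D) := by
  rw [mem_riemannRochSpace_iff] at hf ⊢
  intro w
  rcases eq_or_ne f 0 with rfl | hf0
  · exact Or.inl (map_zero _)
  right
  rcases h.place_cases w with hw | ⟨v, rfl⟩
  · rw [h.bc_generic D hw, hw f hf0]
    simp
  · rw [h.bc_place, h.place_ord]
    exact (hf v).resolve_left hf0

theorem ConstExt.degree_bc [IsAlgClosed Ω] (h : ConstExt (Ω := Ω) ψ) (D : Divisor K F) :
    Divisor.degree (h.bc D) = Divisor.degree D := by
  classical
  have h1 : ∀ v : Place K F, v.deg = 1 := h.deg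
  have h2 : ∀ w : Place Ω M, w.deg = 1 := H51.stmt_FFB_deg Ω M h.isFF'
  unfold ConstExt.bc Divisor.degree
  rw [Finsupp.liftAddHom_apply, Finsupp.liftAddHom_apply, Finsupp.sum_mapDomain_index]
  · refine Finsupp.sum_congr fun v _ => ?_
    simp [h1, h2]
  · intro w
    simp
  · intro w m₁ m₂
    simp [add_mul]

/-- `l_K(D) ≤ l_Ω(D_Ω)`. -/
theorem ConstExt.finrank_le [IsAlgClosed Ω] (h : ConstExt (Ω := Ω) ψ) (D : Divisor K F) :
    Module.finrank K (L D) ≤ Module.finrank Ω (L (h.bc D)) := by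
  classical
  haveI : Module.Finite K (L D) := H51.stmt_FFR_finite K F h.isFF D
  haveI : Module.Finite Ω (L (h.bc D)) := H51.stmt_FFR_finite Ω M h.isFF' (h.bc D)
  let b := Module.finBasis K (L D)
  have h1 : LinearIndependent K (fun j => ((b j : L D) : F)) :=
    b.linearIndependent.map' (L D).subtype (Submodule.ker_subtype _)
  have h2 := linearIndependent_map (Ω := Ω) ψ h.inj h1
  let g : Fin (Module.finrank K (L D)) → L (h.bc D) :=
    fun j => ⟨ψ ((b j : L D) : F), h.map_mem_L (b j).2⟩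
  have h3 : LinearIndependent Ω g := by
    apply LinearIndependent.of_comp (L (h.bc D)).subtype
    exact h2
  have h4 := h3.fintype_card_le_finrank
  simpa using h4

/-- **The genus does not grow**: if Riemann's theorem holds for `F / K` with `g`, then
`l(B) ≥ deg B + 1 - g` for every divisor `B` of `M / Ω`. -/
theorem ConstExt.riemann [IsAlgClosed Ω] (h : ConstExt (Ω := Ω) ψ) {g : ℕ} {c : ℤ}
    (hR : ∀ D : Divisor K F, c ≤ Divisor.degree D →
      (Module.finrank K (L D) : ℤ) = Divisor.degree D + 1 - g)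
    (B : Divisor Ω M) :
    Divisor.degree B + 1 - g ≤ (Module.finrank Ω (L B) : ℤ) := by
  obtain ⟨g', c', hR'⟩ := H51.stmt_FFR_riemann Ω M h.isFF'
  obtain ⟨x, hx, hfin⟩ := h.isFF
  obtain ⟨v₀, -⟩ := H12.exists_place_ord_pos
    (fun y hy => Fermat.Agent.S24.ff_finite_of_transcendental x hx y hy) x hx
  set N : ℤ := max c c' with hN
  set D : Divisor K F := Finsupp.single v₀ N with hD
  have hdeg : Divisor.degree D = N := by
    rw [hD, Divisor.degree_single, h.deg v₀]
    simp
  have h1 := hR D (by rw [hdeg]; exact le_max_left _ _)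
  have h2 := (hR' (h.bc D)).2 (by rw [h.degree_bc, hdeg]; exact le_max_right _ _)
  rw [h.degree_bc] at h2
  have h3 : (Module.finrank K (L D) : ℤ) ≤ (Module.finrank Ω (L (h.bc D)) : ℤ) := by
    exact_mod_cast h.finrank_le D
  have h4 : (g' : ℤ) ≤ g := by omega
  have h5 := (hR' B).1
  omega

/-- **RR-OMEGA**: a divisor of `M / Ω` of degree at least the genus of `F / K` is linearly
equivalent to an effective divisor: `L(B) ≠ 0`. -/
theorem ConstExt.exists_mem_L [IsAlgClosed Ω] (h : ConstExt (Ω := Ω) ψ) {g : ℕ} {c : ℤ}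
    (hR : ∀ D : Divisor K F, c ≤ Divisor.degree D →
      (Module.finrank K (L D) : ℤ) = Divisor.degree D + 1 - g)
    (B : Divisor Ω M) (hB : (g : ℤ) ≤ Divisor.degree B) :
    ∃ Ψ : M, Ψ ≠ 0 ∧ Ψ ∈ L B := by
  have h1 := h.riemann hR B
  have h2 : 0 < Module.finrank Ω (L B) := by
    have : (0 : ℤ) < (Module.finrank Ω (L B) : ℤ) := by omega
    exact_mod_cast this
  haveI : Module.Finite Ω (L B) := H51.stmt_FFR_finite Ω M h.isFF' B
  haveI : Nontrivial (L B) := Module.finrank_pos_iff.mp h2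
  obtain ⟨⟨Ψ, hΨ⟩, hne⟩ := exists_ne (0 : L B)
  exact ⟨Ψ, fun h0 => hne (Subtype.ext h0), hΨ⟩

end BaseChange

end Fermat.Agent.S26.C.H86
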