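/-
S26 (row 25), crux (C), package CCC (helper6), leaf CONST-PLACES (helper29): `Dt = E_Ω`.

Setting of `H29_CCCCore`; `ψ : F →ₐ[K] FΩ` the structure map, `h : H86.ConstExt ψ` (helper86:
`FΩ = Frac (F ⊗_K Ω)`, constant places `h.place`, base change of divisors `h.bc`).

* `redPlace_mem_support` : if `red_O(Dt) = E` and `Dt ≥ 0` then `red_O P ∈ supp E` for
  `P ∈ supp Dt`.
* `liesOver_redPlace` : a place `P` whose reductions at all face places lie in a finite set `T`
  lies over its reduction at any face place (it is the constant place over it).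
* `eq_place_redPlace` : `P = h.place (red_O P)`.
* `eq_bc` : `Dt ≥ 0`, `red_O(Dt) = E` for EVERY face place `O`  ⟹  `Dt = h.bc E`.
-/
import Fermat.Agent.S26.C.H29_CCCCore
import Fermat.Agent.S26.C.H86_RROmega

set_option autoImplicit false

universe uK uF uO uFO

noncomputable section

open AlgebraicCurve IntermediateField

namespace Fermat.Agent.S26.C.H29

open Fermat.Agent.S27.REDu Fermat.Agent.S27.REDu.H34 Fermat.Agent.S27.REDu.H34.RedSetting
  Fermat.Agent.S27.REDu.H51 Fermat.Agent.S27.REDu.H10 Fermat.Agent.S27.REDu.H17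
  Fermat.Agent.S26.C.H6

variable {K : Type uK} {F : Type uF} {Ω : Type uO} {FΩ : Type uFO}
  [Field K] [Field F] [Algebra K F] [Field Ω] [Field FΩ] [Algebra Ω FΩ]
  [Algebra K Ω] [Algebra F FΩ] [Algebra K FΩ] [IsScalarTower K F FΩ] [IsScalarTower K Ω FΩ]

variable (K F FΩ) in
/-- The structure map `F → FΩ`, as a homomorphism of `K`-algebras. -/
abbrev psi : F →ₐ[K] FΩ := IsScalarTower.toAlgHom K F FΩ

section Supp

variable [IsAlgClosed K] (hFF : IsFF K F) (R : ConstRed K F Ω FΩ)
  (hdegΩ : ∀ P : Place Ω FΩ, P.deg = 1)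

/-- The support of the reduction of an effective divisor. -/
theorem redPlace_mem_support (E : Divisor K F) (Dt : Divisor Ω FΩ) (hDt : 0 ≤ Dt)
    (hmap : Finsupp.mapDomain (fun P => R.redPlace P (hdegΩ P) hFF) Dt = E)
    (P : Place Ω FΩ) (hPs : P ∈ Dt.support) : R.redPlace P (hdegΩ P) hFF ∈ E.support := by
  classical
  set red : Place Ω FΩ → Place K F := fun P => R.redPlace P (hdegΩ P) hFF with hred
  have hpos : 0 < Dt P := lt_of_le_of_ne (hDt P) (Ne.symm (Finsupp.mem_support_iff.mp hPs))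
  have key : Dt P ≤ (Finsupp.mapDomain red Dt) (red P) := by
    rw [Finsupp.mapDomain, Finsupp.sum_apply]
    unfold Finsupp.sum
    have hnn : ∀ a ∈ Dt.support, 0 ≤ (Finsupp.single (red a) (Dt a)) (red P) := by
      intro a _
      rw [Finsupp.single_apply]
      split_ifs
      · exact hDt a
      · exact le_rfl
    calc Dt P = (Finsupp.single (red P) (Dt P)) (red P) := by simp
      _ ≤ _ := Finset.single_le_sum hnn hPs
  rw [hmap] at key
  rw [Finsupp.mem_support_iff]
  exact (lt_of_lt_of_le hpos key).ne'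

end Supp

section Const

variable [IsAlgClosed K] (D : FaceData K Ω) (hFF : IsFF K F)
  (RO : ∀ O : ValuationSubring Ω, D.IsFace O → ConstRed K F Ω FΩ)
  (hRO : ∀ O h, (RO O h).S.O = O)
  (T : Finset (Place K F)) (P : Place Ω FΩ) (hdeg : P.deg = 1)
  (hred : ∀ O h, (RO O h).redPlace P hdeg hFF ∈ T)

include hRO hred in
/-- A place all of whose reductions at face places lie in `T` lies over its reduction. -/
theorem liesOver_redPlace (O₀ : ValuationSubring Ω) (h₀ : D.IsFace O₀) :
    H86.LiesOver (psi K F FΩ) P ((RO O₀ h₀).redPlace P hdeg hFF) := by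
  have hdegK : ∀ e : Place K F, e.deg = 1 := stmt_FFB_deg K F hFF
  intro g
  constructor
  · intro hr
    rw [regAt_iff_mem] at hr
    obtain ⟨hP, -, -⟩ := value_reduces (RO O₀ h₀) P hdeg hFF (hdegK _) g hr
    exact (regAt_iff_mem P _).mpr hP
  · intro hv
    have hord : OrdGe ((RO O₀ h₀).redPlace P hdeg hFF) 1 g := (ordGe_one_iff_vanAt _ g).mpr hv
    have hord' : OrdGe ((RO O₀ h₀).redPlace P hdeg hFF) 1 (g - algebraMap K F 0) := by
      rw [map_zero, sub_zero]; exact hord
    have hr : g ∈ ((RO O₀ h₀).redPlace P hdeg hFF).toValuationSubring :=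
      mem_of_ordGe_one_sub _ hord'
    have hval0 : valHom ((RO O₀ h₀).redPlace P hdeg hFF) (hdegK _) ⟨g, hr⟩ = 0 :=
      valHom_eq_of_ordGe _ (hdegK _) ⟨g, hr⟩ hord'
    obtain ⟨hP, -, hnon⟩ := value_reduces (RO O₀ h₀) P hdeg hFF (hdegK _) g hr
    rw [hval0, map_zero, sub_zero, hRO O₀ h₀] at hnon
    obtain ⟨k, hk⟩ := value_mem_range D hFF RO hRO T P hdeg hred g hP
    have hk0 : k = 0 := by
      by_contra hne
      rw [← hk, ValuationSubring.mem_nonunits_iff_or] at hnon
      rcases hnon with h0 | h0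
      · exact hne ((algebraMap K Ω).injective (by rw [h0, map_zero]))
      · apply h0
        rw [← map_inv₀]
        exact h₀.1.1 k⁻¹
    have hgP : valHom P hdeg ⟨algebraMap F FΩ g, hP⟩ = 0 := by
      rw [← hk, hk0, map_zero]
    have hmax := (valHom_eq_zero_iff P hdeg _).mp hgP
    have h3 : OrdGe P 1 (algebraMap F FΩ g) :=
      (ordGe_one_iff_mem_maximalIdeal P ⟨algebraMap F FΩ g, hP⟩).mpr hmax
    exact (ordGe_one_iff_vanAt P _).mp h3

include hRO hred in
/-- A place all of whose reductions at face places lie in `T` is the constant place over its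
reduction. -/
theorem eq_place_redPlace (h : H86.ConstExt (Ω := Ω) (psi K F FΩ))
    (O₀ : ValuationSubring Ω) (h₀ : D.IsFace O₀) :
    P = h.place ((RO O₀ h₀).redPlace P hdeg hFF) :=
  h.eq_place (liesOver_redPlace D hFF RO hRO T P hdeg hred O₀ h₀)

end Const

section Divisors

variable [IsAlgClosed K] (D : FaceData K Ω) (hFF : IsFF K F)
  (RO : ∀ O : ValuationSubring Ω, D.IsFace O → ConstRed K F Ω FΩ)
  (hRO : ∀ O h, (RO O h).S.O = O)
  (hdegΩ : ∀ P : Place Ω FΩ, P.deg = 1)

include hRO in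
/-- **CONST-PLACES**: an effective divisor `Dt` of `FΩ / Ω` whose reduction at EVERY face place
is the divisor `E` of `F / K` is the constant divisor `E_Ω`. -/
theorem eq_bc (h : H86.ConstExt (Ω := Ω) (psi K F FΩ)) (E : Divisor K F) (Dt : Divisor Ω FΩ)
    (hDt : 0 ≤ Dt)
    (hmap : ∀ O hO,
      Finsupp.mapDomain (fun P => (RO O hO).redPlace P (hdegΩ P) hFF) Dt = E) :
    Dt = h.bc E := by
  classical
  obtain ⟨O₀, h₀⟩ := D.exists_face
  have hP : ∀ P ∈ Dt.support,
      (h.place ∘ fun P => (RO O₀ h₀).redPlace P (hdegΩ P) hFF) P = id P := by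
    intro P hPs
    have hred : ∀ O hO, (RO O hO).redPlace P (hdegΩ P) hFF ∈ E.support := fun O hO =>
      redPlace_mem_support hFF (RO O hO) hdegΩ E Dt hDt (hmap O hO) P hPs
    exact (eq_place_redPlace D hFF RO hRO E.support P (hdegΩ P) hred h O₀ h₀).symm
  unfold H86.ConstExt.bc
  rw [← hmap O₀ h₀, ← Finsupp.mapDomain_comp, Finsupp.mapDomain_congr hP, Finsupp.mapDomain_id]

end Divisors

end Fermat.Agent.S26.C.H29
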