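/-
S26 (row 25), crux (C), package CCC (helper6), leaf CCC-45 (helper29): steps (4) + (5) of the
PRIG plan, abstract.

Setting of `H29_ConstPlaces`.  `E ≥ 0` a divisor of `F / K` with `deg E = g` and `l(E) = 1`
(non-special), `lam` a divisor of degree `0` of `FΩ / Ω`.  Hypotheses:

* `hlam`  : the reduction of `lam` at every face place is principal (MOVING + RED-CONS);
* `hcons` : the reduction of a principal divisor at a face place is principal (RED-CONS).

Conclusion (`isPrincipal_of_red`): `lam` is principal on `X_Ω`.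

Also: `redPlace_place` (the reduction of the constant place over `v` is `v`),
`mapDomain_redPlace_bc` (`red_O (E_Ω) = E`).
-/
import Fermat.Agent.S26.C.H29_ConstPlaces

set_option autoImplicit false

universe uK uF uO uFO

noncomputable section

open AlgebraicCurve IntermediateField

namespace Fermat.Agent.S26.C.H29

open Fermat.Agent.S27.REDu Fermat.Agent.S27.REDu.H34 Fermat.Agent.S27.REDu.H34.RedSetting
  Fermat.Agent.S27.REDu.H51 Fermat.Agent.S27.REDu.H10 Fermat.Agent.S27.REDu.H17
  Fermat.Agent.S26.C.H6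

variable {K : Type uK} {F : Type uF} {Ω : Type uO} {FΩ : Type uFO}
  [Field K] [Field F] [Algebra K F] [Field Ω] [Field FΩ] [Algebra Ω FΩ]
  [Algebra K Ω] [Algebra F FΩ] [Algebra K FΩ] [IsScalarTower K F FΩ] [IsScalarTower K Ω FΩ]

section General

/-- The push-forward of an effective divisor is effective. -/
theorem mapDomain_nonneg' {α β : Type*} (f : α → β) (x : α →₀ ℤ) (hx : 0 ≤ x) :
    0 ≤ Finsupp.mapDomain f x := by
  classical
  rw [Finsupp.mapDomain]
  unfold Finsupp.sum
  apply Finset.sum_nonneg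
  intro a _ b
  rw [Finsupp.single_apply]
  split_ifs
  · exact hx a
  · exact le_rfl

end General

section RedConst

variable [IsAlgClosed K] (hFF : IsFF K F) (R : ConstRed K F Ω FΩ)
  (h : H86.ConstExt (Ω := Ω) (psi K F FΩ))

/-- The reduction of the constant place over `v` is `v`. -/
theorem redPlace_place (v : Place K F) (hdeg : (h.place v).deg = 1) :
    R.redPlace (h.place v) hdeg hFF = v := by
  have hdegK : ∀ e : Place K F, e.deg = 1 := stmt_FFB_deg K F hFF
  apply Place.ext
  show R.redSub (h.place v) hdeg = v.toValuationSubring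
  ext z
  constructor
  · intro hz
    obtain ⟨hP, -⟩ := (R.mem_redSub_iff (h.place v) hdeg z).mp hz
    have h1 : RegAt (h.place v) (psi K F FΩ z) := (regAt_iff_mem _ _).mpr hP
    rw [regAt_iff_ord] at h1
    rw [← regAt_iff_mem, regAt_iff_ord]
    rcases h1 with h0 | h0
    · left
      exact (map_eq_zero_iff _ (psi K F FΩ).toRingHom.injective).mp h0
    · right
      rwa [h.place_ord] at h0
  · intro hz
    have h1 := ordGe_sub_valHom v (hdegK v) ⟨z, hz⟩
    have h2 : VanAt v (z - algebraMap K F (valHom v (hdegK v) ⟨z, hz⟩)) :=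
      (ordGe_one_iff_vanAt v _).mp h1
    have h3 := ((h.place_liesOver v) _).2 h2
    have h4 : psi K F FΩ (z - algebraMap K F (valHom v (hdegK v) ⟨z, hz⟩)) =
        algebraMap F FΩ z -
          algebraMap Ω FΩ (algebraMap K Ω (valHom v (hdegK v) ⟨z, hz⟩)) := by
      rw [map_sub, AlgHom.commutes, IsScalarTower.algebraMap_apply K Ω FΩ]
      rfl
    rw [h4] at h3
    exact R.mem_redSub_of_ordGe (h.place v) hdeg (R.const_mem_O _)
      ((ordGe_one_iff_vanAt _ _).mpr h3)

/-- The reduction of the constant divisor `E_Ω` is `E`. -/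
theorem mapDomain_redPlace_bc (hdegΩ : ∀ P : Place Ω FΩ, P.deg = 1) (E : Divisor K F) :
    Finsupp.mapDomain (fun P => R.redPlace P (hdegΩ P) hFF) (h.bc E) = E := by
  unfold H86.ConstExt.bc
  rw [← Finsupp.mapDomain_comp]
  have : ∀ v ∈ E.support, ((fun P => R.redPlace P (hdegΩ P) hFF) ∘ h.place) v = id v :=
    fun v _ => redPlace_place hFF R h v (hdegΩ _)
  rw [Finsupp.mapDomain_congr this, Finsupp.mapDomain_id]

end RedConst

section Main

variable [IsAlgClosed K] [IsAlgClosed Ω] (D : FaceData K Ω) (hFF : IsFF K F)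
  (RO : ∀ O : ValuationSubring Ω, D.IsFace O → ConstRed K F Ω FΩ)
  (hRO : ∀ O h, (RO O h).S.O = O)
  (hdegΩ : ∀ P : Place Ω FΩ, P.deg = 1)
  (h : H86.ConstExt (Ω := Ω) (psi K F FΩ))

include hRO h in
/-- **CCC-45**: a divisor `lam` of degree `0` of `FΩ / Ω` whose reduction at every face place is
principal is principal (given a non-special divisor `E` of `F / K` and the conservation law). -/
theorem isPrincipal_of_red {g : ℕ} {c : ℤ}
    (hR : ∀ D' : Divisor K F, c ≤ Divisor.degree D' →
      (Module.finrank K (riemannRochSpace D') : ℤ) = Divisor.degree D' + 1 - g)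
    (E : Divisor K F) (hE : 0 ≤ E) (hEdeg : Divisor.degree E = g)
    (hEl : Module.finrank K (riemannRochSpace E) = 1)
    (lam : Divisor Ω FΩ) (hlamdeg : Divisor.degree lam = 0)
    (hlam : ∀ O hO, Divisor.IsPrincipal
      (Finsupp.mapDomain (fun P => (RO O hO).redPlace P (hdegΩ P) hFF) lam))
    (hcons : ∀ O hO (DΨ : Divisor Ω FΩ), Divisor.IsPrincipal DΨ → Divisor.IsPrincipal
      (Finsupp.mapDomain (fun P => (RO O hO).redPlace P (hdegΩ P) hFF) DΨ)) :
    Divisor.IsPrincipal lam := by
  classical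
  -- the function `Ψ`
  have hBdeg : (g : ℤ) ≤ Divisor.degree (lam + h.bc E) := by
    rw [map_add, hlamdeg, h.degree_bc, hEdeg, zero_add]
  obtain ⟨Ψ, hΨ0, hΨ⟩ := h.exists_mem_L hR (lam + h.bc E) hBdeg
  have : HasPrincipalDivisors Ω FΩ := stmt_FFB_principal Ω FΩ h.isFF'
  obtain ⟨dΨ, hdΨ, -⟩ := HasPrincipalDivisors.exists_divisor (K := Ω) Ψ hΨ0
  have hdΨp : Divisor.IsPrincipal dΨ := ⟨Ψ, hΨ0, hdΨ⟩
  -- the effective divisor `Dt`
  set Dt : Divisor Ω FΩ := dΨ + (lam + h.bc E) with hDtdef
  have hDt : 0 ≤ Dt := by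
    intro P
    rw [mem_riemannRochSpace_iff] at hΨ
    rcases hΨ P with h0 | h0
    · exact absurd h0 hΨ0
    · show (0 : ℤ) ≤ (dΨ + (lam + h.bc E)) P
      rw [Finsupp.add_apply, hdΨ]
      linarith
  -- its reduction at a face place is `E`
  have hmap : ∀ O hO,
      Finsupp.mapDomain (fun P => (RO O hO).redPlace P (hdegΩ P) hFF) Dt = E := by
    intro O hO
    set red : Place Ω FΩ → Place K F := fun P => (RO O hO).redPlace P (hdegΩ P) hFF with hred
    have h1 : Finsupp.mapDomain red Dt =
        Finsupp.mapDomain red dΨ + Finsupp.mapDomain red lam + E := by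
      rw [hDtdef, Finsupp.mapDomain_add, Finsupp.mapDomain_add,
        mapDomain_redPlace_bc hFF (RO O hO) h hdegΩ E, add_assoc]
    have h2 : Divisor.IsPrincipal (Finsupp.mapDomain red dΨ + Finsupp.mapDomain red lam) :=
      (Divisor.principal (K := K) (F := F)).add_mem (hcons O hO dΨ hdΨp) (hlam O hO)
    obtain ⟨f, hf0, hf⟩ := h2
    have h3 : 0 ≤ Finsupp.mapDomain red Dt := mapDomain_nonneg' red Dt hDt
    have hfL : f ∈ riemannRochSpace E := by
      rw [mem_riemannRochSpace_iff]
      intro v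
      right
      have h4 := h3 v
      rw [h1, Finsupp.add_apply, hf v] at h4
      change (0 : ℤ) ≤ v.ord f + E v at h4
      linarith
    have h1L : (1 : F) ∈ riemannRochSpace E := by
      rw [mem_riemannRochSpace_iff]
      intro v
      right
      have := hE v
      have h5 : v.ord (1 : F) = 0 := by
        have := H17.ord_algebraMap v (1 : K)
        rwa [map_one] at this
      rw [h5]
      change (0 : ℤ) ≤ E v at this
      linarith
    have hne1 : (⟨1, h1L⟩ : riemannRochSpace E) ≠ 0 := fun h0 =>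
      one_ne_zero (congrArg Subtype.val h0)
    obtain ⟨a, ha⟩ := (finrank_eq_one_iff_of_nonzero' (⟨1, h1L⟩ : riemannRochSpace E) hne1).mp
      hEl ⟨f, hfL⟩
    have hfa : f = algebraMap K F a := by
      have := congrArg Subtype.val ha
      simp only [Submodule.coe_smul] at this
      rw [← this, Algebra.smul_def, mul_one]
    have hord : ∀ v : Place K F, v.ord f = 0 := fun v => by rw [hfa]; exact H17.ord_algebraMap v a
    rw [h1]
    ext v
    rw [Finsupp.add_apply, hf v, hord v, zero_add]
  -- so `Dt = E_Ω`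
  have hDtE := eq_bc D hFF RO hRO hdegΩ h E Dt hDt hmap
  refine ⟨Ψ⁻¹, inv_ne_zero hΨ0, fun P => ?_⟩
  have h6 := congrArg (fun X : Divisor Ω FΩ => X P) hDtE
  simp only [hDtdef, Finsupp.add_apply, hdΨ] at h6
  rw [P.ord_inv]
  linarith

end Main

end Fermat.Agent.S26.C.H29
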