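import Fermat.Agent.S26.C.H6_RedCons
import Fermat.Agent.S26.C.H29_CCC45
import Fermat.Agent.S26.C.X.H95_KplDesc
import Fermat.Agent.S26.C.X.H69_FinSuppPlace

/-!
# S26, crux (C), PRIG: the ABSTRACT core `CCC-ABS` (interface)

helper6 (PRIG owner).  Everything happens on the curve `X_Ω` (function field `FΩ / Ω`, `Ω`
algebraically closed), for a valuative divisor `Λ : ValuationSubring FΩ → FΩ` (in PRIG: the theta
ratio of the points `x_Ω · b_Ω`, `x ∈ A(F)`, `b ∈ A(Ω)`).  No scheme occurs in this file.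

* `CCCData` : the data and the five properties `gd`, `fin`, `loc`, `mov`, `base` of `Λ`;
* `CCCData.Horiz` : `∃ Ψ ≠ 0, Ψ / Λ O_P ∈ O_Pˣ` for all places `P` of `FΩ / Ω` (steps 2–5);
* `CCCData.Concl` : `∃ Ψ ≠ 0, Ψ / Λ W ∈ Wˣ` for all composite `K`-places `W = compSub P O`
  (step 6);
* the leaves `Stmt_HORIZ`, `Stmt_REDCOMP`, `Stmt_VERT`.
-/

set_option autoImplicit false

universe u

noncomputable section

open AlgebraicCurve IntermediateField

namespace Fermat.Agent.S26.C.H6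

open Fermat.Agent.S27.REDu Fermat.Agent.S27.REDu.H34 Fermat.Agent.S27.REDu.H34.RedSetting
  Fermat.Agent.S27.REDu.H51 Fermat.Agent.S27.REDu.H10
open Fermat.Agent.S26.C.X.H69 (UIn FinSuppP)
open Fermat.Agent.S26.C.X.H95 (IsGenDiv)
open Fermat.Agent.S26.C.H29 (IsKPlace FaceData)

variable (K F Ω FΩ : Type u)
  [Field K] [Field F] [Algebra K F] [Field Ω] [Field FΩ] [Algebra Ω FΩ]
  [Algebra K Ω] [Algebra F FΩ] [Algebra K FΩ] [IsScalarTower K F FΩ] [IsScalarTower K Ω FΩ]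
  [IsAlgClosed K] [IsAlgClosed Ω]

/-- **The abstract data of PRIG on the curve `X_Ω`.** -/
structure CCCData where
  hFF : IsFF K F
  hFFΩ : IsFF Ω FΩ
  hCD : ConstDeg K F Ω FΩ
  /-- the constant places `e_Ω` -/
  ext : H86.ConstExt (Ω := Ω) (H29.psi K F FΩ)
  /-- the Gauss valuation rings (BC) -/
  RO : ∀ O : ValuationSubring Ω, IsKPlace K O → ConstRed K F Ω FΩ
  hRO : ∀ O h, (RO O h).S.O = O
  /-- the two faces -/
  face : FaceData K Ω
  /-- the valuative divisor on `FΩ` -/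
  Λ : ValuationSubring FΩ → FΩ
  /-- generisation -/
  gd : IsGenDiv K Λ
  /-- finite support on the curve `X_Ω` -/
  fin : FinSuppP Ω Λ
  /-- locality: at a `K`-place `W` of `FΩ`, `Λ W` depends only on `W ∩ F` and `W ∩ Ω` -/
  loc : ∀ W W' : ValuationSubring FΩ, IsKPlace K W → IsKPlace K W' →
    W.comap (algebraMap F FΩ) = W'.comap (algebraMap F FΩ) →
    W.comap (algebraMap Ω FΩ) = W'.comap (algebraMap Ω FΩ) → Λ W = Λ W'
  /-- moving: at a FACE place `O` the reduction of `Λ` is trivial up to ONE function `M` -/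
  mov : ∀ (O : ValuationSubring Ω) (hO : face.IsFace O), ∃ M : FΩ, M ≠ 0 ∧
    ∀ Q : Place K F, ∃ T : ↥(RO O hO.1).S.V, IsUnit T ∧ (RO O hO.1).S.red T = 1 ∧
      ∀ P : Place Ω FΩ, (RO O hO.1).rp hFF hFFΩ P = Q →
        UIn (compSub P (stmt_FFB_deg Ω FΩ hFFΩ P) O)
          (Λ (compSub P (stmt_FFB_deg Ω FΩ hFFΩ P) O) / ((T : FΩ) * M))
  /-- the base point `o ∩ F` of the curve -/
  Qo : Place K F
  /-- on the section `{o} × S` the divisor is trivial -/
  base : ∀ (O : ValuationSubring Ω), IsKPlace K O →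
    ∃ hm : Λ (ext.place Qo).toValuationSubring /
        Λ (compSub (ext.place Qo) (stmt_FFB_deg Ω FΩ hFFΩ _) O) ∈
          (ext.place Qo).toValuationSubring,
      valHom (ext.place Qo) (stmt_FFB_deg Ω FΩ hFFΩ _) ⟨_, hm⟩ = 1

variable {K F Ω FΩ}

namespace CCCData

/-- all places of `FΩ / Ω` have degree one -/
theorem deg1 (d : CCCData K F Ω FΩ) (P : Place Ω FΩ) : P.deg = 1 :=
  stmt_FFB_deg Ω FΩ d.hFFΩ P

variable (d : CCCData K F Ω FΩ)

/-- **HORIZ** (steps 2–5): `Λ` is principal on the curve `X_Ω`. -/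
def Horiz : Prop :=
  ∃ Ψ : FΩ, Ψ ≠ 0 ∧ ∀ P : Place Ω FΩ,
    UIn P.toValuationSubring (Ψ / d.Λ P.toValuationSubring)

/-- **the conclusion** (step 6): `Λ` is principal at all composite `K`-places. -/
def Concl : Prop :=
  ∃ Ψ : FΩ, Ψ ≠ 0 ∧ ∀ (O : ValuationSubring Ω), IsKPlace K O → ∀ P : Place Ω FΩ,
    UIn (compSub P (d.deg1 P) O) (Ψ / d.Λ (compSub P (d.deg1 P) O))

end CCCData

/-- Riemann's theorem with a non-special divisor (hypothesis of HORIZ; `H51.stmt_FFR_riemann` +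
NSEX). -/
def NsexHyp (K F : Type u) [Field K] [Field F] [Algebra K F] : Prop :=
  ∃ (g : ℕ) (c : ℤ),
    (∀ D' : Divisor K F, c ≤ Divisor.degree D' →
      (Module.finrank K (riemannRochSpace D') : ℤ) = Divisor.degree D' + 1 - g) ∧
    ∃ E : Divisor K F, 0 ≤ E ∧ Divisor.degree E = g ∧
      Module.finrank K (riemannRochSpace E) = 1

/-- **HORIZ**: steps 2–5 (`λ` is a divisor by `fin`; `red_O λ` is principal at face places by
`mov` + `R.cons`; `deg λ = 0`; `H29.isPrincipal_of_red`). -/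
def Stmt_HORIZ : Prop :=
  ∀ (K F Ω FΩ : Type u) [Field K] [Field F] [Algebra K F] [Field Ω] [Field FΩ] [Algebra Ω FΩ]
    [Algebra K Ω] [Algebra F FΩ] [Algebra K FΩ] [IsScalarTower K F FΩ] [IsScalarTower K Ω FΩ]
    [IsAlgClosed K] [IsAlgClosed Ω] (d : CCCData K F Ω FΩ), NsexHyp K F → d.Horiz

/-- **RED-COMP**: the composite `K`-place `{f ∈ V_Gauss | red f ∈ O_Q}` of `FΩ`. -/
def Stmt_REDCOMP : Prop :=
  ∀ (K F Ω FΩ : Type u) [Field K] [Field F] [Algebra K F] [Field Ω] [Field FΩ] [Algebra Ω FΩ]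
    [Algebra K Ω] [Algebra F FΩ] [Algebra K FΩ] [IsScalarTower K F FΩ] [IsScalarTower K Ω FΩ]
    [IsAlgClosed K] (R : ConstRed K F Ω FΩ), IsKPlace K R.S.O → ∀ Q : Place K F, Q.deg = 1 →
    ∃ W : ValuationSubring FΩ, W ≤ R.S.V ∧ IsKPlace K W ∧
      W.comap (algebraMap F FΩ) = Q.toValuationSubring ∧
      W.comap (algebraMap Ω FΩ) = R.S.O

/-- **VERT**: step 6 (normalise `Ψ` at the constant place over `Qo`; `base` + LOCAL give that
`Ψ / Λ W_o` is a Gauss unit; `loc` + `gd` + RED-COMP: `Λ W_o / Λ W` is a Gauss unit; LOCAL). -/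
def Stmt_VERT : Prop :=
  ∀ (K F Ω FΩ : Type u) [Field K] [Field F] [Algebra K F] [Field Ω] [Field FΩ] [Algebra Ω FΩ]
    [Algebra K Ω] [Algebra F FΩ] [Algebra K FΩ] [IsScalarTower K F FΩ] [IsScalarTower K Ω FΩ]
    [IsAlgClosed K] [IsAlgClosed Ω] (d : CCCData K F Ω FΩ), d.Horiz → d.Concl

end Fermat.Agent.S26.C.H6
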