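/-
S26 (row 25), crux (C), PRIG, leaf RED-COMP (helper13): for an abstract constant reduction datum
`R : ConstRed K F Ω FΩ` over a `K`-place `R.S.O` of `Ω` and a place `Q` of `F / K` of degree one,
the composite `W = {f ∈ V_Gauss | red f ∈ O_Q}` is a `K`-place of `FΩ` with `W ≤ V_Gauss`,
`W ∩ F = O_Q`, `W ∩ Ω = O`.
-/
import Fermat.Agent.S26.C.H6_CCCAbs
import Fermat.Agent.S26.C.H13_KPlaceProd

set_option autoImplicit false
set_option linter.unusedSectionVars false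

universe u

noncomputable section

open AlgebraicCurve IntermediateField

namespace Fermat.Agent.S26.C.H13R

open Fermat.Agent.S27.REDu Fermat.Agent.S27.REDu.H34 Fermat.Agent.S27.REDu.H34.RedSetting
  Fermat.Agent.S27.REDu.H51 Fermat.Agent.S27.REDu.H10
open Fermat.Agent.S26.C.H29 (IsKPlace)
open Fermat.Agent.S26.C.H6

variable {K F Ω FΩ : Type u}
  [Field K] [Field F] [Algebra K F] [Field Ω] [Field FΩ] [Algebra Ω FΩ]
  [Algebra K Ω] [Algebra F FΩ] [Algebra K FΩ] [IsScalarTower K F FΩ] [IsScalarTower K Ω FΩ]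

variable (R : ConstRed K F Ω FΩ) (Q : Place K F)

/-- The composite of the Gauss valuation ring of `R` with the place `Q`. -/
def redComp : ValuationSubring FΩ :=
  H13K.compRed R.S.V R.S.red R.S.red_surj Q.toValuationSubring

theorem mem_redComp {t : FΩ} :
    t ∈ redComp R Q ↔ ∃ ht : t ∈ R.S.V, R.S.red ⟨t, ht⟩ ∈ Q.toValuationSubring :=
  Iff.rfl

theorem redComp_le : redComp R Q ≤ R.S.V :=
  H13K.compRed_le _ _ _ _

/-- `W ∩ F = O_Q`. -/
theorem comap_F : (redComp R Q).comap (algebraMap F FΩ) = Q.toValuationSubring := by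
  ext f
  rw [ValuationSubring.mem_comap, mem_redComp]
  constructor
  · rintro ⟨ht, hw⟩
    have h1 := R.red_alg f
    rw [h1] at hw
    exact hw
  · intro hf
    refine ⟨R.mem f, ?_⟩
    rw [R.red_alg f]
    exact hf

/-- `W ∩ Ω = O`. -/
theorem comap_Ω : (redComp R Q).comap (algebraMap Ω FΩ) = R.S.O := by
  ext ω
  rw [ValuationSubring.mem_comap, mem_redComp]
  constructor
  · rintro ⟨ht, -⟩
    exact ht
  · intro hω
    have hV : algebraMap Ω FΩ ω ∈ R.S.V := hω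
    refine ⟨hV, ?_⟩
    have h1 := R.S.red_algebraMap ⟨ω, hω⟩
    rw [h1]
    exact Q.algebraMap_mem' _

theorem const_mem (c : K) : algebraMap K FΩ c ∈ redComp R Q := by
  rw [IsScalarTower.algebraMap_apply K F FΩ]
  have h1 : algebraMap K F c ∈ (redComp R Q).comap (algebraMap F FΩ) := by
    rw [comap_F]
    exact Q.algebraMap_mem' c
  exact h1

theorem red_const (c : K) (hc : algebraMap K FΩ c ∈ R.S.V) :
    R.S.red ⟨algebraMap K FΩ c, hc⟩ = algebraMap K F c := by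
  have h2 : (⟨algebraMap K FΩ c, hc⟩ : R.S.V) =
      ⟨algebraMap F FΩ (algebraMap K F c), R.mem _⟩ :=
    Subtype.ext (IsScalarTower.algebraMap_apply K F FΩ c)
  rw [h2, R.red_alg]

theorem exists_res (hdeg : Q.deg = 1) (t : FΩ) (ht : t ∈ redComp R Q) :
    ∃ c : K, t - algebraMap K FΩ c ∈ (redComp R Q).nonunits := by
  obtain ⟨htV, hw⟩ := ht
  set c : K := valHom Q hdeg ⟨R.S.red ⟨t, htV⟩, hw⟩ with hcdef
  refine ⟨c, ?_⟩
  have hcV : algebraMap K FΩ c ∈ R.S.V := redComp_le R Q (const_mem R Q c)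
  have hsub : t - algebraMap K FΩ c ∈ R.S.V := sub_mem htV hcV
  apply H13K.mem_nonunits_compRed hsub
  have h1 : (⟨t - algebraMap K FΩ c, hsub⟩ : R.S.V) =
      ⟨t, htV⟩ - ⟨algebraMap K FΩ c, hcV⟩ := rfl
  rw [h1, map_sub, red_const R c hcV]
  -- `red t - c` is a non-unit of `O_Q`
  have hcQ : algebraMap K F c ∈ Q.toValuationSubring := Q.algebraMap_mem' c
  have hmem : R.S.red ⟨t, htV⟩ - algebraMap K F c ∈ Q.toValuationSubring := sub_mem hw hcQ
  rw [ValuationSubring.mem_nonunits_iff_exists_mem_maximalIdeal]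
  refine ⟨hmem, ?_⟩
  rw [← H6.valHom_eq_zero_iff Q hdeg]
  have h2 : (⟨R.S.red ⟨t, htV⟩ - algebraMap K F c, hmem⟩ : ↥Q.toValuationSubring) =
      ⟨R.S.red ⟨t, htV⟩, hw⟩ - algebraMap K ↥Q.toValuationSubring c := rfl
  rw [h2, map_sub, valHom_algebraMap, ← hcdef, sub_self]

/-- **RED-COMP**. -/
theorem stmt_REDCOMP : Stmt_REDCOMP.{u} := by
  intro K F Ω FΩ _ _ _ _ _ _ _ _ _ _ _ _ R _ Q hdeg
  exact ⟨redComp R Q, redComp_le R Q, ⟨const_mem R Q, exists_res R Q hdeg⟩, comap_F R Q,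
    comap_Ω R Q⟩

end Fermat.Agent.S26.C.H13R
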