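import Fermat.Agent.S26.C.H6_RedCons

/-!
# S26, crux (C), package PRIG, leaf LOCAL

helper47.  Setting of `H6_RedPlace` / `H6_RedPoint`: `R : ConstRed K F Ω FΩ` a constant reduction
datum (`K ⊆ Ω` algebraically closed, `O = R.S.O` a `K`-place of `Ω`, `R.S.V` the Gauss valuation
ring of `FΩ`), `R.rp hFF hFFΩ : Place Ω FΩ → Place K F` the reduction of points.

RED-CONS (conservation of zeros and poles on the tubes; helper6, `H6.ConstRed.cons`) enters the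
`_of_cons` forms as the explicit hypothesis `ConsAt R hFF hFFΩ` (a form which does not mention a
decidability instance); the final forms take `hCD : ConstDeg K F Ω FΩ`.

* `value_not_mem_nonunits` : a Gauss unit `h` without zeros and poles on the tube over `Q` has
  no value in `𝔪_O` on this tube;
* `value_isUnit_of_tube` : (a) such an `h` has its values on the tube in `Oˣ`;
* `isUnit_of_tube` : (b) a nonzero `h ∈ FΩ` without zeros and poles on the tube over `Q` with one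
  value in `Oˣ` on this tube is a Gauss unit.
-/

set_option autoImplicit false
set_option linter.style.haveILetI false
set_option linter.unusedSectionVars false

universe uK uF uO uFO

noncomputable section

open AlgebraicCurve IntermediateField

namespace Fermat.Agent.S26.C.H47L

open Fermat.Agent.S27.REDu Fermat.Agent.S27.REDu.H34 Fermat.Agent.S27.REDu.H34.RedSetting
  Fermat.Agent.S27.REDu.H51 Fermat.Agent.S27.REDu.H10 Fermat.Agent.S26.C.H6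

variable {K : Type uK} {F : Type uF} {Ω : Type uO} {FΩ : Type uFO}
  [Field K] [Field F] [Algebra K F] [Field Ω] [Field FΩ] [Algebra Ω FΩ]
  [Algebra K Ω] [Algebra F FΩ] [Algebra K FΩ] [IsScalarTower K F FΩ] [IsScalarTower K Ω FΩ]
  [IsAlgClosed K] [IsAlgClosed Ω]

/-- **RED-CONS**, as a hypothesis: for a Gauss unit `f` and a place `Q₀` of `F / K`, the sum of
the orders of `f` over the tube of `Q₀` is the order at `Q₀` of the reduction of `f`. -/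
def ConsAt (R : ConstRed K F Ω FΩ) (hFF : IsFF K F) (hFFΩ : IsFF Ω FΩ) : Prop :=
  ∀ f : ↥R.S.V, IsUnit f → ∀ D : Divisor Ω FΩ, (∀ P, D P = P.ord (f : FΩ)) →
    ∀ (Q₀ : Place K F) (s : Finset (Place Ω FΩ)),
      (∀ P, P ∈ s ↔ P ∈ D.support ∧ R.rp hFF hFFΩ P = Q₀) →
      ∑ P ∈ s, D P = Q₀.ord (R.S.red f)

variable (R : ConstRed K F Ω FΩ) (hFF : IsFF K F) (hFFΩ : IsFF Ω FΩ)

/-- a Gauss unit without zeros and poles on the tube of `Q` has a reduction of order `0` at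
`Q` -/
theorem ord_red_eq_zero_of_tube_of_cons (hcons : ConsAt R hFF hFFΩ) (h : ↥R.S.V) (hu : IsUnit h)
    (Q : Place K F) (hQ : ∀ P, R.rp hFF hFFΩ P = Q → P.ord (h : FΩ) = 0) :
    Q.ord (R.S.red h) = 0 := by
  classical
  haveI := stmt_FFB_principal Ω FΩ hFFΩ
  obtain ⟨D, hD, -⟩ := HasPrincipalDivisors.exists_divisor (K := Ω) (h : FΩ)
    (R.ne_zero_of_isUnit h hu)
  have h1 := hcons h hu D hD Q (D.support.filter (fun P => R.rp hFF hFFΩ P = Q))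
    (fun P => by rw [Finset.mem_filter])
  rw [← h1]
  apply Finset.sum_eq_zero
  intro P hP
  rw [Finset.mem_filter] at hP
  rw [hD P, hQ P hP.2]

/-- (*) : a Gauss unit without zeros and poles on the tube of `Q` has no value in `𝔪_O` on this
tube. -/
theorem value_not_mem_nonunits_of_cons (hcons : ConsAt R hFF hFFΩ) (h : ↥R.S.V) (hu : IsUnit h)
    (Q : Place K F) (hQ : ∀ P, R.rp hFF hFFΩ P = Q → P.ord (h : FΩ) = 0)
    (P : Place Ω FΩ) (hP : R.rp hFF hFFΩ P = Q) (hm : (h : FΩ) ∈ P.toValuationSubring) :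
    valHom P (stmt_FFB_deg Ω FΩ hFFΩ P) ⟨h, hm⟩ ∉ R.S.O.nonunits := by
  classical
  intro ha
  set hdegP := stmt_FFB_deg Ω FΩ hFFΩ P with hdegP_def
  set a : Ω := valHom P hdegP ⟨h, hm⟩ with ha_def
  obtain ⟨haO, hamax⟩ := ValuationSubring.mem_nonunits_iff_exists_mem_maximalIdeal.mp ha
  have hres : R.S.resO ⟨a, haO⟩ = 0 :=
    (R.S.resO_eq_zero_iff _).mpr ((IsLocalRing.mem_maximalIdeal _).mp hamax)
  have hh0 : (h : FΩ) ≠ 0 := R.ne_zero_of_isUnit h hu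
  -- the function `g = h - a`
  set g : ↥R.S.V := h - R.S.inclO ⟨a, haO⟩ with hg_def
  have hgcoe : (g : FΩ) = (h : FΩ) - algebraMap Ω FΩ a := rfl
  have hredg : R.S.red g = R.S.red h := by
    rw [hg_def, map_sub, R.S.red_inclO, hres, map_zero, sub_zero]
  have hredh : R.S.red h ≠ 0 := fun h0 => (R.S.red_eq_zero_iff h).mp h0 hu
  have hgu : IsUnit g := by
    by_contra hnu
    exact hredh (hredg ▸ (R.S.red_eq_zero_iff g).mpr hnu)
  have hg0 : (g : FΩ) ≠ 0 := R.ne_zero_of_isUnit g hgu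
  -- conservation for `g`
  haveI := stmt_FFB_principal Ω FΩ hFFΩ
  obtain ⟨D, hD, -⟩ := HasPrincipalDivisors.exists_divisor (K := Ω) (g : FΩ) hg0
  have h1 := hcons g hgu D hD Q (D.support.filter (fun P => R.rp hFF hFFΩ P = Q))
    (fun P => by rw [Finset.mem_filter])
  rw [hredg, ord_red_eq_zero_of_tube_of_cons R hFF hFFΩ hcons h hu Q hQ] at h1
  -- all terms are nonnegative
  have hnonneg : ∀ P' ∈ D.support.filter (fun P => R.rp hFF hFFΩ P = Q), 0 ≤ D P' := by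
    intro P' hP'
    rw [Finset.mem_filter] at hP'
    rw [hD P']
    have hhm : (h : FΩ) ∈ P'.toValuationSubring :=
      (mem_iff_ord_nonneg P' hh0).mpr (le_of_eq (hQ P' hP'.2).symm)
    have hgm : (g : FΩ) ∈ P'.toValuationSubring := by
      rw [hgcoe]
      exact sub_mem hhm (P'.algebraMap_mem' a)
    exact (mem_iff_ord_nonneg P' hg0).mp hgm
  -- the term at `P` is positive
  have hordP : 1 ≤ P.ord (g : FΩ) := by
    have h2 : OrdGe P 1 ((h : FΩ) - algebraMap Ω FΩ a) := ordGe_sub_valHom P hdegP ⟨h, hm⟩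
    rw [← hgcoe] at h2
    exact h2.le hg0
  have hPmem : P ∈ D.support.filter (fun P => R.rp hFF hFFΩ P = Q) := by
    rw [Finset.mem_filter, Finsupp.mem_support_iff, hD P]
    exact ⟨by omega, hP⟩
  have h3 : D P ≤ ∑ P' ∈ D.support.filter (fun P => R.rp hFF hFFΩ P = Q), D P' :=
    Finset.single_le_sum hnonneg hPmem
  rw [h1, hD P] at h3
  omega

/-- **LOCAL** (a): a Gauss unit without zeros and poles on the tube of `Q` has its values on this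
tube in `Oˣ`. -/
theorem value_isUnit_of_tube_of_cons (hcons : ConsAt R hFF hFFΩ) (h : ↥R.S.V) (hu : IsUnit h)
    (Q : Place K F) (hQ : ∀ P, R.rp hFF hFFΩ P = Q → P.ord (h : FΩ) = 0)
    (P : Place Ω FΩ) (hP : R.rp hFF hFFΩ P = Q) (hm : (h : FΩ) ∈ P.toValuationSubring) :
    valHom P (stmt_FFB_deg Ω FΩ hFFΩ P) ⟨h, hm⟩ ∈ R.S.O ∧
      (valHom P (stmt_FFB_deg Ω FΩ hFFΩ P) ⟨h, hm⟩)⁻¹ ∈ R.S.O := by
  set hdegP := stmt_FFB_deg Ω FΩ hFFΩ P with hdegP_def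
  have hh0 : (h : FΩ) ≠ 0 := R.ne_zero_of_isUnit h hu
  have h1 := value_not_mem_nonunits_of_cons R hFF hFFΩ hcons h hu Q hQ P hP hm
  -- the inverse of `h`
  obtain ⟨u, hu'⟩ := hu
  set h' : ↥R.S.V := ((u⁻¹ : (↥R.S.V)ˣ) : ↥R.S.V) with hh'_def
  have hcoe' : (h' : FΩ) = (h : FΩ)⁻¹ := by
    have h2 : ((u : ↥R.S.V) : FΩ) * (((u⁻¹ : (↥R.S.V)ˣ) : ↥R.S.V) : FΩ) = 1 :=
      congrArg Subtype.val u.mul_inv
    rw [hu'] at h2
    exact eq_inv_of_mul_eq_one_right h2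
  have hu2 : IsUnit h' := ⟨u⁻¹, rfl⟩
  have hQ' : ∀ P, R.rp hFF hFFΩ P = Q → P.ord (h' : FΩ) = 0 := by
    intro P' hP'
    rw [hcoe', Place.ord_inv, hQ P' hP', neg_zero]
  have hm' : (h' : FΩ) ∈ P.toValuationSubring :=
    (mem_iff_ord_nonneg P (R.ne_zero_of_isUnit h' hu2)).mpr (le_of_eq (hQ' P hP).symm)
  have h2 := value_not_mem_nonunits_of_cons R hFF hFFΩ hcons h' hu2 Q hQ' P hP hm'
  have hval : valHom P hdegP ⟨h', hm'⟩ = (valHom P hdegP ⟨h, hm⟩)⁻¹ := by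
    have h3 : valHom P hdegP ⟨h, hm⟩ * valHom P hdegP ⟨h', hm'⟩ = 1 := by
      rw [← map_mul]
      have : (⟨h, hm⟩ * ⟨h', hm'⟩ : ↥P.toValuationSubring) = 1 := by
        apply Subtype.ext
        show (h : FΩ) * (h' : FΩ) = 1
        rw [hcoe', mul_inv_cancel₀ hh0]
      rw [this, map_one]
    exact eq_inv_of_mul_eq_one_right h3
  rw [hval] at h2
  rw [ValuationSubring.mem_nonunits_iff_or, not_or, not_not] at h1
  rw [ValuationSubring.inv_mem_nonunits_iff, not_or, not_not] at h2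
  exact ⟨h2.2, h1.2⟩

/-- **LOCAL** (b): a nonzero function without zeros and poles on the tube of `Q` with one value
in `Oˣ` on this tube is a Gauss unit. -/
theorem isUnit_of_tube_of_cons (hcons : ConsAt R hFF hFFΩ) (h : FΩ) (h0 : h ≠ 0)
    (Q : Place K F) (hQ : ∀ P, R.rp hFF hFFΩ P = Q → P.ord h = 0)
    (P₀ : Place Ω FΩ) (hP₀ : R.rp hFF hFFΩ P₀ = Q) (hm : h ∈ P₀.toValuationSubring)
    (hv : valHom P₀ (stmt_FFB_deg Ω FΩ hFFΩ P₀) ⟨h, hm⟩ ∈ R.S.O)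
    (hv' : (valHom P₀ (stmt_FFB_deg Ω FΩ hFFΩ P₀) ⟨h, hm⟩)⁻¹ ∈ R.S.O) :
    ∃ hV : h ∈ R.S.V, IsUnit (⟨h, hV⟩ : ↥R.S.V) := by
  set hdeg := stmt_FFB_deg Ω FΩ hFFΩ P₀ with hdeg_def
  obtain ⟨c, hc, u, hcu⟩ := R.S.scale h h0
  have hu : IsUnit (u : ↥R.S.V) := u.isUnit
  have hu0 : ((u : ↥R.S.V) : FΩ) ≠ 0 := R.ne_zero_of_isUnit _ hu
  have hc0 : algebraMap Ω FΩ c ≠ 0 := fun h => hc ((map_eq_zero _).mp h)
  -- `u` has no zeros and poles on the tube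
  have hQu : ∀ P, R.rp hFF hFFΩ P = Q → P.ord ((u : ↥R.S.V) : FΩ) = 0 := by
    intro P hP
    have h1 := hQ P hP
    rw [hcu, Place.ord_mul P hc0 hu0, ord_algebraMap, zero_add] at h1
    exact h1
  have hmu : ((u : ↥R.S.V) : FΩ) ∈ P₀.toValuationSubring :=
    (mem_iff_ord_nonneg P₀ hu0).mpr (le_of_eq (hQu P₀ hP₀).symm)
  obtain ⟨hw, hw'⟩ := value_isUnit_of_tube_of_cons R hFF hFFΩ hcons (u : ↥R.S.V) hu Q hQu P₀ hP₀ hmu
  -- `h(P₀) = c * u(P₀)`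
  have hval : valHom P₀ hdeg ⟨h, hm⟩ = c * valHom P₀ hdeg ⟨(u : ↥R.S.V), hmu⟩ := by
    have h1 : (⟨h, hm⟩ : ↥P₀.toValuationSubring) =
        algebraMap Ω ↥P₀.toValuationSubring c * ⟨(u : ↥R.S.V), hmu⟩ := Subtype.ext hcu
    rw [h1, map_mul, valHom_algebraMap]
  set b : Ω := valHom P₀ hdeg ⟨(u : ↥R.S.V), hmu⟩ with hb_def
  have hb0 : b ≠ 0 := by
    intro hb
    rw [hb, inv_zero] at hw'
    have h1 : valHom P₀ hdeg ⟨h, hm⟩ = 0 := by rw [hval, hb, mul_zero]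
    have h2 : (⟨(u : ↥R.S.V), hmu⟩ : ↥P₀.toValuationSubring) ∈
        IsLocalRing.maximalIdeal ↥P₀.toValuationSubring :=
      (valHom_eq_zero_iff P₀ hdeg _).mp hb
    have h3 := (ordGe_one_iff_mem_maximalIdeal P₀ _).mpr h2
    have h4 := h3.le hu0
    have h5 := hQu P₀ hP₀
    change 1 ≤ P₀.ord ((u : ↥R.S.V) : FΩ) at h4
    omega
  have hcO : c ∈ R.S.O := by
    have h1 : c = valHom P₀ hdeg ⟨h, hm⟩ * b⁻¹ := by
      rw [hval, mul_assoc, mul_inv_cancel₀ hb0, mul_one]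
    rw [h1]
    exact mul_mem hv hw'
  have hcO' : c⁻¹ ∈ R.S.O := by
    have h1 : c⁻¹ = (valHom P₀ hdeg ⟨h, hm⟩)⁻¹ * b := by
      rw [hval, mul_inv, mul_assoc, inv_mul_cancel₀ hb0, mul_one]
    rw [h1]
    exact mul_mem hv' hw
  have hcV : algebraMap Ω FΩ c ∈ R.S.V := hcO
  have hcV' : algebraMap Ω FΩ c⁻¹ ∈ R.S.V := hcO'
  have hV : h ∈ R.S.V := by
    rw [hcu]
    exact mul_mem hcV (Subtype.mem _)
  refine ⟨hV, ?_⟩
  have hcunit : IsUnit (⟨algebraMap Ω FΩ c, hcV⟩ : ↥R.S.V) := by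
    refine ⟨⟨⟨algebraMap Ω FΩ c, hcV⟩, ⟨algebraMap Ω FΩ c⁻¹, hcV'⟩, ?_, ?_⟩, rfl⟩
    · apply Subtype.ext
      show algebraMap Ω FΩ c * algebraMap Ω FΩ c⁻¹ = 1
      rw [← map_mul, mul_inv_cancel₀ hc, map_one]
    · apply Subtype.ext
      show algebraMap Ω FΩ c⁻¹ * algebraMap Ω FΩ c = 1
      rw [← map_mul, inv_mul_cancel₀ hc, map_one]
  have heq : (⟨h, hV⟩ : ↥R.S.V) = ⟨algebraMap Ω FΩ c, hcV⟩ * (u : ↥R.S.V) := Subtype.ext hcu
  rw [heq]
  exact hcunit.mul hu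

/-! ## The final forms, with RED-CONS (`H6.ConstRed.cons`) -/

/-- RED-CONS holds (helper6's `ConstRed.cons`) -/
theorem consAt (hCD : ConstDeg K F Ω FΩ) : ConsAt R hFF hFFΩ := by
  classical
  intro f hfu D hD Q₀ s hs
  have h1 := R.cons hFF hFFΩ hCD f hfu D hD Q₀
  have hs' : s = D.support.filter (fun P => R.rp hFF hFFΩ P = Q₀) := by
    ext P
    rw [hs, Finset.mem_filter]
  rw [hs']
  convert h1

/-- a Gauss unit without zeros and poles on the tube of `Q` has a reduction of order `0` at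
`Q` -/
theorem ord_red_eq_zero_of_tube (hCD : ConstDeg K F Ω FΩ) (h : ↥R.S.V) (hu : IsUnit h)
    (Q : Place K F) (hQ : ∀ P, R.rp hFF hFFΩ P = Q → P.ord (h : FΩ) = 0) :
    Q.ord (R.S.red h) = 0 :=
  ord_red_eq_zero_of_tube_of_cons R hFF hFFΩ (consAt R hFF hFFΩ hCD) h hu Q hQ

/-- **LOCAL** (a): a Gauss unit without zeros and poles on the tube of `Q` has its values on this
tube in `Oˣ`. -/
theorem value_isUnit_of_tube (hCD : ConstDeg K F Ω FΩ) (h : ↥R.S.V) (hu : IsUnit h)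
    (Q : Place K F) (hQ : ∀ P, R.rp hFF hFFΩ P = Q → P.ord (h : FΩ) = 0)
    (P : Place Ω FΩ) (hP : R.rp hFF hFFΩ P = Q) (hm : (h : FΩ) ∈ P.toValuationSubring) :
    valHom P (stmt_FFB_deg Ω FΩ hFFΩ P) ⟨h, hm⟩ ∈ R.S.O ∧
      (valHom P (stmt_FFB_deg Ω FΩ hFFΩ P) ⟨h, hm⟩)⁻¹ ∈ R.S.O :=
  value_isUnit_of_tube_of_cons R hFF hFFΩ (consAt R hFF hFFΩ hCD) h hu Q hQ P hP hm

/-- **LOCAL** (b): a nonzero function without zeros and poles on the tube of `Q` with one value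
in `Oˣ` on this tube is a Gauss unit. -/
theorem isUnit_of_tube (hCD : ConstDeg K F Ω FΩ) (h : FΩ) (h0 : h ≠ 0)
    (Q : Place K F) (hQ : ∀ P, R.rp hFF hFFΩ P = Q → P.ord h = 0)
    (P₀ : Place Ω FΩ) (hP₀ : R.rp hFF hFFΩ P₀ = Q) (hm : h ∈ P₀.toValuationSubring)
    (hv : valHom P₀ (stmt_FFB_deg Ω FΩ hFFΩ P₀) ⟨h, hm⟩ ∈ R.S.O)
    (hv' : (valHom P₀ (stmt_FFB_deg Ω FΩ hFFΩ P₀) ⟨h, hm⟩)⁻¹ ∈ R.S.O) :
    ∃ hV : h ∈ R.S.V, IsUnit (⟨h, hV⟩ : ↥R.S.V) :=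
  isUnit_of_tube_of_cons R hFF hFFΩ (consAt R hFF hFFΩ hCD) h h0 Q hQ P₀ hP₀ hm hv hv'

/-- the value at a point of the tube, of a function without zeros and poles on the tube, does not
depend on the proof of regularity; convenience form of (a) for `h ∈ FΩ` a Gauss unit -/
theorem value_isUnit_of_tube' (hCD : ConstDeg K F Ω FΩ) (h : FΩ) (hV : h ∈ R.S.V)
    (hu : IsUnit (⟨h, hV⟩ : ↥R.S.V))
    (Q : Place K F) (hQ : ∀ P, R.rp hFF hFFΩ P = Q → P.ord h = 0)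
    (P : Place Ω FΩ) (hP : R.rp hFF hFFΩ P = Q) :
    ∃ hm : h ∈ P.toValuationSubring,
      valHom P (stmt_FFB_deg Ω FΩ hFFΩ P) ⟨h, hm⟩ ∈ R.S.O ∧
        (valHom P (stmt_FFB_deg Ω FΩ hFFΩ P) ⟨h, hm⟩)⁻¹ ∈ R.S.O := by
  have h0 : h ≠ 0 := R.ne_zero_of_isUnit ⟨h, hV⟩ hu
  have hm : h ∈ P.toValuationSubring :=
    (mem_iff_ord_nonneg P h0).mpr (le_of_eq (hQ P hP).symm)
  exact ⟨hm, value_isUnit_of_tube R hFF hFFΩ hCD ⟨h, hV⟩ hu Q hQ P hP hm⟩

end Fermat.Agent.S26.C.H47L
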