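import Fermat.Agent.S26.C.H6_CCCAbs
import Fermat.Agent.S26.C.H47_Local
import Fermat.Agent.S26.C.X.H27_Vert
import Fermat.Agent.S26.C.H13_RedComp

/-!
# S26, crux (C), PRIG: the leaf VERT of `H6_CCCAbs` (helper27)

`stmt_VERT_of : Stmt_REDCOMP → Stmt_VERT` : step (6) of helper6's PRIG plan in the interface
`H6.CCCData`: from `d.Horiz` (`Ψ / Λ O_P ∈ O_Pˣ` for all places `P` of `FΩ / Ω`) to `d.Concl`
(`Ψ' / Λ W ∈ Wˣ` for all composite `K`-places `W = compSub P O`).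

Proof.  `P_o` the constant place over `Qo`; `Ψ' := Ψ / a`, `a` the value of `Ψ / Λ O_{P_o}` at
`P_o`.  For a `K`-place `O` of `Ω`, `W_o := compSub P_o O`: `h_o := Ψ' / Λ W_o` has no zero and no
pole on the tube of `Qo` (`Horiz`, `gd`, `loc`) and `h_o (P_o) = 1` (`base`), so it is a Gauss
unit (`H47L.isUnit_of_tube`).  For a place `P`, `W := compSub P O`, `Q := rp P`:
`Λ W_o / Λ W` is a Gauss unit (`loc` + RED-COMP + `gd`), so `h_W := Ψ' / Λ W` is a Gauss unit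
without zero and pole on the tube of `Q`, and `h_W (P) ∈ Oˣ` (`H47L.value_isUnit_of_tube'`).
-/

set_option autoImplicit false
set_option linter.style.haveILetI false
set_option linter.unusedSectionVars false

universe u

noncomputable section

open AlgebraicCurve IntermediateField

namespace Fermat.Agent.S26.C.H27v

open Fermat.Agent.S27.REDu Fermat.Agent.S27.REDu.H34 Fermat.Agent.S27.REDu.H34.RedSetting
  Fermat.Agent.S27.REDu.H51 Fermat.Agent.S27.REDu.H10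
open Fermat.Agent.S26.C.X.H69 (UIn)
open Fermat.Agent.S26.C.X.H95 (IsGenDiv)
open Fermat.Agent.S26.C.H29 (IsKPlace)
open Fermat.Agent.S26.C.H6

section Places

variable {Ω FΩ : Type u} [Field Ω] [Field FΩ] [Algebra Ω FΩ]

/-- the system of the places of degree one of `FΩ / Ω` -/
def plSys (hdeg : ∀ P : Place Ω FΩ, P.deg = 1) : X.H27.PlSys.{u, u} Ω FΩ where
  P := Place Ω FΩ
  W := fun P => P.toValuationSubring
  val := fun P => valHom P (hdeg P)
  val_alg := fun P a => ⟨P.algebraMap_mem' a, valHom_algebraMap P (hdeg P) a⟩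
  cmp := fun P O => compSub P (hdeg P) O
  mem_cmp := fun P O x => mem_compSub_iff P (hdeg P) O x

/-- units of a place and the order -/
theorem uIn_iff_ord (P : Place Ω FΩ) {h : FΩ} (h0 : h ≠ 0) :
    UIn P.toValuationSubring h ↔ P.ord h = 0 := by
  unfold UIn
  rw [mem_iff_ord_nonneg P h0, mem_iff_ord_nonneg P (inv_ne_zero h0), Place.ord_inv]
  constructor
  · rintro ⟨h1, h2⟩; omega
  · intro h; rw [h]; exact ⟨le_rfl, by simp⟩

/-- the restriction to the constants of a composite -/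
theorem comap_compSub (P : Place Ω FΩ) (hdeg : P.deg = 1) (O : ValuationSubring Ω) :
    (compSub P hdeg O).comap (algebraMap Ω FΩ) = O := by
  ext c
  rw [ValuationSubring.mem_comap, mem_compSub_iff]
  constructor
  · rintro ⟨h, hO⟩
    have := valHom_algebraMap P hdeg c
    have e : (⟨algebraMap Ω FΩ c, h⟩ : ↥P.toValuationSubring) =
        algebraMap Ω ↥P.toValuationSubring c := rfl
    rw [e, this] at hO
    exact hO
  · intro hO
    refine ⟨P.algebraMap_mem' c, ?_⟩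
    have := valHom_algebraMap P hdeg c
    have e : (⟨algebraMap Ω FΩ c, P.algebraMap_mem' c⟩ : ↥P.toValuationSubring) =
        algebraMap Ω ↥P.toValuationSubring c := rfl
    rw [e, this]
    exact hO

/-- `IsUnit` in a valuation subring and `UIn` -/
theorem uIn_of_isUnit {V : ValuationSubring FΩ} {h : FΩ} (hV : h ∈ V)
    (hu : IsUnit (⟨h, hV⟩ : ↥V)) : UIn V h := by
  refine ⟨hV, ?_⟩
  obtain ⟨u, hu⟩ := hu
  have h1 : ((u : ↥V) : FΩ) * (((u⁻¹ : (↥V)ˣ) : ↥V) : FΩ) = 1 := congrArg Subtype.val u.mul_inv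
  rw [hu] at h1
  have h2 : h⁻¹ = (((u⁻¹ : (↥V)ˣ) : ↥V) : FΩ) := (eq_inv_of_mul_eq_one_right h1).symm
  rw [h2]
  exact Subtype.mem _

theorem isUnit_of_uIn {V : ValuationSubring FΩ} {h : FΩ} (h0 : h ≠ 0) (hu : UIn V h) :
    IsUnit (⟨h, hu.1⟩ : ↥V) :=
  ⟨⟨⟨h, hu.1⟩, ⟨h⁻¹, hu.2⟩, Subtype.ext (mul_inv_cancel₀ h0), Subtype.ext (inv_mul_cancel₀ h0)⟩,
    rfl⟩

end Places

section Main

variable {K F Ω FΩ : Type u}
  [Field K] [Field F] [Algebra K F] [Field Ω] [Field FΩ] [Algebra Ω FΩ]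
  [Algebra K Ω] [Algebra F FΩ] [Algebra K FΩ] [IsScalarTower K F FΩ] [IsScalarTower K Ω FΩ]

/-- the value of the inverse -/
theorem valHom_inv (P : Place Ω FΩ) (hdeg : P.deg = 1) {x : FΩ} (hx0 : x ≠ 0)
    (hx : x ∈ P.toValuationSubring) (hx' : x⁻¹ ∈ P.toValuationSubring) :
    valHom P hdeg ⟨x, hx⟩ * valHom P hdeg ⟨x⁻¹, hx'⟩ = 1 := by
  rw [← valHom_mk_mul P hdeg hx hx']
  have : (⟨x * x⁻¹, mul_mem hx hx'⟩ : ↥P.toValuationSubring) = 1 :=
    Subtype.ext (mul_inv_cancel₀ hx0)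
  rw [this, map_one]

/-- the value of a constant -/
theorem valHom_const (P : Place Ω FΩ) (hdeg : P.deg = 1) (c : Ω)
    (h : algebraMap Ω FΩ c ∈ P.toValuationSubring) :
    valHom P hdeg ⟨algebraMap Ω FΩ c, h⟩ = c :=
  valHom_algebraMap P hdeg c

/-- the composite of a place with a `K`-place of `Ω` is a `K`-place of `FΩ` -/
theorem isKPlace_compSub (P : Place Ω FΩ) (hdeg : P.deg = 1) {O : ValuationSubring Ω}
    (hO : IsKPlace K O) : IsKPlace K (compSub P hdeg O) := by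
  have hK : ∀ a : K, algebraMap K FΩ a ∈ compSub P hdeg O := by
    intro a
    have := hO.1 a
    rw [← comap_compSub P hdeg O, ValuationSubring.mem_comap,
      ← IsScalarTower.algebraMap_apply] at this
    exact this
  refine ⟨hK, fun x hx => ?_⟩
  obtain ⟨h, hω⟩ := (mem_compSub_iff P hdeg O x).1 hx
  obtain ⟨a, ha⟩ := hO.2 _ hω
  refine ⟨a, X.H27.mem_nonunits_of fun h0 hinv => ?_⟩
  obtain ⟨hy, -⟩ := (mem_compSub_iff P hdeg O _).1 (sub_mem hx (hK a))
  obtain ⟨hy', hyO'⟩ := (mem_compSub_iff P hdeg O _).1 hinv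
  have hval : valHom P hdeg ⟨x - algebraMap K FΩ a, hy⟩ =
      valHom P hdeg ⟨x, h⟩ - algebraMap K Ω a := by
    have hc : algebraMap Ω FΩ (algebraMap K Ω a) ∈ P.toValuationSubring := P.algebraMap_mem' _
    have e1 : (⟨x - algebraMap K FΩ a, hy⟩ : ↥P.toValuationSubring) =
        ⟨x, h⟩ - ⟨algebraMap Ω FΩ (algebraMap K Ω a), hc⟩ := by
      apply Subtype.ext
      show x - algebraMap K FΩ a = x - algebraMap Ω FΩ (algebraMap K Ω a)
      rw [← IsScalarTower.algebraMap_apply]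
    rw [e1, map_sub, valHom_const]
  have h1 := valHom_inv P hdeg h0 hy hy'
  rw [hval] at h1
  have hne : valHom P hdeg ⟨x, h⟩ - algebraMap K Ω a ≠ 0 := left_ne_zero_of_mul_eq_one h1
  have h2 : (valHom P hdeg ⟨x, h⟩ - algebraMap K Ω a)⁻¹ ∈ O := by
    rw [← eq_inv_of_mul_eq_one_right h1]
    exact hyO'
  exact X.H27.not_uIn_of_mem_nonunits hne ha h2

/-- a place contains the constants of `K` -/
theorem overK_place (P : Place Ω FΩ) : X.OverK K P.toValuationSubring := by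
  intro a
  rw [IsScalarTower.algebraMap_apply K Ω FΩ]
  exact P.algebraMap_mem' _

/-- the Gauss ring contains the constants of `K` -/
theorem overK_gauss (R : ConstRed K F Ω FΩ) : X.OverK K R.S.V := by
  intro a
  rw [IsScalarTower.algebraMap_apply K F FΩ]
  exact R.mem _

/-- the restriction to `F` of a composite with `R.S.O` is the reduction of the place -/
theorem comap_compSub_F [IsAlgClosed K] [IsAlgClosed Ω] (R : ConstRed K F Ω FΩ)
    (hFF : IsFF K F) (hFFΩ : IsFF Ω FΩ) (P : Place Ω FΩ) (O : ValuationSubring Ω)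
    (hRO : R.S.O = O) :
    (compSub P (stmt_FFB_deg Ω FΩ hFFΩ P) O).comap (algebraMap F FΩ) =
      (R.rp hFF hFFΩ P).toValuationSubring := by
  rw [← hRO]
  rfl

end Main

section Vert

variable {K F Ω FΩ : Type u}
  [Field K] [Field F] [Algebra K F] [Field Ω] [Field FΩ] [Algebra Ω FΩ]
  [Algebra K Ω] [Algebra F FΩ] [Algebra K FΩ] [IsScalarTower K F FΩ] [IsScalarTower K Ω FΩ]
  [IsAlgClosed K] [IsAlgClosed Ω]

/-- the core of VERT, for one `K`-place `O` and one place `P` -/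
theorem vert_core (hRC : Stmt_REDCOMP.{u}) (d : CCCData K F Ω FΩ) (Ψ : FΩ) (hΨ : Ψ ≠ 0)
    (hH : ∀ P : Place Ω FΩ, UIn P.toValuationSubring (Ψ / d.Λ P.toValuationSubring))
    (hnorm : ∃ hm : Ψ / d.Λ (d.ext.place d.Qo).toValuationSubring ∈
        (d.ext.place d.Qo).toValuationSubring,
      valHom (d.ext.place d.Qo) (d.deg1 _) ⟨_, hm⟩ = 1)
    (O : ValuationSubring Ω) (hO : IsKPlace K O) (P : Place Ω FΩ) :
    UIn (compSub P (d.deg1 P) O) (Ψ / d.Λ (compSub P (d.deg1 P) O)) := by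
  classical
  set R : ConstRed K F Ω FΩ := d.RO O hO with hR
  have hRO : R.S.O = O := d.hRO O hO
  have hROK : IsKPlace K R.S.O := by rw [hRO]; exact hO
  -- the composites are `K`-places
  have hKc : ∀ P' : Place Ω FΩ, IsKPlace K (compSub P' (d.deg1 P') O) := fun P' =>
    isKPlace_compSub P' (d.deg1 P') hO
  have hΛc : ∀ P' : Place Ω FΩ, d.Λ (compSub P' (d.deg1 P') O) ≠ 0 := fun P' =>
    d.gd.1 _ (hKc P').1
  have hΛp : ∀ P' : Place Ω FΩ, d.Λ P'.toValuationSubring ≠ 0 := fun P' =>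
    d.gd.1 _ (overK_place P')
  -- step A: on the tube of `rp P₀` the function `Ψ / Λ (compSub P₀ O)` has order `0`
  have hA : ∀ P₀ P' : Place Ω FΩ, R.rp d.hFF d.hFFΩ P' = R.rp d.hFF d.hFFΩ P₀ →
      UIn P'.toValuationSubring (Ψ / d.Λ (compSub P₀ (d.deg1 P₀) O)) := by
    intro P₀ P' hP'
    have hloc : d.Λ (compSub P' (d.deg1 P') O) = d.Λ (compSub P₀ (d.deg1 P₀) O) := by
      refine d.loc _ _ (hKc P') (hKc P₀) ?_ ?_
      · rw [comap_compSub_F R d.hFF d.hFFΩ P' O hRO, comap_compSub_F R d.hFF d.hFFΩ P₀ O hRO, hP']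
      · rw [comap_compSub, comap_compSub]
    rw [← hloc]
    have h1 := hH P'
    have h2 : UIn P'.toValuationSubring
        (d.Λ (compSub P' (d.deg1 P') O) / d.Λ P'.toValuationSubring) :=
      d.gd.2 _ _ (hKc P').1 (fun x hx => ((mem_compSub_iff P' _ O x).1 hx).1)
    have e : Ψ / d.Λ (compSub P' (d.deg1 P') O) =
        Ψ / d.Λ P'.toValuationSubring /
          (d.Λ (compSub P' (d.deg1 P') O) / d.Λ P'.toValuationSubring) := by
      have n1 := hΛc P'
      have n2 := hΛp P'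
      field_simp
    rw [e]
    exact h1.div h2
  -- step B: `h_o` is a Gauss unit
  set Po : Place Ω FΩ := d.ext.place d.Qo with hPo
  have hho0 : Ψ / d.Λ (compSub Po (d.deg1 Po) O) ≠ 0 := div_ne_zero hΨ (hΛc Po)
  have hoG : UIn R.S.V (Ψ / d.Λ (compSub Po (d.deg1 Po) O)) := by
    obtain ⟨hm1, hv1⟩ := hnorm
    obtain ⟨hm2, hv2⟩ := d.base O hO
    have hm : Ψ / d.Λ (compSub Po (d.deg1 Po) O) ∈ Po.toValuationSubring :=
      (hA Po Po rfl).1
    have hval : valHom Po (d.deg1 Po) ⟨_, hm⟩ = 1 := by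
      have e1 : (⟨Ψ / d.Λ (compSub Po (d.deg1 Po) O), hm⟩ : ↥Po.toValuationSubring) =
          ⟨_, hm1⟩ * ⟨_, hm2⟩ := by
        apply Subtype.ext
        show Ψ / d.Λ (compSub Po (d.deg1 Po) O) =
          Ψ / d.Λ Po.toValuationSubring *
            (d.Λ Po.toValuationSubring / d.Λ (compSub Po (d.deg1 Po) O))
        have n1 := hΛc Po
        have n2 := hΛp Po
        field_simp
      rw [e1, map_mul, hv1, hv2, one_mul]
    have hQ : ∀ P', R.rp d.hFF d.hFFΩ P' = R.rp d.hFF d.hFFΩ Po →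
        P'.ord (Ψ / d.Λ (compSub Po (d.deg1 Po) O)) = 0 := fun P' hP' =>
      (uIn_iff_ord P' hho0).1 (hA Po P' hP')
    obtain ⟨hV, hu⟩ := H47L.isUnit_of_tube R d.hFF d.hFFΩ d.hCD _ hho0 _ hQ Po rfl hm
      (by rw [hval]; exact R.S.O.one_mem) (by rw [hval, inv_one]; exact R.S.O.one_mem)
    exact uIn_of_isUnit hV hu
  -- step C: `Λ W / Λ S.V` is a Gauss unit for every composite `W`
  have hC : ∀ P' : Place Ω FΩ,
      UIn R.S.V (d.Λ (compSub P' (d.deg1 P') O) / d.Λ R.S.V) := by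
    intro P'
    obtain ⟨W, hWle, hWK, hWF, hWΩ⟩ := hRC K F Ω FΩ R hROK (R.rp d.hFF d.hFFΩ P')
      (stmt_FFB_deg K F d.hFF _)
    have hloc : d.Λ W = d.Λ (compSub P' (d.deg1 P') O) := by
      refine d.loc _ _ hWK (hKc P') ?_ ?_
      · rw [hWF, comap_compSub_F R d.hFF d.hFFΩ P' O hRO]
      · rw [hWΩ, comap_compSub, hRO]
    rw [← hloc]
    exact d.gd.2 _ _ hWK.1 hWle
  -- step D
  have hΛG : d.Λ R.S.V ≠ 0 := d.gd.1 _ (overK_gauss R)
  have hVG : UIn R.S.V (Ψ / d.Λ (compSub P (d.deg1 P) O)) := by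
    have e : Ψ / d.Λ (compSub P (d.deg1 P) O) =
        Ψ / d.Λ (compSub Po (d.deg1 Po) O) *
          (d.Λ (compSub Po (d.deg1 Po) O) / d.Λ R.S.V /
            (d.Λ (compSub P (d.deg1 P) O) / d.Λ R.S.V)) := by
      have n1 := hΛc Po
      have n2 := hΛc P
      field_simp
    rw [e]
    exact hoG.mul ((hC Po).div (hC P))
  have hh0 : Ψ / d.Λ (compSub P (d.deg1 P) O) ≠ 0 := div_ne_zero hΨ (hΛc P)
  have hQ : ∀ P', R.rp d.hFF d.hFFΩ P' = R.rp d.hFF d.hFFΩ P →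
      P'.ord (Ψ / d.Λ (compSub P (d.deg1 P) O)) = 0 := fun P' hP' =>
    (uIn_iff_ord P' hh0).1 (hA P P' hP')
  obtain ⟨hm, hv, hv'⟩ := H47L.value_isUnit_of_tube' R d.hFF d.hFFΩ d.hCD _ hVG.1
    (isUnit_of_uIn hh0 hVG) _ hQ P rfl
  rw [hRO] at hv hv'
  have hP := hA P P rfl
  refine ⟨(mem_compSub_iff P _ O _).2 ⟨hm, hv⟩, (mem_compSub_iff P _ O _).2 ⟨hP.2, ?_⟩⟩
  have h1 := valHom_inv P (d.deg1 P) hh0 hm hP.2
  rw [eq_inv_of_mul_eq_one_right h1]
  exact hv'

/-- **VERT** from RED-COMP. -/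
theorem stmt_VERT_of (hRC : Stmt_REDCOMP.{u}) : Stmt_VERT.{u} := by
  intro K F Ω FΩ _ _ _ _ _ _ _ _ _ _ _ _ _ d hHor
  obtain ⟨Ψ, hΨ, hH⟩ := hHor
  -- normalisation at the constant place over `Qo`
  set Po : Place Ω FΩ := d.ext.place d.Qo with hPo
  have hu0 : UIn Po.toValuationSubring (Ψ / d.Λ Po.toValuationSubring) := hH Po
  have hΛPo : d.Λ Po.toValuationSubring ≠ 0 := d.gd.1 _ (overK_place Po)
  have hq0 : Ψ / d.Λ Po.toValuationSubring ≠ 0 := div_ne_zero hΨ hΛPo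
  set a : Ω := valHom Po (d.deg1 Po) ⟨_, hu0.1⟩ with ha
  have ha1 := valHom_inv Po (d.deg1 Po) hq0 hu0.1 hu0.2
  have ha0 : a ≠ 0 := left_ne_zero_of_mul_eq_one ha1
  have hca : algebraMap Ω FΩ a ≠ 0 := (map_ne_zero _).2 ha0
  have hΨ' : Ψ / algebraMap Ω FΩ a ≠ 0 := div_ne_zero hΨ hca
  have hcu : ∀ P : Place Ω FΩ, UIn P.toValuationSubring (algebraMap Ω FΩ a) := fun P =>
    ⟨P.algebraMap_mem' a, by rw [← map_inv₀]; exact P.algebraMap_mem' _⟩
  refine ⟨Ψ / algebraMap Ω FΩ a, hΨ', fun O hO P => ?_⟩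
  refine vert_core hRC d _ hΨ' (fun P' => ?_) ?_ O hO P
  · have e : Ψ / algebraMap Ω FΩ a / d.Λ P'.toValuationSubring =
        Ψ / d.Λ P'.toValuationSubring / algebraMap Ω FΩ a := by
      rw [div_right_comm]
    rw [e]
    exact (hH P').div (hcu P')
  · have hmem : Ψ / algebraMap Ω FΩ a / d.Λ Po.toValuationSubring ∈ Po.toValuationSubring := by
      have e : Ψ / algebraMap Ω FΩ a / d.Λ Po.toValuationSubring =
          Ψ / d.Λ Po.toValuationSubring / algebraMap Ω FΩ a := by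
        rw [div_right_comm]
      rw [e]
      exact ((hH Po).div (hcu Po)).1
    refine ⟨hmem, ?_⟩
    have hainv : (algebraMap Ω FΩ a)⁻¹ ∈ Po.toValuationSubring := (hcu Po).2
    have e1 : (⟨Ψ / algebraMap Ω FΩ a / d.Λ Po.toValuationSubring, hmem⟩ :
        ↥Po.toValuationSubring) = ⟨_, hu0.1⟩ * ⟨_, hainv⟩ := by
      apply Subtype.ext
      show Ψ / algebraMap Ω FΩ a / d.Λ Po.toValuationSubring =
        Ψ / d.Λ Po.toValuationSubring * (algebraMap Ω FΩ a)⁻¹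
      rw [div_right_comm, div_eq_mul_inv]
    have e2 : valHom Po (d.deg1 Po) ⟨(algebraMap Ω FΩ a)⁻¹, hainv⟩ = a⁻¹ := by
      have : (⟨(algebraMap Ω FΩ a)⁻¹, hainv⟩ : ↥Po.toValuationSubring) =
          ⟨algebraMap Ω FΩ a⁻¹, Po.algebraMap_mem' _⟩ := Subtype.ext (map_inv₀ _ _).symm
      rw [this, valHom_const]
    rw [e1, map_mul, e2, ← ha, mul_inv_cancel₀ ha0]

/-- **VERT**, unconditional (RED-COMP = `H13R.stmt_REDCOMP`, helper13). -/
theorem stmt_VERT : Stmt_VERT.{u} := stmt_VERT_of Fermat.Agent.S26.C.H13R.stmt_REDCOMP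

end Vert

end Fermat.Agent.S26.C.H27v
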