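/-
S26 (row 25), crux (C), PRIG, leaf HORIZ (helper29): steps (2)–(5) of the PRIG plan on the
abstract data `H6.CCCData`.

`λ P := ord_P (Λ O_P)` is a divisor of `FΩ / Ω` (`fin`).  At a face place `O`, for `P ↦ Q`:
`λ P = ord_P T_Q + ord_P M` (`mov` + `gd`), and `∑_{P ↦ Q} ord_P T_Q = ord_Q (red T_Q) = 0`
(`R.cons`), so `red_O λ = red_O (div M)` is principal.  `deg λ = 0`.  `H29.isPrincipal_of_red`
gives `λ = div Ψ`.

* `uIn_place_iff`, `overK_compSub`, `compSub_le` : small lemmas;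
* `stmt_HORIZ : H6.Stmt_HORIZ`.
-/
import Fermat.Agent.S26.C.H6_CCCAbs

set_option autoImplicit false

universe u

noncomputable section

open AlgebraicCurve IntermediateField

namespace Fermat.Agent.S26.C.H29

open Fermat.Agent.S27.REDu Fermat.Agent.S27.REDu.H34 Fermat.Agent.S27.REDu.H34.RedSetting
  Fermat.Agent.S27.REDu.H51 Fermat.Agent.S27.REDu.H10
  Fermat.Agent.S26.C.H6
open Fermat.Agent.S26.C.X.H69 (UIn FinSuppP)
open Fermat.Agent.S26.C.X.H95 (IsGenDiv)

section Small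

variable {K : Type*} {Ω : Type*} {FΩ : Type*} [Field K] [Field Ω] [Field FΩ] [Algebra Ω FΩ]
  [Algebra K Ω] [Algebra K FΩ] [IsScalarTower K Ω FΩ]

/-- A nonzero function is a unit at the place `P` iff its order at `P` is `0`. -/
theorem uIn_place_iff (P : Place Ω FΩ) {x : FΩ} (hx : x ≠ 0) :
    UIn P.toValuationSubring x ↔ P.ord x = 0 := by
  unfold UIn
  rw [H51.mem_iff_ord_nonneg P hx, H51.mem_iff_ord_nonneg P (inv_ne_zero hx), P.ord_inv]
  omega

/-- The composite of a place with a valuation ring is contained in the ring of the place. -/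
theorem compSub_le (P : Place Ω FΩ) (hdeg : P.deg = 1) (O : ValuationSubring Ω) :
    compSub P hdeg O ≤ P.toValuationSubring := by
  intro f hf
  obtain ⟨h, -⟩ := (mem_compSub_iff P hdeg O f).mp hf
  exact h

/-- A constant of `Ω` lies in the composite iff it lies in `O`. -/
theorem algebraMap_mem_compSub (P : Place Ω FΩ) (hdeg : P.deg = 1) (O : ValuationSubring Ω)
    {c : Ω} (hc : c ∈ O) : algebraMap Ω FΩ c ∈ compSub P hdeg O := by
  rw [mem_compSub_iff]
  refine ⟨P.algebraMap_mem' c, ?_⟩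
  have h1 : (⟨algebraMap Ω FΩ c, P.algebraMap_mem' c⟩ : ↥P.toValuationSubring) =
      algebraMap Ω ↥P.toValuationSubring c := rfl
  rw [h1, valHom_algebraMap]
  exact hc

/-- The composite of a place with a valuation ring containing `K` contains `K`. -/
theorem overK_compSub (P : Place Ω FΩ) (hdeg : P.deg = 1) (O : ValuationSubring Ω)
    (hO : ∀ a : K, algebraMap K Ω a ∈ O) (a : K) :
    algebraMap K FΩ a ∈ compSub P hdeg O := by
  rw [IsScalarTower.algebraMap_apply K Ω FΩ]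
  exact algebraMap_mem_compSub P hdeg O (hO a)

end Small

section Horiz

variable {K F Ω FΩ : Type u}
  [Field K] [Field F] [Algebra K F] [Field Ω] [Field FΩ] [Algebra Ω FΩ]
  [Algebra K Ω] [Algebra F FΩ] [Algebra K FΩ] [IsScalarTower K F FΩ] [IsScalarTower K Ω FΩ]
  [IsAlgClosed K] [IsAlgClosed Ω]

omit [IsAlgClosed K] [IsAlgClosed Ω] in
/-- the ring of a place of `FΩ / Ω` contains `K` -/
theorem overK_placeΩ (P : Place Ω FΩ) (a : K) : algebraMap K FΩ a ∈ P.toValuationSubring := by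
  rw [IsScalarTower.algebraMap_apply K Ω FΩ]
  exact P.algebraMap_mem' _

variable (d : CCCData K F Ω FΩ)

theorem lam_ne_zero (P : Place Ω FΩ) : d.Λ P.toValuationSubring ≠ 0 :=
  d.gd.1 _ (overK_placeΩ P)

theorem lam_finite :
    (Function.support fun P : Place Ω FΩ => P.ord (d.Λ P.toValuationSubring)).Finite := by
  refine d.fin.subset fun P hP hU => ?_
  exact hP ((uIn_place_iff P (lam_ne_zero d P)).mp hU)

/-- The divisor `λ` of the valuative divisor `Λ` on the curve `X_Ω`. -/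
def lamDiv : Divisor Ω FΩ :=
  Finsupp.ofSupportFinite (fun P : Place Ω FΩ => P.ord (d.Λ P.toValuationSubring))
    (lam_finite d)

theorem lamDiv_apply (P : Place Ω FΩ) : lamDiv d P = P.ord (d.Λ P.toValuationSubring) := rfl

/-- On the tube of `Q`: `λ P = ord_P T + ord_P M`. -/
theorem lamDiv_eq_of_uIn (O : ValuationSubring Ω) (hO : ∀ a : K, algebraMap K Ω a ∈ O)
    (P : Place Ω FΩ) {T M : FΩ} (hT : T ≠ 0) (hM : M ≠ 0)
    (h : UIn (compSub P (d.deg1 P) O) (d.Λ (compSub P (d.deg1 P) O) / (T * M))) :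
    lamDiv d P = P.ord T + P.ord M := by
  set W := compSub P (d.deg1 P) O with hW
  have hWK : X.OverK K W := overK_compSub P (d.deg1 P) O hO
  have hle : W ≤ P.toValuationSubring := compSub_le P (d.deg1 P) O
  have h1 : UIn P.toValuationSubring (d.Λ W / (T * M)) := X.H95.uIn_mono hle h
  have h2 : UIn P.toValuationSubring (d.Λ W / d.Λ P.toValuationSubring) :=
    d.gd.2 W P.toValuationSubring hWK hle
  have hΛW : d.Λ W ≠ 0 := d.gd.1 W hWK
  have hΛP : d.Λ P.toValuationSubring ≠ 0 := lam_ne_zero d P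
  have hTM : T * M ≠ 0 := mul_ne_zero hT hM
  have e1 := (uIn_place_iff P (div_ne_zero hΛW hTM)).mp h1
  have e2 := (uIn_place_iff P (div_ne_zero hΛW hΛP)).mp h2
  rw [H51.ord_div P hΛW hTM, P.ord_mul hT hM] at e1
  rw [H51.ord_div P hΛW hΛP] at e2
  rw [lamDiv_apply]
  omega

open Classical in
/-- The reduction of `λ` at a face place is the reduction of `div M`. -/
theorem mapDomain_lamDiv (O : ValuationSubring Ω) (hO : d.face.IsFace O) {M : FΩ} (hM0 : M ≠ 0)
    (hM : ∀ Q : Place K F, ∃ T : ↥(d.RO O hO.1).S.V, IsUnit T ∧ (d.RO O hO.1).S.red T = 1 ∧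
      ∀ P : Place Ω FΩ, (d.RO O hO.1).rp d.hFF d.hFFΩ P = Q →
        UIn (compSub P (stmt_FFB_deg Ω FΩ d.hFFΩ P) O)
          (d.Λ (compSub P (stmt_FFB_deg Ω FΩ d.hFFΩ P) O) / ((T : FΩ) * M)))
    (dM : Divisor Ω FΩ) (hdM : ∀ P, dM P = P.ord M) :
    Finsupp.mapDomain ((d.RO O hO.1).rp d.hFF d.hFFΩ) (lamDiv d) =
      Finsupp.mapDomain ((d.RO O hO.1).rp d.hFF d.hFFΩ) dM := by
  set R := d.RO O hO.1 with hR
  have hPD : HasPrincipalDivisors Ω FΩ := stmt_FFB_principal Ω FΩ d.hFFΩ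
  ext Q
  obtain ⟨T, hTu, hT1, hTP⟩ := hM Q
  have hT0 : (T : FΩ) ≠ 0 := R.ne_zero_of_isUnit T hTu
  obtain ⟨dT, hdT, -⟩ := hPD.exists_divisor _ hT0
  have hcons := R.cons d.hFF d.hFFΩ d.hCD T hTu dT hdT Q
  rw [hT1] at hcons
  have h1 : Q.ord (1 : F) = 0 := by
    have := H51.ord_algebraMap Q (1 : K)
    rwa [map_one] at this
  rw [h1] at hcons
  rw [R.mapDomain_rp_apply d.hFF d.hFFΩ (lamDiv d) Q, R.mapDomain_rp_apply d.hFF d.hFFΩ dM Q]
  set U : Finset (Place Ω FΩ) := (lamDiv d).support ∪ dT.support ∪ dM.support with hU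
  rw [sum_supp_filter_eq_of_subset (lamDiv d) U (by rw [hU]; intro a ha; simp [ha])
    (fun P => R.rp d.hFF d.hFFΩ P = Q),
    sum_supp_filter_eq_of_subset dM U (by rw [hU]; intro a ha; simp [ha])
    (fun P => R.rp d.hFF d.hFFΩ P = Q)]
  rw [sum_supp_filter_eq_of_subset dT U (by rw [hU]; intro a ha; simp [ha])
    (fun P => R.rp d.hFF d.hFFΩ P = Q)] at hcons
  have h2 : ∑ P ∈ U.filter (fun P => R.rp d.hFF d.hFFΩ P = Q), lamDiv d P =
      ∑ P ∈ U.filter (fun P => R.rp d.hFF d.hFFΩ P = Q), dT P +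
        ∑ P ∈ U.filter (fun P => R.rp d.hFF d.hFFΩ P = Q), dM P := by
    rw [← Finset.sum_add_distrib]
    refine Finset.sum_congr rfl fun P hP => ?_
    rw [Finset.mem_filter] at hP
    rw [hdT P, hdM P]
    exact lamDiv_eq_of_uIn d O hO.1.1 P hT0 hM0 (hTP P hP.2)
  rw [h2, hcons, zero_add]

/-- The degree of a principal divisor is `0`. -/
theorem degree_eq_zero_of_isPrincipal' {k E : Type*} [Field k] [Field E] [Algebra k E]
    (hPD : HasPrincipalDivisors k E) (D : Divisor k E) (hD : Divisor.IsPrincipal D) :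
    Divisor.degree D = 0 := by
  obtain ⟨f, hf0, hf⟩ := hD
  obtain ⟨D', hD', hdeg⟩ := hPD.exists_divisor f hf0
  have : D = D' := by
    ext v
    rw [hf v, hD' v]
  rw [this, hdeg]

/-- **HORIZ**: `Λ` is principal on the curve `X_Ω`. -/
theorem horiz (hN : NsexHyp K F) : d.Horiz := by
  classical
  obtain ⟨g, c, hR, E, hE, hEdeg, hEl⟩ := hN
  have hPD : HasPrincipalDivisors Ω FΩ := stmt_FFB_principal Ω FΩ d.hFFΩ
  have hPDK : HasPrincipalDivisors K F := stmt_FFB_principal K F d.hFF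
  -- the reduction of `λ` at a face place is principal
  have hlam : ∀ (O : ValuationSubring Ω) (hO : d.face.IsFace O), Divisor.IsPrincipal
      (Finsupp.mapDomain ((d.RO O hO.1).rp d.hFF d.hFFΩ) (lamDiv d)) := by
    intro O hO
    obtain ⟨M, hM0, hM⟩ := d.mov O hO
    obtain ⟨dM, hdM, -⟩ := hPD.exists_divisor M hM0
    rw [mapDomain_lamDiv d O hO hM0 hM dM hdM]
    exact (d.RO O hO.1).isPrincipal_mapDomain_rp d.hFF d.hFFΩ d.hCD dM ⟨M, hM0, hdM⟩
  -- `deg λ = 0`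
  have hdeg : Divisor.degree (lamDiv d) = 0 := by
    obtain ⟨O₀, hO₀⟩ := d.face.exists_face
    rw [← ConstRed.degree_mapDomain ((d.RO O₀ hO₀.1).rp d.hFF d.hFFΩ) d.deg1
      (stmt_FFB_deg K F d.hFF) (lamDiv d)]
    exact degree_eq_zero_of_isPrincipal' hPDK _ (hlam O₀ hO₀)
  -- CCC-45
  have hprinc : Divisor.IsPrincipal (lamDiv d) :=
    isPrincipal_of_red d.face d.hFF (fun O hO => d.RO O hO.1) (fun O hO => d.hRO O hO.1)
      d.deg1 d.ext hR E hE hEdeg hEl (lamDiv d) hdeg (fun O hO => hlam O hO)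
      (fun O hO DΨ hDΨ =>
        (d.RO O hO.1).isPrincipal_mapDomain_rp d.hFF d.hFFΩ d.hCD DΨ hDΨ)
  obtain ⟨Ψ, hΨ0, hΨ⟩ := hprinc
  refine ⟨Ψ, hΨ0, fun P => ?_⟩
  rw [uIn_place_iff P (div_ne_zero hΨ0 (lam_ne_zero d P)),
    H51.ord_div P hΨ0 (lam_ne_zero d P), ← hΨ P, lamDiv_apply]
  exact sub_self _

end Horiz

/-- **HORIZ** (steps 2–5 of PRIG). -/
theorem stmt_HORIZ : H6.Stmt_HORIZ.{u} := by
  intro K F Ω FΩ _ _ _ _ _ _ _ _ _ _ _ _ _ d hN
  exact horiz d hN

end Fermat.Agent.S26.C.H29
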