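import Fermat.Agent.S26.C.H30_BCDefs
import Fermat.Agent.S26.C.H86_RROmega

/-!
# S26 (C), CCC leaf BC: bridge from `IsBC` to helper86's `ConstExt`

helper30.  A fraction field `FΩ` of `Ω ⊗[K] F` (`H30.IsBC`) of a function field `F / K` is a
constant field extension in the sense of `H86.ConstExt` (for `ψ = IsScalarTower.toAlgHom K F FΩ`),
so all of `H86_RROmega` (constant places, base change of divisors, Riemann over `Ω`) applies to it.

* `tensorToField_eq_bcMap` : `tensorToField ψ x = bcMap (comm x)`;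
* `IsBC.constExt : IsBC K F Ω FΩ → IsFF K F → H86.ConstExt (Ω := Ω) ψ`;
* `IsBC.isFF : IsBC K F Ω FΩ → IsFF K F → IsFF Ω FΩ`.
-/

set_option autoImplicit false

open TensorProduct IntermediateField

noncomputable section

namespace Fermat.Agent.S26.C.H30

universe u

open Fermat.Agent.GTor.H33 Fermat.Agent.S27.REDu

variable {K F Ω FΩ : Type u} [Field K] [IsAlgClosed K] [Field F] [Algebra K F] [Field Ω]
  [Algebra K Ω] [Field FΩ] [Algebra Ω FΩ] [Algebra F FΩ] [Algebra K FΩ] [IsScalarTower K F FΩ]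
  [IsScalarTower K Ω FΩ]

theorem tensorToField_eq_bcMap (x : F ⊗[K] Ω) :
    tensorToField (K := Ω) (IsScalarTower.toAlgHom K F FΩ) x =
      bcMap K F Ω FΩ (Algebra.TensorProduct.comm K F Ω x) := by
  induction x using TensorProduct.induction_on with
  | zero => simp
  | tmul f c =>
    rw [tensorToField_tmul, Algebra.TensorProduct.comm_tmul, bcMap_tmul, mul_comm]
    rfl
  | add x y hx hy => rw [map_add, map_add, map_add, hx, hy]

theorem IsBC.tensorToField_injective (h : IsBC K F Ω FΩ) :
    Function.Injective (tensorToField (K := Ω) (IsScalarTower.toAlgHom K F FΩ)) := by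
  intro x y hxy
  rw [tensorToField_eq_bcMap, tensorToField_eq_bcMap] at hxy
  exact (Algebra.TensorProduct.comm K F Ω).injective (h.inj hxy)

theorem IsBC.tensorToField_gen (h : IsBC K F Ω FΩ) (m : FΩ) :
    ∃ x y : F ⊗[K] Ω, m = tensorToField (K := Ω) (IsScalarTower.toAlgHom K F FΩ) x /
      tensorToField (K := Ω) (IsScalarTower.toAlgHom K F FΩ) y := by
  obtain ⟨x, y, hy, hxy⟩ := h.frac m
  have hby : bcMap K F Ω FΩ y ≠ 0 := fun h0 => hy (h.inj (by rw [h0, map_zero]))
  refine ⟨(Algebra.TensorProduct.comm K F Ω).symm x, (Algebra.TensorProduct.comm K F Ω).symm y, ?_⟩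
  rw [tensorToField_eq_bcMap, tensorToField_eq_bcMap, AlgEquiv.apply_symm_apply,
    AlgEquiv.apply_symm_apply, ← hxy, mul_div_assoc, div_self hby, mul_one]

/-- a fraction field of `Ω ⊗[K] F` is a constant field extension in the sense of helper86 -/
theorem IsBC.constExt (h : IsBC K F Ω FΩ) (hFF : IsFF K F) :
    H86.ConstExt (Ω := Ω) (IsScalarTower.toAlgHom K F FΩ) :=
  ⟨hFF, h.tensorToField_injective, h.tensorToField_gen⟩

theorem IsBC.isFF (h : IsBC K F Ω FΩ) (hFF : IsFF K F) : IsFF Ω FΩ :=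
  (h.constExt hFF).isFF'

end Fermat.Agent.S26.C.H30
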