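import Fermat.Agent.S26.C.H30_BCFinal
import Fermat.Agent.S26.C.H30_BCExt

/-!
# S26 (C), CCC leaf BC: the full package `stmt_BC2` for ONE field `FΩ`

helper30.  `H6.Stmt_BC` hides the injectivity of `Ω ⊗[K] F → FΩ` (BC-INJ).  `stmt_BC2` gives, for
the SAME field `FΩ = BCField K F Ω`: `IsBC` (injectivity + generation), helper86's `ConstExt`
(constant places, base change of divisors, Riemann over `Ω`), `IsFF Ω FΩ`, `ConstDeg` and the
constant reduction datum of every `K`-place of `Ω`.

For direct use (no existential): `BCField K F Ω` with its instances, `isBC_BCField`,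
`KPl.constRed`, `KPl.constRed_O`, `IsBC.constExt`, `H13D.stmt_BC_Deg`.
-/

set_option autoImplicit false

open TensorProduct IntermediateField

noncomputable section

namespace Fermat.Agent.S26.C.H30

universe u

open Fermat.Agent.S27.REDu

/-- **BC2**: the full constant base change package. -/
def Stmt_BC2 : Prop :=
  ∀ (K F Ω : Type u) [Field K] [IsAlgClosed K] [Field F] [Algebra K F] [Field Ω] [IsAlgClosed Ω]
    [Algebra K Ω], IsFF K F →
    ∃ (FΩ : Type u) (_ : Field FΩ) (_ : Algebra Ω FΩ) (_ : Algebra F FΩ) (_ : Algebra K FΩ)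
      (_ : IsScalarTower K F FΩ) (_ : IsScalarTower K Ω FΩ),
      IsBC K F Ω FΩ ∧ H86.ConstExt (Ω := Ω) (IsScalarTower.toAlgHom K F FΩ) ∧
      IsFF Ω FΩ ∧ H6.ConstDeg K F Ω FΩ ∧
      ∀ O : ValuationSubring Ω, (∀ c : K, algebraMap K Ω c ∈ O) →
        (∀ a : Ω, a ∈ O → ∃ c : K, a - algebraMap K Ω c ∈ O.nonunits) →
        ∃ R : H6.ConstRed K F Ω FΩ, R.S.O = O

theorem stmt_BC2 : Stmt_BC2.{u} := by
  intro K F Ω _ _ _ _ _ _ _ hFF
  have hbc := isBC_BCField K F Ω
  obtain ⟨h1, h2⟩ := H13D.stmt_BC_Deg K F Ω (BCField K F Ω) hbc hFF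
  refine ⟨BCField K F Ω, inferInstance, inferInstance, inferInstance, inferInstance,
    inferInstance, inferInstance, hbc, hbc.constExt hFF, h1, h2, ?_⟩
  intro O hK hres
  exact ⟨(KPl.mk O hK hres).constRed hbc, (KPl.mk O hK hres).constRed_O hbc⟩

end Fermat.Agent.S26.C.H30
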