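import Fermat.Agent.S26.C.H30_BC
import Fermat.Agent.S26.C.H13_BCDeg

/-!
# S26 (C), CCC leaf BC (constant base change): `stmt_BC : H6.Stmt_BC`, unconditional

helper30.  Gauss half: `H30_BC.lean` (helper30); degree half: `H13_BCDeg.lean` (helper13).
-/

set_option autoImplicit false

namespace Fermat.Agent.S26.C.H30

universe u

/-- **BC** (constant base change), unconditional. -/
theorem stmt_BC : H6.Stmt_BC.{u} := stmt_BC_of H13D.stmt_BC_Deg

end Fermat.Agent.S26.C.H30
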