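import Mathlib
import Fermat.Agent.S27.REDu.H42_Gen8

/-!
# S26 (C), package CCC (helper6), leaf RR-OMEGA = (P3) (helper35)

Constant field extension of a function field of one variable.

`K ⊆ Ω` algebraically closed fields, `F / K` a function field of one variable, `FΩ / Ω` a field
containing `F` and `Ω` (compatibly on `K`) such that

* (LD) `LinDisj K F Ω FΩ`: `K`-linearly independent families of `F` stay `Ω`-linearly independent
  in `FΩ` (`F` and `Ω` are linearly disjoint over `K`);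
* (GEN) `Gen F Ω FΩ`: `FΩ` is generated, as a field, by `Ω` and `F`.

(Example: `FΩ = Frac (F ⊗[K] Ω)`.)  Then

* `isFF_omega` : `FΩ / Ω` is a function field of one variable, `x' = x` is a chart and
  `[FΩ : Ω(x)] ≤ [F : K(x)]` (`finrank_omega_le`);
* `mem_L_omega` : `f ∈ L(N (x)_∞)` over `K` implies `f ∈ L(N (x)_∞)` over `Ω`;
* `finrank_L_le_omega` : `l_K(N (x)_∞) ≤ l_Ω(N (x)_∞)`;
* `genus_le` : the genus does not grow: if `g` is the genus of `F / K` and `g'` the genus of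
  `FΩ / Ω` (Riemann's theorem) then `g' ≤ g`;
* `rr_omega` : **Riemann's inequality over `Ω` with the genus `g` of `F / K`**:
  `deg D + 1 - g ≤ l_Ω(D)` for every divisor `D` of `FΩ / Ω`;
* `exists_section` : if `g ≤ deg D` there is `Ψ ≠ 0` in `L_Ω(D)`.
-/

set_option autoImplicit false
set_option linter.style.haveILetI false

universe uK uF uO uFO

noncomputable section

open AlgebraicCurve IntermediateField Polynomial Module

namespace Fermat.Agent.S26.C.H35

open Fermat.Agent.S24 Fermat.Agent.S27.REDu Fermat.Agent.S27.REDu.H42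

local notation "L" => riemannRochSpace

/-- (LD): `K`-linearly independent (finite) families of `F` stay `Ω`-linearly independent in
`FΩ`. -/
def LinDisj (K : Type uK) (F : Type uF) (Ω : Type uO) (FΩ : Type uFO) [Field K] [Field F]
    [Field Ω] [Field FΩ] [Algebra K F] [Algebra F FΩ] [Algebra Ω FΩ] : Prop :=
  ∀ (n : ℕ) (v : Fin n → F), LinearIndependent K v →
    LinearIndependent Ω (fun i => algebraMap F FΩ (v i))

/-- (GEN): `FΩ` is generated as a field by `Ω` and (the image of) `F`. -/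
def Gen (F : Type uF) (Ω : Type uO) (FΩ : Type uFO) [Field F] [Field Ω] [Field FΩ]
    [Algebra F FΩ] [Algebra Ω FΩ] : Prop :=
  IntermediateField.adjoin Ω (Set.range (algebraMap F FΩ)) = ⊤

/-- Compatibility of the two embeddings on `K`. -/
def Compat (K : Type uK) (F : Type uF) (Ω : Type uO) (FΩ : Type uFO) [Field K] [Field F]
    [Field Ω] [Field FΩ] [Algebra K F] [Algebra K Ω] [Algebra F FΩ] [Algebra Ω FΩ] : Prop :=
  ∀ a : K, algebraMap F FΩ (algebraMap K F a) = algebraMap Ω FΩ (algebraMap K Ω a)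

theorem compat_of_tower (K : Type uK) (F : Type uF) (Ω : Type uO) (FΩ : Type uFO) [Field K]
    [Field F] [Field Ω] [Field FΩ] [Algebra K F] [Algebra K Ω] [Algebra F FΩ] [Algebra Ω FΩ]
    [Algebra K FΩ] [IsScalarTower K F FΩ] [IsScalarTower K Ω FΩ] : Compat K F Ω FΩ := fun a => by
  rw [← IsScalarTower.algebraMap_apply K F FΩ, ← IsScalarTower.algebraMap_apply K Ω FΩ]

variable {K : Type uK} {F : Type uF} {Ω : Type uO} {FΩ : Type uFO}
  [Field K] [Field F] [Field Ω] [Field FΩ]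
  [Algebra K F] [Algebra K Ω] [Algebra F FΩ] [Algebra Ω FΩ]

/-! ## The chart stays a chart -/

omit [Algebra K Ω] [Field Ω] [Field FΩ] [Algebra F FΩ] [Algebra Ω FΩ] in
theorem linearIndependent_pow_of_transcendental {x : F} (hx : Transcendental K x) (d : ℕ) :
    LinearIndependent K (fun i : Fin d => x ^ (i : ℕ)) := by
  rw [Fintype.linearIndependent_iff]
  intro c hc
  have hq : aeval x (∑ i : Fin d, Polynomial.monomial (i : ℕ) (c i)) = 0 := by
    rw [map_sum, ← hc]
    refine Finset.sum_congr rfl fun i _ => ?_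
    rw [Polynomial.aeval_monomial, Algebra.smul_def]
  have hq0 := (transcendental_iff.1 hx) _ hq
  intro i
  have h1 := congrArg (fun q => Polynomial.coeff q (i : ℕ)) hq0
  simp only [Polynomial.finsetSum_coeff, Polynomial.coeff_monomial, Polynomial.coeff_zero] at h1
  rw [Finset.sum_eq_single i] at h1
  · simpa using h1
  · intro j _ hji
    rw [if_neg]
    exact fun h => hji (Fin.ext h)
  · intro h
    exact absurd (Finset.mem_univ i) h

omit [Algebra K Ω] in
theorem transcendental_map (hLD : LinDisj K F Ω FΩ) {x : F} (hx : Transcendental K x) :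
    Transcendental Ω (algebraMap F FΩ x) := by
  rw [transcendental_iff]
  intro p hp
  have hli' := hLD _ _ (linearIndependent_pow_of_transcendental hx (p.natDegree + 1))
  rw [Fintype.linearIndependent_iff] at hli'
  have hsum : ∑ i : Fin (p.natDegree + 1), p.coeff (i : ℕ) • algebraMap F FΩ (x ^ (i : ℕ)) = 0 := by
    rw [← hp, Polynomial.aeval_eq_sum_range,
      Fin.sum_univ_eq_sum_range (fun i => p.coeff i • algebraMap F FΩ (x ^ i))]
    refine Finset.sum_congr rfl fun i _ => ?_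
    rw [map_pow]
  have h0 := hli' _ hsum
  ext i
  rw [Polynomial.coeff_zero]
  by_cases hi : i < p.natDegree + 1
  · exact h0 ⟨i, hi⟩
  · exact Polynomial.coeff_eq_zero_of_natDegree_lt (by omega)

/-! ## `FΩ` is finite over `Ω(x)`, of degree at most `[F : K(x)]` -/

/-- The image of `K(x)` lies in `Ω(x)`. -/
theorem map_mem_adjoin (hC : Compat K F Ω FΩ) (x : F) {a : F} (ha : a ∈ K⟮x⟯) :
    algebraMap F FΩ a ∈ Ω⟮algebraMap F FΩ x⟯ := by
  induction ha using IntermediateField.adjoin_induction with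
  | mem y hy =>
    rw [Set.mem_singleton_iff] at hy
    rw [hy]
    exact mem_adjoin_simple_self Ω _
  | algebraMap a =>
    rw [hC a]
    exact IntermediateField.algebraMap_mem _ _
  | add y z _ _ hy hz =>
    rw [map_add]
    exact add_mem hy hz
  | inv y _ hy =>
    rw [map_inv₀]
    exact inv_mem hy
  | mul y z _ _ hy hz =>
    rw [map_mul]
    exact mul_mem hy hz

/-- The `Ω(x)`-span of (the image of) a `K(x)`-basis of `F` is all of `FΩ`. -/
theorem span_basis_eq_top (hC : Compat K F Ω FΩ) (hGEN : Gen F Ω FΩ) {x : F} {n : ℕ}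
    (b : Basis (Fin n) K⟮x⟯ F) :
    Submodule.span Ω⟮algebraMap F FΩ x⟯ (Set.range fun i => algebraMap F FΩ (b i)) = ⊤ := by
  classical
  obtain ⟨M, hM⟩ : ∃ M : Submodule Ω⟮algebraMap F FΩ x⟯ FΩ,
      M = Submodule.span Ω⟮algebraMap F FΩ x⟯ (Set.range fun i => algebraMap F FΩ (b i)) :=
    ⟨_, rfl⟩
  rw [← hM]
  -- the image of `F` lies in `M`
  have hF : ∀ f : F, algebraMap F FΩ f ∈ M := by
    intro f
    rw [← b.sum_repr f, map_sum]
    refine Submodule.sum_mem _ fun i _ => ?_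
    have h1 : algebraMap F FΩ (b.repr f i • b i) =
        (⟨algebraMap F FΩ ((b.repr f i : K⟮x⟯) : F), map_mem_adjoin hC x (b.repr f i).2⟩ :
          Ω⟮algebraMap F FΩ x⟯) • algebraMap F FΩ (b i) := by
      rw [IntermediateField.smul_def, IntermediateField.smul_def, smul_eq_mul, smul_eq_mul,
        map_mul]
    rw [h1]
    refine Submodule.smul_mem _ _ ?_
    rw [hM]
    exact Submodule.subset_span ⟨i, rfl⟩
  have h1M : (1 : FΩ) ∈ M := by
    have := hF 1
    rwa [map_one] at this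
  have hMM : M * M ≤ M := by
    rw [hM, Submodule.span_mul_span, Submodule.span_le]
    rintro _ ⟨_, ⟨i, rfl⟩, _, ⟨j, rfl⟩, rfl⟩
    rw [← hM]
    show algebraMap F FΩ (b i) * algebraMap F FΩ (b j) ∈ M
    rw [← map_mul]
    exact hF _
  -- `M` is a subalgebra
  let S : Subalgebra Ω⟮algebraMap F FΩ x⟯ FΩ :=
    { carrier := M
      mul_mem' := fun {y z} hy hz => hMM (Submodule.mul_mem_mul hy hz)
      add_mem' := fun {y z} hy hz => M.add_mem hy hz
      algebraMap_mem' := fun r => by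
        have h2 : algebraMap Ω⟮algebraMap F FΩ x⟯ FΩ r = r • (1 : FΩ) :=
          Algebra.algebraMap_eq_smul_one r
        show algebraMap Ω⟮algebraMap F FΩ x⟯ FΩ r ∈ M
        rw [h2]
        exact M.smul_mem r h1M }
  have hSM : ∀ y : FΩ, y ∈ S ↔ y ∈ M := fun y => Iff.rfl
  have hfg : S.toSubmodule.FG := by
    have h2 : S.toSubmodule = M := by
      ext y
      exact hSM y
    rw [h2, hM]
    exact Submodule.fg_span (Set.finite_range _)
  have hinv : ∀ y ∈ S.restrictScalars Ω, y⁻¹ ∈ S.restrictScalars Ω := by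
    intro y hy
    have hy' : y ∈ S := hy
    have hint : IsIntegral Ω⟮algebraMap F FΩ x⟯ y := IsIntegral.of_mem_of_fg S hfg y hy'
    have := Subalgebra.inv_mem_of_algebraic (A := S) (x := ⟨y, hy'⟩) hint.isAlgebraic
    exact this
  let T : IntermediateField Ω FΩ := Subalgebra.toIntermediateField (S.restrictScalars Ω) hinv
  have hle : IntermediateField.adjoin Ω (Set.range (algebraMap F FΩ)) ≤ T := by
    rw [IntermediateField.adjoin_le_iff]
    rintro _ ⟨f, rfl⟩
    exact hF f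
  rw [hGEN] at hle
  rw [eq_top_iff]
  intro y _
  exact hle (IntermediateField.mem_top)

theorem finite_omega (hC : Compat K F Ω FΩ) (hGEN : Gen F Ω FΩ) (x : F)
    [Module.Finite K⟮x⟯ F] : Module.Finite Ω⟮algebraMap F FΩ x⟯ FΩ := by
  rw [Module.finite_def, ← span_basis_eq_top hC hGEN (Module.finBasis K⟮x⟯ F)]
  exact Submodule.fg_span (Set.finite_range _)

theorem finrank_omega_le (hC : Compat K F Ω FΩ) (hGEN : Gen F Ω FΩ) (x : F)
    [Module.Finite K⟮x⟯ F] :
    Module.finrank Ω⟮algebraMap F FΩ x⟯ FΩ ≤ Module.finrank K⟮x⟯ F := by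
  have h1 := finrank_range_le_card (R := Ω⟮algebraMap F FΩ x⟯)
    (fun i => algebraMap F FΩ (Module.finBasis K⟮x⟯ F i))
  rw [Set.finrank, span_basis_eq_top hC hGEN (Module.finBasis K⟮x⟯ F), finrank_top,
    Fintype.card_fin] at h1
  exact h1

/-- `FΩ / Ω` is a function field of one variable. -/
theorem isFF_omega (hLD : LinDisj K F Ω FΩ) (hC : Compat K F Ω FΩ) (hGEN : Gen F Ω FΩ)
    (hFF : IsFF K F) : IsFF Ω FΩ := by
  obtain ⟨x, hx, hfin⟩ := hFF
  exact ⟨algebraMap F FΩ x, transcendental_map hLD hx, finite_omega hC hGEN x⟩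

/-! ## Integrality and the spaces `L(N (x)_∞)` -/

/-- The image of `K[x]` lies in `Ω[x]`. -/
theorem map_mem_algAdjoin (hC : Compat K F Ω FΩ) (x : F) {a : F}
    (ha : a ∈ Algebra.adjoin K {x}) :
    algebraMap F FΩ a ∈ Algebra.adjoin Ω {algebraMap F FΩ x} := by
  induction ha using Algebra.adjoin_induction with
  | mem y hy =>
    rw [Set.mem_singleton_iff] at hy
    rw [hy]
    exact Algebra.self_mem_adjoin_singleton Ω _
  | algebraMap a =>
    rw [hC a]
    exact Subalgebra.algebraMap_mem _ _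
  | add y z _ _ hy hz =>
    rw [map_add]
    exact add_mem hy hz
  | mul y z _ _ hy hz =>
    rw [map_mul]
    exact mul_mem hy hz

/-- Integrality over `K[x]` is preserved. -/
theorem isIntegral_map (hC : Compat K F Ω FΩ) (x : F) {f : F}
    (hf : IsIntegral ↥(Algebra.adjoin K {x}) f) :
    IsIntegral ↥(Algebra.adjoin Ω {algebraMap F FΩ x}) (algebraMap F FΩ f) := by
  let φ0 : ↥(Algebra.adjoin K {x}) →+* ↥(Algebra.adjoin Ω {algebraMap F FΩ x}) :=
    ((algebraMap F FΩ).comp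
      ((Algebra.adjoin K {x}).val : ↥(Algebra.adjoin K {x}) →+* F)).codRestrict
      (Algebra.adjoin Ω {algebraMap F FΩ x}) (fun r => map_mem_algAdjoin hC x r.2)
  exact IsIntegral.map_of_comp_eq φ0 (algebraMap F FΩ) (by ext r; rfl) hf

/-- `f ∈ L_K(N (x)_∞)` implies `f ∈ L_Ω(N (x)_∞)`. -/
theorem mem_L_omega [IsAlgClosed K] (hC : Compat K F Ω FΩ) (hFF : IsFF K F) {x : F}
    (hx0 : x ≠ 0) (hfin : {v : Place K F | 0 < v.ord x⁻¹}.Finite)
    (hfin' : {w : Place Ω FΩ | 0 < w.ord (algebraMap F FΩ x)⁻¹}.Finite) (N : ℕ) {f : F}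
    (hf : f ∈ L (N • zeroDivisor x⁻¹ hfin)) :
    algebraMap F FΩ f ∈ L (N • zeroDivisor (algebraMap F FΩ x)⁻¹ hfin') := by
  obtain ⟨h1, h2⟩ := isIntegral_of_mem_L hFF hx0 hfin N hf
  have hx0' : algebraMap F FΩ x ≠ 0 := (_root_.map_ne_zero (algebraMap F FΩ)).2 hx0
  refine mem_L_of_isIntegral hx0' hfin' N (isIntegral_map hC x h1) ?_
  have h3 := isIntegral_map hC x⁻¹ h2
  have e : algebraMap F FΩ x⁻¹ = (algebraMap F FΩ x)⁻¹ := map_inv₀ _ _
  rw [map_mul, map_pow] at h3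
  rw [e] at h3
  exact h3

/-- `l_K(N (x)_∞) ≤ l_Ω(N (x)_∞)`. -/
theorem finrank_L_le_omega [IsAlgClosed K] [IsAlgClosed Ω] (hLD : LinDisj K F Ω FΩ)
    (hC : Compat K F Ω FΩ) (hGEN : Gen F Ω FΩ) (hFF : IsFF K F) {x : F}
    (hx0 : x ≠ 0) (hfin : {v : Place K F | 0 < v.ord x⁻¹}.Finite)
    (hfin' : {w : Place Ω FΩ | 0 < w.ord (algebraMap F FΩ x)⁻¹}.Finite) (N : ℕ) :
    Module.finrank K (L (N • zeroDivisor x⁻¹ hfin)) ≤
      Module.finrank Ω (L (N • zeroDivisor (algebraMap F FΩ x)⁻¹ hfin')) := by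
  classical
  have hFF' : IsFF Ω FΩ := isFF_omega hLD hC hGEN hFF
  haveI : Module.Finite K (L (N • zeroDivisor x⁻¹ hfin)) := stmt_FFR_finite K F hFF _
  haveI : Module.Finite Ω (L (N • zeroDivisor (algebraMap F FΩ x)⁻¹ hfin')) :=
    stmt_FFR_finite Ω FΩ hFF' _
  let b := Module.finBasis K (L (N • zeroDivisor x⁻¹ hfin))
  have hli : LinearIndependent K (fun j => ((b j : ↥(L (N • zeroDivisor x⁻¹ hfin))) : F)) :=
    b.linearIndependent.map' (L (N • zeroDivisor x⁻¹ hfin)).subtype (Submodule.ker_subtype _)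
  have hli' := hLD _ _ hli
  have hliL : LinearIndependent Ω (fun j =>
      (⟨algebraMap F FΩ ((b j : ↥(L (N • zeroDivisor x⁻¹ hfin))) : F),
        mem_L_omega hC hFF hx0 hfin hfin' N (b j).2⟩ :
        ↥(L (N • zeroDivisor (algebraMap F FΩ x)⁻¹ hfin')))) := by
    refine LinearIndependent.of_comp (L (N • zeroDivisor (algebraMap F FΩ x)⁻¹ hfin')).subtype ?_
    exact hli'
  have := hliL.fintype_card_le_finrank
  simpa using this

/-! ## The genus does not grow; Riemann over `Ω` -/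

/-- Data of the chart on both sides: degrees of the pole divisors. -/
theorem chart_data [IsAlgClosed K] [IsAlgClosed Ω] (hLD : LinDisj K F Ω FΩ)
    (hC : Compat K F Ω FΩ) (hGEN : Gen F Ω FΩ) {x : F} (hx : Transcendental K x)
    [Module.Finite K⟮x⟯ F] :
    ∃ (hfin : {v : Place K F | 0 < v.ord x⁻¹}.Finite)
      (hfin' : {w : Place Ω FΩ | 0 < w.ord (algebraMap F FΩ x)⁻¹}.Finite),
      Divisor.degree (zeroDivisor x⁻¹ hfin) = (Module.finrank K⟮x⟯ F : ℤ) ∧
      Divisor.degree (zeroDivisor (algebraMap F FΩ x)⁻¹ hfin') =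
        (Module.finrank Ω⟮algebraMap F FΩ x⟯ FΩ : ℤ) := by
  have hFF : IsFF K F := ⟨x, hx, inferInstance⟩
  have hx' : Transcendental Ω (algebraMap F FΩ x) := transcendental_map hLD hx
  haveI hfinΩ : Module.Finite Ω⟮algebraMap F FΩ x⟯ FΩ := finite_omega hC hGEN x
  have hFF' : IsFF Ω FΩ := ⟨_, hx', hfinΩ⟩
  have h1 : ∀ v : Place K F, v.deg = 1 := fun v => ff_deg_eq_one x hx v
  have h1' : ∀ w : Place Ω FΩ, w.deg = 1 := fun w => ff_deg_eq_one _ hx' w
  have htr : Transcendental K x⁻¹ := fun h => hx (IsAlgebraic.inv_iff.mp h)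
  have htr' : Transcendental Ω (algebraMap F FΩ x)⁻¹ := fun h => hx' (IsAlgebraic.inv_iff.mp h)
  have hfd := ff_finite_of_transcendental x hx x⁻¹ htr
  have hfd' := ff_finite_of_transcendental _ hx' (algebraMap F FΩ x)⁻¹ htr'
  obtain ⟨hfin, hsum⟩ := zerosAll K F hFF x⁻¹ htr
  obtain ⟨hfin', hsum'⟩ := zerosAll Ω FΩ hFF' (algebraMap F FΩ x)⁻¹ htr'
  rw [H59.finrank_adjoin_inv] at hsum hsum'
  refine ⟨hfin, hfin', ?_, ?_⟩
  · rw [degree_zeroDivisor h1, hsum]
  · rw [degree_zeroDivisor h1', hsum']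

/-- **The genus does not grow under constant field extension**, and the degree of the chart is
preserved. -/
theorem genus_le_and_finrank_eq [IsAlgClosed K] [IsAlgClosed Ω] (hLD : LinDisj K F Ω FΩ)
    (hC : Compat K F Ω FΩ) (hGEN : Gen F Ω FΩ) {x : F} (hx : Transcendental K x)
    [Module.Finite K⟮x⟯ F] {g : ℕ} {c : ℤ}
    (hg : ∀ D : Divisor K F, c ≤ Divisor.degree D →
      (Module.finrank K (L D) : ℤ) = Divisor.degree D + 1 - g)
    {g' : ℕ} {c' : ℤ}
    (hg' : ∀ D : Divisor Ω FΩ, c' ≤ Divisor.degree D →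
      (Module.finrank Ω (L D) : ℤ) = Divisor.degree D + 1 - g') :
    g' ≤ g ∧ Module.finrank Ω⟮algebraMap F FΩ x⟯ FΩ = Module.finrank K⟮x⟯ F := by
  classical
  have hFF : IsFF K F := ⟨x, hx, inferInstance⟩
  have hx' : Transcendental Ω (algebraMap F FΩ x) := transcendental_map hLD hx
  haveI hfinΩ : Module.Finite Ω⟮algebraMap F FΩ x⟯ FΩ := finite_omega hC hGEN x
  have hx0 : x ≠ 0 := fun h0 => hx (h0 ▸ isAlgebraic_zero)
  have hpos' : 0 < Module.finrank Ω⟮algebraMap F FΩ x⟯ FΩ := Module.finrank_pos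
  have hnle := finrank_omega_le (Ω := Ω) (FΩ := FΩ) hC hGEN x
  obtain ⟨hfin, hfin', hdeg, hdeg'⟩ := chart_data hLD hC hGEN hx
  -- the key inequality for all large `N`
  have key : ∀ N : ℕ, max c c' ≤ (N : ℤ) →
      (N : ℤ) * (Module.finrank K⟮x⟯ F : ℤ) + 1 - g ≤
        (N : ℤ) * (Module.finrank Ω⟮algebraMap F FΩ x⟯ FΩ : ℤ) + 1 - g' := by
    intro N hN
    have h5 : (1 : ℤ) ≤ (Module.finrank Ω⟮algebraMap F FΩ x⟯ FΩ : ℤ) := by exact_mod_cast hpos'
    have h5' : (Module.finrank Ω⟮algebraMap F FΩ x⟯ FΩ : ℤ) ≤ (Module.finrank K⟮x⟯ F : ℤ) := by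
      exact_mod_cast hnle
    have h6 : (0 : ℤ) ≤ (N : ℤ) := Int.natCast_nonneg N
    have hNc' : max c c' ≤ (N : ℤ) * (Module.finrank Ω⟮algebraMap F FΩ x⟯ FΩ : ℤ) := by
      nlinarith
    have hNc : max c c' ≤ (N : ℤ) * (Module.finrank K⟮x⟯ F : ℤ) := by
      nlinarith
    have hdN : Divisor.degree (N • zeroDivisor x⁻¹ hfin) =
        (N : ℤ) * (Module.finrank K⟮x⟯ F : ℤ) := by
      rw [map_nsmul, hdeg, nsmul_eq_mul]
    have hdN' : Divisor.degree (N • zeroDivisor (algebraMap F FΩ x)⁻¹ hfin') =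
        (N : ℤ) * (Module.finrank Ω⟮algebraMap F FΩ x⟯ FΩ : ℤ) := by
      rw [map_nsmul, hdeg', nsmul_eq_mul]
    have e1 := hg (N • zeroDivisor x⁻¹ hfin) (by rw [hdN]; exact (le_max_left _ _).trans hNc)
    have e2 := hg' (N • zeroDivisor (algebraMap F FΩ x)⁻¹ hfin')
      (by rw [hdN']; exact (le_max_right _ _).trans hNc')
    rw [hdN] at e1
    rw [hdN'] at e2
    have hle := finrank_L_le_omega hLD hC hGEN hFF hx0 hfin hfin' N
    have : ((Module.finrank K (L (N • zeroDivisor x⁻¹ hfin)) : ℕ) : ℤ) ≤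
        ((Module.finrank Ω (L (N • zeroDivisor (algebraMap F FΩ x)⁻¹ hfin')) : ℕ) : ℤ) := by
      exact_mod_cast hle
    rw [e1, e2] at this
    exact this
  have h5' : (Module.finrank Ω⟮algebraMap F FΩ x⟯ FΩ : ℤ) ≤ (Module.finrank K⟮x⟯ F : ℤ) := by
    exact_mod_cast hnle
  constructor
  · have hN : max c c' ≤ (((max c c').toNat : ℕ) : ℤ) := Int.self_le_toNat _
    have h1 := key _ hN
    have h6 : (0 : ℤ) ≤ (((max c c').toNat : ℕ) : ℤ) := Int.natCast_nonneg _
    have : (g' : ℤ) ≤ (g : ℤ) := by nlinarith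
    exact_mod_cast this
  · refine le_antisymm hnle ?_
    by_contra hlt
    push Not at hlt
    have hlt' : (Module.finrank Ω⟮algebraMap F FΩ x⟯ FΩ : ℤ) + 1 ≤
        (Module.finrank K⟮x⟯ F : ℤ) := by exact_mod_cast hlt
    have hN : max c c' ≤ (((max c c').toNat + g + 1 : ℕ) : ℤ) := by
      have h7 : max c c' ≤ (((max c c').toNat : ℕ) : ℤ) := Int.self_le_toNat _
      push_cast
      linarith [Int.natCast_nonneg g]
    have h1 := key _ hN
    have h8 : (0 : ℤ) ≤ (g' : ℤ) := Int.natCast_nonneg _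
    have h9 : (0 : ℤ) ≤ (((max c c').toNat : ℕ) : ℤ) := Int.natCast_nonneg _
    push_cast at h1
    nlinarith

/-- **The genus does not grow under constant field extension.** -/
theorem genus_le [IsAlgClosed K] [IsAlgClosed Ω] (hLD : LinDisj K F Ω FΩ)
    (hC : Compat K F Ω FΩ) (hGEN : Gen F Ω FΩ) (hFF : IsFF K F) {g : ℕ} {c : ℤ}
    (hg : ∀ D : Divisor K F, c ≤ Divisor.degree D →
      (Module.finrank K (L D) : ℤ) = Divisor.degree D + 1 - g)
    {g' : ℕ} {c' : ℤ}
    (hg' : ∀ D : Divisor Ω FΩ, c' ≤ Divisor.degree D →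
      (Module.finrank Ω (L D) : ℤ) = Divisor.degree D + 1 - g') :
    g' ≤ g := by
  obtain ⟨x, hx, hfin⟩ := hFF
  exact (genus_le_and_finrank_eq hLD hC hGEN hx hg hg').1

/-- The degree of a chart is preserved under constant field extension. -/
theorem finrank_omega_eq [IsAlgClosed K] [IsAlgClosed Ω] (hLD : LinDisj K F Ω FΩ)
    (hC : Compat K F Ω FΩ) (hGEN : Gen F Ω FΩ) {x : F} (hx : Transcendental K x)
    [Module.Finite K⟮x⟯ F] :
    Module.finrank Ω⟮algebraMap F FΩ x⟯ FΩ = Module.finrank K⟮x⟯ F := by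
  have hFF : IsFF K F := ⟨x, hx, inferInstance⟩
  obtain ⟨g, c, hR⟩ := stmt_FFR_riemann K F hFF
  obtain ⟨g', c', hR'⟩ := stmt_FFR_riemann Ω FΩ (isFF_omega hLD hC hGEN hFF)
  exact (genus_le_and_finrank_eq hLD hC hGEN hx (fun D => (hR D).2) (fun D => (hR' D).2)).2

/-- **RR-OMEGA**: Riemann's inequality over `Ω` with the genus `g` of `F / K`. -/
theorem rr_omega [IsAlgClosed K] [IsAlgClosed Ω] (hLD : LinDisj K F Ω FΩ)
    (hC : Compat K F Ω FΩ) (hGEN : Gen F Ω FΩ) (hFF : IsFF K F) {g : ℕ} {c : ℤ}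
    (hg : ∀ D : Divisor K F, c ≤ Divisor.degree D →
      (Module.finrank K (L D) : ℤ) = Divisor.degree D + 1 - g)
    (D : Divisor Ω FΩ) :
    Divisor.degree D + 1 - g ≤ (Module.finrank Ω (L D) : ℤ) := by
  obtain ⟨g', c', hR'⟩ := stmt_FFR_riemann Ω FΩ (isFF_omega hLD hC hGEN hFF)
  have h1 := genus_le hLD hC hGEN hFF hg (fun D => (hR' D).2)
  have h2 := (hR' D).1
  have h3 : (g' : ℤ) ≤ (g : ℤ) := by exact_mod_cast h1
  linarith

/-- **(P3)**: a divisor of `FΩ / Ω` of degree at least the genus of `F / K` has a nonzero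
section. -/
theorem exists_section [IsAlgClosed K] [IsAlgClosed Ω] (hLD : LinDisj K F Ω FΩ)
    (hC : Compat K F Ω FΩ) (hGEN : Gen F Ω FΩ) (hFF : IsFF K F) {g : ℕ} {c : ℤ}
    (hg : ∀ D : Divisor K F, c ≤ Divisor.degree D →
      (Module.finrank K (L D) : ℤ) = Divisor.degree D + 1 - g)
    (D : Divisor Ω FΩ) (hD : (g : ℤ) ≤ Divisor.degree D) :
    ∃ Ψ : FΩ, Ψ ≠ 0 ∧ Ψ ∈ L D := by
  have h1 := rr_omega hLD hC hGEN hFF hg D
  haveI : Module.Finite Ω (L D) := stmt_FFR_finite Ω FΩ (isFF_omega hLD hC hGEN hFF) D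
  have h2 : 0 < Module.finrank Ω (L D) := by
    have : (0 : ℤ) < (Module.finrank Ω (L D) : ℤ) := by linarith
    exact_mod_cast this
  obtain ⟨y, hy⟩ := Module.finrank_pos_iff_exists_ne_zero.1 h2
  exact ⟨(y : FΩ), fun h => hy (Subtype.ext h), y.2⟩

end Fermat.Agent.S26.C.H35
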