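import Mathlib
import Fermat.Agent.S26.C.H35_RROmega
import Fermat.Agent.S26.C.H30_BC

/-!
# S26 (C), package CCC / PRIG (helper6), leaf BC-DEG (helper35)

Setting of helper30's `IsBC`: `K ⊆ Ω`, `F / K` a function field, `FΩ` a fraction field of
`Ω ⊗[K] F` (the function field of the constant curve `X_Ω`).

* `bcO` : the `Ω`-algebra form of `H30.bcMap`, injective (`bcO_injective`);
* `linDisj_of_isBC`, `gen_of_isBC` : `IsBC` gives the hypotheses (LD), (GEN) of `H35_RROmega`;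
* `isFF_of_isBC` : `IsFF Ω FΩ`;
* `stmt_BC_Deg : H30.Stmt_BC_Deg` : `IsFF Ω FΩ` and `[FΩ : Ω(z)] = [F : K(z)]`;
* `stmt_BC : H6.Stmt_BC` (by `H30.stmt_BC_of`).
-/

set_option autoImplicit false
set_option linter.style.haveILetI false

universe u

noncomputable section

open AlgebraicCurve IntermediateField TensorProduct

namespace Fermat.Agent.S26.C.H35d

open Fermat.Agent.S24 Fermat.Agent.S27.REDu Fermat.Agent.S27.REDu.H42 Fermat.Agent.S27.REDu.H51
  Fermat.Agent.S27.REDu.H10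

section Bridge

variable (K F Ω FΩ : Type u) [Field K] [Field F] [Algebra K F] [Field Ω] [Algebra K Ω]
  [Field FΩ] [Algebra Ω FΩ] [Algebra F FΩ] [Algebra K FΩ] [IsScalarTower K F FΩ]
  [IsScalarTower K Ω FΩ]

/-- The `Ω`-algebra form of `H30.bcMap`. -/
def bcO : Ω ⊗[K] F →ₐ[Ω] FΩ :=
  Algebra.TensorProduct.lift (Algebra.ofId Ω FΩ) (IsScalarTower.toAlgHom K F FΩ)
    (fun _ _ => Commute.all _ _)

variable {K F Ω FΩ}

theorem bcO_tmul (ω : Ω) (f : F) :
    bcO K F Ω FΩ (ω ⊗ₜ[K] f) = algebraMap Ω FΩ ω * algebraMap F FΩ f := by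
  simp [bcO, Algebra.ofId_apply]

theorem bcO_eq (t : Ω ⊗[K] F) : bcO K F Ω FΩ t = H30.bcMap K F Ω FΩ t := by
  induction t using TensorProduct.induction_on with
  | zero => rw [map_zero, map_zero]
  | tmul ω f => rw [bcO_tmul, H30.bcMap_tmul]
  | add x y hx hy => rw [map_add, map_add, hx, hy]

theorem bcO_injective (h : H30.IsBC K F Ω FΩ) : Function.Injective (bcO K F Ω FΩ) := by
  intro a b hab
  apply h.inj
  rw [← bcO_eq, ← bcO_eq, hab]

theorem linDisj_of_isBC (h : H30.IsBC K F Ω FΩ) : H35.LinDisj K F Ω FΩ := by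
  intro n v hv
  have h1 : LinearIndependent Ω (fun i => (1 : Ω) ⊗ₜ[K] v i) :=
    Module.Flat.linearIndependent_one_tmul (S := Ω) hv
  have h2 := h1.map' (bcO K F Ω FΩ).toLinearMap (LinearMap.ker_eq_bot.mpr (bcO_injective h))
  have h3 : (⇑(bcO K F Ω FΩ).toLinearMap ∘ fun i => (1 : Ω) ⊗ₜ[K] v i) =
      fun i => algebraMap F FΩ (v i) := by
    funext i
    simp [bcO_tmul]
  rw [h3] at h2
  exact h2

theorem bcMap_mem_adjoin (z : Ω ⊗[K] F) :
    H30.bcMap K F Ω FΩ z ∈ IntermediateField.adjoin Ω (Set.range (algebraMap F FΩ)) := by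
  induction z using TensorProduct.induction_on with
  | zero =>
    rw [map_zero]
    exact zero_mem _
  | tmul ω f =>
    rw [H30.bcMap_tmul]
    exact mul_mem (IntermediateField.algebraMap_mem _ _)
      (IntermediateField.subset_adjoin _ _ ⟨f, rfl⟩)
  | add a b ha hb =>
    rw [map_add]
    exact add_mem ha hb

theorem gen_of_isBC (h : H30.IsBC K F Ω FΩ) : H35.Gen F Ω FΩ := by
  unfold H35.Gen
  rw [eq_top_iff]
  intro t _
  obtain ⟨x, y, hy, hxy⟩ := h.frac t
  have hy0 : H30.bcMap K F Ω FΩ y ≠ 0 := fun h0 => hy (h.inj (by rw [h0, map_zero]))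
  have ht : t = H30.bcMap K F Ω FΩ x / H30.bcMap K F Ω FΩ y := by
    rw [eq_div_iff hy0]
    exact hxy
  rw [ht]
  exact div_mem (bcMap_mem_adjoin x) (bcMap_mem_adjoin y)

theorem isFF_of_isBC (h : H30.IsBC K F Ω FΩ) (hFF : IsFF K F) : IsFF Ω FΩ :=
  H35.isFF_omega (linDisj_of_isBC h) (H35.compat_of_tower K F Ω FΩ) (gen_of_isBC h) hFF

/-- **BC-DEG** (helper30's interface statement). -/
theorem stmt_BC_Deg : H30.Stmt_BC_Deg.{u} := by
  intro K F Ω FΩ _ _ _ _ _ _ _ _ _ _ _ _ _ hBC hFF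
  refine ⟨isFF_of_isBC hBC hFF, ?_⟩
  intro z hz
  obtain ⟨x, hx, hfin⟩ := hFF
  haveI := ff_finite_of_transcendental x hx z hz
  exact ⟨H35.finite_omega (H35.compat_of_tower K F Ω FΩ) (gen_of_isBC hBC) z,
    (H35.finrank_omega_eq (linDisj_of_isBC hBC) (H35.compat_of_tower K F Ω FΩ)
      (gen_of_isBC hBC) hz).symm⟩

/-- **BC** (helper6's interface statement), unconditional. -/
theorem stmt_BC : H6.Stmt_BC.{u} := H30.stmt_BC_of stmt_BC_Deg

end Bridge

end Fermat.Agent.S26.C.H35d
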