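import Mathlib
import Fermat.Agent.S26.C.H35_BCDeg
import Fermat.Agent.S26.C.H29_Rig

/-!
# S26 (C), package CCC / PRIG (helper6), leaf DIAG (helper35)

Setting of helper30's `IsBC`: `K ⊆ Ω`, `F / K` a function field, `FΩ` a fraction field of
`Ω ⊗[K] F` (the function field of the constant curve `X_Ω`), `Ω` algebraically closed.

* `evO e` : the evaluation `Ω ⊗[K] F → Ω` at an `Ω`-point `e : F →ₐ[K] Ω` of `X`;
* `exists_place_of_point` (D1): every `Ω`-point `e : F →ₐ[K] Ω` of `X` is a place `P` of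
  `FΩ / Ω`: `t(P) = (evO e) t` for all `t ∈ Ω ⊗[K] F`; in particular `(ι f)(P) = e f`
  (`IsPointPlace`, `IsPointPlace.mem`, `IsPointPlace.valHom_eq`, `IsPointPlace.quot`);
* `exists_j` (D2): if `E` is a fraction field of `k' ⊗[K] F` and `k' → Ω`, there is a
  field embedding `j : E → FΩ` with `j|F = ι` and `j|k' = (k' → Ω → FΩ)`;
* `exists_diag` (D3): for `Ω ⊇ E` the DIAGONAL place `P_δ` (the generic point of `X` as an
  `Ω`-point): `j E ⊆ O_{P_δ}` and `(j y)(P_δ) = y` for all `y ∈ E`.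
-/

set_option autoImplicit false
set_option linter.style.haveILetI false

universe u

noncomputable section

open AlgebraicCurve IntermediateField TensorProduct

namespace Fermat.Agent.S26.C.H35d

open Fermat.Agent.S24 Fermat.Agent.S27.REDu Fermat.Agent.S27.REDu.H42 Fermat.Agent.S27.REDu.H51
  Fermat.Agent.S27.REDu.H10

section Point

variable {K F Ω FΩ : Type u} [Field K] [Field F] [Algebra K F] [Field Ω] [Algebra K Ω]
  [Field FΩ] [Algebra Ω FΩ] [Algebra F FΩ] [Algebra K FΩ] [IsScalarTower K F FΩ]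
  [IsScalarTower K Ω FΩ]

/-- The evaluation `Ω ⊗[K] F → Ω` at the `Ω`-point `e` of the curve. -/
def evO (e : F →ₐ[K] Ω) : Ω ⊗[K] F →ₐ[Ω] Ω :=
  Algebra.TensorProduct.lift (AlgHom.id Ω Ω) e (fun _ _ => Commute.all _ _)

theorem evO_tmul (e : F →ₐ[K] Ω) (ω : Ω) (f : F) : evO e (ω ⊗ₜ[K] f) = ω * e f := by
  simp [evO]

/-- `P` is the place of `FΩ / Ω` of the `Ω`-point `e`: every `t ∈ Ω ⊗[K] F` has the value
`evO e t` at `P`. -/
def IsPointPlace (e : F →ₐ[K] Ω) (P : Place Ω FΩ) : Prop :=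
  ∀ t : Ω ⊗[K] F, OrdGe P 1 (H30.bcMap K F Ω FΩ t - algebraMap Ω FΩ (evO e t))

theorem ordGe_one_of_mem_nonunits (P : Place Ω FΩ) {a : FΩ}
    (ha : a ∈ P.toValuationSubring.nonunits) : OrdGe P 1 a := by
  obtain ⟨ha', hm⟩ := ValuationSubring.mem_nonunits_iff_exists_mem_maximalIdeal.1 ha
  exact (ordGe_one_iff_mem_maximalIdeal P ⟨a, ha'⟩).2 hm

theorem ne_top_of_mem_nonunits (O : ValuationSubring FΩ) {a : FΩ} (ha : a ∈ O.nonunits)
    (ha0 : a ≠ 0) : O ≠ ⊤ := by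
  intro htop
  rcases (ValuationSubring.mem_nonunits_iff_or O).1 ha with h | h
  · exact ha0 h
  · apply h
    rw [htop]
    exact ValuationSubring.mem_top _

/-- **DIAG (D1)**: every `Ω`-point of the curve is a place of `FΩ / Ω`. -/
theorem exists_place_of_point [IsAlgClosed Ω] (hBC : H30.IsBC K F Ω FΩ) (hFF : IsFF K F)
    (e : F →ₐ[K] Ω) : ∃ P : Place Ω FΩ, IsPointPlace e P := by
  classical
  have hFF' : IsFF Ω FΩ := isFF_of_isBC hBC hFF
  let B : Subalgebra Ω FΩ := (bcO K F Ω FΩ).range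
  let eqv : (Ω ⊗[K] F) ≃ₐ[Ω] B := AlgEquiv.ofInjective (bcO K F Ω FΩ) (bcO_injective hBC)
  let φ : B →ₐ[Ω] Ω := (evO e).comp (eqv.symm : B →ₐ[Ω] (Ω ⊗[K] F))
  obtain ⟨O, hO, hcen⟩ := H29.exists_kplace (K := Ω) (Ω := FΩ) B φ
  have hval : ∀ t : Ω ⊗[K] F,
      H30.bcMap K F Ω FΩ t - algebraMap Ω FΩ (evO e t) ∈ O.nonunits := by
    intro t
    have h1 := hcen (eqv t)
    have h2 : ((eqv t : B) : FΩ) = H30.bcMap K F Ω FΩ t := by
      rw [← bcO_eq]
      rfl
    have h3 : φ (eqv t) = evO e t := by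
      show evO e (eqv.symm (eqv t)) = evO e t
      rw [AlgEquiv.symm_apply_apply]
    rw [h2, h3] at h1
    exact h1
  -- `O` is not trivial
  obtain ⟨x, hx, hfin⟩ := hFF
  have hx' : Transcendental Ω (algebraMap F FΩ x) :=
    H35.transcendental_map (linDisj_of_isBC hBC) hx
  have hne : O ≠ ⊤ := by
    have h1 := hval ((1 : Ω) ⊗ₜ[K] x - e x ⊗ₜ[K] (1 : F))
    rw [map_sub, map_sub, H30.bcMap_tmul, H30.bcMap_tmul, evO_tmul, evO_tmul, map_one, map_one,
      map_one, one_mul, mul_one, one_mul, mul_one, sub_self, map_zero, sub_zero] at h1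
    refine ne_top_of_mem_nonunits O h1 ?_
    intro h0
    apply hx'
    rw [sub_eq_zero] at h0
    rw [h0]
    exact isAlgebraic_algebraMap _
  obtain ⟨P, hP⟩ := exists_place_eq hFF' O hO.1 hne
  refine ⟨P, fun t => ordGe_one_of_mem_nonunits P ?_⟩
  rw [hP]
  exact hval t

/-! ### Values at a point place -/

theorem IsPointPlace.mem {e : F →ₐ[K] Ω} {P : Place Ω FΩ} (hP : IsPointPlace e P)
    (t : Ω ⊗[K] F) : H30.bcMap K F Ω FΩ t ∈ P.toValuationSubring :=
  mem_of_ordGe_one_sub P (hP t)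

theorem IsPointPlace.valHom_eq {e : F →ₐ[K] Ω} {P : Place Ω FΩ} (hP : IsPointPlace e P)
    (hdeg : P.deg = 1) (t : Ω ⊗[K] F) :
    valHom P hdeg ⟨H30.bcMap K F Ω FΩ t, hP.mem t⟩ = evO e t :=
  valHom_eq_of_ordGe P hdeg ⟨H30.bcMap K F Ω FΩ t, hP.mem t⟩ (hP t)

theorem IsPointPlace.ordGe_algebraMap {e : F →ₐ[K] Ω} {P : Place Ω FΩ} (hP : IsPointPlace e P)
    (f : F) : OrdGe P 1 (algebraMap F FΩ f - algebraMap Ω FΩ (e f)) := by
  have h1 := hP ((1 : Ω) ⊗ₜ[K] f)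
  rw [H30.bcMap_tmul, evO_tmul, map_one, one_mul, one_mul] at h1
  exact h1

theorem IsPointPlace.algebraMap_mem {e : F →ₐ[K] Ω} {P : Place Ω FΩ} (hP : IsPointPlace e P)
    (f : F) : algebraMap F FΩ f ∈ P.toValuationSubring :=
  mem_of_ordGe_one_sub P (hP.ordGe_algebraMap f)

theorem IsPointPlace.valHom_algebraMap {e : F →ₐ[K] Ω} {P : Place Ω FΩ}
    (hP : IsPointPlace e P) (hdeg : P.deg = 1) (f : F) :
    valHom P hdeg ⟨algebraMap F FΩ f, hP.algebraMap_mem f⟩ = e f :=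
  valHom_eq_of_ordGe P hdeg ⟨algebraMap F FΩ f, hP.algebraMap_mem f⟩ (hP.ordGe_algebraMap f)

/-- Quotients: if `b` has a nonzero value at `P`, then `a / b` is regular at `P` with value
`a(P) / b(P)`. -/
theorem div_mem_and_valHom (P : Place Ω FΩ) (hdeg : P.deg = 1) {a b : FΩ}
    (ha : a ∈ P.toValuationSubring) (hb : b ∈ P.toValuationSubring)
    (hb0 : valHom P hdeg ⟨b, hb⟩ ≠ 0) :
    ∃ h : a / b ∈ P.toValuationSubring,
      valHom P hdeg ⟨a / b, h⟩ = valHom P hdeg ⟨a, ha⟩ / valHom P hdeg ⟨b, hb⟩ := by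
  have hu : IsUnit (⟨b, hb⟩ : ↥P.toValuationSubring) := by
    rw [← IsLocalRing.notMem_maximalIdeal, ← H6.valHom_eq_zero_iff P hdeg]
    exact hb0
  obtain ⟨u, hu'⟩ := hu
  have h1 : (u : ↥P.toValuationSubring) * ((u⁻¹ : (↥P.toValuationSubring)ˣ) :
      ↥P.toValuationSubring) = 1 := u.mul_inv
  have hb1 : b * (((u⁻¹ : (↥P.toValuationSubring)ˣ) : ↥P.toValuationSubring) : FΩ) = 1 := by
    have h2 := congrArg (fun z : ↥P.toValuationSubring => (z : FΩ)) h1
    simp only [MulMemClass.coe_mul, OneMemClass.coe_one] at h2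
    rw [hu'] at h2
    exact h2
  have hbne : b ≠ 0 := by
    intro h0
    rw [h0, zero_mul] at hb1
    exact zero_ne_one hb1
  have hinv : b⁻¹ = (((u⁻¹ : (↥P.toValuationSubring)ˣ) : ↥P.toValuationSubring) : FΩ) :=
    inv_eq_of_mul_eq_one_right hb1
  have hbi : b⁻¹ ∈ P.toValuationSubring := by
    rw [hinv]
    exact Subtype.coe_prop _
  have hab : a / b ∈ P.toValuationSubring := by
    rw [div_eq_mul_inv]
    exact mul_mem ha hbi
  refine ⟨hab, ?_⟩
  have h3 : (⟨a / b, hab⟩ : ↥P.toValuationSubring) * ⟨b, hb⟩ = ⟨a, ha⟩ :=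
    Subtype.ext (div_mul_cancel₀ a hbne)
  have h4 := congrArg (valHom P hdeg) h3
  rw [map_mul] at h4
  rw [eq_div_iff hb0]
  exact h4

end Point

/-! ## The embedding `j : E → FΩ` (D2) -/

section J

variable {K F k' E Ω FΩ : Type u} [Field K] [Field F] [Algebra K F]
  [Field k'] [Algebra K k'] [Field E] [Algebra k' E] [Algebra F E] [Algebra K E]
  [IsScalarTower K F E] [IsScalarTower K k' E]
  [Field Ω] [Algebra K Ω] [Algebra k' Ω] [IsScalarTower K k' Ω]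
  [Field FΩ] [Algebra Ω FΩ] [Algebra F FΩ] [Algebra K FΩ] [IsScalarTower K F FΩ]
  [IsScalarTower K Ω FΩ]

variable (K F k' Ω) in
/-- The map `k' ⊗[K] F → Ω ⊗[K] F`. -/
def tmap : k' ⊗[K] F →ₐ[K] Ω ⊗[K] F :=
  Algebra.TensorProduct.map (IsScalarTower.toAlgHom K k' Ω) (AlgHom.id K F)

theorem tmap_tmul (c : k') (f : F) : tmap K F k' Ω (c ⊗ₜ[K] f) = algebraMap k' Ω c ⊗ₜ[K] f := by
  simp [tmap]

theorem tmap_injective : Function.Injective (tmap K F k' Ω) := by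
  have h := Module.Flat.rTensor_preserves_injective_linearMap (M := F)
    ((IsScalarTower.toAlgHom K k' Ω).toLinearMap) (algebraMap k' Ω).injective
  intro x y hxy
  apply h
  have hx : ∀ z : k' ⊗[K] F,
      ((IsScalarTower.toAlgHom K k' Ω).toLinearMap.rTensor F) z = tmap K F k' Ω z := by
    intro z
    induction z using TensorProduct.induction_on with
    | zero => simp
    | tmul a b => simp [tmap]
    | add z w hz hw => rw [map_add, map_add, hz, hw]
  rw [hx, hx, hxy]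

variable (K F k' Ω FΩ) in
/-- The map `k' ⊗[K] F → FΩ`. -/
def gmap : k' ⊗[K] F →+* FΩ :=
  ((H30.bcMap K F Ω FΩ : Ω ⊗[K] F →+* FΩ)).comp (tmap K F k' Ω : k' ⊗[K] F →+* Ω ⊗[K] F)

theorem gmap_apply (t : k' ⊗[K] F) :
    gmap K F k' Ω FΩ t = H30.bcMap K F Ω FΩ (tmap K F k' Ω t) := rfl

theorem gmap_injective (hBC : H30.IsBC K F Ω FΩ) : Function.Injective (gmap K F k' Ω FΩ) :=
  fun _ _ h => tmap_injective (hBC.inj h)

/-- **DIAG (D2)**: the embedding `j : E → FΩ` of a fraction field `E` of `k' ⊗[K] F`,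
`k' → Ω`. -/
theorem exists_j (hE : H30.IsBC K F k' E) (hBC : H30.IsBC K F Ω FΩ) :
    ∃ j : E →+* FΩ,
      (∀ t : k' ⊗[K] F, j (H30.bcMap K F k' E t) = H30.bcMap K F Ω FΩ (tmap K F k' Ω t)) ∧
      (∀ f : F, j (algebraMap F E f) = algebraMap F FΩ f) ∧
      (∀ c : k', j (algebraMap k' E c) = algebraMap Ω FΩ (algebraMap k' Ω c)) := by
  classical
  letI : Algebra (k' ⊗[K] F) E := (H30.bcMap K F k' E : k' ⊗[K] F →+* E).toAlgebra
  have halg : ∀ t : k' ⊗[K] F, algebraMap (k' ⊗[K] F) E t = H30.bcMap K F k' E t :=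
    fun t => rfl
  haveI : IsDomain (k' ⊗[K] F) :=
    Function.Injective.isDomain (H30.bcMap K F k' E : k' ⊗[K] F →+* E) hE.inj
  haveI : IsFractionRing (k' ⊗[K] F) E := by
    refine (isLocalization_iff (M := nonZeroDivisors (k' ⊗[K] F)) (S := E)).2 ⟨?_, ?_, ?_⟩
    · intro y
      rw [halg]
      refine IsUnit.mk0 _ fun h0 => ?_
      exact nonZeroDivisors.ne_zero y.2 (hE.inj (by rw [h0, map_zero]))
    · intro z
      obtain ⟨x, y, hy, hxy⟩ := hE.frac z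
      exact ⟨(x, ⟨y, mem_nonZeroDivisors_of_ne_zero hy⟩), hxy⟩
    · intro x y h
      exact ⟨1, by rw [hE.inj h]⟩
  have hj : ∀ t : k' ⊗[K] F,
      IsFractionRing.lift (gmap_injective (k' := k') hBC) (H30.bcMap K F k' E t) =
        H30.bcMap K F Ω FΩ (tmap K F k' Ω t) := by
    intro t
    rw [← halg, IsFractionRing.lift_algebraMap]
    rfl
  refine ⟨IsFractionRing.lift (gmap_injective (k' := k') hBC), hj, ?_, ?_⟩
  · intro f
    have h1 := hj ((1 : k') ⊗ₜ[K] f)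
    rw [H30.bcMap_tmul, tmap_tmul, H30.bcMap_tmul, map_one, map_one, map_one, one_mul,
      one_mul] at h1
    exact h1
  · intro c
    have h1 := hj (c ⊗ₜ[K] (1 : F))
    rw [H30.bcMap_tmul, tmap_tmul, H30.bcMap_tmul, map_one, map_one, mul_one, mul_one] at h1
    exact h1

end J

/-! ## The diagonal place (D3) -/

section Diag

variable {K F k' E Ω FΩ : Type u} [Field K] [Field F] [Algebra K F]
  [Field k'] [Algebra K k'] [Field E] [Algebra k' E] [Algebra F E] [Algebra K E]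
  [IsScalarTower K F E] [IsScalarTower K k' E]
  [Field Ω] [Algebra K Ω] [Algebra k' Ω] [IsScalarTower K k' Ω]
  [Algebra E Ω] [IsScalarTower K E Ω] [IsScalarTower k' E Ω]
  [Field FΩ] [Algebra Ω FΩ] [Algebra F FΩ] [Algebra K FΩ] [IsScalarTower K F FΩ]
  [IsScalarTower K Ω FΩ]

variable (K F E Ω) in
/-- The generic point of the curve as an `Ω`-point (`F ⊆ E ⊆ Ω`). -/
def diagPt : F →ₐ[K] Ω :=
  (IsScalarTower.toAlgHom K E Ω).comp (IsScalarTower.toAlgHom K F E)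

theorem diagPt_apply (f : F) : diagPt K F E Ω f = algebraMap E Ω (algebraMap F E f) := rfl

theorem evO_diagPt_tmap (t : k' ⊗[K] F) :
    evO (diagPt K F E Ω) (tmap K F k' Ω t) = algebraMap E Ω (H30.bcMap K F k' E t) := by
  induction t using TensorProduct.induction_on with
  | zero => rw [map_zero, map_zero, map_zero, map_zero]
  | tmul c f =>
    rw [tmap_tmul, evO_tmul, H30.bcMap_tmul, diagPt_apply, map_mul,
      ← IsScalarTower.algebraMap_apply k' E Ω]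
  | add x y hx hy => rw [map_add, map_add, map_add, map_add, hx, hy]

/-- **DIAG (D3)**: at a place `P` of the diagonal point every `j y`, `y ∈ E`, is regular with
value `y`. -/
theorem IsPointPlace.diag_value {P : Place Ω FΩ} (hP : IsPointPlace (diagPt K F E Ω) P)
    (hdeg : P.deg = 1) (hE : H30.IsBC K F k' E) (j : E →+* FΩ)
    (hj : ∀ t : k' ⊗[K] F, j (H30.bcMap K F k' E t) = H30.bcMap K F Ω FΩ (tmap K F k' Ω t))
    (y : E) :
    ∃ h : j y ∈ P.toValuationSubring, valHom P hdeg ⟨j y, h⟩ = algebraMap E Ω y := by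
  obtain ⟨a, b, hb, hab⟩ := hE.frac y
  have hB0 : H30.bcMap K F k' E b ≠ 0 := fun h0 => hb (hE.inj (by rw [h0, map_zero]))
  have hy : y = H30.bcMap K F k' E a / H30.bcMap K F k' E b := by
    rw [eq_div_iff hB0]
    exact hab
  have hjy : j y = H30.bcMap K F Ω FΩ (tmap K F k' Ω a) / H30.bcMap K F Ω FΩ (tmap K F k' Ω b) := by
    rw [hy, map_div₀, hj, hj]
  have hvb : valHom P hdeg ⟨H30.bcMap K F Ω FΩ (tmap K F k' Ω b), hP.mem _⟩ ≠ 0 := by
    rw [hP.valHom_eq hdeg, evO_diagPt_tmap]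
    exact (_root_.map_ne_zero (algebraMap E Ω)).2 hB0
  obtain ⟨h1, h2⟩ := div_mem_and_valHom P hdeg (hP.mem (tmap K F k' Ω a))
    (hP.mem (tmap K F k' Ω b)) hvb
  rw [hP.valHom_eq hdeg, hP.valHom_eq hdeg, evO_diagPt_tmap, evO_diagPt_tmap,
    ← map_div₀ (algebraMap E Ω), ← hy] at h2
  have h3 : j y ∈ P.toValuationSubring := by
    rw [hjy]
    exact h1
  refine ⟨h3, ?_⟩
  rw [← h2]
  congr 1
  exact Subtype.ext hjy

theorem IsPointPlace.diag_mem {P : Place Ω FΩ} (hP : IsPointPlace (diagPt K F E Ω) P)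
    (hdeg : P.deg = 1) (hE : H30.IsBC K F k' E) (j : E →+* FΩ)
    (hj : ∀ t : k' ⊗[K] F, j (H30.bcMap K F k' E t) = H30.bcMap K F Ω FΩ (tmap K F k' Ω t))
    (y : E) : j y ∈ P.toValuationSubring :=
  (hP.diag_value hdeg hE j hj y).1

theorem IsPointPlace.diag_ordGe {P : Place Ω FΩ} (hP : IsPointPlace (diagPt K F E Ω) P)
    (hdeg : P.deg = 1) (hE : H30.IsBC K F k' E) (j : E →+* FΩ)
    (hj : ∀ t : k' ⊗[K] F, j (H30.bcMap K F k' E t) = H30.bcMap K F Ω FΩ (tmap K F k' Ω t))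
    (y : E) : OrdGe P 1 (j y - algebraMap Ω FΩ (algebraMap E Ω y)) := by
  obtain ⟨h, hv⟩ := hP.diag_value hdeg hE j hj y
  have h1 := ordGe_sub_valHom P hdeg ⟨j y, h⟩
  rw [hv] at h1
  exact h1

/-- The restriction of the diagonal place to `j E` is trivial: `V_{P_δ} = E`. -/
theorem IsPointPlace.diag_comap {P : Place Ω FΩ} (hP : IsPointPlace (diagPt K F E Ω) P)
    (hdeg : P.deg = 1) (hE : H30.IsBC K F k' E) (j : E →+* FΩ)
    (hj : ∀ t : k' ⊗[K] F, j (H30.bcMap K F k' E t) = H30.bcMap K F Ω FΩ (tmap K F k' Ω t)) :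
    P.toValuationSubring.comap j = ⊤ := by
  rw [eq_top_iff]
  intro y _
  exact hP.diag_mem hdeg hE j hj y

/-- every nonzero `j y` is a unit at the diagonal place -/
theorem IsPointPlace.diag_ord {P : Place Ω FΩ} (hP : IsPointPlace (diagPt K F E Ω) P)
    (hdeg : P.deg = 1) (hE : H30.IsBC K F k' E) (j : E →+* FΩ)
    (hj : ∀ t : k' ⊗[K] F, j (H30.bcMap K F k' E t) = H30.bcMap K F Ω FΩ (tmap K F k' Ω t))
    {y : E} (hy : y ≠ 0) : P.ord (j y) = 0 := by
  have hjy : j y ≠ 0 := (_root_.map_ne_zero j).2 hy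
  have h1 := (mem_iff_ord_nonneg P hjy).1 (hP.diag_mem hdeg hE j hj y)
  have hjy' : j y⁻¹ ≠ 0 := (_root_.map_ne_zero j).2 (inv_ne_zero hy)
  have h2 := (mem_iff_ord_nonneg P hjy').1 (hP.diag_mem hdeg hE j hj y⁻¹)
  rw [map_inv₀, P.ord_inv] at h2
  omega

/-- **DIAG**: the embedding `j` and the diagonal place `P_δ`, with all their properties. -/
theorem exists_diag [IsAlgClosed Ω] (hE : H30.IsBC K F k' E) (hBC : H30.IsBC K F Ω FΩ)
    (hFF : IsFF K F) :
    ∃ (j : E →+* FΩ) (P : Place Ω FΩ) (hdeg : P.deg = 1),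
      (∀ f : F, j (algebraMap F E f) = algebraMap F FΩ f) ∧
      (∀ c : k', j (algebraMap k' E c) = algebraMap Ω FΩ (algebraMap k' Ω c)) ∧
      (∀ t : k' ⊗[K] F, j (H30.bcMap K F k' E t) = H30.bcMap K F Ω FΩ (tmap K F k' Ω t)) ∧
      IsPointPlace (diagPt K F E Ω) P ∧
      (∀ y : E, ∃ h : j y ∈ P.toValuationSubring,
        valHom P hdeg ⟨j y, h⟩ = algebraMap E Ω y) ∧
      P.toValuationSubring.comap j = ⊤ := by
  obtain ⟨j, hj, hjF, hjk⟩ := exists_j (k' := k') hE hBC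
  obtain ⟨P, hP⟩ := exists_place_of_point hBC hFF (diagPt K F E Ω)
  have hdeg : P.deg = 1 := stmt_FFB_deg Ω FΩ (isFF_of_isBC hBC hFF) P
  exact ⟨j, P, hdeg, hjF, hjk, hj, hP, fun y => hP.diag_value hdeg hE j hj y,
    hP.diag_comap hdeg hE j hj⟩

end Diag

end Fermat.Agent.S26.C.H35d
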