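import Mathlib

/-!
# S26, crux (C), abstract leaf R2-LOC (helper61): the corank-one lemma

`O` a domain, `φ : O →+* k` a surjective ring homomorphism to a field such that every element with
nonzero image is a unit (`O` local, `φ` the residue map), `M` a matrix over `O`.

If `M` has a nontrivial kernel over `O` and the kernel of the specialised matrix `M.map φ` has
dimension at most one, then the kernel of `M` is free of rank one, generated by a vector `v` with a
coordinate equal to `1` (so `v` specialises to a NONZERO vector under EVERY ring homomorphism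
`ψ : O →+* k'`, `k'` nontrivial).

Use (rigidity step of the cube for a curve): `L(Λ_t + E₀)` is the kernel of `M_t`; at a point `t₁`
where it has dimension one the generic section specialises to a nonzero section, so the universal
divisor does not contain the fibre over `t₁` (no semicontinuity theorem needed).
-/

set_option autoImplicit false

open Matrix

namespace Fermat.Agent.S26.C.H61

variable {O k : Type*} [CommRing O] [IsDomain O] [Field k]
  {m n : Type*} [Fintype m] [Fintype n] [DecidableEq m] [DecidableEq n]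

omit [IsDomain O] in
/-- A matrix over `O` whose specialisation is injective has a left inverse over `O`. -/
theorem exists_left_inverse_of_map_injective (φ : O →+* k) (hφs : Function.Surjective φ)
    (hφu : ∀ r, φ r ≠ 0 → IsUnit r) (P : Matrix m n O)
    (hinj : ∀ w : n → k, (P.map φ) *ᵥ w = 0 → w = 0) :
    ∃ G : Matrix n m O, G * P = 1 := by
  classical
  -- a left inverse over `k`
  have hker : LinearMap.ker (Matrix.toLin' (P.map φ)) = ⊥ := by
    rw [LinearMap.ker_eq_bot']
    intro w hw
    exact hinj w (by simpa [Matrix.toLin'_apply] using hw)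
  obtain ⟨g, hg⟩ := LinearMap.exists_leftInverse_of_injective _ hker
  set G0 : Matrix n m k := LinearMap.toMatrix' g with hG0
  have hG0P : G0 * P.map φ = 1 := by
    have h1 : LinearMap.toMatrix' (g ∘ₗ Matrix.toLin' (P.map φ)) = 1 := by
      rw [hg]
      exact LinearMap.toMatrix'_id
    rw [LinearMap.toMatrix'_comp, LinearMap.toMatrix'_toLin'] at h1
    exact h1
  -- lift the entries
  choose G1 hG1 using fun i j => hφs (G0 i j)
  set G : Matrix n m O := Matrix.of G1 with hG
  have hGmap : G.map φ = G0 := by
    ext i j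
    simp [hG, hG1]
  have hdet : IsUnit (G * P).det := by
    apply hφu
    have h2 : φ ((G * P).det) = ((G * P).map φ).det := RingHom.map_det φ (G * P)
    rw [h2, Matrix.map_mul, hGmap, hG0P, Matrix.det_one]
    exact one_ne_zero
  refine ⟨(G * P)⁻¹ * G, ?_⟩
  rw [Matrix.mul_assoc]
  exact Matrix.nonsing_inv_mul _ hdet

omit [Fintype m] [DecidableEq m] in
/-- the row `e_{j₀}` picks the `j₀`-coordinate -/
theorem single_row_mulVec {R : Type*} [CommRing R] (j₀ : n) (w : n → R) :
    (Matrix.of fun _ : Unit => (Pi.single j₀ 1 : n → R)) *ᵥ w = fun _ => w j₀ := by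
  funext i
  simp only [Matrix.mulVec, dotProduct, Matrix.of_apply]
  rw [Finset.sum_eq_single j₀]
  · simp
  · intro b _ hb
    simp [Pi.single_eq_of_ne hb]
  · intro h
    exact absurd (Finset.mem_univ _) h

/-- **R2-LOC, the corank-one lemma.** -/
theorem exists_ker_unit_coord (φ : O →+* k) (hφs : Function.Surjective φ)
    (hφu : ∀ r, φ r ≠ 0 → IsUnit r) (M : Matrix m n O)
    (hker : ∃ u : n → O, u ≠ 0 ∧ M *ᵥ u = 0)
    (hcor : ∀ v w : n → k, (M.map φ) *ᵥ v = 0 → (M.map φ) *ᵥ w = 0 → v ≠ 0 →
      ∃ c : k, w = c • v) :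
    ∃ (j₀ : n) (v : n → O), M *ᵥ v = 0 ∧ v j₀ = 1 ∧ ∀ w : n → O, M *ᵥ w = 0 → w = w j₀ • v := by
  classical
  obtain ⟨u, hu0, hMu⟩ := hker
  -- the index `j₀`
  have hj : ∃ j₀ : n, ∀ w : n → k, (M.map φ) *ᵥ w = 0 → w j₀ = 0 → w = 0 := by
    by_cases h : ∃ v0 : n → k, v0 ≠ 0 ∧ (M.map φ) *ᵥ v0 = 0
    · obtain ⟨v0, hv0, hMv0⟩ := h
      obtain ⟨j₀, hj₀⟩ : ∃ j₀, v0 j₀ ≠ 0 := by
        by_contra hcon
        push Not at hcon
        exact hv0 (funext hcon)
      refine ⟨j₀, fun w hw hwj => ?_⟩
      obtain ⟨c, hc⟩ := hcor v0 w hMv0 hw hv0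
      have hc0 : c = 0 := by
        have h1 : w j₀ = c * v0 j₀ := by rw [hc]; rfl
        rw [hwj] at h1
        rcases mul_eq_zero.mp h1.symm with h2 | h2
        · exact h2
        · exact absurd h2 hj₀
      rw [hc, hc0, zero_smul]
    · push Not at h
      obtain ⟨j₀, -⟩ : ∃ j₀, u j₀ ≠ 0 := by
        by_contra hcon
        push Not at hcon
        exact hu0 (funext hcon)
      refine ⟨j₀, fun w hw _ => ?_⟩
      by_contra hw0
      exact h w hw0 hw
  obtain ⟨j₀, hj₀⟩ := hj
  -- the matrix `Ψ = (M ; e_{j₀})`
  set e : Matrix Unit n O := Matrix.of fun _ => (Pi.single j₀ 1 : n → O) with he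
  set P : Matrix (m ⊕ Unit) n O := Matrix.fromRows M e with hP
  have hemap : e.map φ = Matrix.of fun _ : Unit => (Pi.single j₀ 1 : n → k) := by
    ext i j
    simp only [he, Matrix.map_apply, Matrix.of_apply]
    by_cases hj : j = j₀
    · subst hj
      simp
    · simp [Pi.single_eq_of_ne hj]
  have heval' : ∀ w : n → O, e *ᵥ w = fun _ => w j₀ := by
    intro w
    rw [he]
    exact single_row_mulVec j₀ w
  have hPinj : ∀ w : n → k, (P.map φ) *ᵥ w = 0 → w = 0 := by
    intro w hw
    have hmap : P.map φ = Matrix.fromRows (M.map φ) (e.map φ) := by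
      ext i j
      cases i <;> rfl
    rw [hmap, Matrix.fromRows_mulVec] at hw
    have h1 : (M.map φ) *ᵥ w = 0 := by
      funext i
      have := congrFun hw (Sum.inl i)
      simpa using this
    have h2 : w j₀ = 0 := by
      have := congrFun hw (Sum.inr ())
      simp only [Sum.elim_inr, Pi.zero_apply] at this
      rw [hemap, single_row_mulVec j₀ w] at this
      exact this
    exact hj₀ w h1 h2
  obtain ⟨G, hG⟩ := exists_left_inverse_of_map_injective φ hφs hφu P hPinj
  -- every element of the kernel is its `j₀`-coordinate times `v`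
  set v : n → O := G *ᵥ (Sum.elim (0 : m → O) (fun _ : Unit => (1 : O))) with hv
  have hkey : ∀ w : n → O, M *ᵥ w = 0 → w = w j₀ • v := by
    intro w hw
    have h1 : P *ᵥ w = w j₀ • (Sum.elim (0 : m → O) (fun _ : Unit => (1 : O))) := by
      rw [hP, Matrix.fromRows_mulVec, hw, heval' w]
      funext i
      cases i <;> simp
    calc w = (G * P) *ᵥ w := by rw [hG, Matrix.one_mulVec]
      _ = G *ᵥ (P *ᵥ w) := (Matrix.mulVec_mulVec w G P).symm
      _ = w j₀ • v := by rw [h1, Matrix.mulVec_smul]
  have huj : u j₀ ≠ 0 := by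
    intro h0
    apply hu0
    have := hkey u hMu
    rw [h0, zero_smul] at this
    exact this
  have hMv : M *ᵥ v = 0 := by
    have h1 : M *ᵥ (u j₀ • v) = 0 := by
      rw [← hkey u hMu]
      exact hMu
    rw [Matrix.mulVec_smul] at h1
    funext i
    have := congrFun h1 i
    simp only [Pi.smul_apply, smul_eq_mul, Pi.zero_apply] at this
    rcases mul_eq_zero.mp this with h2 | h2
    · exact absurd h2 huj
    · exact h2
  have hvj : v j₀ = 1 := by
    have h1 := congrFun (hkey u hMu) j₀
    simp only [Pi.smul_apply, smul_eq_mul] at h1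
    have h2 : u j₀ * v j₀ = u j₀ * 1 := by rw [mul_one]; exact h1.symm
    exact mul_left_cancel₀ huj h2
  exact ⟨j₀, v, hMv, hvj, hkey⟩

omit [IsDomain O] [Fintype n] [DecidableEq n] in
/-- The generator specialises to a nonzero vector under every ring homomorphism to a nontrivial
ring: the generic section does not vanish identically on any fibre near the point. -/
theorem map_ne_zero_of_coord_one {R : Type*} [CommRing R] [Nontrivial R] (ψ : O →+* R)
    {j₀ : n} {v : n → O} (hv : v j₀ = 1) : (fun j => ψ (v j)) ≠ 0 := by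
  intro h
  have := congrFun h j₀
  simp only [hv, map_one, Pi.zero_apply] at this
  exact one_ne_zero this

/-- The corank-one lemma for a local domain and its residue field. -/
theorem exists_ker_unit_coord_local [IsLocalRing O] (M : Matrix m n O)
    (hker : ∃ u : n → O, u ≠ 0 ∧ M *ᵥ u = 0)
    (hcor : ∀ v w : n → IsLocalRing.ResidueField O,
      (M.map (IsLocalRing.residue O)) *ᵥ v = 0 → (M.map (IsLocalRing.residue O)) *ᵥ w = 0 →
      v ≠ 0 → ∃ c : IsLocalRing.ResidueField O, w = c • v) :
    ∃ (j₀ : n) (v : n → O), M *ᵥ v = 0 ∧ v j₀ = 1 ∧ ∀ w : n → O, M *ᵥ w = 0 → w = w j₀ • v := by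
  refine exists_ker_unit_coord (IsLocalRing.residue O) IsLocalRing.residue_surjective ?_ M hker hcor
  intro r hr
  by_contra hnu
  exact hr ((IsLocalRing.residue_eq_zero_iff r).mpr ((IsLocalRing.mem_maximalIdeal r).mpr hnu))

omit [Fintype m] [DecidableEq m] [DecidableEq n] in
/-- The hypothesis "nontrivial kernel" may be given over the fraction field. -/
theorem exists_ker_of_frac {F : Type*} [Field F] [Algebra O F] [IsFractionRing O F]
    (M : Matrix m n O)
    (hker : ∃ u : n → F, u ≠ 0 ∧ (M.map (algebraMap O F)) *ᵥ u = 0) :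
    ∃ u : n → O, u ≠ 0 ∧ M *ᵥ u = 0 := by
  classical
  obtain ⟨u, hu0, hMu⟩ := hker
  obtain ⟨b, hb⟩ := IsLocalization.exist_integer_multiples_of_finite (nonZeroDivisors O) u
  choose u' hu' using hb
  have hinj : Function.Injective (algebraMap O F) := IsFractionRing.injective O F
  have hbu : (fun j => algebraMap O F (u' j)) = (algebraMap O F (b : O)) • u := by
    funext j
    rw [hu' j]
    simp [Algebra.smul_def]
  refine ⟨u', ?_, ?_⟩
  · intro h0
    apply hu0
    funext j
    have h1 := congrFun hbu j
    rw [h0] at h1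
    simp only [Pi.zero_apply, map_zero, Pi.smul_apply, smul_eq_mul] at h1
    rcases mul_eq_zero.mp h1.symm with h2 | h2
    · exact absurd (hinj (by rw [h2, map_zero])) (nonZeroDivisors.ne_zero b.2)
    · exact h2
  · funext i
    apply hinj
    have h1 : algebraMap O F ((M *ᵥ u') i) =
        ((M.map (algebraMap O F)) *ᵥ (fun j => algebraMap O F (u' j))) i := by
      simp only [Matrix.mulVec, dotProduct, map_sum, map_mul, Matrix.map_apply]
    rw [h1, hbu, Matrix.mulVec_smul, hMu]
    simp

end Fermat.Agent.S26.C.H61
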