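import Mathlib
import Fermat.Agent.S26.C.Defs
import Fermat.Agent.S26.C.H14_Pull
import Fermat.Agent.S26.C.H69_NormAlg
import Fermat.Agent.S26.C.H69_Centre
import Fermat.Agent.S26.T.H52_FFMap
import Fermat.Agent.S26.G.H80_Centre

/-!
# S26, crux (C), leaf NORM (helper69): the push-down by the norm

`s : X ⟶ A` dominant, generically finite of degree `k = [K(X) : K(A)]`, `X` proper over `K`,
`A` separated over `K` with integrally closed local rings.  If `s^* E = div Ψ` is principal,
then `k E = div (N (Ψ · s^* e₀))`, `e₀ = E (s η_X)`.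

Proof, at every point `x` of `A` (no Weil divisors, no `Σ e f`, no normality of `X`):
`u := s^*(E x) / Ψ'` and `u⁻¹` lie in every valuation ring `W` of `K(X)` containing `𝒪_{A,x}`:
`W` has a centre `y` on `X` (`X` proper), `W ∩ K(A)` dominates `𝒪_{A,s y}` and contains
`𝒪_{A,x}`, so `s y ⤳ x` (`A` separated, `H69_Centre`), so `E x / E (s y)` is a unit at `s y`
(Cartier), and `s^*(E (s y)) / Ψ'` is a unit at `y` by hypothesis.  Hence `u`, `u⁻¹` are integral
over `𝒪_{A,x}`, and `N Ψ' = (unit of 𝒪_{A,x}) · (E x)^k` (`H69_NormAlg`).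
-/

set_option autoImplicit false
set_option linter.style.haveILetI false

open CategoryTheory CategoryTheory.Limits AlgebraicGeometry IsLocalRing NeronModelInfra
  GoodReductionJacobian

universe u

namespace Fermat.Agent.S26.C.H69

/-- integrality from valuation subrings -/
theorem isIntegral_of_forall_valuationSubring {R E : Type*} [CommRing R] [Field E] [Algebra R E]
    {u : E} (h : ∀ V : ValuationSubring E, (∀ a : R, algebraMap R E a ∈ V) → u ∈ V) :
    IsIntegral R u := by
  by_contra hu
  have hu' : u ∉ (integralClosure R E).toSubring := hu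
  obtain ⟨V, hV, huV⟩ := Subring.exists_le_valuationSubring_of_isIntegrallyClosedIn hu'
  exact huV (h V fun a => hV (isIntegral_algebraMap (R := R) (A := E) (x := a)))

section Lang

variable {X Y : Scheme.{u}} [IsIntegral X] [IsIntegral Y]

/-- every function is regular at the generic point -/
theorem isRegAt_genericPoint (h : Y.functionField) : IsRegAt (genericPoint Y) h := by
  refine ⟨h, ?_⟩
  show Y.presheaf.stalkSpecializes (genericPoint_specializes (genericPoint Y)) h = h
  rw [TopCat.Presheaf.stalkSpecializes_refl]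
  rfl

/-- for a dominant morphism `pullFun` is the map of function fields -/
theorem pullFun_eq_ffMap (φ : X ⟶ Y) (hφ : T.IsDom φ) (h : Y.functionField) :
    pullFun φ h = T.ffMap φ hφ h := by
  have hη : φ (genericPoint X) = genericPoint Y := (T.H52.isDom_iff φ).1 hφ
  have hr : IsRegAt (φ (genericPoint X)) h := by
    rw [hη]
    exact isRegAt_genericPoint h
  unfold pullFun
  rw [dif_pos hr]
  have e := T.H52.ffMap_stalk φ hφ (genericPoint X) hr.choose
  rw [hr.choose_spec] at e
  rw [e]
  show _ = X.presheaf.stalkSpecializes (genericPoint_specializes (genericPoint X)) _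
  rw [TopCat.Presheaf.stalkSpecializes_refl]
  rfl

/-- a unit at `y` and its inverse lie in every valuation ring containing `𝒪_{X,y}` -/
theorem mem_of_isUnitAt (W : ValuationSubring X.functionField) (y : X)
    (hy : ∀ a : X.presheaf.stalk y, algebraMap (X.presheaf.stalk y) X.functionField a ∈ W)
    {h : X.functionField} (hh : IsUnitAt y h) : h ∈ W ∧ h⁻¹ ∈ W := by
  refine ⟨?_, ?_⟩
  · obtain ⟨a, -, rfl⟩ := hh
    exact hy a
  · obtain ⟨a, -, ha⟩ := H14.isUnitAt_inv hh
    rw [← ha]
    exact hy a

/-- the constants are regular at every point -/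
theorem constHom_mem_range {K : Type u} [Field K] (f : Y ⟶ Spec (CommRingCat.of K)) (x : Y)
    (c : K) : ∃ a : Y.presheaf.stalk x,
      algebraMap (Y.presheaf.stalk x) Y.functionField a = constHom f c := by
  haveI : Nonempty (⊤ : Y.Opens) := ⟨⟨Classical.arbitrary Y, trivial⟩⟩
  refine ⟨Y.presheaf.germ ⊤ x trivial
    ((f.appTop).hom ((Scheme.ΓSpecIso (CommRingCat.of K)).inv.hom c)), ?_⟩
  rw [Scheme.algebraMap_germ_eq_germToFunctionField Y (U := ⊤) trivial]
  rfl

end Lang

section Centre

variable {K : Type u} [Field K] {A X : Scheme.{u}} (f : A ⟶ Spec (CommRingCat.of K))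
  (fX : X ⟶ Spec (CommRingCat.of K)) [IsIntegral A] [IsIntegral X]

/-- **The centre lies over a generisation of `x`**: a valuation ring `W` of `K(X)` containing
(the image of) `𝒪_{A,x}` has a centre `y` on `X` with `s y ⤳ x`. -/
theorem exists_centre_over [IsSeparated f] [UniversallyClosed fX] (s : SchemeHomOver fX f)
    (hdom : T.IsDom s.1) (W : ValuationSubring X.functionField) (x : A)
    (hW : ∀ a : A.presheaf.stalk x,
      T.ffMap s.1 hdom (algebraMap (A.presheaf.stalk x) A.functionField a) ∈ W) :
    ∃ y : X,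
      (∀ b : X.presheaf.stalk y, algebraMap (X.presheaf.stalk y) X.functionField b ∈ W) ∧
      s.1 y ⤳ x := by
  have hc : ∀ c : K, constHom fX c ∈ W := by
    intro c
    obtain ⟨a, ha⟩ := constHom_mem_range f x c
    have e := T.H52.ffMap_constHom f s.1 hdom c
    rw [s.2] at e
    rw [← e, ← ha]
    exact hW a
  obtain ⟨y, hy1, hy2⟩ := G.H80.exists_centre fX W hc
  refine ⟨y, hy1, ?_⟩
  let W' : ValuationSubring A.functionField := W.comap (T.ffMap s.1 hdom)
  have hx : ∀ a : A.presheaf.stalk x,
      algebraMap (A.presheaf.stalk x) A.functionField a ∈ W' := fun a =>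
    ValuationSubring.mem_comap.2 (hW a)
  have hx' : ∀ a : A.presheaf.stalk (s.1 y),
      algebraMap (A.presheaf.stalk (s.1 y)) A.functionField a ∈ W' := by
    intro a
    refine ValuationSubring.mem_comap.2 ?_
    rw [T.H52.ffMap_stalk s.1 hdom y a]
    exact hy1 _
  have hd : ∀ a : A.presheaf.stalk (s.1 y), a ∈ maximalIdeal (A.presheaf.stalk (s.1 y)) →
      algebraMap (A.presheaf.stalk (s.1 y)) A.functionField a ∈ W'.nonunits := by
    intro a ha
    have h1 : (s.1.stalkMap y).hom a ∈ maximalIdeal (X.presheaf.stalk y) := by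
      rw [mem_maximalIdeal, mem_nonunits_iff] at ha ⊢
      intro hu
      exact ha (isUnit_of_map_unit (s.1.stalkMap y).hom a hu)
    have h2 := hy2 _ h1
    rw [← T.H52.ffMap_stalk s.1 hdom y a] at h2
    rw [ValuationSubring.mem_nonunits_iff_or] at h2 ⊢
    rcases h2 with h2 | h2
    · left
      exact (map_eq_zero (T.ffMap s.1 hdom)).1 h2
    · right
      intro h3
      apply h2
      have h4 := ValuationSubring.mem_comap.1 h3
      rwa [map_inv₀] at h4
  exact specializes_of_centre f W' x (s.1 y) hx hx' hd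

end Centre

/-- **NORM**: the push-down by the norm. -/
theorem stmt_NORM : Stmt_NORM.{u} := by
  intro K _ _ A f _ _ _ _ hNA X fX _ _ _ _ s hdom hfin E hE hP
  letI algFE : Algebra A.functionField X.functionField := (T.ffMap s.1 hdom).toAlgebra
  haveI : FiniteDimensional A.functionField X.functionField := hfin
  obtain ⟨Ψ, hΨ0, hΨ⟩ := hP
  set e₀ : A.functionField := E (s.1 (genericPoint X)) with he₀
  have he₀0 : e₀ ≠ 0 := hE.1 _
  set Ψ' : X.functionField := Ψ * T.ffMap s.1 hdom e₀ with hΨ'
  have hΨ'0 : Ψ' ≠ 0 := mul_ne_zero hΨ0 ((map_ne_zero (T.ffMap s.1 hdom)).2 he₀0)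
  have hN0 : Algebra.norm A.functionField Ψ' ≠ 0 := Algebra.norm_ne_zero_iff.2 hΨ'0
  refine ⟨Algebra.norm A.functionField Ψ', hN0, fun x => ?_⟩
  -- the local ring at `x`
  haveI : IsIntegrallyClosed (A.presheaf.stalk x) := (hNA x).1
  letI algRE : Algebra (A.presheaf.stalk x) X.functionField :=
    ((T.ffMap s.1 hdom).comp (algebraMap (A.presheaf.stalk x) A.functionField)).toAlgebra
  haveI : IsScalarTower (A.presheaf.stalk x) A.functionField X.functionField :=
    IsScalarTower.of_algebraMap_eq (fun _ => rfl)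
  -- the key: `s^*(E x) / Ψ'` is a unit at the centre of every valuation ring over `𝒪_{A,x}`
  have key : ∀ V : ValuationSubring X.functionField,
      (∀ a : A.presheaf.stalk x, algebraMap (A.presheaf.stalk x) X.functionField a ∈ V) →
      (T.ffMap s.1 hdom (E x) / Ψ') ∈ V ∧ (T.ffMap s.1 hdom (E x) / Ψ')⁻¹ ∈ V := by
    intro V hV
    obtain ⟨y, hy1, hy2⟩ := exists_centre_over f fX s hdom V x hV
    have h1 : IsUnitAt y (pullFun s.1 (E x / E (s.1 y))) :=
      H14.isUnitAt_pullFun s.1 y (H14.isUnitAt_div_of_isCartier hE hy2)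
    have h2 : IsUnitAt y (pull s.1 E y / Ψ) := hΨ y
    have h3 := H14.isUnitAt_mul h1 h2
    have hEy : T.ffMap s.1 hdom (E (s.1 y)) ≠ 0 := (map_ne_zero (T.ffMap s.1 hdom)).2 (hE.1 _)
    have he₀' : T.ffMap s.1 hdom e₀ ≠ 0 := (map_ne_zero (T.ffMap s.1 hdom)).2 he₀0
    have e : pullFun s.1 (E x / E (s.1 y)) * (pull s.1 E y / Ψ) =
        T.ffMap s.1 hdom (E x) / Ψ' := by
      rw [H14.pull_apply, ← he₀, pullFun_eq_ffMap s.1 hdom, pullFun_eq_ffMap s.1 hdom,
        map_div₀, map_div₀, hΨ']
      field_simp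
    rw [e] at h3
    exact mem_of_isUnitAt V y hy1 h3
  have hi1 : IsIntegral (A.presheaf.stalk x)
      (Ψ' / algebraMap A.functionField X.functionField (E x)) := by
    apply isIntegral_of_forall_valuationSubring
    intro V hV
    have h := (key V hV).2
    rwa [inv_div] at h
  have hi2 : IsIntegral (A.presheaf.stalk x)
      (algebraMap A.functionField X.functionField (E x) / Ψ') := by
    apply isIntegral_of_forall_valuationSubring
    intro V hV
    exact (key V hV).1
  obtain ⟨r, hr⟩ := norm_eq_unit_mul_pow (R := A.presheaf.stalk x) (hE.1 x) hΨ'0 hi1 hi2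
  refine ⟨((r⁻¹ : (A.presheaf.stalk x)ˣ) : A.presheaf.stalk x), Units.isUnit _, ?_⟩
  have hr0 : algebraMap (A.presheaf.stalk x) A.functionField (r : A.presheaf.stalk x) ≠ 0 :=
    ((r.isUnit).map (algebraMap (A.presheaf.stalk x) A.functionField)).ne_zero
  have hpow : (E x) ^ Module.finrank A.functionField X.functionField ≠ 0 := pow_ne_zero _ (hE.1 x)
  have hinv : algebraMap (A.presheaf.stalk x) A.functionField
      ((r⁻¹ : (A.presheaf.stalk x)ˣ) : A.presheaf.stalk x) =
      (algebraMap (A.presheaf.stalk x) A.functionField (r : A.presheaf.stalk x))⁻¹ := by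
    apply eq_inv_of_mul_eq_one_left
    rw [← map_mul, ← Units.val_mul, inv_mul_cancel, Units.val_one, map_one]
  rw [hinv]
  show _ = (E x) ^ Module.finrank A.functionField X.functionField /
    Algebra.norm A.functionField Ψ'
  rw [hr]
  field_simp

end Fermat.Agent.S26.C.H69
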