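import Fermat.Agent.S26.C.H6_CCCAbs

/-!
# S26, crux (C), PRIG: the TOP wiring (abstract form)

helper6.  `prig_top` : from the abstract leaves `Stmt_HORIZ`, `Stmt_VERT` (H6_CCCAbs), the
diagonal place `P_δ` (DIAG) and the four scheme facts `LOC-E`, `FIN-j`, `MOV-j`, `BASE-j` about
the valuative divisor `Λ` on `E`, the divisor `Λ` is principal up to torsion on `E`
(`H95.isVPt_of_kplaces`).
-/

set_option autoImplicit false

universe u

noncomputable section

open AlgebraicCurve IntermediateField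

namespace Fermat.Agent.S26.C.H6

open Fermat.Agent.S27.REDu Fermat.Agent.S27.REDu.H34 Fermat.Agent.S27.REDu.H34.RedSetting
  Fermat.Agent.S27.REDu.H51 Fermat.Agent.S27.REDu.H10
open Fermat.Agent.S26.C.X.H69 (UIn FinSuppP)
open Fermat.Agent.S26.C.X.H95 (IsGenDiv)
open Fermat.Agent.S26.C.H29 (IsKPlace FaceData)

section Top

variable {K F Ω FΩ E : Type u}
  [Field K] [Field F] [Algebra K F] [Field Ω] [Field FΩ] [Algebra Ω FΩ]
  [Algebra K Ω] [Algebra F FΩ] [Algebra K FΩ] [IsScalarTower K F FΩ] [IsScalarTower K Ω FΩ]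
  [IsAlgClosed K] [IsAlgClosed Ω]
  [Field E] [Algebra K E] [Algebra E Ω] [IsScalarTower K E Ω]

/-- the valuative divisor `Λ` of `E`, transported to `FΩ` along `j` -/
def transp (j : E →ₐ[K] FΩ) (Λ : ValuationSubring E → E) : ValuationSubring FΩ → FΩ :=
  fun W => j (Λ (W.comap j.toRingHom))

omit [IsAlgClosed K] [IsAlgClosed Ω] [Algebra E Ω] [IsScalarTower K E Ω]
  [Algebra K F] [Algebra F FΩ] [IsScalarTower K F FΩ] [Algebra K Ω] [IsScalarTower K Ω FΩ]
  [Algebra Ω FΩ] in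
theorem isGenDiv_transp (j : E →ₐ[K] FΩ) {Λ : ValuationSubring E → E} (gd : IsGenDiv K Λ) :
    IsGenDiv K (transp j Λ) := by
  have hov : ∀ W : ValuationSubring FΩ, X.OverK K W → X.OverK K (W.comap j.toRingHom) := by
    intro W hW a
    rw [ValuationSubring.mem_comap]
    have : j.toRingHom (algebraMap K E a) = algebraMap K FΩ a := j.commutes a
    rw [this]
    exact hW a
  refine ⟨fun W hW => ?_, fun V W hV hVW => ?_⟩
  · exact (map_ne_zero j.toRingHom).mpr (gd.1 _ (hov W hW))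
  · have hle : V.comap j.toRingHom ≤ W.comap j.toRingHom := fun x hx => hVW hx
    obtain ⟨h1, h2⟩ := gd.2 _ _ (hov V hV) hle
    have e1 : transp j Λ V / transp j Λ W =
        j (Λ (V.comap j.toRingHom) / Λ (W.comap j.toRingHom)) := by
      simp only [transp, map_div₀]
    refine ⟨?_, ?_⟩
    · rw [e1]; exact h1
    · rw [e1, ← map_inv₀]; exact h2

omit [IsAlgClosed K] [IsAlgClosed Ω] [Algebra K F] [Algebra F FΩ]
  [IsScalarTower K F FΩ] [Algebra K E] [IsScalarTower K E Ω] [Algebra K Ω]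
  [IsScalarTower K Ω FΩ] [Algebra K FΩ] in
/-- the trace on `E` of the composite of the diagonal place with `O` is the trace of `O` -/
theorem comap_compSub_diag (j : E →+* FΩ) (Pδ : Place Ω FΩ) (hdeg : Pδ.deg = 1)
    (hδ : ∀ e : E, ∃ h : j e ∈ Pδ.toValuationSubring,
      valHom Pδ hdeg ⟨j e, h⟩ = algebraMap E Ω e) (O : ValuationSubring Ω) :
    (compSub Pδ hdeg O).comap j = O.comap (algebraMap E Ω) := by
  ext e
  rw [ValuationSubring.mem_comap, ValuationSubring.mem_comap, mem_compSub_iff]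
  obtain ⟨h, hv⟩ := hδ e
  constructor
  · rintro ⟨h', hO⟩
    rw [← hv]
    exact hO
  · intro hO
    exact ⟨h, by rw [hv]; exact hO⟩

/-- **PRIG, top wiring**: the conclusion of the abstract core on `X_Ω`, evaluated at the
diagonal place, gives that `Λ` is principal up to torsion on `E`. -/
theorem prig_top [Algebra.IsAlgebraic E Ω] (d : CCCData K F Ω FΩ) (hC : d.Concl)
    (j : E →ₐ[K] FΩ) (Λ : ValuationSubring E → E) (gd : IsGenDiv K Λ)
    (hΛ : ∀ W : ValuationSubring FΩ, X.OverK K W → d.Λ W = j (Λ (W.comap j.toRingHom)))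
    (Pδ : Place Ω FΩ)
    (hδ : ∀ e : E, ∃ h : j e ∈ Pδ.toValuationSubring,
      valHom Pδ (d.deg1 Pδ) ⟨j e, h⟩ = algebraMap E Ω e) :
    X.IsVPt K Λ := by
  obtain ⟨Ψ, hΨ, hconcl⟩ := hC
  have hdeg := d.deg1 Pδ
  -- one `K`-place of `Ω`
  obtain ⟨O₀, hO₀⟩ : ∃ O : ValuationSubring Ω, IsKPlace K O := by
    obtain ⟨O, hO⟩ := d.face.exists_face
    exact ⟨O, hO.1⟩
  -- the composite of `P_δ` with a `K`-place contains `K`
  have hov : ∀ O : ValuationSubring Ω, IsKPlace K O → X.OverK K (compSub Pδ hdeg O) := by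
    intro O hO a
    rw [mem_compSub_iff]
    have h1 : algebraMap K FΩ a = algebraMap Ω FΩ (algebraMap K Ω a) :=
      IsScalarTower.algebraMap_apply K Ω FΩ a
    have hm : algebraMap K FΩ a ∈ Pδ.toValuationSubring := by
      rw [h1]; exact Pδ.algebraMap_mem' _
    refine ⟨hm, ?_⟩
    have h2 : (⟨algebraMap K FΩ a, hm⟩ : ↥Pδ.toValuationSubring) =
        algebraMap Ω ↥Pδ.toValuationSubring (algebraMap K Ω a) := Subtype.ext h1
    rw [h2, valHom_algebraMap]
    exact hO.1 a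
  -- the divisor at the composite
  have hΛδ : ∀ O : ValuationSubring Ω, IsKPlace K O →
      d.Λ (compSub Pδ hdeg O) = j (Λ (O.comap (algebraMap E Ω))) := by
    intro O hO
    rw [hΛ _ (hov O hO)]
    have := comap_compSub_diag j.toRingHom Pδ hdeg hδ O
    rw [this]
  -- `Ψ` is regular at `P_δ`
  have hj0 : ∀ O : ValuationSubring Ω, IsKPlace K O →
      Λ (O.comap (algebraMap E Ω)) ≠ 0 := by
    intro O hO
    refine gd.1 _ ?_
    intro a
    rw [ValuationSubring.mem_comap, ← IsScalarTower.algebraMap_apply]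
    exact hO.1 a
  have hquot : ∀ O : ValuationSubring Ω, IsKPlace K O →
      Ψ = (Ψ / j (Λ (O.comap (algebraMap E Ω)))) * j (Λ (O.comap (algebraMap E Ω))) := by
    intro O hO
    have : j (Λ (O.comap (algebraMap E Ω))) ≠ 0 := (map_ne_zero j.toRingHom).mpr (hj0 O hO)
    field_simp
  have hu : ∀ O : ValuationSubring Ω, IsKPlace K O →
      UIn (compSub Pδ hdeg O) (Ψ / j (Λ (O.comap (algebraMap E Ω)))) := by
    intro O hO
    have := hconcl O hO Pδ
    rw [hΛδ O hO] at this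
    exact this
  have hΨmem : Ψ ∈ Pδ.toValuationSubring := by
    rw [hquot O₀ hO₀]
    exact mul_mem ((mem_compSub_iff _ _ _ _).mp (hu O₀ hO₀).1).1 (hδ _).1
  set ψ : Ω := valHom Pδ hdeg ⟨Ψ, hΨmem⟩ with hψ
  -- the values
  have hval : ∀ O : ValuationSubring Ω, IsKPlace K O →
      UIn O (ψ / algebraMap E Ω (Λ (O.comap (algebraMap E Ω)))) ∧ ψ ≠ 0 := by
    intro O hO
    set e : E := Λ (O.comap (algebraMap E Ω)) with he
    have he0 : e ≠ 0 := hj0 O hO
    have hje0 : j e ≠ 0 := (map_ne_zero j.toRingHom).mpr he0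
    obtain ⟨hje, hjev⟩ := hδ e
    obtain ⟨⟨hm1, hv1⟩, ⟨hm2, hv2⟩⟩ := hu O hO
    have hu0 : Ψ / j e ≠ 0 := div_ne_zero hΨ hje0
    -- value of the quotient
    have h3 : valHom Pδ hdeg ⟨Ψ / j e, hm1⟩ * algebraMap E Ω e = ψ := by
      rw [← hjev, ← valHom_mk_mul Pδ hdeg hm1 hje]
      congr 1
      apply Subtype.ext
      show Ψ / j e * j e = Ψ
      field_simp
    have h4 : valHom Pδ hdeg ⟨Ψ / j e, hm1⟩ * valHom Pδ hdeg ⟨(Ψ / j e)⁻¹, hm2⟩ = 1 := by
      rw [← valHom_mk_mul Pδ hdeg hm1 hm2]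
      have : (⟨Ψ / j e * (Ψ / j e)⁻¹, mul_mem hm1 hm2⟩ : ↥Pδ.toValuationSubring) = 1 :=
        Subtype.ext (mul_inv_cancel₀ hu0)
      rw [this, map_one]
    have hE0 : algebraMap E Ω e ≠ 0 := (map_ne_zero (algebraMap E Ω)).mpr he0
    have hq : ψ / algebraMap E Ω e = valHom Pδ hdeg ⟨Ψ / j e, hm1⟩ := by
      rw [← h3]
      field_simp
    have hqi : (ψ / algebraMap E Ω e)⁻¹ = valHom Pδ hdeg ⟨(Ψ / j e)⁻¹, hm2⟩ := by
      rw [hq]
      exact (eq_inv_of_mul_eq_one_right h4).symm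
    refine ⟨⟨by rw [hq]; exact hv1, by rw [hqi]; exact hv2⟩, ?_⟩
    intro h0
    rw [h0, zero_div] at hq
    rw [← hq, zero_mul] at h4
    exact zero_ne_one h4
  exact X.H95.isVPt_of_kplaces gd ψ (hval O₀ hO₀).2 (Algebra.IsAlgebraic.isAlgebraic ψ)
    (fun O hO => (hval O ⟨hO.1, hO.2⟩).1)

end Top

end Fermat.Agent.S26.C.H6
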