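import Fermat.Agent.S26.C.H6_RedPoint

/-!
# S26, crux (C), package CCC, leaf RED, part 3: the conservation law

helper6.  `R : ConstRed K F Ω FΩ` a constant reduction datum, `K`, `Ω` algebraically closed,
`[FΩ : Ω(z)] = [F : K(z)]` (`ConstDeg`).  For a Gauss unit `f` of `FΩ` with divisor `D`:

* `R.fibre_cons` : `∑_{P : z(red P) = γ} ord_P f = ∑_{Q : z(Q) = γ} ord_Q (red f)` for all
  non-constant `z ∈ F`, `γ ∈ K`  (from `S27.REDu.H10.fibre_conservation`);
* `R.cons` : `∑_{P ↦ Q} ord_P f = ord_Q (red f)` for every place `Q` of `F / K`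
  (**Deuring's conservation law**: `red_O (div f) = div (red f)`);
* `R.mapDomain_rp` : the same as `Finsupp.mapDomain (red_O) (div f) = div (red f)`;
* `R.value_isUnit_of_tube` (**LOCAL**) : a Gauss unit without zeros and poles on the tube of `Q`
  has values in `Oˣ` on the tube;  `R.isUnit_of_tube` : a function without zeros and poles on
  the tube of `Q` with ONE value in `Oˣ` there is a Gauss unit.
-/

set_option autoImplicit false

universe uK uF uO uFO

noncomputable section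

open AlgebraicCurve Polynomial IntermediateField

namespace Fermat.Agent.S26.C.H6

open Fermat.Agent.S27.REDu Fermat.Agent.S27.REDu.H34 Fermat.Agent.S27.REDu.H34.RedSetting
  Fermat.Agent.S27.REDu.H51 Fermat.Agent.S27.REDu.H10

open scoped IntermediateField.algebraAdjoinAdjoin

variable {K : Type uK} {F : Type uF} {Ω : Type uO} {FΩ : Type uFO}
  [Field K] [Field F] [Algebra K F] [Field Ω] [Field FΩ] [Algebra Ω FΩ]
  [Algebra K Ω] [Algebra F FΩ] [Algebra K FΩ] [IsScalarTower K F FΩ] [IsScalarTower K Ω FΩ]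

/-- Sums over the support of a divisor can be taken over any larger finite set. -/
theorem sum_supp_filter_eq_of_subset {α : Type*} (D : α →₀ ℤ) (U : Finset α)
    (hU : D.support ⊆ U) (ψ : α → Prop) [DecidablePred ψ] :
    ∑ P ∈ D.support.filter ψ, D P = ∑ P ∈ U.filter ψ, D P := by
  refine Finset.sum_subset (Finset.filter_subset_filter ψ hU) ?_
  intro P hP hPn
  rw [Finset.mem_filter] at hP hPn
  by_contra hne
  exact hPn ⟨Finsupp.mem_support_iff.mpr hne, hP.2⟩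

theorem isIntegral_const_adjoin {C E : Type*} [Field C] [Field E] [Algebra C E] (x : E) (c : C) :
    IsIntegral ↥(Algebra.adjoin C {x}) (algebraMap C E c) := by
  have h : algebraMap C E c =
      algebraMap ↥(Algebra.adjoin C {x}) E (algebraMap C ↥(Algebra.adjoin C {x}) c) := rfl
  rw [h]
  exact isIntegral_algebraMap

theorem isAlgebraic_adjoin_of_finite {C E : Type*} [Field C] [Field E] [Algebra C E] (x : E)
    [FiniteDimensional ↥C⟮x⟯ E] (f : E) : IsAlgebraic ↥(Algebra.adjoin C {x}) f := by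
  have halgK : IsAlgebraic ↥C⟮x⟯ f := Algebra.IsAlgebraic.isAlgebraic _
  exact (IsFractionRing.isAlgebraic_iff ↥(Algebra.adjoin C {x}) ↥C⟮x⟯ E).mpr halgK

namespace ConstRed

variable (R : ConstRed K F Ω FΩ)

theorem ne_zero_of_isUnit (f : ↥R.S.V) (hf : IsUnit f) : (f : FΩ) ≠ 0 := by
  intro h0
  have : f = 0 := Subtype.ext h0
  rw [this] at hf
  exact not_isUnit_zero hf

variable [IsAlgClosed K] [IsAlgClosed Ω]

/-- The reduction map `X(Ω) → X(K)` on places. -/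
def rp (hFF : IsFF K F) (hFFΩ : IsFF Ω FΩ) (P : Place Ω FΩ) : Place K F :=
  R.redPlace P (H51.stmt_FFB_deg Ω FΩ hFFΩ P) hFF

theorem ordGe_rp_iff (hFF : IsFF K F) (hFFΩ : IsFF Ω FΩ) (P : Place Ω FΩ) (z : F) (γ : K) :
    OrdGe (R.rp hFF hFFΩ P) 1 (z - algebraMap K F γ) ↔
      ∃ a : ↥R.S.O, R.S.resO a = γ ∧
        OrdGe P 1 (algebraMap F FΩ z - algebraMap Ω FΩ (a : Ω)) :=
  R.ordGe_redPlace_iff P _ hFF z γ

open Classical in
/-- fibre-wise conservation for Gauss units integral over `Ω[z]` -/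
theorem fibre_cons_int (hFF : IsFF K F) (hFFΩ : IsFF Ω FΩ) (hCD : ConstDeg K F Ω FΩ)
    (z : F) (hz : Transcendental K z) (f : ↥R.S.V) (hfu : IsUnit f)
    (hfi : IsIntegral ↥(Algebra.adjoin Ω {algebraMap F FΩ z}) (f : FΩ))
    (D : Divisor Ω FΩ) (hD : ∀ P, D P = P.ord (f : FΩ)) (γ : K)
    (T' : Finset (Place K F)) (hT' : ∀ Q, Q ∈ T' ↔ OrdGe Q 1 (z - algebraMap K F γ)) :
    ∑ P ∈ D.support.filter (fun P => R.rp hFF hFFΩ P ∈ T'), D P =
      ∑ Q ∈ T', Q.ord (R.S.red f) := by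
  have hxt : Transcendental K (R.S.red ⟨algebraMap F FΩ z, R.mem z⟩) := by
    rw [R.red_alg]; exact hz
  have : FiniteDimensional ↥Ω⟮algebraMap F FΩ z⟯ FΩ := (hCD z hz).1
  have hdeg : Module.finrank ↥K⟮R.S.red ⟨algebraMap F FΩ z, R.mem z⟩⟯ F =
      Module.finrank ↥Ω⟮algebraMap F FΩ z⟯ FΩ := by
    rw [R.red_alg]; exact (hCD z hz).2
  have hT'' : ∀ Q, Q ∈ T' ↔
      OrdGe Q 1 (R.S.red ⟨algebraMap F FΩ z, R.mem z⟩ - algebraMap K F γ) := by
    intro Q; rw [R.red_alg]; exact hT' Q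
  have h := fibre_conservation (R.mem z) hFFΩ hFF hxt hdeg f hfu hfi D hD γ T' hT''
  rw [← h]
  refine Finset.sum_congr ?_ (fun _ _ => rfl)
  ext P
  simp only [Finset.mem_filter]
  refine and_congr_right fun _ => ?_
  rw [hT', R.ordGe_rp_iff]

open Classical in
/-- **fibre-wise conservation** for every Gauss unit -/
theorem fibre_cons (hFF : IsFF K F) (hFFΩ : IsFF Ω FΩ) (hCD : ConstDeg K F Ω FΩ)
    (z : F) (hz : Transcendental K z) (f : ↥R.S.V) (hfu : IsUnit f)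
    (D : Divisor Ω FΩ) (hD : ∀ P, D P = P.ord (f : FΩ)) (γ : K)
    (T' : Finset (Place K F)) (hT' : ∀ Q, Q ∈ T' ↔ OrdGe Q 1 (z - algebraMap K F γ)) :
    ∑ P ∈ D.support.filter (fun P => R.rp hFF hFFΩ P ∈ T'), D P =
      ∑ Q ∈ T', Q.ord (R.S.red f) := by
  set x : FΩ := algebraMap F FΩ z with hxdef
  have hx : x ∈ R.S.V := R.mem z
  have hxt : Transcendental K (R.S.red ⟨x, hx⟩) := by
    rw [R.red_alg]; exact hz
  have : FiniteDimensional ↥Ω⟮x⟯ FΩ := (hCD z hz).1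
  have hxC : Transcendental Ω x := transcendental_x hx hxt
  -- a denominator
  have halg : IsAlgebraic ↥(Algebra.adjoin Ω {x}) (f : FΩ) :=
    isAlgebraic_adjoin_of_finite x (f : FΩ)
  obtain ⟨y, hy0, hyint⟩ := halg.exists_integral_multiple
  obtain ⟨p, rfl⟩ := (polyEquiv hxC).surjective y
  have hp : p ≠ 0 := fun h => hy0 (by rw [h, map_zero])
  obtain ⟨c, hc, p₀, hp₀, hu₂, -, he⟩ := exists_decomp hx hxt p hp
  set f₂ : ↥R.S.V := psi hx p₀ with hf₂
  have hf₂i : IsIntegral ↥(Algebra.adjoin Ω {x}) (f₂ : FΩ) := by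
    have h1 : (f₂ : FΩ) = algebraMap ↥(Algebra.adjoin Ω {x}) FΩ
        (polyEquiv hxC (p₀.map R.S.O.subtype)) := by
      rw [hf₂, coe_psi]
      exact (coe_polyEquiv hxC _).symm
    rw [h1]
    exact isIntegral_algebraMap
  have hyF : ((polyEquiv hxC p : ↥(Algebra.adjoin Ω {x})) : FΩ) =
      algebraMap Ω FΩ c * (f₂ : FΩ) := by
    rw [coe_polyEquiv, he]
  have hf₁u : IsUnit (f * f₂) := hfu.mul hu₂
  have hf₁i : IsIntegral ↥(Algebra.adjoin Ω {x}) ((f * f₂ : ↥R.S.V) : FΩ) := by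
    have h1 : ((f * f₂ : ↥R.S.V) : FΩ) =
        algebraMap Ω FΩ c⁻¹ * (polyEquiv hxC p • (f : FΩ)) := by
      rw [Algebra.smul_def]
      show (f : FΩ) * (f₂ : FΩ) = algebraMap Ω FΩ c⁻¹ *
        (((polyEquiv hxC p : ↥(Algebra.adjoin Ω {x})) : FΩ) * (f : FΩ))
      rw [hyF, map_inv₀]
      have hc' : algebraMap Ω FΩ c ≠ 0 := (map_ne_zero (algebraMap Ω FΩ)).mpr hc
      field_simp
    rw [h1]
    exact (isIntegral_const_adjoin x c⁻¹).mul hyint
  -- the divisors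
  have hP : HasPrincipalDivisors Ω FΩ := stmt_FFB_principal Ω FΩ hFFΩ
  obtain ⟨D₁, hD₁, -⟩ := hP.exists_divisor _ (R.ne_zero_of_isUnit _ hf₁u)
  obtain ⟨D₂, hD₂, -⟩ := hP.exists_divisor _ (R.ne_zero_of_isUnit _ hu₂)
  have h1 := R.fibre_cons_int hFF hFFΩ hCD z hz (f * f₂) hf₁u hf₁i D₁ hD₁ γ T' hT'
  have h2 := R.fibre_cons_int hFF hFFΩ hCD z hz f₂ hu₂ hf₂i D₂ hD₂ γ T' hT'
  have hDD : ∀ P, D P = D₁ P - D₂ P := by
    intro P
    rw [hD, hD₁, hD₂]
    show P.ord (f : FΩ) = P.ord ((f : FΩ) * (f₂ : FΩ)) - P.ord (f₂ : FΩ)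
    rw [P.ord_mul (R.ne_zero_of_isUnit _ hfu) (R.ne_zero_of_isUnit _ hu₂)]
    ring
  set U : Finset (Place Ω FΩ) := D.support ∪ D₁.support ∪ D₂.support with hU
  rw [sum_supp_filter_eq_of_subset D U (by rw [hU]; intro a ha; simp [ha])
    (fun P => R.rp hFF hFFΩ P ∈ T')]
  rw [sum_supp_filter_eq_of_subset D₁ U (by rw [hU]; intro a ha; simp [ha])
    (fun P => R.rp hFF hFFΩ P ∈ T')] at h1
  rw [sum_supp_filter_eq_of_subset D₂ U (by rw [hU]; intro a ha; simp [ha])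
    (fun P => R.rp hFF hFFΩ P ∈ T')] at h2
  have h3 : R.S.red (f * f₂) = R.S.red f * R.S.red f₂ := map_mul _ _ _
  have hr0 : R.S.red f ≠ 0 := (hfu.map R.S.red).ne_zero
  have hr2 : R.S.red f₂ ≠ 0 := (hu₂.map R.S.red).ne_zero
  have h5 : ∑ Q ∈ T', Q.ord (R.S.red (f * f₂)) =
      ∑ Q ∈ T', Q.ord (R.S.red f) + ∑ Q ∈ T', Q.ord (R.S.red f₂) := by
    rw [← Finset.sum_add_distrib]
    exact Finset.sum_congr rfl fun Q _ => by rw [h3, Q.ord_mul hr0 hr2]
  rw [h5] at h1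
  have h4 : ∑ P ∈ U.filter (fun P => R.rp hFF hFFΩ P ∈ T'), D P =
      ∑ P ∈ U.filter (fun P => R.rp hFF hFFΩ P ∈ T'), D₁ P -
        ∑ P ∈ U.filter (fun P => R.rp hFF hFFΩ P ∈ T'), D₂ P := by
    rw [← Finset.sum_sub_distrib]
    exact Finset.sum_congr rfl fun P _ => hDD P
  rw [h4, h1, h2]
  ring

omit [IsAlgClosed Ω] in
/-- a function field has at least two places -/
theorem exists_ne_place (hFF : IsFF K F) (Q₀ : Place K F) : ∃ Q₁ : Place K F, Q₁ ≠ Q₀ := by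
  obtain ⟨x, hx, -⟩ := id hFF
  have hx1 : Transcendental K (x - 1) := by
    intro halg
    apply hx
    have h1 : x = (x - 1) + algebraMap K F 1 := by rw [map_one]; ring
    rw [h1]
    exact halg.add (isAlgebraic_algebraMap (1 : K))
  obtain ⟨v₁, hv₁⟩ := Fermat.Agent.S27.REDu.H12.existsZeroAll K F hFF x hx
  obtain ⟨v₂, hv₂⟩ := Fermat.Agent.S27.REDu.H12.existsZeroAll K F hFF (x - 1) hx1
  by_cases h1 : v₁ = Q₀
  · refine ⟨v₂, fun h2 => ?_⟩
    have h12 : v₂ = v₁ := h2.trans h1.symm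
    rw [h12] at hv₂
    have ha : OrdGe v₁ 1 (x - algebraMap K F 0) := by
      rw [map_zero, sub_zero]; exact Or.inr (by omega)
    have hb : OrdGe v₁ 1 (x - algebraMap K F 1) := by
      rw [map_one]; exact Or.inr (by omega)
    exact zero_ne_one (value_unique_ordGe v₁ ha hb)
  · exact ⟨v₁, h1⟩

omit [IsAlgClosed Ω] in
/-- a non-constant function vanishing at `Q₀` with value `1` on a given finite set -/
theorem exists_separating (hFF : IsFF K F) (Q₀ : Place K F) (T₁ : Finset (Place K F))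
    (hQ₀ : Q₀ ∉ T₁) :
    ∃ z : F, Transcendental K z ∧ OrdGe Q₀ 1 (z - algebraMap K F 0) ∧
      ∀ Q ∈ T₁, OrdGe Q 1 (z - algebraMap K F 1) := by
  classical
  obtain ⟨Q₁, hQ₁⟩ := exists_ne_place hFF Q₀
  set T₂ : Finset (Place K F) := insert Q₀ (insert Q₁ T₁) with hT₂
  obtain ⟨z, hz⟩ := H51.stmt_FFB_separate K F hFF (↥T₂) (fun i => (i : Place K F))
    Subtype.val_injective (fun i => if (i : Place K F) = Q₀ then 0 else 1)
  have hmem0 : Q₀ ∈ T₂ := Finset.mem_insert_self _ _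
  have hmem1 : Q₁ ∈ T₂ := Finset.mem_insert_of_mem (Finset.mem_insert_self _ _)
  have h0 := hz ⟨Q₀, hmem0⟩
  have h1 := hz ⟨Q₁, hmem1⟩
  simp only [if_true] at h0
  rw [if_neg (by exact hQ₁)] at h1
  have hz0 : OrdGe Q₀ 1 (z - algebraMap K F 0) := by
    rcases h0 with h | h
    · exact Or.inr (show (1 : ℤ) ≤ Q₀.ord (z - algebraMap K F 0) from h)
    · exact Or.inl (by rw [h, sub_self])
  have hgen : ∀ Q ∈ T₂, Q ≠ Q₀ → OrdGe Q 1 (z - algebraMap K F 1) := by
    intro Q hQ hne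
    have h2 := hz ⟨Q, hQ⟩
    rw [if_neg (by exact hne)] at h2
    rcases h2 with h | h
    · exact Or.inr (show (1 : ℤ) ≤ Q.ord (z - algebraMap K F 1) from h)
    · exact Or.inl (by rw [h, sub_self])
  have hz1 : OrdGe Q₁ 1 (z - algebraMap K F 1) := hgen Q₁ hmem1 hQ₁
  refine ⟨z, ?_, hz0, ?_⟩
  · intro halg
    have hint : IsIntegral K z := halg.isIntegral
    have hdeg : (minpoly K z).degree = 1 :=
      IsAlgClosed.degree_eq_one_of_irreducible K (minpoly.irreducible hint)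
    obtain ⟨c, rfl⟩ := minpoly.mem_range_of_degree_eq_one K z hdeg
    have hc0 : c = 0 :=
      value_unique_ordGe Q₀ (g := algebraMap K F c) (Or.inl (sub_self _)) hz0
    have hc1 : c = 1 :=
      value_unique_ordGe Q₁ (g := algebraMap K F c) (Or.inl (sub_self _)) hz1
    exact zero_ne_one (hc0.symm.trans hc1)
  · intro Q hQ
    refine hgen Q (Finset.mem_insert_of_mem (Finset.mem_insert_of_mem hQ)) ?_
    rintro rfl
    exact hQ₀ hQ

open Classical in
/-- **Deuring's conservation law**: `∑_{P ↦ Q₀} ord_P f = ord_{Q₀} (red f)` for Gauss units. -/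
theorem cons (hFF : IsFF K F) (hFFΩ : IsFF Ω FΩ) (hCD : ConstDeg K F Ω FΩ)
    (f : ↥R.S.V) (hfu : IsUnit f) (D : Divisor Ω FΩ) (hD : ∀ P, D P = P.ord (f : FΩ))
    (Q₀ : Place K F) :
    ∑ P ∈ D.support.filter (fun P => R.rp hFF hFFΩ P = Q₀), D P = Q₀.ord (R.S.red f) := by
  have hr0 : R.S.red f ≠ 0 := (hfu.map R.S.red).ne_zero
  have hPF : HasPrincipalDivisors K F := stmt_FFB_principal K F hFF
  obtain ⟨Dt, hDt, -⟩ := hPF.exists_divisor _ hr0
  set T₁ : Finset (Place K F) :=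
    ((D.support.image (R.rp hFF hFFΩ)) ∪ Dt.support).erase Q₀ with hT₁
  have hQ₀T₁ : Q₀ ∉ T₁ := Finset.notMem_erase _ _
  obtain ⟨z, hz, hz0, hz1⟩ := exists_separating hFF Q₀ T₁ hQ₀T₁
  have hfin : FiniteDimensional ↥K⟮z⟯ F := by
    have h := hCD z hz
    have := h.1
    exact Module.finite_of_finrank_pos (by rw [h.2]; exact Module.finrank_pos)
  obtain ⟨T', hT', -⟩ := fibre_norm hFF z hz 0
  have hfc := R.fibre_cons hFF hFFΩ hCD z hz f hfu D hD 0 T' hT'
  have hQ₀T' : Q₀ ∈ T' := (hT' Q₀).mpr hz0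
  have hnot : ∀ Q ∈ T', Q ≠ Q₀ → Q ∉ T₁ := by
    intro Q hQ _ hQ1
    have h0 := (hT' Q).mp hQ
    have h1 := hz1 Q hQ1
    exact zero_ne_one (value_unique_ordGe Q h0 h1)
  have hL : D.support.filter (fun P => R.rp hFF hFFΩ P ∈ T') =
      D.support.filter (fun P => R.rp hFF hFFΩ P = Q₀) := by
    ext P
    simp only [Finset.mem_filter]
    refine and_congr_right fun hP => ⟨fun h => ?_, fun h => h ▸ hQ₀T'⟩
    by_contra hne
    exact hnot _ h hne (Finset.mem_erase.mpr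
      ⟨hne, Finset.mem_union_left _ (Finset.mem_image_of_mem _ hP)⟩)
  have hRt : ∑ Q ∈ T', Q.ord (R.S.red f) = Q₀.ord (R.S.red f) := by
    refine Finset.sum_eq_single_of_mem Q₀ hQ₀T' ?_
    intro Q hQ hne
    have hQs : Q ∉ Dt.support := fun h =>
      hnot Q hQ hne (Finset.mem_erase.mpr ⟨hne, Finset.mem_union_right _ h⟩)
    rw [← hDt Q]
    exact Finsupp.notMem_support_iff.mp hQs
  rw [← hL, hfc, hRt]

open Classical in
/-- the value at `Q` of the push-forward of a divisor along the reduction map -/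
theorem mapDomain_rp_apply (hFF : IsFF K F) (hFFΩ : IsFF Ω FΩ) (D : Divisor Ω FΩ)
    (Q : Place K F) :
    (Finsupp.mapDomain (R.rp hFF hFFΩ) D) Q =
      ∑ P ∈ D.support.filter (fun P => R.rp hFF hFFΩ P = Q), D P := by
  rw [Finsupp.mapDomain, Finsupp.sum_apply, Finsupp.sum, Finset.sum_filter]
  refine Finset.sum_congr rfl fun P _ => ?_
  rw [Finsupp.single_apply]

/-- **`red_O (div f) = div (red f)`** for Gauss units `f`. -/
theorem mapDomain_rp (hFF : IsFF K F) (hFFΩ : IsFF Ω FΩ) (hCD : ConstDeg K F Ω FΩ)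
    (f : ↥R.S.V) (hfu : IsUnit f) (D : Divisor Ω FΩ) (hD : ∀ P, D P = P.ord (f : FΩ))
    (Q : Place K F) :
    (Finsupp.mapDomain (R.rp hFF hFFΩ) D) Q = Q.ord (R.S.red f) := by
  rw [R.mapDomain_rp_apply hFF hFFΩ D Q]
  exact R.cons hFF hFFΩ hCD f hfu D hD Q

/-- **The reduction of a principal divisor is principal.** -/
theorem isPrincipal_mapDomain_rp (hFF : IsFF K F) (hFFΩ : IsFF Ω FΩ)
    (hCD : ConstDeg K F Ω FΩ) (D : Divisor Ω FΩ) (hD : Divisor.IsPrincipal D) :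
    Divisor.IsPrincipal (Finsupp.mapDomain (R.rp hFF hFFΩ) D) := by
  obtain ⟨f, hf, hfD⟩ := hD
  obtain ⟨c, hc, u, hu⟩ := R.S.scale f hf
  have hDu : ∀ P : Place Ω FΩ, D P = P.ord ((u : ↥R.S.V) : FΩ) := by
    intro P
    rw [hfD P, hu]
    exact Fermat.Agent.S27.REDu.H17.ord_algebraMap_mul P hc _
  exact ⟨R.S.red (u : ↥R.S.V), (u.isUnit.map R.S.red).ne_zero, fun Q =>
    R.mapDomain_rp hFF hFFΩ hCD (u : ↥R.S.V) u.isUnit D hDu Q⟩

omit [IsAlgClosed K] [IsAlgClosed Ω] in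
/-- the reduction map preserves the degree of divisors (all places have degree one) -/
theorem degree_mapDomain (r : Place Ω FΩ → Place K F) (hdegΩ : ∀ P : Place Ω FΩ, P.deg = 1)
    (hdegK : ∀ Q : Place K F, Q.deg = 1) (D : Divisor Ω FΩ) :
    Divisor.degree (Finsupp.mapDomain r D) = Divisor.degree D := by
  induction D using Finsupp.induction_linear with
  | zero => simp
  | add D₁ D₂ h₁ h₂ => rw [Finsupp.mapDomain_add, map_add, map_add, h₁, h₂]
  | single P n =>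
    rw [Finsupp.mapDomain_single, Divisor.degree_single, Divisor.degree_single, hdegΩ, hdegK]

end ConstRed

end Fermat.Agent.S26.C.H6
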