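import Fermat.Agent.S27.REDu.H10_ConsChart
import Fermat.Agent.S27.REDu.H51_Final
import Fermat.Agent.S27.REDu.H12_Zero
import Fermat.Agent.S27.REDu.H42_Gen8

/-!
# S26, crux (C), package CCC (rigidity `Cube(curve, Y, Z)` in place language), leaf RED, part 1

helper6.  Reduction of the points of a constant curve along a `K`-place.

Setting: `K ⊆ Ω` algebraically closed fields, `F / K` a function field (the curve `X`), `FΩ / Ω`
the function field of `X_Ω` (`F ⊆ FΩ`), `S : RedSetting Ω FΩ K F` the Gauss valuation ring of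
`FΩ` over a valuation ring `O = S.O` of `Ω` with residue field `K`, such that `F ⊆ S.V` and the
reduction is the identity on `F` (`ConstRed`).

* `compSub P hdeg O` : the composite of a place `P` of `FΩ / Ω` (degree one) with `O`;
* `redPlace` : the reduction `X(Ω) → X(K)`, `P ↦ (compSub P O) ∩ F`, a place of `F / K`;
* `mem_redPlace_iff`, `ordGe_redPlace_iff` : `z ∈ F` is regular at `red P` iff `z(P) ∈ O`, and then
  `z(red P) = z(P) mod 𝔪_O`.
-/

set_option autoImplicit false

universe uK uF uO uFO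

noncomputable section

open AlgebraicCurve IntermediateField

namespace Fermat.Agent.S26.C.H6

open Fermat.Agent.S27.REDu Fermat.Agent.S27.REDu.H34 Fermat.Agent.S27.REDu.H34.RedSetting
  Fermat.Agent.S27.REDu.H51 Fermat.Agent.S27.REDu.H10

section Comp

variable {Ω : Type uO} {FΩ : Type uFO} [Field Ω] [Field FΩ] [Algebra Ω FΩ]

theorem valHom_mk_mul (P : Place Ω FΩ) (hdeg : P.deg = 1) {a b : FΩ}
    (ha : a ∈ P.toValuationSubring) (hb : b ∈ P.toValuationSubring) :
    valHom P hdeg ⟨a * b, mul_mem ha hb⟩ = valHom P hdeg ⟨a, ha⟩ * valHom P hdeg ⟨b, hb⟩ :=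
  map_mul (valHom P hdeg) ⟨a, ha⟩ ⟨b, hb⟩

theorem valHom_mk_add (P : Place Ω FΩ) (hdeg : P.deg = 1) {a b : FΩ}
    (ha : a ∈ P.toValuationSubring) (hb : b ∈ P.toValuationSubring) :
    valHom P hdeg ⟨a + b, add_mem ha hb⟩ = valHom P hdeg ⟨a, ha⟩ + valHom P hdeg ⟨b, hb⟩ :=
  map_add (valHom P hdeg) ⟨a, ha⟩ ⟨b, hb⟩

theorem valHom_mk_neg (P : Place Ω FΩ) (hdeg : P.deg = 1) {a : FΩ}
    (ha : a ∈ P.toValuationSubring) :
    valHom P hdeg ⟨-a, neg_mem ha⟩ = -valHom P hdeg ⟨a, ha⟩ :=
  map_neg (valHom P hdeg) ⟨a, ha⟩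

theorem valHom_mk_one (P : Place Ω FΩ) (hdeg : P.deg = 1) :
    valHom P hdeg ⟨1, one_mem _⟩ = 1 :=
  map_one (valHom P hdeg)

theorem valHom_mk_zero (P : Place Ω FΩ) (hdeg : P.deg = 1) :
    valHom P hdeg ⟨0, zero_mem _⟩ = 0 :=
  map_zero (valHom P hdeg)

/-- the value is `0` iff the function is a non-unit of the valuation ring -/
theorem valHom_eq_zero_iff (P : Place Ω FΩ) (hdeg : P.deg = 1) (a : ↥P.toValuationSubring) :
    valHom P hdeg a = 0 ↔ a ∈ IsLocalRing.maximalIdeal ↥P.toValuationSubring := by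
  have hinj : Function.Injective (algebraMap Ω P.ResidueField) :=
    (Algebra.finrank_eq_one_iff_bijective_algebraMap.mp hdeg).1
  rw [← IsLocalRing.residue_eq_zero_iff, ← algebraMap_valHom P hdeg a]
  constructor
  · intro h; rw [h, map_zero]
  · intro h; exact hinj (by rw [h, map_zero])

/-- The composite of a place `P` of `FΩ / Ω` of degree one with a valuation ring `O` of `Ω`. -/
def compSub (P : Place Ω FΩ) (hdeg : P.deg = 1) (O : ValuationSubring Ω) :
    ValuationSubring FΩ where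
  carrier := {f | ∃ h : f ∈ P.toValuationSubring, valHom P hdeg ⟨f, h⟩ ∈ O}
  mul_mem' := by
    rintro a b ⟨ha, ha'⟩ ⟨hb, hb'⟩
    exact ⟨mul_mem ha hb, by rw [valHom_mk_mul P hdeg ha hb]; exact mul_mem ha' hb'⟩
  one_mem' := ⟨one_mem _, by rw [valHom_mk_one]; exact one_mem _⟩
  add_mem' := by
    rintro a b ⟨ha, ha'⟩ ⟨hb, hb'⟩
    exact ⟨add_mem ha hb, by rw [valHom_mk_add P hdeg ha hb]; exact add_mem ha' hb'⟩
  zero_mem' := ⟨zero_mem _, by rw [valHom_mk_zero]; exact zero_mem _⟩
  neg_mem' := by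
    rintro a ⟨ha, ha'⟩
    exact ⟨neg_mem ha, by rw [valHom_mk_neg P hdeg ha]; exact neg_mem ha'⟩
  mem_or_inv_mem' := by
    intro f
    by_cases hf : f ∈ P.toValuationSubring
    · by_cases ha : valHom P hdeg ⟨f, hf⟩ ∈ O
      · exact Or.inl ⟨hf, ha⟩
      · right
        have ha0 : valHom P hdeg ⟨f, hf⟩ ≠ 0 := fun h => ha (h ▸ zero_mem _)
        have hu : IsUnit (⟨f, hf⟩ : ↥P.toValuationSubring) := by
          by_contra hnu
          exact ha0 ((valHom_eq_zero_iff P hdeg _).mpr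
            ((IsLocalRing.mem_maximalIdeal _).mpr hnu))
        obtain ⟨u, hu⟩ := hu
        have hinv : f⁻¹ = ((u⁻¹ : (↥P.toValuationSubring)ˣ) : ↥P.toValuationSubring) := by
          have h1 : ((u : ↥P.toValuationSubring) : FΩ) = f := by rw [hu]
          have h2 : ((u : ↥P.toValuationSubring) : FΩ) *
              (((u⁻¹ : (↥P.toValuationSubring)ˣ) : ↥P.toValuationSubring) : FΩ) = 1 := by
            have h := congrArg (Subtype.val) (u.mul_inv)
            exact h
          rw [h1] at h2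
          exact (eq_inv_of_mul_eq_one_right h2).symm
        have hmem : f⁻¹ ∈ P.toValuationSubring := by rw [hinv]; exact Subtype.mem _
        refine ⟨hmem, ?_⟩
        have h3 : valHom P hdeg ⟨f, hf⟩ * valHom P hdeg ⟨f⁻¹, hmem⟩ = 1 := by
          rw [← valHom_mk_mul P hdeg hf hmem]
          have : (⟨f * f⁻¹, mul_mem hf hmem⟩ : ↥P.toValuationSubring) = 1 := by
            apply Subtype.ext
            show f * f⁻¹ = 1
            have hf0 : f ≠ 0 := by
              rintro rfl
              exact ha0 (valHom_mk_zero P hdeg)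
            exact mul_inv_cancel₀ hf0
          rw [this, map_one]
        have h4 : valHom P hdeg ⟨f⁻¹, hmem⟩ = (valHom P hdeg ⟨f, hf⟩)⁻¹ :=
          eq_inv_of_mul_eq_one_right h3
        rw [h4]
        exact (O.mem_or_inv_mem _).resolve_left ha
    · right
      have hmem : f⁻¹ ∈ P.toValuationSubring :=
        (P.toValuationSubring.mem_or_inv_mem f).resolve_left hf
      refine ⟨hmem, ?_⟩
      have h0 : valHom P hdeg ⟨f⁻¹, hmem⟩ = 0 := by
        rw [valHom_eq_zero_iff, IsLocalRing.mem_maximalIdeal, mem_nonunits_iff]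
        intro hu
        obtain ⟨u, hu⟩ := hu
        apply hf
        have h2 : ((u : ↥P.toValuationSubring) : FΩ) *
            (((u⁻¹ : (↥P.toValuationSubring)ˣ) : ↥P.toValuationSubring) : FΩ) = 1 := by
          have h := congrArg (Subtype.val) (u.mul_inv)
          exact h
        rw [hu] at h2
        have h3 : f = (((u⁻¹ : (↥P.toValuationSubring)ˣ) : ↥P.toValuationSubring) : FΩ) := by
          have := eq_inv_of_mul_eq_one_right h2
          rw [this, inv_inv]
        rw [h3]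
        exact Subtype.mem _
      rw [h0]
      exact zero_mem _

theorem mem_compSub_iff (P : Place Ω FΩ) (hdeg : P.deg = 1) (O : ValuationSubring Ω) (f : FΩ) :
    f ∈ compSub P hdeg O ↔ ∃ h : f ∈ P.toValuationSubring, valHom P hdeg ⟨f, h⟩ ∈ O :=
  Iff.rfl

end Comp

section Const

variable {K : Type uK} {F : Type uF} {Ω : Type uO} {FΩ : Type uFO}
  [Field K] [Field F] [Algebra K F] [Field Ω] [Field FΩ] [Algebra Ω FΩ]
  [Algebra K Ω] [Algebra F FΩ] [Algebra K FΩ] [IsScalarTower K F FΩ] [IsScalarTower K Ω FΩ]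

/-- A **constant reduction datum**: `FΩ / Ω` is the function field of the constant curve `X_Ω`
(`F = K(X) ⊆ FΩ`), `S.V` is a valuation ring of `FΩ` of Gauss type over the valuation ring
`S.O` of `Ω`, the residue field of `S.O` is `K`, `F ⊆ S.V` and the reduction is the identity on
`F`. -/
structure ConstRed (K : Type uK) (F : Type uF) (Ω : Type uO) (FΩ : Type uFO)
    [Field K] [Field F] [Algebra K F] [Field Ω] [Field FΩ] [Algebra Ω FΩ]
    [Algebra K Ω] [Algebra F FΩ] [Algebra K FΩ] [IsScalarTower K F FΩ]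
    [IsScalarTower K Ω FΩ] where
  /-- the Gauss valuation ring, with its reduction -/
  S : RedSetting Ω FΩ K F
  mem : ∀ z : F, algebraMap F FΩ z ∈ S.V
  red_alg : ∀ z : F, S.red ⟨algebraMap F FΩ z, mem z⟩ = z

namespace ConstRed

variable (R : ConstRed K F Ω FΩ)

theorem algebraMap_const (c : K) :
    algebraMap Ω FΩ (algebraMap K Ω c) = algebraMap F FΩ (algebraMap K F c) := by
  rw [← IsScalarTower.algebraMap_apply K Ω FΩ, ← IsScalarTower.algebraMap_apply K F FΩ]

/-- the constants of `K` lie in `O` -/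
theorem const_mem_O (c : K) : algebraMap K Ω c ∈ R.S.O := by
  show algebraMap Ω FΩ (algebraMap K Ω c) ∈ R.S.V
  rw [algebraMap_const (F := F) (Ω := Ω) (FΩ := FΩ) c]
  exact R.mem _

/-- the residue of a constant of `K` is itself -/
theorem resO_const (c : K) : R.S.resO ⟨algebraMap K Ω c, R.const_mem_O c⟩ = c := by
  have h1 := R.S.red_algebraMap ⟨algebraMap K Ω c, R.const_mem_O c⟩
  have h2 : (⟨algebraMap Ω FΩ (algebraMap K Ω c), (R.const_mem_O c)⟩ : ↥R.S.V) =
      ⟨algebraMap F FΩ (algebraMap K F c), R.mem _⟩ :=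
    Subtype.ext (algebraMap_const (F := F) (Ω := Ω) (FΩ := FΩ) c)
  have h3 : R.S.red ⟨algebraMap Ω FΩ (algebraMap K Ω c), (R.const_mem_O c)⟩ =
      algebraMap K F c := by rw [h2, R.red_alg]
  exact (algebraMap K F).injective (h1.symm.trans h3)

/-- `a - (a mod 𝔪)` is a non-unit of `O` -/
theorem sub_resO_not_isUnit (a : ↥R.S.O) :
    ¬ IsUnit (a - ⟨algebraMap K Ω (R.S.resO a), R.const_mem_O _⟩ : ↥R.S.O) := by
  rw [← R.S.resO_eq_zero_iff, map_sub, R.resO_const, sub_self]

/-- The valuation subring of `F` of the reduction of the place `P`. -/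
def redSub (P : Place Ω FΩ) (hdeg : P.deg = 1) : ValuationSubring F :=
  (compSub P hdeg R.S.O).comap (algebraMap F FΩ)

theorem mem_redSub_iff (P : Place Ω FΩ) (hdeg : P.deg = 1) (z : F) :
    z ∈ R.redSub P hdeg ↔ ∃ h : algebraMap F FΩ z ∈ P.toValuationSubring,
      valHom P hdeg ⟨algebraMap F FΩ z, h⟩ ∈ R.S.O :=
  Iff.rfl

theorem const_mem_redSub (P : Place Ω FΩ) (hdeg : P.deg = 1) (c : K) :
    algebraMap K F c ∈ R.redSub P hdeg := by
  rw [mem_redSub_iff]
  have h0 : algebraMap F FΩ (algebraMap K F c) = algebraMap Ω FΩ (algebraMap K Ω c) :=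
    (algebraMap_const (F := F) (Ω := Ω) (FΩ := FΩ) c).symm
  have hm : algebraMap F FΩ (algebraMap K F c) ∈ P.toValuationSubring := by
    rw [h0]; exact P.algebraMap_mem' _
  refine ⟨hm, ?_⟩
  have h1 : (⟨algebraMap F FΩ (algebraMap K F c), hm⟩ : ↥P.toValuationSubring) =
      algebraMap Ω ↥P.toValuationSubring (algebraMap K Ω c) := Subtype.ext h0
  rw [h1, valHom_algebraMap]
  exact R.const_mem_O c

/-- the value in `O` of a function of `F` regular at the reduction -/
def valO (P : Place Ω FΩ) (hdeg : P.deg = 1) (z : ↥(R.redSub P hdeg)) : ↥R.S.O :=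
  ⟨valHom P hdeg ⟨algebraMap F FΩ (z : F), ((R.mem_redSub_iff P hdeg z).mp z.2).choose⟩,
    ((R.mem_redSub_iff P hdeg z).mp z.2).choose_spec⟩

theorem coe_valO (P : Place Ω FΩ) (hdeg : P.deg = 1) (z : ↥(R.redSub P hdeg))
    (h : algebraMap F FΩ (z : F) ∈ P.toValuationSubring) :
    ((R.valO P hdeg z : ↥R.S.O) : Ω) = valHom P hdeg ⟨algebraMap F FΩ (z : F), h⟩ := rfl

/-- `z ↦ z(P) mod 𝔪_O`, as a map on the functions regular at the reduction -/
def redVal (P : Place Ω FΩ) (hdeg : P.deg = 1) (z : ↥(R.redSub P hdeg)) : K :=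
  R.S.resO (R.valO P hdeg z)

end ConstRed

/-- the degrees of the charts do not change: `[FΩ : Ω(z)] = [F : K(z)]` for `z ∈ F ∖ K` -/
def ConstDeg (K : Type uK) (F : Type uF) (Ω : Type uO) (FΩ : Type uFO)
    [Field K] [Field F] [Algebra K F] [Field Ω] [Field FΩ] [Algebra Ω FΩ] [Algebra F FΩ] : Prop :=
  ∀ z : F, Transcendental K z →
    FiniteDimensional ↥Ω⟮algebraMap F FΩ z⟯ FΩ ∧
      Module.finrank ↥K⟮z⟯ F = Module.finrank ↥Ω⟮algebraMap F FΩ z⟯ FΩ

end Const

/-- **BC** (constant base change; OPEN leaf): for a function field `F / K`, an algebraically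
closed `Ω ⊇ K` and a valuation ring `O` of `Ω` with residue field `K` (a `K`-place of `Ω`) there
are the function field `FΩ = Frac (F ⊗_K Ω)` of the constant curve and the Gauss valuation ring of
`FΩ` over `O`: a constant reduction datum with `S.O = O` and `[FΩ : Ω(z)] = [F : K(z)]`. -/
def Stmt_BC : Prop :=
  ∀ (K F Ω : Type uK) [Field K] [IsAlgClosed K] [Field F] [Algebra K F] [Field Ω] [IsAlgClosed Ω]
    [Algebra K Ω], IsFF K F →
    ∃ (FΩ : Type uK) (_ : Field FΩ) (_ : Algebra Ω FΩ) (_ : Algebra F FΩ) (_ : Algebra K FΩ)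
      (_ : IsScalarTower K F FΩ) (_ : IsScalarTower K Ω FΩ),
      IsFF Ω FΩ ∧ ConstDeg K F Ω FΩ ∧
      ∀ O : ValuationSubring Ω, (∀ c : K, algebraMap K Ω c ∈ O) →
        (∀ a : Ω, a ∈ O → ∃ c : K, a - algebraMap K Ω c ∈ O.nonunits) →
        ∃ R : ConstRed K F Ω FΩ, R.S.O = O

end Fermat.Agent.S26.C.H6
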