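import Fermat.Agent.S27.REDu.H51_Final
import Fermat.Agent.S27.REDu.H51_Basic
import Fermat.Agent.S27.REDu.H17_Place
import Fermat.Agent.S27.REDu.H42_RiemannBasic

/-!
# S26 (C), PRIG step (4), leaf NSEX (helper73): a non-special effective divisor of degree `g`

For a function field `F / K` of one variable over an algebraically closed field `K` (any
characteristic) with Riemann's equality `l(D) = deg D + 1 - g` in large degree:

* `nsex_pts` : there are `g` distinct places `A` with `l(∑ A) = 1`;
* `nsex` : there is `E ≥ 0` with `deg E = g` and `l(E) = 1`;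
* `nsex_const` : moreover `L(E)` consists of the constants.

Port of helper17's `RED.H17.FFHyp.exists_nonspecial` to the polymorphic copy `S27/REDu` (no import
of `RED`).
-/

set_option autoImplicit false
set_option linter.style.haveILetI false

noncomputable section

open AlgebraicCurve

attribute [local instance] Classical.propDecidable

namespace Fermat.Agent.S26.C.H73N

open Fermat.Agent.S27.REDu

universe uK uF

variable {K : Type uK} {F : Type uF} [Field K] [Field F] [Algebra K F]

local notation "L" => riemannRochSpace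

theorem mem_L_iff_ord {D : Divisor K F} {f : F} :
    f ∈ L D ↔ ∀ v : Place K F, f = 0 ∨ -D v ≤ v.ord f :=
  mem_riemannRochSpace_iff

theorem ord_ge_of_mem_L {D : Divisor K F} {f : F} (hf : f ∈ L D) (hf0 : f ≠ 0)
    (v : Place K F) : -D v ≤ v.ord f :=
  ((mem_L_iff_ord.mp hf) v).resolve_left hf0

theorem one_mem_L_of_nonneg {D : Divisor K F} (hD : ∀ v, 0 ≤ D v) : (1 : F) ∈ L D := by
  rw [mem_L_iff_ord]
  intro v
  right
  rw [Place.ord_one]
  have := hD v
  omega

theorem L_mono' {D D' : Divisor K F} (h : ∀ v, D v ≤ D' v) : L D ≤ L D' := by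
  intro f hf
  rw [mem_L_iff_ord] at hf ⊢
  intro v
  rcases hf v with h0 | h1
  · exact Or.inl h0
  · right
    have := h v
    omega

/-! ### Sums of points -/

/-- The divisor `∑_{v ∈ A} v`. -/
def ptsDiv (A : Finset (Place K F)) : Divisor K F := ∑ v ∈ A, Finsupp.single v 1

theorem ptsDiv_apply (A : Finset (Place K F)) (v : Place K F) :
    ptsDiv A v = if v ∈ A then 1 else 0 := by
  unfold ptsDiv
  rw [Finsupp.finsetSum_apply]
  simp only [Finsupp.single_apply]
  rw [Finset.sum_ite_eq' A v]

theorem ptsDiv_nonneg (A : Finset (Place K F)) (v : Place K F) : 0 ≤ ptsDiv A v := by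
  rw [ptsDiv_apply]
  split_ifs <;> omega

@[simp] theorem ptsDiv_empty : ptsDiv (∅ : Finset (Place K F)) = 0 := by
  unfold ptsDiv
  rw [Finset.sum_empty]

theorem ptsDiv_insert {v : Place K F} {A : Finset (Place K F)} (h : v ∉ A) :
    ptsDiv (insert v A) = ptsDiv A + Finsupp.single v 1 := by
  unfold ptsDiv
  rw [Finset.sum_insert h, add_comm]

theorem degree_ptsDiv (hdeg : ∀ v : Place K F, v.deg = 1) (A : Finset (Place K F)) :
    Divisor.degree (ptsDiv A) = A.card := by
  unfold ptsDiv
  rw [map_sum]
  simp only [Divisor.degree_single, hdeg, Nat.cast_one, mul_one]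
  rw [Finset.sum_const, nsmul_eq_mul, mul_one]

/-! ### The function field facts -/

section FF

variable [IsAlgClosed K] (hFF : IsFF K F)
include hFF

theorem ff_deg_one (v : Place K F) : v.deg = 1 := H51.stmt_FFB_deg K F hFF v

theorem ff_finite (D : Divisor K F) : Module.Finite K (L D) := H51.stmt_FFR_finite K F hFF D

theorem ff_le (D : Divisor K F) (hD : 0 ≤ Divisor.degree D) :
    (Module.finrank K (L D) : ℤ) ≤ Divisor.degree D + 1 :=
  (H51.stmt_FFR_le K F hFF D).2 hD

/-- If `D ≥ 0` and `l(D) ≤ 1`, then `L(D)` consists of constants. -/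
theorem const_of_mem_L {D : Divisor K F} (hD : ∀ v, 0 ≤ D v)
    (h1 : Module.finrank K (L D) ≤ 1) {f : F} (hf : f ∈ L D) :
    ∃ c : K, f = algebraMap K F c := by
  haveI := ff_finite hFF D
  have hle : Submodule.span K {(1 : F)} ≤ L D := by
    rw [Submodule.span_le, Set.singleton_subset_iff]
    exact one_mem_L_of_nonneg hD
  have hfr : Module.finrank K (Submodule.span K {(1 : F)}) = 1 :=
    finrank_span_singleton one_ne_zero
  have heq : Submodule.span K {(1 : F)} = L D :=
    Submodule.eq_of_le_of_finrank_le hle (by rw [hfr]; exact h1)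
  rw [← heq] at hf
  obtain ⟨c, hc⟩ := Submodule.mem_span_singleton.mp hf
  exact ⟨c, by rw [← hc, Algebra.algebraMap_eq_smul_one]⟩

theorem finrank_L_zero_le : Module.finrank K (L (0 : Divisor K F)) ≤ 1 := by
  have := ff_le hFF 0 (by rw [map_zero])
  rw [map_zero] at this
  omega

/-- A function without poles is constant. -/
theorem const_of_regular {f : F} (hf : ∀ v : Place K F, 0 ≤ v.ord f) :
    ∃ c : K, f = algebraMap K F c := by
  refine const_of_mem_L hFF (D := 0) (fun _ => le_rfl) (finrank_L_zero_le hFF) ?_
  rw [mem_L_iff_ord]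
  intro v
  right
  simpa using hf v

/-- A non-constant function has a zero. -/
theorem exists_zero {f : F} (hf : f ∉ Set.range (algebraMap K F)) :
    ∃ v : Place K F, 0 < v.ord f := by
  by_contra hcon
  push Not at hcon
  have h1 : ∀ v : Place K F, 0 ≤ v.ord f⁻¹ := by
    intro v
    rw [Place.ord_inv]
    have := hcon v
    omega
  obtain ⟨c, hc⟩ := const_of_regular hFF h1
  apply hf
  refine ⟨c⁻¹, ?_⟩
  rw [map_inv₀, ← hc, inv_inv]

/-- There are infinitely many places. -/
theorem infinite_place : Infinite (Place K F) := by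
  have hFF' : IsFF K F := hFF
  obtain ⟨x, hx, -⟩ := hFF
  have hnr : ∀ a : K, x - algebraMap K F a ∉ Set.range (algebraMap K F) := by
    rintro a ⟨b, hb⟩
    apply hx
    have : x = algebraMap K F (b + a) := by
      rw [map_add, hb]; ring
    rw [this]
    exact isAlgebraic_algebraMap _
  have hex : ∀ a : K, ∃ v : Place K F, 0 < v.ord (x - algebraMap K F a) := fun a =>
    exists_zero hFF' (hnr a)
  choose P hP using hex
  have hinj : Function.Injective P := by
    intro a b hab
    have ha := H17.vanAt_of_ord_pos (hP a)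
    have hb := H17.vanAt_of_ord_pos (hP b)
    rw [hab] at ha
    exact H17.value_unique (P b) ha hb
  haveI : Infinite K := IsAlgClosed.instInfinite
  exact Infinite.of_injective P hinj

theorem exists_notMem (T : Finset (Place K F)) : ∃ v : Place K F, v ∉ T := by
  haveI := infinite_place hFF
  exact Infinite.exists_notMem_finset T

/-- Adding `N` "bad" points raises the dimension by `N`. -/
theorem finrank_add_ptsDiv_ge (D : Divisor K F) (B : Finset (Place K F))
    (hB : ∀ v ∈ B, ¬ (L (D + Finsupp.single v 1) ≤ L D)) :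
    Module.finrank K (L D) + B.card ≤ Module.finrank K (L (D + ptsDiv B)) := by
  induction B using Finset.induction_on with
  | empty => rw [ptsDiv_empty, add_zero, Finset.card_empty, add_zero]
  | insert v B hv ih =>
    have ih' := ih fun w hw => hB w (Finset.mem_insert_of_mem hw)
    have hbad := hB v (Finset.mem_insert_self v B)
    rw [Finset.card_insert_of_notMem hv, ptsDiv_insert hv]
    have hle : L (D + ptsDiv B) ≤ L (D + (ptsDiv B + Finsupp.single v 1)) := by
      apply L_mono'
      intro w
      simp only [Finsupp.add_apply, Finsupp.single_apply]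
      split_ifs <;> omega
    have hne : L (D + ptsDiv B) ≠ L (D + (ptsDiv B + Finsupp.single v 1)) := by
      intro heq
      apply hbad
      intro f hf
      have h1 : f ∈ L (D + (ptsDiv B + Finsupp.single v 1)) := by
        refine L_mono' ?_ hf
        intro w
        have := ptsDiv_nonneg B w
        simp only [Finsupp.add_apply]
        omega
      rw [← heq] at h1
      by_cases hf0 : f = 0
      · rw [hf0]; exact (L D).zero_mem
      rw [mem_L_iff_ord]
      intro w
      right
      by_cases hwv : w = v
      · subst hwv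
        have h3 := ord_ge_of_mem_L h1 hf0 w
        simp only [Finsupp.add_apply, ptsDiv_apply, if_neg hv] at h3
        omega
      · have h2 := ord_ge_of_mem_L hf hf0 w
        simp only [Finsupp.add_apply, Finsupp.single_apply, if_neg (Ne.symm hwv)] at h2
        omega
    haveI := ff_finite hFF (D + (ptsDiv B + Finsupp.single v 1))
    have hlt := Submodule.finrank_lt_finrank_of_lt (lt_of_le_of_ne hle hne)
    omega

theorem one_le_finrank_L {D : Divisor K F} (hD : ∀ v, 0 ≤ D v) :
    1 ≤ Module.finrank K (L D) := by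
  haveI := ff_finite hFF D
  rw [Nat.one_le_iff_ne_zero, Ne, Submodule.finrank_eq_zero]
  intro hbot
  have := one_mem_L_of_nonneg hD
  rw [hbot, Submodule.mem_bot] at this
  exact one_ne_zero this

/-- **NSEX, reduced form**: `g` distinct places `A` with `l(∑ A) = 1`. -/
theorem nsex_pts {g : ℕ} {c : ℤ}
    (hg : ∀ D : Divisor K F, c ≤ Divisor.degree D →
      (Module.finrank K (L D) : ℤ) = Divisor.degree D + 1 - g) :
    ∃ A : Finset (Place K F), A.card = g ∧ Module.finrank K (L (ptsDiv A)) = 1 := by
  have key : ∀ j : ℕ, j ≤ g → ∃ A : Finset (Place K F), A.card = j ∧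
      Module.finrank K (L (ptsDiv A)) ≤ 1 := by
    intro j
    induction j with
    | zero =>
      intro _
      exact ⟨∅, rfl, by rw [ptsDiv_empty]; exact finrank_L_zero_le hFF⟩
    | succ j ih =>
      intro hj
      obtain ⟨A, hA, hl⟩ := ih (by omega)
      -- search for a good point
      have search : ∀ N : ℕ, (∃ v, v ∉ A ∧
            Module.finrank K (L (ptsDiv A + Finsupp.single v 1)) ≤ 1) ∨
          ∃ B : Finset (Place K F), B.card = N ∧
            ∀ v ∈ B, ¬ (L (ptsDiv A + Finsupp.single v 1) ≤ L (ptsDiv A)) := by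
        intro N
        induction N with
        | zero => exact Or.inr ⟨∅, rfl, fun v hv => absurd hv (Finset.notMem_empty v)⟩
        | succ N ihN =>
          rcases ihN with h | ⟨B, hB, hbad⟩
          · exact Or.inl h
          obtain ⟨v, hv⟩ := exists_notMem hFF (A ∪ B)
          rw [Finset.mem_union, not_or] at hv
          by_cases hgood : L (ptsDiv A + Finsupp.single v 1) ≤ L (ptsDiv A)
          · left
            refine ⟨v, hv.1, ?_⟩
            haveI := ff_finite hFF (ptsDiv A)
            exact (Submodule.finrank_mono hgood).trans hl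
          · right
            refine ⟨insert v B, by rw [Finset.card_insert_of_notMem hv.2, hB], ?_⟩
            intro w hw
            rcases Finset.mem_insert.mp hw with rfl | hw
            · exact hgood
            · exact hbad w hw
      rcases search (c - j).toNat with ⟨v, hv, hl'⟩ | ⟨B, hB, hbad⟩
      · exact ⟨insert v A, by rw [Finset.card_insert_of_notMem hv, hA],
          by rw [ptsDiv_insert hv]; exact hl'⟩
      · exfalso
        have h1 := finrank_add_ptsDiv_ge hFF (ptsDiv A) B hbad
        have hdeg : Divisor.degree (ptsDiv A + ptsDiv B) = j + (c - j).toNat := by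
          rw [map_add, degree_ptsDiv (ff_deg_one hFF), degree_ptsDiv (ff_deg_one hFF), hA, hB]
        have h2 := hg (ptsDiv A + ptsDiv B) (by rw [hdeg]; omega)
        rw [hdeg] at h2
        have h3 : 1 ≤ Module.finrank K (L (ptsDiv A)) :=
          one_le_finrank_L hFF (ptsDiv_nonneg A)
        rw [hB] at h1
        omega
  obtain ⟨A, hA, hl⟩ := key g le_rfl
  exact ⟨A, hA, le_antisymm hl (one_le_finrank_L hFF (ptsDiv_nonneg A))⟩

/-- **NSEX**: an effective divisor `E` of degree `g` with `l(E) = 1`. -/
theorem nsex {g : ℕ} {c : ℤ}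
    (hg : ∀ D : Divisor K F, c ≤ Divisor.degree D →
      (Module.finrank K (L D) : ℤ) = Divisor.degree D + 1 - g) :
    ∃ E : Divisor K F, (∀ v, 0 ≤ E v) ∧ Divisor.degree E = g ∧
      Module.finrank K (L E) = 1 := by
  obtain ⟨A, hA, hl⟩ := nsex_pts hFF hg
  exact ⟨ptsDiv A, ptsDiv_nonneg A, by rw [degree_ptsDiv (ff_deg_one hFF), hA], hl⟩

/-- **NSEX with constants**: moreover `E` is reduced (coefficients `≤ 1`) and `L(E)` consists
of the constants. -/
theorem nsex_const {g : ℕ} {c : ℤ}
    (hg : ∀ D : Divisor K F, c ≤ Divisor.degree D →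
      (Module.finrank K (L D) : ℤ) = Divisor.degree D + 1 - g) :
    ∃ E : Divisor K F, (∀ v, 0 ≤ E v) ∧ (∀ v, E v ≤ 1) ∧ Divisor.degree E = g ∧
      Module.finrank K (L E) = 1 ∧
      ∀ f ∈ L E, ∃ a : K, f = algebraMap K F a := by
  obtain ⟨A, hA, hl⟩ := nsex_pts hFF hg
  refine ⟨ptsDiv A, ptsDiv_nonneg A, fun v => ?_, by rw [degree_ptsDiv (ff_deg_one hFF), hA], hl,
    fun f hf => const_of_mem_L hFF (ptsDiv_nonneg A) (le_of_eq hl) hf⟩
  rw [ptsDiv_apply]
  split_ifs <;> omega

end FF

/-- **NSEX**, as a closed statement. -/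
def Stmt_NSEX : Prop :=
  ∀ (K : Type uK) (F : Type uF) [Field K] [Field F] [Algebra K F] [IsAlgClosed K],
    IsFF K F → ∀ (g : ℕ) (c : ℤ),
    (∀ D : Divisor K F, c ≤ Divisor.degree D →
      (Module.finrank K (riemannRochSpace D) : ℤ) = Divisor.degree D + 1 - g) →
    ∃ E : Divisor K F, (∀ v, 0 ≤ E v) ∧ Divisor.degree E = g ∧
      Module.finrank K (riemannRochSpace E) = 1

theorem stmt_NSEX : Stmt_NSEX.{uK, uF} := fun _ _ _ _ _ _ hFF _ _ hg => nsex hFF hg

end Fermat.Agent.S26.C.H73N
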