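/-
S26 (row 25), package (C), leaf WEILET (helper80):
the Weil divisor of the pull-back of a Cartier divisor `D` (normalised at the generic point,
`D η = 1`) along a finite étale dominant morphism `φ : Y ⟶ X`:
`weil (pull φ D) z' = weil D (φ z')` at the points `z'` of codimension one.

* `isRegAt_of_isDom`  : for `φ` dominant every function is regular at `φ η_Y` (`= η_X`);
* `pullFun_eq_ffMap`  : for `φ` dominant `pullFun φ = T.ffMap φ`;
* `pull_apply_of_isDom` : `pull φ D y = ffMap φ (D (φ y) / D η_X)`;
* `stmt_WEILET : Stmt_WEILET` (from `T.H55.ord_ffMap` and `T.H69.coheight_eq_of_etale`).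
-/
import Fermat.Agent.S26.C.Defs
import Fermat.Agent.S26.T.H52_FFMap
import Fermat.Agent.S26.T.H55_OrdE
import Fermat.Agent.S26.T.H69_Coh

set_option autoImplicit false

open CategoryTheory CategoryTheory.Limits AlgebraicGeometry

universe u

namespace Fermat.Agent.S26.C.H80

open Fermat.Agent.S26.T

variable {X Y : Scheme.{u}} [IsIntegral X] [IsIntegral Y]

/-- The structure map `𝒪_{Y,η} → K(Y)` at the generic point is the identity. -/
theorem algebraMap_genericPoint (a : Y.presheaf.stalk (genericPoint Y)) :
    @algebraMap (Y.presheaf.stalk (genericPoint Y)) Y.functionField _ _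
      (stalkFunctionFieldAlgebra Y (genericPoint Y)) a = a := by
  have h : @algebraMap (Y.presheaf.stalk (genericPoint Y)) Y.functionField _ _
      (stalkFunctionFieldAlgebra Y (genericPoint Y)) a =
      Y.presheaf.stalkSpecializes (genericPoint_specializes (genericPoint Y)) a := rfl
  rw [h, TopCat.Presheaf.stalkSpecializes_refl]
  rfl

/-- For a dominant `φ` every function of `X` is regular at `φ η_Y`. -/
theorem isRegAt_of_isDom (φ : Y ⟶ X) (hφ : IsDom φ) (h : X.functionField) :
    IsRegAt (φ (genericPoint Y)) h := by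
  refine ⟨X.presheaf.stalkSpecializes hφ h, ?_⟩
  have e : algebraMap (X.presheaf.stalk (φ (genericPoint Y))) X.functionField
      (X.presheaf.stalkSpecializes hφ h) =
      X.presheaf.stalkSpecializes (genericPoint_specializes (φ (genericPoint Y)))
        (X.presheaf.stalkSpecializes hφ h) := rfl
  rw [e]
  erw [TopCat.Presheaf.stalkSpecializes_comp_apply]
  rw [TopCat.Presheaf.stalkSpecializes_refl]
  rfl

/-- For a dominant `φ` the pull-back of functions is the map of function fields. -/
theorem pullFun_eq_ffMap (φ : Y ⟶ X) (hφ : IsDom φ) (h : X.functionField) :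
    pullFun φ h = ffMap φ hφ h := by
  have hr : IsRegAt (φ (genericPoint Y)) h := isRegAt_of_isDom φ hφ h
  unfold pullFun
  rw [dif_pos hr]
  obtain ⟨a, ha⟩ := id hr
  have hch : hr.choose = a := by
    apply IsFractionRing.injective (X.presheaf.stalk (φ (genericPoint Y))) X.functionField
    rw [ha]
    exact hr.choose_spec
  rw [hch]
  have key := H52.ffMap_stalk φ hφ (genericPoint Y) a
  rw [ha, algebraMap_genericPoint] at key
  exact key.symm

/-- For a dominant `φ`: `pull φ D y = φ^* (D (φ y) / D η_X)`. -/
theorem pull_apply_of_isDom (φ : Y ⟶ X) (hφ : IsDom φ) (D : X → X.functionField) (y : Y) :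
    pull φ D y = ffMap φ hφ (D (φ y) / D (genericPoint X)) := by
  unfold pull
  rw [pullFun_eq_ffMap φ hφ, (H52.isDom_iff φ).1 hφ]

/-- **WEILET.** -/
theorem stmt_WEILET : Stmt_WEILET.{u} := by
  intro X Y _ _ _ _ φ _ _ hφ hX hY D hD hη z' hz'
  have hco : Order.coheight (φ z') = 1 := by
    rw [H69.coheight_eq_of_etale φ z']; exact hz'
  unfold weil
  rw [pull_apply_of_isDom φ hφ D z', hη, div_one]
  exact H55.ord_ffMap φ hφ z' hz' hco ((hY z').2 hz') ((hX (φ z')).2 hco) (D (φ z'))

end Fermat.Agent.S26.C.H80
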