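import Mathlib
import Fermat.Agent.S26.C.Defs
import Fermat.Agent.S26.H55_Ex
import Fermat.Agent.S26.T.H52_FFMap

/-!
# S26, package (C), leaf CKASM2 (helper83): the assembly of (C) from CORE

`ckasm2_of` : from the normality of `A` (NOR), `[n]` finite étale surjective (E), COH and the
leaves of the language, `LFD` and `CORE` give `Stmt_Ck`.

* calculus of `IsUnitAt`, `IsCartier`, `weil` for products, quotients and powers;
* `linEquiv_neg` : the boundary divisor of a symmetric open is symmetric;
* `ckasm2_of`.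
-/

set_option autoImplicit false
set_option linter.style.haveILetI false
set_option linter.unusedSectionVars false

open CategoryTheory CategoryTheory.Limits AlgebraicGeometry NeronModelInfra GoodReductionJacobian

universe u

namespace Fermat.Agent.S26.C.H83

section Calc

variable {X : Scheme.{u}} [IsIntegral X]

theorem isUnitAt_one (x : X) : IsUnitAt x (1 : X.functionField) :=
  ⟨1, isUnit_one, map_one _⟩

theorem isUnitAt_mul {x : X} {h h' : X.functionField} (H : IsUnitAt x h) (H' : IsUnitAt x h') :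
    IsUnitAt x (h * h') := by
  obtain ⟨a, ha, rfl⟩ := H
  obtain ⟨a', ha', rfl⟩ := H'
  exact ⟨a * a', ha.mul ha', map_mul _ _ _⟩

theorem isUnitAt_inv {x : X} {h : X.functionField} (H : IsUnitAt x h) : IsUnitAt x h⁻¹ := by
  obtain ⟨a, ha, rfl⟩ := H
  obtain ⟨u, rfl⟩ := ha
  refine ⟨((u⁻¹ : (X.presheaf.stalk x)ˣ) : X.presheaf.stalk x), Units.isUnit _, ?_⟩
  have h1 : algebraMap (X.presheaf.stalk x) X.functionField (u : X.presheaf.stalk x)
      * algebraMap (X.presheaf.stalk x) X.functionField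
        ((u⁻¹ : (X.presheaf.stalk x)ˣ) : X.presheaf.stalk x) = 1 := by
    rw [← map_mul, Units.mul_inv, map_one]
  exact eq_inv_of_mul_eq_one_right h1

theorem isUnitAt_div {x : X} {h h' : X.functionField} (H : IsUnitAt x h) (H' : IsUnitAt x h') :
    IsUnitAt x (h / h') := by
  rw [div_eq_mul_inv]
  exact isUnitAt_mul H (isUnitAt_inv H')

theorem isUnitAt_pow {x : X} {h : X.functionField} (H : IsUnitAt x h) (k : ℕ) :
    IsUnitAt x (h ^ k) := by
  induction k with
  | zero => rw [pow_zero]; exact isUnitAt_one x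
  | succ k ih => rw [pow_succ]; exact isUnitAt_mul ih H

theorem isCartier_mul {D D' : X → X.functionField} (h : IsCartier D) (h' : IsCartier D') :
    IsCartier (D * D') := by
  refine ⟨fun x => mul_ne_zero (h.1 x) (h'.1 x), fun x => ?_⟩
  obtain ⟨W, hxW, hW⟩ := h.2 x
  obtain ⟨W', hxW', hW'⟩ := h'.2 x
  refine ⟨W ⊓ W', ⟨hxW, hxW'⟩, fun y hy => ?_⟩
  have e : (D * D') x / (D * D') y = (D x / D y) * (D' x / D' y) := by
    simp only [Pi.mul_apply]
    rw [div_mul_div_comm]
  rw [e]
  exact isUnitAt_mul (hW y hy.1) (hW' y hy.2)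

theorem isCartier_inv {D : X → X.functionField} (h : IsCartier D) : IsCartier D⁻¹ := by
  refine ⟨fun x => inv_ne_zero (h.1 x), fun x => ?_⟩
  obtain ⟨W, hxW, hW⟩ := h.2 x
  refine ⟨W, hxW, fun y hy => ?_⟩
  have e : D⁻¹ x / D⁻¹ y = (D x / D y)⁻¹ := by
    simp only [Pi.inv_apply]
    rw [inv_div_inv, inv_div]
  rw [e]
  exact isUnitAt_inv (hW y hy)

theorem isCartier_div {D D' : X → X.functionField} (h : IsCartier D) (h' : IsCartier D') :
    IsCartier (D / D') := by
  rw [div_eq_mul_inv]
  exact isCartier_mul h (isCartier_inv h')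

theorem isCartier_pow {D : X → X.functionField} (h : IsCartier D) (k : ℕ) :
    IsCartier (D ^ k) := by
  induction k with
  | zero =>
    rw [pow_zero]
    exact ⟨fun _ => one_ne_zero, fun x => ⟨⊤, trivial, fun y _ => by
      simp only [Pi.one_apply, div_one]
      exact isUnitAt_one y⟩⟩
  | succ k ih => rw [pow_succ]; exact isCartier_mul ih h

theorem isPrincipalDiv_of_sameDiv_one {D : X → X.functionField} (h : SameDiv D 1) :
    IsPrincipalDiv D :=
  ⟨1, one_ne_zero, fun x => by
    have := h x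
    simpa using this⟩

variable [IsLocallyNoetherian X]

theorem weil_mul {D D' : X → X.functionField} (h : IsCartier D) (h' : IsCartier D') (z : X) :
    weil (D * D') z = weil D z + weil D' z := by
  unfold weil
  rw [Pi.mul_apply]
  exact Scheme.ord_mul (h.1 z) (h'.1 z)

theorem weil_one (z : X) : weil (1 : X → X.functionField) z = 0 := by
  unfold weil
  rw [Pi.one_apply]
  have h := Scheme.ord_mul (x := z) (one_ne_zero (α := X.functionField))
    (one_ne_zero (α := X.functionField))
  rw [mul_one] at h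
  linarith

theorem mul_inv_eq_one_of_isCartier {D : X → X.functionField} (h : IsCartier D) :
    D * D⁻¹ = 1 := by
  funext x
  simp only [Pi.mul_apply, Pi.inv_apply, Pi.one_apply]
  exact mul_inv_cancel₀ (h.1 x)

theorem weil_inv {D : X → X.functionField} (h : IsCartier D) (z : X) :
    weil D⁻¹ z = - weil D z := by
  have h1 := weil_mul h (isCartier_inv h) z
  rw [mul_inv_eq_one_of_isCartier h, weil_one] at h1
  linarith

theorem weil_div {D D' : X → X.functionField} (h : IsCartier D) (h' : IsCartier D') (z : X) :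
    weil (D / D') z = weil D z - weil D' z := by
  rw [div_eq_mul_inv, weil_mul h (isCartier_inv h'), weil_inv h']
  ring

theorem weil_pow {D : X → X.functionField} (h : IsCartier D) (k : ℕ) (z : X) :
    weil (D ^ k) z = k * weil D z := by
  induction k with
  | zero => rw [pow_zero, weil_one]; simp
  | succ k ih =>
    rw [pow_succ, weil_mul (isCartier_pow h k) h, ih]
    push_cast
    ring

end Calc

section Asm

variable {K : Type u} [Field K] {A : Scheme.{u}} {f : A ⟶ Spec (CommRingCat.of K)}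

/-- The generic point lies in every good open. -/
theorem genericPoint_mem_of_isGoodOpen [IsIntegral A] (L : RelativeGroupLaw K f) {U : A.Opens}
    (hU : IsGoodOpen L U) : genericPoint A ∈ U := by
  obtain ⟨x⟩ := (inferInstance : Nonempty (Spec (CommRingCat.of K)))
  exact ((genericPoint_spec A).mem_open_set_iff U.isOpen).mpr
    ⟨(zeroHom L).base x, trivial, hU.zero_mem x⟩

/-- **The boundary divisor of a symmetric open is symmetric.** -/
theorem linEquiv_neg [IsIntegral A] [IsLocallyNoetherian A] (hCOH : T.Stmt_COH.{u})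
    (hPULLC : Stmt_PULLC.{u}) (hWEILINJ : Stmt_WEILINJ.{u}) (hWEILET : Stmt_WEILET.{u})
    (L : RelativeGroupLaw K f) (hNor : T.IsNor A) {U : A.Opens} (hU : IsGoodOpen L U)
    (D : A → A.functionField) (hD : IsCartier D) (hDU : ∀ x ∈ U, D x = 1)
    (hDw : ∀ z : A, Order.coheight z = 1 →
      weil D z = @ite ℤ (z ∈ U) (Classical.propDecidable _) 0 1) :
    LinEquiv (pull (negHom L) D) D := by
  classical
  haveI : IsIso (negHom L) := H55.isIso_negHom L
  have hdom : T.IsDom (negHom L) := T.H52.isDom_of_surjective _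
  have hDη : D (genericPoint A) = 1 := hDU _ (genericPoint_mem_of_isGoodOpen L hU)
  have hpc : IsCartier (pull (negHom L) D) := hPULLC _ D hD
  refine isPrincipalDiv_of_sameDiv_one (hWEILINJ hNor _ (isCartier_div hpc hD) fun z hz => ?_)
  have hz' : Order.coheight ((negHom L) z) = 1 := (hCOH (negHom L) hdom z).1 hz
  rw [weil_div hpc hD, hWEILET (negHom L) hdom hNor hNor D hD hDη z hz, hDw z hz, hDw _ hz']
  have hiff : (negHom L) z ∈ U ↔ z ∈ U := by
    have h1 : z ∈ (negHom L) ⁻¹ᵁ U ↔ z ∈ U := by rw [hU.symm]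
    exact h1
  by_cases hzU : z ∈ U
  · rw [if_pos hzU, if_pos (hiff.2 hzU)]
    ring
  · rw [if_neg hzU, if_neg (fun h => hzU (hiff.1 h))]
    ring

/-- **CKASM2**, with the proved leaves of the other packages as hypotheses. -/
theorem ckasm2_of (hNOR : Stmt_NOR.{u}) (hET : E.Stmt_E_ETALE.{u}) (hFIN : E.Stmt_E_FIN.{u})
    (hSURJ : E.Stmt_E_SURJ.{u}) (hCOH : T.Stmt_COH.{u}) : Stmt_CKASM2.{u} := by
  intro hPULLC _ hWEILINJ hWEILPR hWEILET hLFD hCORE K _ _ A f L hc hA g _ _ _ U hU n hn
  classical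
  have hAV : E.IsAV K f L := ⟨inferInstance, hc, hA⟩
  have hNor : T.IsNor A := fun z => hNOR K f L hA z
  obtain ⟨D, hD, -, hDU, hDw⟩ := hLFD K f L hc hA g U hU
  have hDw' : ∀ z : A, Order.coheight z = 1 →
      weil D z = @ite ℤ (z ∈ U) (Classical.propDecidable _) 0 1 := fun z hz => by
    rw [hDw z hz]
  have hDη : D (genericPoint A) = 1 := hDU _ (genericPoint_mem_of_isGoodOpen L hU)
  have hsymm : LinEquiv (pull (negHom L) D) D :=
    linEquiv_neg hCOH hPULLC hWEILINJ hWEILET L hNor hU D hD hDU hDw'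
  have hn0 : 0 < n := Nat.pos_of_ne_zero fun h => hn (by rw [h]; simp)
  obtain ⟨k, hk, H, hH0, hH⟩ := hCORE K f L hc hA g D hD hsymm n hn0
  refine ⟨k, hk, H, hH0, fun z hz => ?_⟩
  haveI : Etale (L.schemeNsmul n) := hET K f L hAV n hn
  haveI : IsFinite (L.schemeNsmul n) := hFIN K f L hAV n hn
  haveI : Surjective (L.schemeNsmul n) := hSURJ K f L hAV n hn
  have hdom : T.IsDom (L.schemeNsmul n) := T.H52.isDom_of_surjective _
  have hpc : IsCartier (pull (L.schemeNsmul n) D) := hPULLC _ D hD
  have hE : IsCartier (pull (L.schemeNsmul n) D / D ^ (n ^ 2)) :=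
    isCartier_div hpc (isCartier_pow hD _)
  have h1 := (hWEILPR hNor _ (isCartier_pow hE k) H hH0).1 hH z hz
  have hz' : Order.coheight ((L.schemeNsmul n) z) = 1 := (hCOH (L.schemeNsmul n) hdom z).1 hz
  rw [← h1, weil_pow hE, weil_div hpc (isCartier_pow hD _), weil_pow hD,
    hWEILET (L.schemeNsmul n) hdom hNor hNor D hD hDη z hz, hDw' z hz, hDw' _ hz']
  have hiff : z ∈ (L.schemeNsmul n) ⁻¹ᵁ U ↔ (L.schemeNsmul n) z ∈ U := Iff.rfl
  by_cases hzV : z ∈ (L.schemeNsmul n) ⁻¹ᵁ U <;> by_cases hzU : z ∈ U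
  · rw [if_pos hzV, if_pos hzU, if_pos (hiff.1 hzV)]
    push_cast
    ring
  · rw [if_pos hzV, if_neg hzU, if_pos (hiff.1 hzV)]
    push_cast
    ring
  · rw [if_neg hzV, if_pos hzU, if_neg (fun h => hzV (hiff.2 h))]
    push_cast
    ring
  · rw [if_neg hzV, if_neg hzU, if_neg (fun h => hzV (hiff.2 h))]
    push_cast
    ring

end Asm

end Fermat.Agent.S26.C.H83
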