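import Fermat.Agent.S26.C.H29_ConstPlaces

/-!
# S26 (C), PRIG cut (CV) (helper86): the values at the constant place

`constPlace_value` : at the constant place `ext.place Qo` of `FΩ / Ω` over a place `Qo` of
`F / K` (degree one), every `z ∈ O_{Qo}` is regular and has the value `z(Qo) ∈ K ⊆ Ω`.
-/

set_option autoImplicit false

universe uK uF uO uFO

noncomputable section

open AlgebraicCurve IntermediateField

namespace Fermat.Agent.S26.C.H86cv

open Fermat.Agent.S27.REDu Fermat.Agent.S27.REDu.H34 Fermat.Agent.S27.REDu.H34.RedSetting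
  Fermat.Agent.S27.REDu.H51 Fermat.Agent.S27.REDu.H10 Fermat.Agent.S27.REDu.H17
  Fermat.Agent.S26.C.H6

variable {K : Type uK} {F : Type uF} {Ω : Type uO} {FΩ : Type uFO}
  [Field K] [Field F] [Algebra K F] [Field Ω] [Field FΩ] [Algebra Ω FΩ]
  [Algebra K Ω] [Algebra F FΩ] [Algebra K FΩ] [IsScalarTower K F FΩ] [IsScalarTower K Ω FΩ]

/-- **(CV)**: the value of `ι z` at the constant place over `Qo` is `z(Qo)`. -/
theorem constPlace_value [IsAlgClosed K] (ext : H86.ConstExt (Ω := Ω) (H29.psi K F FΩ)) (Qo : Place K F)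
    (hQo : Qo.deg = 1) (hPo : (ext.place Qo).deg = 1) (z : ↥Qo.toValuationSubring) :
    ∃ h : algebraMap F FΩ (z : F) ∈ (ext.place Qo).toValuationSubring,
      valHom (ext.place Qo) hPo ⟨algebraMap F FΩ (z : F), h⟩ =
        algebraMap K Ω (valHom Qo hQo z) := by
  have h1 := ordGe_sub_valHom Qo hQo z
  have h2 : VanAt Qo ((z : F) - algebraMap K F (valHom Qo hQo z)) :=
    (ordGe_one_iff_vanAt Qo _).mp h1
  have h3 := ((ext.place_liesOver Qo) _).2 h2
  have h4 : H29.psi K F FΩ ((z : F) - algebraMap K F (valHom Qo hQo z)) =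
      algebraMap F FΩ (z : F) - algebraMap Ω FΩ (algebraMap K Ω (valHom Qo hQo z)) := by
    rw [map_sub, AlgHom.commutes, IsScalarTower.algebraMap_apply K Ω FΩ]
    rfl
  rw [h4] at h3
  have h5 : OrdGe (ext.place Qo) 1
      (algebraMap F FΩ (z : F) - algebraMap Ω FΩ (algebraMap K Ω (valHom Qo hQo z))) :=
    (ordGe_one_iff_vanAt _ _).mpr h3
  have hm := mem_of_ordGe_one_sub (ext.place Qo) h5
  exact ⟨hm, valHom_eq_of_ordGe (ext.place Qo) hPo ⟨_, hm⟩ h5⟩

end Fermat.Agent.S26.C.H86cv
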