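import Mathlib

/-!
# S26 (C), cube side, leaf DOM (helper8): the algebraic core (Mathlib only)

* `isAlgebraic_of_unramified` : a field `F` which is formally unramified and essentially of finite
  type over a subdomain `Q` is algebraic over `Q`;
* `formallyUnramified_adjoin_of_cotangent` : a local `K`-algebra `S` with residue field `K`,
  essentially of finite type, whose maximal ideal is generated modulo its square by `u₁..u_g`, is
  formally unramified over `K[u₁..u_g]`;
* `isTranscendenceBasis_of_cotangent` : if moreover `S` is a domain of transcendence degree `≥ g`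
  then `u₁..u_g` is a transcendence basis of `S` over `K` (so `Frac S` is algebraic over `K(u)`).

Use: `S` = the local ring of a product of `g` curves at the base point, `u_j` = the images of the
coordinates of an étale chart of the abelian variety under the sum map; the cotangent hypothesis is
the additivity of the group law modulo a square-zero ideal.
-/

set_option autoImplicit false
set_option linter.style.haveILetI false

universe u

namespace Fermat.Agent.S26.C.H8

open IsLocalRing

/-- A field which is formally unramified and essentially of finite type over a subdomain is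
algebraic over it. -/
theorem isAlgebraic_of_unramified (Q F : Type u) [CommRing Q] [IsDomain Q] [Field F]
    [Algebra Q F] [Algebra.FormallyUnramified Q F] [Algebra.EssFiniteType Q F]
    (hinj : Function.Injective (algebraMap Q F)) : Algebra.IsAlgebraic Q F := by
  letI : Algebra (FractionRing Q) F := (IsFractionRing.lift hinj).toAlgebra
  haveI : IsScalarTower Q (FractionRing Q) F :=
    IsScalarTower.of_algebraMap_eq (fun x => (IsFractionRing.lift_algebraMap hinj x).symm)
  haveI : Algebra.FormallyUnramified (FractionRing Q) F :=
    Algebra.FormallyUnramified.of_restrictScalars Q (FractionRing Q) F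
  haveI : Algebra.EssFiniteType (FractionRing Q) F :=
    Algebra.EssFiniteType.of_comp Q (FractionRing Q) F
  haveI : Algebra.IsSeparable (FractionRing Q) F :=
    Algebra.FormallyUnramified.isSeparable (FractionRing Q) F
  haveI : Algebra.IsAlgebraic (FractionRing Q) F := Algebra.IsSeparable.isAlgebraic _ _
  haveI : Algebra.IsAlgebraic Q (FractionRing Q) :=
    IsLocalization.isAlgebraic (FractionRing Q) (nonZeroDivisors Q)
  exact Algebra.IsAlgebraic.trans Q (FractionRing Q) F

section Cotangent

variable {K S : Type u} [Field K] [CommRing S] [IsLocalRing S] [Algebra K S]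

/-- **UNRAM**: if the maximal ideal of `S` is generated by `u` modulo its square and the residue
field is `K`, then `Ω[S⁄K[u]] = 0`. -/
theorem formallyUnramified_adjoin_of_cotangent [Algebra.EssFiniteType K S]
    (hres : ∀ s : S, ∃ c : K, s - algebraMap K S c ∈ maximalIdeal S)
    {ι : Type*} (u : ι → S) (hu : ∀ i, u i ∈ maximalIdeal S)
    (hgen : ∀ m ∈ maximalIdeal S, m ∈ Ideal.span (Set.range u) ⊔ maximalIdeal S ^ 2) :
    Algebra.FormallyUnramified (Algebra.adjoin K (Set.range u)) S := by
  set Q := Algebra.adjoin K (Set.range u) with hQ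
  haveI : Algebra.EssFiniteType Q S := Algebra.EssFiniteType.of_comp K Q S
  refine ⟨?_⟩
  -- every differential lies in `m • Ω`
  have hD0 : ∀ q : Q, KaehlerDifferential.D Q S (algebraMap Q S q) = 0 := fun q =>
    (KaehlerDifferential.D Q S).map_algebraMap q
  have hu0 : ∀ i, KaehlerDifferential.D Q S (u i) = 0 := fun i =>
    hD0 ⟨u i, Algebra.subset_adjoin ⟨i, rfl⟩⟩
  have hc0 : ∀ c : K, KaehlerDifferential.D Q S (algebraMap K S c) = 0 := fun c => by
    have := hD0 (algebraMap K Q c)
    rwa [← IsScalarTower.algebraMap_apply K Q S] at this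
  have hsq : ∀ m ∈ maximalIdeal S ^ 2,
      KaehlerDifferential.D Q S m ∈ (maximalIdeal S) • (⊤ : Submodule S (Ω[S⁄Q])) := by
    intro m hm
    rw [pow_two] at hm
    refine Submodule.mul_induction_on hm ?_ ?_
    · intro a ha b hb
      rw [Derivation.leibniz]
      exact Submodule.add_mem _ (Submodule.smul_mem_smul ha Submodule.mem_top)
        (Submodule.smul_mem_smul hb Submodule.mem_top)
    · intro a b ha hb
      rw [map_add]
      exact Submodule.add_mem _ ha hb
  have hspan : ∀ m ∈ Ideal.span (Set.range u),
      KaehlerDifferential.D Q S m ∈ (maximalIdeal S) • (⊤ : Submodule S (Ω[S⁄Q])) := by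
    intro m hm
    refine Submodule.span_induction ?_ ?_ ?_ ?_ hm
    · rintro _ ⟨i, rfl⟩
      rw [hu0 i]
      exact Submodule.zero_mem _
    · rw [map_zero]
      exact Submodule.zero_mem _
    · intro a b _ _ ha hb
      rw [map_add]
      exact Submodule.add_mem _ ha hb
    · intro a b hb hDb
      rw [smul_eq_mul, Derivation.leibniz]
      refine Submodule.add_mem _ ?_ ?_
      · exact Submodule.smul_mem _ a hDb
      · have hbm : b ∈ maximalIdeal S := by
          refine Ideal.span_le.mpr ?_ hb
          rintro _ ⟨i, rfl⟩
          exact hu i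
        exact Submodule.smul_mem_smul hbm Submodule.mem_top
  have hall : ∀ s : S,
      KaehlerDifferential.D Q S s ∈ (maximalIdeal S) • (⊤ : Submodule S (Ω[S⁄Q])) := by
    intro s
    obtain ⟨c, hc⟩ := hres s
    have hs : s = algebraMap K S c + (s - algebraMap K S c) := by ring
    obtain ⟨a, ha, b, hb, hab⟩ := Submodule.mem_sup.mp (hgen _ hc)
    rw [hs, map_add, hc0, zero_add, ← hab, map_add]
    exact Submodule.add_mem _ (hspan a ha) (hsq b hb)
  have htop : (⊤ : Submodule S (Ω[S⁄Q])) ≤ (maximalIdeal S) • (⊤ : Submodule S (Ω[S⁄Q])) := by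
    have h1 : Submodule.span S (Set.range (KaehlerDifferential.D Q S)) ≤
        (maximalIdeal S) • (⊤ : Submodule S (Ω[S⁄Q])) := by
      rw [Submodule.span_le]
      rintro _ ⟨s, rfl⟩
      exact hall s
    rwa [KaehlerDifferential.span_range_derivation] at h1
  have hfg : (⊤ : Submodule S (Ω[S⁄Q])).FG := Module.Finite.fg_top
  have hbot := Submodule.eq_bot_of_le_smul_of_le_jacobson_bot (maximalIdeal S) _ hfg htop
    (IsLocalRing.maximalIdeal_le_jacobson _)
  exact (Submodule.subsingleton_iff S).mp (subsingleton_of_bot_eq_top hbot.symm)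

/-- **DOM-ALG**: if moreover `S` is a domain with `g ≤ trdeg_K S`, then `u₁..u_g` is a
transcendence basis of `S` over `K`. -/
theorem isTranscendenceBasis_of_cotangent [IsDomain S] [Algebra.EssFiniteType K S]
    (hres : ∀ s : S, ∃ c : K, s - algebraMap K S c ∈ maximalIdeal S)
    {g : ℕ} (u : Fin g → S) (hu : ∀ i, u i ∈ maximalIdeal S)
    (hgen : ∀ m ∈ maximalIdeal S, m ∈ Ideal.span (Set.range u) ⊔ maximalIdeal S ^ 2)
    (hle : (g : Cardinal.{u}) ≤ Algebra.trdeg K S) : IsTranscendenceBasis K u := by
  haveI hunr := formallyUnramified_adjoin_of_cotangent hres u hu hgen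
  haveI : Algebra.FormallyUnramified S (FractionRing S) :=
    Algebra.FormallyUnramified.of_isLocalization (nonZeroDivisors S)
  haveI : Algebra.FormallyUnramified (Algebra.adjoin K (Set.range u)) (FractionRing S) :=
    Algebra.FormallyUnramified.comp _ S _
  haveI : Algebra.EssFiniteType (Algebra.adjoin K (Set.range u)) S :=
    Algebra.EssFiniteType.of_comp K _ S
  haveI : Algebra.EssFiniteType S (FractionRing S) :=
    Algebra.EssFiniteType.of_isLocalization (FractionRing S) (nonZeroDivisors S)
  haveI : Algebra.EssFiniteType (Algebra.adjoin K (Set.range u)) (FractionRing S) :=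
    Algebra.EssFiniteType.comp _ S _
  have hinj : Function.Injective
      (algebraMap (Algebra.adjoin K (Set.range u)) (FractionRing S)) :=
    (IsFractionRing.injective S (FractionRing S)).comp Subtype.val_injective
  haveI halgF : Algebra.IsAlgebraic (Algebra.adjoin K (Set.range u)) (FractionRing S) :=
    isAlgebraic_of_unramified _ _ hinj
  haveI halgS : Algebra.IsAlgebraic (Algebra.adjoin K (Set.range u)) S := by
    refine ⟨fun s => ?_⟩
    have h := halgF.isAlgebraic (algebraMap S (FractionRing S) s)
    exact (isAlgebraic_algebraMap_iff (IsFractionRing.injective S (FractionRing S))).mp h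
  haveI : FaithfulSMul K S := (faithfulSMul_iff_algebraMap_injective K S).mpr
    (algebraMap K S).injective
  refine Algebra.IsAlgebraic.isTranscendenceBasis_of_lift_le_trdeg_of_finite K u ?_
  simpa using hle

end Cotangent

section Dominant

variable {K R S : Type u} [Field K] [CommRing R] [IsDomain R] [Algebra K R]
  [CommRing S] [IsDomain S] [IsLocalRing S] [Algebra K S]

omit [IsDomain S] [IsLocalRing S] in
/-- A homomorphism which is injective on a subalgebra over which the source is algebraic is
injective. -/
theorem injective_of_injOn_adjoin (φ : R →ₐ[K] S) {ι : Type*} (c : ι → R)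
    [Algebra.IsAlgebraic (Algebra.adjoin K (Set.range c)) R]
    (hind : AlgebraicIndependent K (fun i => φ (c i))) : Function.Injective φ := by
  rw [injective_iff_map_eq_zero]
  intro x hx
  by_contra hne
  have hmem : x ∈ RingHom.ker φ.toRingHom := hx
  have hcomap := Ideal.comap_ne_bot_of_algebraic_mem (R := Algebra.adjoin K (Set.range c))
    hne hmem (Algebra.IsAlgebraic.isAlgebraic x)
  obtain ⟨q, hq, hq0⟩ := Submodule.exists_mem_ne_zero_of_ne_bot hcomap
  have hφq : φ (q : R) = 0 := hq
  -- `q` is a polynomial in the `c i`
  have hqa : ∀ y : R, y ∈ Algebra.adjoin K (Set.range c) →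
      ∃ p : MvPolynomial ι K, MvPolynomial.aeval c p = y := by
    intro y hy
    rw [Algebra.adjoin_range_eq_range_aeval] at hy
    exact hy
  obtain ⟨p, hp⟩ := hqa (q : R) q.2
  have h1 : MvPolynomial.aeval (fun i => φ (c i)) p = 0 := by
    have h2 : MvPolynomial.aeval (fun i => φ (c i)) p = φ (MvPolynomial.aeval c p) :=
      (MvPolynomial.comp_aeval_apply (f := c) φ p).symm
    rw [h2]
    have h3 : MvPolynomial.aeval c p = (q : R) := hp
    rw [h3, hφq]
  have hp0 : p = 0 := by
    have := hind
    rw [algebraicIndependent_iff_injective_aeval] at this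
    exact this (by rw [h1, map_zero])
  apply hq0
  ext
  rw [← hp, hp0, map_zero]
  rfl

/-- **DOM**: `R` a domain algebraic over `K[c₁..c_g]` (the coordinates of an étale chart), `S` a
local domain, essentially of finite type over `K`, with residue field `K` and `g ≤ trdeg_K S`,
`φ : R → S` with `φ (c i)` in the maximal ideal, generating it modulo its square.  Then `φ` is
injective and `φ ∘ c` is a transcendence basis of `S` over `K`. -/
theorem injective_of_cotangent [Algebra.EssFiniteType K S]
    (hres : ∀ s : S, ∃ a : K, s - algebraMap K S a ∈ maximalIdeal S)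
    {g : ℕ} (c : Fin g → R) [Algebra.IsAlgebraic (Algebra.adjoin K (Set.range c)) R]
    (φ : R →ₐ[K] S) (hu : ∀ i, φ (c i) ∈ maximalIdeal S)
    (hgen : ∀ m ∈ maximalIdeal S,
      m ∈ Ideal.span (Set.range (fun i => φ (c i))) ⊔ maximalIdeal S ^ 2)
    (hle : (g : Cardinal.{u}) ≤ Algebra.trdeg K S) :
    Function.Injective φ ∧ IsTranscendenceBasis K (fun i => φ (c i)) := by
  have htb := isTranscendenceBasis_of_cotangent hres (fun i => φ (c i)) hu hgen hle
  exact ⟨injective_of_injOn_adjoin φ c htb.1, htb⟩

end Dominant

end Fermat.Agent.S26.C.H8
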