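import Fermat.Agent.S26.C.Defs

/-!
# S26, package (C), language leaves WEILINJ and WEILPR (helper90)

* `stmt_WEILINJ_of : T.Stmt_HART → Stmt_WEILINJ` : on a normal scheme a Cartier divisor with trivial
  Weil divisor is trivial;
* `stmt_WEILPR_of : T.Stmt_HART → Stmt_WEILPR` : `D = div H` iff the Weil divisor of `D` is
  `ord H`.

Both are Hartogs (`T.Stmt_HART`) on a small affine neighbourhood of the point.
Auxiliary: `ord_eq_zero_of_isUnitAt`, `ord_one`, `ord_inv`, `ord_div`.
-/

set_option autoImplicit false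
set_option linter.style.haveILetI false

open CategoryTheory AlgebraicGeometry TopologicalSpace

universe u

namespace Fermat.Agent.S26.C.H90

variable {X : Scheme.{u}} [IsIntegral X] [IsLocallyNoetherian X]

/-- A function which is a unit at `z` has order zero at `z`. -/
theorem ord_eq_zero_of_isUnitAt {z : X} {h : X.functionField} (hu : IsUnitAt z h) :
    Scheme.ord h z = 0 := by
  by_cases hz : Order.coheight z = 1
  · obtain ⟨a, ha, rfl⟩ := hu
    have hne : algebraMap (X.presheaf.stalk z) X.functionField a ≠ 0 := by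
      intro h0
      have hu' : IsUnit (algebraMap (X.presheaf.stalk z) X.functionField a) := ha.map _
      rw [h0] at hu'
      exact not_isUnit_zero hu'
    rw [Scheme.ord_eq_iff hz hne]
    haveI : Ring.KrullDimLE 1 (X.presheaf.stalk z) := krullDimLE_of_coheight_le hz.le
    exact Ring.ordFrac_of_isUnit ha
  · exact Scheme.ord_eq_zero_of_coheight_neq_one hz h

/-- `ord 1 = 0`. -/
theorem ord_one (z : X) : Scheme.ord (1 : X.functionField) z = 0 := by
  have h := Scheme.ord_mul (x := z) (one_ne_zero : (1 : X.functionField) ≠ 0)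
    (one_ne_zero : (1 : X.functionField) ≠ 0)
  rw [one_mul] at h
  omega

/-- `ord h⁻¹ = - ord h`. -/
theorem ord_inv (z : X) {h : X.functionField} (hh : h ≠ 0) :
    Scheme.ord h⁻¹ z = - Scheme.ord h z := by
  have h1 := Scheme.ord_mul (x := z) hh (inv_ne_zero hh)
  rw [mul_inv_cancel₀ hh, ord_one] at h1
  omega

/-- `ord (a / b) = ord a - ord b`. -/
theorem ord_div (z : X) {a b : X.functionField} (ha : a ≠ 0) (hb : b ≠ 0) :
    Scheme.ord (a / b) z = Scheme.ord a z - Scheme.ord b z := by
  rw [div_eq_mul_inv, Scheme.ord_mul ha (inv_ne_zero hb), ord_inv z hb]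
  ring

/-- A function of order zero at all points of codimension one of an affine open `U` (normal
scheme) is a unit at every point of `U`. -/
theorem isUnitAt_of_ord_eq_zero (hH : T.Stmt_HART.{u}) (hnor : T.IsNor X)
    (U : X.Opens) (hU : IsAffineOpen U) {x : X} (hxU : x ∈ U) {h : X.functionField} (hh : h ≠ 0)
    (hord : ∀ z : X, Order.coheight z = 1 → z ∈ U → Scheme.ord h z = 0) : IsUnitAt x h := by
  haveI : Nonempty U := ⟨⟨x, hxU⟩⟩
  obtain ⟨s, hs⟩ := hH hnor U hU h (fun z hz hzU => (hord z hz hzU).ge)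
  obtain ⟨s', hs'⟩ := hH hnor U hU h⁻¹ (fun z hz hzU => by
    rw [ord_inv z hh, hord z hz hzU]; simp)
  have hss : s * s' = 1 := by
    apply X.germToFunctionField_injective U
    rw [map_mul, hs, hs', map_one, mul_inv_cancel₀ hh]
  refine ⟨X.presheaf.germ U x hxU s, (IsUnit.of_mul_eq_one _ hss).map _, ?_⟩
  rw [Scheme.algebraMap_germ_eq_germToFunctionField (X := X) hxU s]
  exact hs

/-- **WEILINJ** from Hartogs. -/
theorem stmt_WEILINJ_of (hH : T.Stmt_HART.{u}) : Stmt_WEILINJ.{u} := by
  intro X _ _ hnor D hD hw x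
  obtain ⟨W, hxW, hW⟩ := hD.2 x
  obtain ⟨_, ⟨U, hU : IsAffineOpen U, rfl⟩, hxU, hUW⟩ :=
    X.isBasis_affineOpens.exists_subset_of_mem_open hxW W.isOpen
  have key : ∀ z : X, Order.coheight z = 1 → z ∈ U → Scheme.ord (D x) z = 0 := by
    intro z hz hzU
    have h1 : Scheme.ord (D x / D z) z = 0 := ord_eq_zero_of_isUnitAt (hW z (hUW hzU))
    have h2 : Scheme.ord (D z) z = 0 := hw z hz
    rw [ord_div z (hD.1 x) (hD.1 z), h2] at h1
    omega
  have := isUnitAt_of_ord_eq_zero hH hnor U hU hxU (hD.1 x) key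
  simpa using this

/-- **WEILPR** from Hartogs. -/
theorem stmt_WEILPR_of (hH : T.Stmt_HART.{u}) : Stmt_WEILPR.{u} := by
  intro X _ _ hnor D hD H hH0
  constructor
  · intro hu z hz
    have h1 : Scheme.ord (D z / H) z = 0 := ord_eq_zero_of_isUnitAt (hu z)
    rw [ord_div z (hD.1 z) hH0] at h1
    change Scheme.ord (D z) z = Scheme.ord H z
    omega
  · intro hw x
    have hD' : IsCartier (fun y => D y / H) := by
      refine ⟨fun y => div_ne_zero (hD.1 y) hH0, fun y => ?_⟩
      obtain ⟨W, hyW, hW⟩ := hD.2 y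
      refine ⟨W, hyW, fun y' hy' => ?_⟩
      have : D y / H / (D y' / H) = D y / D y' := by
        field_simp
      rw [this]
      exact hW y' hy'
    have hw' : ∀ z : X, Order.coheight z = 1 → weil (fun y => D y / H) z = 0 := by
      intro z hz
      change Scheme.ord (D z / H) z = 0
      rw [ord_div z (hD.1 z) hH0]
      have := hw z hz
      change Scheme.ord (D z) z = Scheme.ord H z at this
      omega
    have := stmt_WEILINJ_of hH hnor (fun y => D y / H) hD' hw' x
    simpa using this

end Fermat.Agent.S26.C.H90
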